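import Mathlib

/-!
# S13 package (L): linear algebra over `ZMod p` used by the assembly
-/

set_option autoImplicit false

open Module

namespace Fermat.Agent.S13L

section linalg

variable {p : ℕ} [Fact p.Prime] {V : Type*} [AddCommGroup V] [Module (ZMod p) V]

/-- a space of order `≤ p²` with a proper nonzero subspace `N0`: `N0` and `V/N0` are lines. -/
theorem asm_line_props [Finite V] (hcard : Nat.card V ≤ p ^ 2) (N0 : Submodule (ZMod p) V)
    (hbot : N0 ≠ ⊥) (htop : N0 ≠ ⊤) :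
    (∀ x ∈ N0, x ≠ 0 → ∀ y ∈ N0, ∃ c : ZMod p, y = c • x) ∧
    (∀ y, y ∉ N0 → ∀ w : V, ∃ c : ZMod p, w - c • y ∈ N0) := by
  classical
  have : Fintype V := Fintype.ofFinite V
  have hp : p.Prime := Fact.out
  have hV : Fintype.card V = p ^ finrank (ZMod p) V := by
    have := Module.card_eq_pow_finrank (K := ZMod p) (V := V)
    rwa [ZMod.card] at this
  have hd : finrank (ZMod p) V ≤ 2 := by
    have h1 : p ^ finrank (ZMod p) V ≤ p ^ 2 := by
      rw [← hV, ← Nat.card_eq_fintype_card]; exact hcard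
    exact (Nat.pow_le_pow_iff_right hp.one_lt).1 h1
  have hlt : finrank (ZMod p) N0 < finrank (ZMod p) V := Submodule.finrank_lt htop
  have hpos : 0 < finrank (ZMod p) N0 := by
    rw [Module.finrank_pos_iff]
    exact (Submodule.nontrivial_iff_ne_bot).2 hbot
  have hN : finrank (ZMod p) N0 = 1 := by omega
  have hVd : finrank (ZMod p) V = 2 := by omega
  have hQ : finrank (ZMod p) (V ⧸ N0) = 1 := by
    have := N0.finrank_quotient_add_finrank
    omega
  refine ⟨?_, ?_⟩
  · intro x hx hx0 y hy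
    have hx' : (⟨x, hx⟩ : N0) ≠ 0 := fun h => hx0 (congrArg Subtype.val h)
    obtain ⟨c, hc⟩ := (finrank_eq_one_iff_of_nonzero' (⟨x, hx⟩ : N0) hx').1 hN ⟨y, hy⟩
    exact ⟨c, (congrArg Subtype.val hc).symm⟩
  · intro y hy w
    have hy' : (Submodule.Quotient.mk y : V ⧸ N0) ≠ 0 := by
      rwa [Ne, Submodule.Quotient.mk_eq_zero]
    obtain ⟨c, hc⟩ := (finrank_eq_one_iff_of_nonzero' (Submodule.Quotient.mk y : V ⧸ N0) hy').1 hQ
      (Submodule.Quotient.mk w)
    refine ⟨c, ?_⟩
    rw [← Submodule.Quotient.mk_eq_zero, Submodule.Quotient.mk_sub, Submodule.Quotient.mk_smul, hc,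
      sub_self]

/-- a unipotent endomorphism preserving a line `N0` fixes `N0` pointwise. -/
theorem asm_unip_fix (N0 : Submodule (ZMod p) V)
    (hline : ∀ x ∈ N0, x ≠ 0 → ∀ y ∈ N0, ∃ c : ZMod p, y = c • x)
    (f : V →ₗ[ZMod p] V) (hst : ∀ x ∈ N0, f x ∈ N0) (hu : ∀ x, f (f x - x) = f x - x) :
    ∀ x ∈ N0, f x = x := by
  intro x hx
  by_cases hx0 : x = 0
  · rw [hx0, map_zero]
  obtain ⟨c, hc⟩ := hline x hx hx0 (f x) (hst x hx)
  have h1 := hu x
  rw [hc] at h1
  have h2 : ((c - 1) * (c - 1)) • x = 0 := by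
    have e1 : c • x - x = (c - 1) • x := by rw [sub_smul, one_smul]
    rw [e1, map_smul, hc, smul_smul] at h1
    have : ((c - 1) * c) • x - (c - 1) • x = 0 := sub_eq_zero.2 h1
    rw [← sub_smul] at this
    have e2 : (c - 1) * c - (c - 1) = (c - 1) * (c - 1) := by ring
    rwa [e2] at this
  have h3 : (c - 1) * (c - 1) = 0 := by
    by_contra hne
    exact hx0 ((smul_eq_zero.1 h2).resolve_left hne)
  have h4 : c = 1 := by
    have := mul_self_eq_zero.1 h3
    exact sub_eq_zero.1 this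
  rw [hc, h4, one_smul]

/-- a unipotent endomorphism preserving a line `N0` with `V/N0` a line acts trivially on `V/N0`. -/
theorem asm_unip_quot (N0 : Submodule (ZMod p) V) (htop : N0 ≠ ⊤)
    (hline : ∀ x ∈ N0, x ≠ 0 → ∀ y ∈ N0, ∃ c : ZMod p, y = c • x)
    (hquot : ∀ y, y ∉ N0 → ∀ w : V, ∃ c : ZMod p, w - c • y ∈ N0)
    (f : V →ₗ[ZMod p] V) (hst : ∀ x ∈ N0, f x ∈ N0) (hu : ∀ x, f (f x - x) = f x - x) :
    ∀ w : V, f w - w ∈ N0 := by
  have hfix := asm_unip_fix N0 hline f hst hu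
  obtain ⟨y, hy⟩ : ∃ y, y ∉ N0 := by
    by_contra hcon
    push Not at hcon
    exact htop (eq_top_iff.2 fun x _ => hcon x)
  -- `f y = c • y + n`
  obtain ⟨c, hc⟩ := hquot y hy (f y)
  set n : V := f y - c • y with hn
  have hfy : f y = c • y + n := by rw [hn]; abel
  have hfn : f n = n := hfix n hc
  have h1 := hu y
  have e1 : f y - y = (c - 1) • y + n := by rw [hfy, sub_smul, one_smul]; abel
  rw [e1, map_add, map_smul, hfn, hfy] at h1
  -- `(c-1) • (c • y + n) + n = (c-1) • y + n`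
  have h2 : ((c - 1) * (c - 1)) • y = -((c - 1) • n) := by
    have h3 : (c - 1) • (c • y + n) = (c - 1) • y := add_right_cancel h1
    rw [smul_add, smul_smul] at h3
    have e2 : ((c - 1) * (c - 1)) • y = ((c - 1) * c) • y - (c - 1) • y := by
      rw [← sub_smul]; congr 1; ring
    rw [e2, eq_neg_iff_add_eq_zero, sub_add_eq_add_sub, sub_eq_zero]
    exact h3
  have h4 : (c - 1) * (c - 1) = 0 := by
    by_contra hne
    apply hy
    have h5 : ((c - 1) * (c - 1)) • y ∈ N0 := by
      rw [h2]; exact N0.neg_mem (N0.smul_mem _ hc)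
    have h6 := N0.smul_mem ((c - 1) * (c - 1))⁻¹ h5
    rwa [smul_smul, inv_mul_cancel₀ hne, one_smul] at h6
  have h7 : c = 1 := sub_eq_zero.1 (mul_self_eq_zero.1 h4)
  have hy1 : f y - y = n := by rw [e1, h7, sub_self, zero_smul, zero_add]
  intro w
  obtain ⟨c', hc'⟩ := hquot y hy w
  set n' : V := w - c' • y with hn'
  have hw : w = c' • y + n' := by rw [hn']; abel
  have hfn' : f n' = n' := hfix n' hc'
  have : f w - w = c' • n := by
    rw [hw, map_add, map_smul, hfn']
    have : c' • f y + n' - (c' • y + n') = c' • (f y - y) := by rw [smul_sub]; abel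
    rw [this, hy1]
  rw [this]
  exact N0.smul_mem _ hc

end linalg

end Fermat.Agent.S13L
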