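import Mathlib
import Fermat.Agent.S05L.Abstract

/-!
# S13 package (P), leaf: inertia at `p` moves `p`-torsion points only inside `E₁`

Same hypotheses as `S05L.LegModel.unramified` except that `v p = 1` is dropped; the conclusion
is then only `φ P - P ∈ E₁` (the kernel of reduction may contain `p`-torsion when `v p < 1`).
-/

set_option autoImplicit false

namespace Fermat.Agent.S13L

/-- for `σ` inertial and `P` killed by `p`: `φ P - P ∈ E₁` (good reduction, or multiplicative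
reduction with `β` a `p`-th power of a `σ`-fixed element). -/
theorem atp_inert_sub_inE1 {L : Type*} [Field L] {Γ₀ : Type*}
    [LinearOrderedCommGroupWithZero Γ₀] (v : Valuation L Γ₀) {α β : L} {E : Type*}
    [AddCommGroup E] (M : S05L.LegModel L α β E) {σ : L →+* L} (Φ : S05L.LegAut M σ) {p : ℕ}
    (hp : p.Prime) (hp2 : p ≠ 2) (h2 : v 2 = 1) (hα : v α = 1) (hαβ : v (α + β) = 1)
    (hβ0 : β ≠ 0) (hβ : v β = 1 ∨ (v β < 1 ∧ ∃ b : L, σ b = b ∧ β = b ^ p))
    (hs : ∃ s : L, s ^ 2 = -α) (hσv : ∀ x : L, v (σ x) ≤ 1 ↔ v x ≤ 1)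
    (hσm : ∀ x : L, v x ≤ 1 → v (σ x - x) < 1) (P : E) (hP : p • P = 0) :
    S05L.InE1 M v (Φ.φ P - P) := by
  obtain ⟨s, hs⟩ := hs
  have hσ : ∀ x : L, v x ≤ 1 ↔ v (σ x) ≤ 1 := fun x => (hσv x).symm
  have h20 : (2 : L) ≠ 0 := fun e => by rw [e, map_zero] at h2; exact zero_ne_one h2
  rcases hβ with hβ | ⟨hβ, b, hσb, hb⟩
  · -- good reduction
    by_cases hP0 : P = 0
    · left
      rw [hP0, map_zero, sub_zero]
    have hQ : Φ.φ P ≠ 0 := Φ.ne_zero P hP0
    by_cases hX : v (M.X P) ≤ 1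
    · have hXd : v (M.X (Φ.φ P) - M.X P) < 1 := by
        rw [Φ.X_φ P hP0]
        exact hσm _ hX
      have hYd : v (M.Y (Φ.φ P) - M.Y P) < 1 := by
        rw [Φ.Y_φ P hP0]
        exact hσm _ (S05L.v_Y_le_one M v hα.le hβ.le hP0 hX)
      exact S05L.congr_sub_inE1 M v h2 hα.le hβ.le hP0 hQ hX hXd hYd
        (S05L.nonsing_of_good M v hα hβ hαβ hP0 hX)
    · have h1 : S05L.InE1 M v P := Or.inr (not_le.mp hX)
      have h1' : S05L.InE1 M v (Φ.φ P) := by
        right
        rw [Φ.X_φ P hP0]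
        exact not_le.mp fun hc => hX ((hσv _).mp hc)
      exact S05L.inE1_sub M v hα.le hβ.le h20 h1' h1
  · -- multiplicative reduction
    have hb0 : b ≠ 0 := by
      rintro rfl
      rw [zero_pow hp.ne_zero] at hb
      exact hβ0 hb
    rcases S05L.type_cases M v P with h | h | h
    · exact S05L.φ_sub_inE1_of_inE0 M v hα hβ h2 s hs σ hσ hσm Φ h
    · obtain ⟨k, u, hu, hX⟩ :=
        S05L.exists_unit_of_near_torsion M v hα hβ h2 s hs σ hσ hσm hβ0 p hp b hb h hP
      have hc : σ (b ^ (2 * k)) = b ^ (2 * k) := by rw [map_zpow₀, hσb]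
      have hdiv := S05L.v_σ_div_sub_one v hα hβ h2 s hs σ hσ hσm hX hc (zpow_ne_zero _ hb0) hu
      rcases S05L.isNear_sign M v hα hβ h2 s hs h with h' | h'
      · exact S05L.φ_sub_inE1_of_nearP M v hα hβ h2 s hs σ hσ hσm Φ h' hdiv
      · exact S05L.φ_sub_inE1_of_nearM M v hα hβ h2 s hs σ hσ hσm Φ h' hdiv
    · have hT : P ≠ M.T0 := by
        rintro rfl
        have h2T : (2 : ℕ) • M.T0 = 0 := by
          rw [two_nsmul]
          exact M.T0_add_T0
        obtain ⟨m, hm⟩ := hp.eq_two_or_odd'.resolve_left hp2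
        have h3 : p • M.T0 = M.T0 := by
          rw [hm, add_nsmul, one_nsmul, mul_nsmul, h2T, smul_zero, zero_add]
        rw [hP] at h3
        exact M.T0_ne_zero h3.symm
      exact S05L.φ_sub_inE1_of_far M v hα hβ h2 s hs σ hσ hσm Φ hβ0 h hT

end Fermat.Agent.S13L
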