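import Mathlib
import Fermat.Agent.S05L.Frey

/-!
# S13 package (P), leaf: integral Legendre parameters of the Frey curve adapted to the prime `p`

`(e, α, β) = (0, a^p, b^p)`, `(0, -b^p, -a^p)` or `(a^p, -a^p, c^p)` according to which of
`a, b, c` is divisible by `p` (first shape if none is): then `p ∤ α`, `p ∤ α + β`, and either
`p ∤ β` or `β` is the `p`-th power of an integer.
-/

set_option autoImplicit false

open WeierstrassCurve WeierstrassCurve.Affine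

namespace Fermat.Agent.S13L

theorem atp_exists_param (P : FreyPackage) (K : Type*) [Field K] [CharZero K] [Algebra ℚ K] :
    ∃ e α β : ℤ, S05L.IsLeg (P.freyCurve⁄K) (e : K) (α : K) (β : K) ∧
      ¬ (P.p : ℤ) ∣ α ∧ ¬ (P.p : ℤ) ∣ (α + β) ∧ β ≠ 0 ∧
      (¬ (P.p : ℤ) ∣ β ∨ ((P.p : ℤ) ∣ β ∧ ∃ b : ℤ, β = b ^ P.p)) := by
  have hF : (P.a : K) ^ P.p + (P.b : K) ^ P.p = (P.c : K) ^ P.p := by
    exact_mod_cast congrArg (Int.cast : ℤ → K) P.hFLT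
  have ha0 : (P.a : K) ≠ 0 := by exact_mod_cast P.ha0
  have hb0 : (P.b : K) ≠ 0 := by exact_mod_cast P.hb0
  have hc0 : (P.c : K) ≠ 0 := by exact_mod_cast P.hc0
  have hp0 : P.p ≠ 0 := P.hp0
  have hpr : Prime (P.p : ℤ) := Nat.prime_iff_prime_int.1 P.pp
  have unit : ∀ n : ℤ, ¬ (P.p : ℤ) ∣ n → ¬ (P.p : ℤ) ∣ n ^ P.p := fun n hn h =>
    hn (hpr.dvd_of_dvd_pow h)
  have nonunit : ∀ n : ℤ, (P.p : ℤ) ∣ n → (P.p : ℤ) ∣ n ^ P.p := fun n hn =>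
    dvd_pow hn hp0
  by_cases hb : (P.p : ℤ) ∣ P.b
  · have hna : ¬ (P.p : ℤ) ∣ P.a :=
      S05L.not_dvd_of_gcd_eq_one P.pp (by rw [gcd_comm]; exact P.hgcdab) hb
    have hnc : ¬ (P.p : ℤ) ∣ P.c := S05L.not_dvd_of_gcd_eq_one P.pp P.hgcdbc hb
    refine ⟨0, P.a ^ P.p, P.b ^ P.p, S05L.frey_isLeg P ?_ ?_ ?_ ?_, unit _ hna, ?_,
      pow_ne_zero _ P.hb0, Or.inr ⟨nonunit _ hb, P.b, rfl⟩⟩
    · push_cast; ring
    · push_cast; ring
    · push_cast; ring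
    · push_cast; exact mul_ne_zero (pow_ne_zero _ ha0) (pow_ne_zero _ hb0)
    · rw [P.hFLT]; exact unit _ hnc
  by_cases ha : (P.p : ℤ) ∣ P.a
  · have hnc : ¬ (P.p : ℤ) ∣ P.c := S05L.not_dvd_of_gcd_eq_one P.pp P.hgcdac ha
    refine ⟨0, -P.b ^ P.p, -P.a ^ P.p, S05L.frey_isLeg P ?_ ?_ ?_ ?_, ?_, ?_,
      neg_ne_zero.2 (pow_ne_zero _ P.ha0), Or.inr ⟨?_, -P.a, ?_⟩⟩
    · push_cast; ring
    · push_cast; ring
    · push_cast; ring
    · push_cast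
      exact mul_ne_zero (neg_ne_zero.2 (pow_ne_zero _ hb0)) (neg_ne_zero.2 (pow_ne_zero _ ha0))
    · rw [dvd_neg]; exact unit _ hb
    · have h1 : -P.b ^ P.p + -P.a ^ P.p = -(P.c ^ P.p) := by
        rw [← P.hFLT]; ring
      rw [h1, dvd_neg]; exact unit _ hnc
    · rw [dvd_neg]; exact nonunit _ ha
    · rw [Odd.neg_pow P.hp_odd]
  by_cases hc : (P.p : ℤ) ∣ P.c
  · refine ⟨P.a ^ P.p, -P.a ^ P.p, P.c ^ P.p, S05L.frey_isLeg P ?_ ?_ ?_ ?_, ?_, ?_,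
      pow_ne_zero _ P.hc0, Or.inr ⟨nonunit _ hc, P.c, rfl⟩⟩
    · push_cast; rw [← hF]; ring
    · push_cast; rw [← hF]; ring
    · push_cast; ring
    · push_cast
      exact mul_ne_zero (neg_ne_zero.2 (pow_ne_zero _ ha0)) (pow_ne_zero _ hc0)
    · rw [dvd_neg]; exact unit _ ha
    · have h1 : -P.a ^ P.p + P.c ^ P.p = P.b ^ P.p := by
        rw [← P.hFLT]; ring
      rw [h1]; exact unit _ hb
  · refine ⟨0, P.a ^ P.p, P.b ^ P.p, S05L.frey_isLeg P ?_ ?_ ?_ ?_, unit _ ha, ?_,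
      pow_ne_zero _ P.hb0, Or.inl (unit _ hb)⟩
    · push_cast; ring
    · push_cast; ring
    · push_cast; ring
    · push_cast; exact mul_ne_zero (pow_ne_zero _ ha0) (pow_ne_zero _ hb0)
    · rw [P.hFLT]; exact unit _ hc

end Fermat.Agent.S13L
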