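import Mathlib

/-!
# S13 package (P), leaf: a rational number which is not integral at a valuation ring above `p`
has valuation at least `v(p)⁻¹`
-/

set_option autoImplicit false

namespace Fermat.Agent.S13L

/-- integers lie in every valuation ring -/
theorem atp_h178_int_le_one {K : Type*} [Field K] (A : ValuationSubring K) (n : ℤ) :
    A.valuation (n : K) ≤ 1 :=
  (A.valuation_le_one_iff _).2 (intCast_mem A n)

/-- natural numbers lie in every valuation ring -/
theorem atp_h178_nat_le_one {K : Type*} [Field K] (A : ValuationSubring K) (n : ℕ) :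
    A.valuation (n : K) ≤ 1 :=
  (A.valuation_le_one_iff _).2 (natCast_mem A n)

/-- an integer prime to `p` is a unit in a valuation ring above `p` -/
theorem atp_h178_int_eq_one {K : Type*} [Field K] (A : ValuationSubring K) {p : ℕ}
    (hp : p.Prime) (hpA : (p : K) ∈ A.nonunits) {n : ℤ} (hn : ¬ (p : ℤ) ∣ n) :
    A.valuation (n : K) = 1 := by
  by_contra hne
  have hlt : A.valuation (n : K) < 1 := lt_of_le_of_ne (atp_h178_int_le_one A n) hne
  have hpv : A.valuation (p : K) < 1 := (A.mem_nonunits_iff).1 hpA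
  have hcop : IsCoprime n (p : ℤ) :=
    ((Prime.coprime_iff_not_dvd (Nat.prime_iff_prime_int.1 hp)).2 hn).symm
  obtain ⟨u, w, huw⟩ := hcop
  have h1 : A.valuation ((u : K) * (n : K)) < 1 := by
    rw [map_mul]
    calc A.valuation (u : K) * A.valuation (n : K) ≤ 1 * A.valuation (n : K) :=
          mul_le_mul_left (atp_h178_int_le_one A u) _
      _ < 1 := by rwa [one_mul]
  have h2 : A.valuation ((w : K) * (p : K)) < 1 := by
    rw [map_mul]
    calc A.valuation (w : K) * A.valuation (p : K) ≤ 1 * A.valuation (p : K) :=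
          mul_le_mul_left (atp_h178_int_le_one A w) _
      _ < 1 := by rwa [one_mul]
  have h3 : A.valuation ((u : K) * (n : K) + (w : K) * (p : K)) < 1 :=
    Valuation.map_add_lt _ h1 h2
  have e : ((u * n + w * (p : ℤ) : ℤ) : K) = ((1 : ℤ) : K) := congrArg _ huw
  rw [Int.cast_add, Int.cast_mul, Int.cast_mul, Int.cast_natCast, Int.cast_one] at e
  rw [e, map_one] at h3
  exact lt_irrefl _ h3

theorem atp_rat_val {K : Type*} [Field K] [CharZero K] (A : ValuationSubring K) {p : ℕ}
    (hp : p.Prime) (hpA : (p : K) ∈ A.nonunits) (q : ℚ) (hq : 1 < A.valuation (q : K)) :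
    1 ≤ A.valuation (p : K) * A.valuation (q : K) := by
  have hqK : (q : K) = (q.num : K) / (q.den : K) := Rat.cast_def q
  by_cases hpd : p ∣ q.den
  · obtain ⟨d', hd'⟩ := hpd
    have hn : ¬ (p : ℤ) ∣ q.num := by
      intro h
      have h1 : p ∣ q.num.natAbs := Int.natCast_dvd.mp h
      have h2 := Nat.dvd_gcd h1 (Dvd.intro d' hd'.symm)
      rw [q.reduced] at h2
      exact hp.one_lt.ne' (Nat.dvd_one.mp h2)
    have hvn : A.valuation (q.num : K) = 1 := atp_h178_int_eq_one A hp hpA hn
    have hp0 : (p : K) ≠ 0 := Nat.cast_ne_zero.mpr hp.ne_zero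
    have hd'0 : (d' : K) ≠ 0 := by
      rw [Nat.cast_ne_zero]
      rintro rfl
      exact q.den_ne_zero (by rw [hd', mul_zero])
    have e : (p : K) * (q : K) = (q.num : K) / (d' : K) := by
      rw [hqK, hd', Nat.cast_mul, mul_div_assoc', mul_div_mul_left _ _ hp0]
    have hvd' : A.valuation (d' : K) ≤ 1 := atp_h178_nat_le_one A d'
    have hvd'0 : A.valuation (d' : K) ≠ 0 := (map_ne_zero _).mpr hd'0
    rw [← map_mul, e, map_div₀, hvn, one_div]
    exact (one_le_inv₀ (zero_lt_iff.mpr hvd'0)).mpr hvd'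
  · exfalso
    have hnd : ¬ (p : ℤ) ∣ (q.den : ℤ) := fun h => hpd (Int.natCast_dvd_natCast.mp h)
    have hvd : A.valuation (q.den : K) = 1 := by
      have h := atp_h178_int_eq_one A hp hpA hnd
      rw [Int.cast_natCast] at h
      exact h
    rw [hqK, map_div₀, hvd, div_one] at hq
    exact absurd (atp_h178_int_le_one A q.num) (not_le.mpr hq)

end Fermat.Agent.S13L
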