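import Mathlib
import Fermat.Prelude.Def_FLTPrelim_FreyPackage
import Fermat.Prelude.Def_FLTPrelim_GaloisRep
import Fermat.Prelude.Def_FLTPrelim_Ramification
import Fermat.Prelude.Def_FLTPrelim_CofixedLine

/-!
# S13 package: frozen definitions (interface file; do not edit)

* `ladXZ α β n = (X_n, Z_n)`: the Montgomery ladder polynomials of the Legendre curve
  `Y² = X (X - α) (X + β)` over `ℤ`:  `x(nP) = X_n(x(P)) / Z_n(x(P))`.
* `ladL α β k = X_{k+1} Z_k - X_k Z_{k+1}`: a polynomial of degree `2k² + 2k` with leading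
  coefficient `-(2k+1)` whose roots are the `x`-coordinates of the nonzero `(2k+1)`-torsion points.
-/

set_option autoImplicit false

open Polynomial

namespace Fermat.Agent.S13L

/-- the ladder polynomials `(X_n, Z_n)` -/
noncomputable def ladXZ (α β : ℤ) : ℕ → ℤ[X] × ℤ[X]
  | 0 => (1, 0)
  | 1 => (X, 1)
  | (n + 2) =>
    if (n + 2) % 2 = 0 then
      ((((ladXZ α β ((n + 2) / 2)).1) ^ 2 + C (α * β) * ((ladXZ α β ((n + 2) / 2)).2) ^ 2) ^ 2,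
        4 * (ladXZ α β ((n + 2) / 2)).1 * (ladXZ α β ((n + 2) / 2)).2 *
          ((ladXZ α β ((n + 2) / 2)).1 - C α * (ladXZ α β ((n + 2) / 2)).2) *
          ((ladXZ α β ((n + 2) / 2)).1 + C β * (ladXZ α β ((n + 2) / 2)).2))
    else
      (divX (((ladXZ α β ((n + 2) / 2 + 1)).1 * (ladXZ α β ((n + 2) / 2)).1 +
          C (α * β) * (ladXZ α β ((n + 2) / 2 + 1)).2 * (ladXZ α β ((n + 2) / 2)).2) ^ 2),
        ((ladXZ α β ((n + 2) / 2 + 1)).1 * (ladXZ α β ((n + 2) / 2)).2 -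
          (ladXZ α β ((n + 2) / 2)).1 * (ladXZ α β ((n + 2) / 2 + 1)).2) ^ 2)
termination_by n => n
decreasing_by all_goals omega

/-- `X_n` -/
noncomputable def ladX (α β : ℤ) (n : ℕ) : ℤ[X] := (ladXZ α β n).1

/-- `Z_n` -/
noncomputable def ladZ (α β : ℤ) (n : ℕ) : ℤ[X] := (ladXZ α β n).2

/-- `L_{2k+1} = X_{k+1} Z_k - X_k Z_{k+1}` (so that `Z_{2k+1} = L_{2k+1}²`) -/
noncomputable def ladL (α β : ℤ) (k : ℕ) : ℤ[X] :=
  ladX α β (k + 1) * ladZ α β k - ladX α β k * ladZ α β (k + 1)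

theorem ladX_zero (α β : ℤ) : ladX α β 0 = 1 := by
  unfold ladX; rw [ladXZ]

theorem ladZ_zero (α β : ℤ) : ladZ α β 0 = 0 := by
  unfold ladZ; rw [ladXZ]

theorem ladX_one (α β : ℤ) : ladX α β 1 = X := by
  unfold ladX; rw [ladXZ]

theorem ladZ_one (α β : ℤ) : ladZ α β 1 = 1 := by
  unfold ladZ; rw [ladXZ]

theorem ladX_even (α β : ℤ) (k : ℕ) (hk : 1 ≤ k) :
    ladX α β (2 * k) = (ladX α β k ^ 2 + C (α * β) * ladZ α β k ^ 2) ^ 2 := by
  obtain ⟨m, rfl⟩ : ∃ m, k = m + 1 := ⟨k - 1, by omega⟩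
  have e : 2 * (m + 1) = 2 * m + 2 := by ring
  have h1 : (2 * m + 2) % 2 = 0 := by omega
  have h2 : (2 * m + 2) / 2 = m + 1 := by omega
  unfold ladX ladZ
  rw [e, ladXZ, if_pos h1, h2]

theorem ladZ_even (α β : ℤ) (k : ℕ) (hk : 1 ≤ k) :
    ladZ α β (2 * k) = 4 * ladX α β k * ladZ α β k *
      (ladX α β k - C α * ladZ α β k) * (ladX α β k + C β * ladZ α β k) := by
  obtain ⟨m, rfl⟩ : ∃ m, k = m + 1 := ⟨k - 1, by omega⟩
  have e : 2 * (m + 1) = 2 * m + 2 := by ring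
  have h1 : (2 * m + 2) % 2 = 0 := by omega
  have h2 : (2 * m + 2) / 2 = m + 1 := by omega
  unfold ladX ladZ
  rw [e, ladXZ, if_pos h1, h2]

theorem ladX_odd (α β : ℤ) (k : ℕ) (hk : 1 ≤ k) :
    ladX α β (2 * k + 1) = divX ((ladX α β (k + 1) * ladX α β k +
      C (α * β) * ladZ α β (k + 1) * ladZ α β k) ^ 2) := by
  obtain ⟨m, rfl⟩ : ∃ m, k = m + 1 := ⟨k - 1, by omega⟩
  have e : 2 * (m + 1) + 1 = 2 * m + 1 + 2 := by ring
  have h1 : ¬ (2 * m + 1 + 2) % 2 = 0 := by omega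
  have h2 : (2 * m + 1 + 2) / 2 = m + 1 := by omega
  unfold ladX ladZ
  rw [e, ladXZ, if_neg h1, h2]

theorem ladZ_odd (α β : ℤ) (k : ℕ) (hk : 1 ≤ k) :
    ladZ α β (2 * k + 1) = (ladL α β k) ^ 2 := by
  obtain ⟨m, rfl⟩ : ∃ m, k = m + 1 := ⟨k - 1, by omega⟩
  have e : 2 * (m + 1) + 1 = 2 * m + 1 + 2 := by ring
  have h1 : ¬ (2 * m + 1 + 2) % 2 = 0 := by omega
  have h2 : (2 * m + 1 + 2) / 2 = m + 1 := by omega
  unfold ladL ladX ladZ
  rw [e, ladXZ, if_neg h1, h2]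

end Fermat.Agent.S13L
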