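import Mathlib
import Fermat.Agent.S13L.Defs

/-!
# S13 package (M), leaf ZERO: values of the ladder polynomials at `0`, exactness of `divX`
(plan §M (a), (c))
-/

set_option autoImplicit false

open Polynomial

namespace Fermat.Agent.S13L

/-- if `H(0) = 0` then `divX (H²)` vanishes at `0`. -/
theorem lad_z_divX_sq_eval_zero (H : ℤ[X]) (h : H.eval 0 = 0) : (divX (H ^ 2)).eval 0 = 0 := by
  rw [← coeff_zero_eq_eval_zero, coeff_divX, pow_two, zero_add, mul_coeff_one,
    coeff_zero_eq_eval_zero, h, zero_mul, mul_zero, add_zero]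

/-- if `H(0) = 0` then the division of `H²` by `X` is exact. -/
theorem lad_z_X_mul_divX_sq (H : ℤ[X]) (h : H.eval 0 = 0) : X * divX (H ^ 2) = H ^ 2 := by
  have h0 : (H ^ 2).coeff 0 = 0 := by
    rw [coeff_zero_eq_eval_zero, eval_pow, h]
    ring
  have h1 := divX_mul_X_add (H ^ 2)
  rw [h0, C_0, add_zero] at h1
  rw [mul_comm]
  exact h1

/-- the values at `0`, indexed by `m` (for the strong induction). -/
theorem lad_z_aux (α β : ℤ) (m : ℕ) :
    ∀ n : ℕ,
      (m = 2 * n →
        (ladX α β m).eval 0 = (α * β) ^ (2 * n ^ 2) ∧ (ladZ α β m).eval 0 = 0) ∧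
      (m = 2 * n + 1 →
        (ladX α β m).eval 0 = 0 ∧ (ladZ α β m).eval 0 = (α * β) ^ (2 * n ^ 2 + 2 * n)) := by
  induction m using Nat.strong_induction_on with
  | _ m ih =>
    intro n
    constructor
    · rintro rfl
      rcases Nat.eq_zero_or_pos n with rfl | hn
      · simp [ladX_zero, ladZ_zero]
      · rw [ladX_even α β n hn, ladZ_even α β n hn]
        rcases Nat.even_or_odd' n with ⟨j, rfl | rfl⟩
        · obtain ⟨hx, hz⟩ := (ih (2 * j) (by omega) j).1 rfl
          simp only [eval_pow, eval_add, eval_mul, eval_C, eval_sub, eval_ofNat, hx, hz]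
          constructor <;> ring
        · obtain ⟨hx, hz⟩ := (ih (2 * j + 1) (by omega) j).2 rfl
          simp only [eval_pow, eval_add, eval_mul, eval_C, eval_sub, eval_ofNat, hx, hz]
          constructor <;> ring
    · rintro rfl
      rcases Nat.eq_zero_or_pos n with rfl | hn
      · simp [ladX_one, ladZ_one]
      · have hH : (ladX α β (n + 1) * ladX α β n +
              C (α * β) * ladZ α β (n + 1) * ladZ α β n).eval 0 = 0 ∧
            (ladL α β n).eval 0 ^ 2 = (α * β) ^ (2 * n ^ 2 + 2 * n) := by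
          unfold ladL
          rcases Nat.even_or_odd' n with ⟨j, rfl | rfl⟩
          · obtain ⟨hx, hz⟩ := (ih (2 * j) (by omega) j).1 rfl
            obtain ⟨hx', hz'⟩ := (ih (2 * j + 1) (by omega) j).2 rfl
            simp only [eval_add, eval_mul, eval_C, eval_sub, hx, hz, hx', hz']
            constructor <;> ring
          · obtain ⟨hx, hz⟩ := (ih (2 * j + 1) (by omega) j).2 rfl
            obtain ⟨hx', hz'⟩ := (ih (2 * j + 1 + 1) (by omega) (j + 1)).1 (by ring)
            simp only [eval_add, eval_mul, eval_C, eval_sub, hx, hz, hx', hz']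
            constructor <;> ring
        rw [ladX_odd α β n hn, ladZ_odd α β n hn]
        refine ⟨lad_z_divX_sq_eval_zero _ hH.1, ?_⟩
        rw [eval_pow]
        exact hH.2

/-- values at `0`: `X_{2n}(0) = (αβ)^{2n²}`, `Z_{2n}(0) = 0`, `X_{2n+1}(0) = 0`,
`Z_{2n+1}(0) = (αβ)^{2n²+2n}`. -/
theorem lad_eval_zero (α β : ℤ) (n : ℕ) :
    ((ladX α β (2 * n)).eval 0 = (α * β) ^ (2 * n ^ 2) ∧ (ladZ α β (2 * n)).eval 0 = 0) ∧
      ((ladX α β (2 * n + 1)).eval 0 = 0 ∧
        (ladZ α β (2 * n + 1)).eval 0 = (α * β) ^ (2 * n ^ 2 + 2 * n)) := by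
  exact ⟨(lad_z_aux α β (2 * n) n).1 rfl, (lad_z_aux α β (2 * n + 1) n).2 rfl⟩

/-- the numerator of the odd step vanishes at `0`. -/
theorem lad_num_eval_zero (α β : ℤ) (k : ℕ) :
    (ladX α β (k + 1) * ladX α β k + C (α * β) * ladZ α β (k + 1) * ladZ α β k).eval 0 = 0 := by
  rcases Nat.even_or_odd' k with ⟨j, rfl | rfl⟩
  · have h1 := (lad_eval_zero α β j).1
    have h2 := (lad_eval_zero α β j).2
    simp only [eval_add, eval_mul, eval_C, h1.1, h1.2, h2.1, h2.2]
    ring
  · have h1 := (lad_eval_zero α β j).2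
    have h2 := (lad_eval_zero α β (j + 1)).1
    have e : 2 * j + 1 + 1 = 2 * (j + 1) := by ring
    rw [e]
    simp only [eval_add, eval_mul, eval_C, h1.1, h1.2, h2.1, h2.2]
    ring

/-- exactness of the division by `X` in the odd step. -/
theorem lad_X_mul_ladX_odd (α β : ℤ) (k : ℕ) (hk : 1 ≤ k) :
    X * ladX α β (2 * k + 1) =
      (ladX α β (k + 1) * ladX α β k + C (α * β) * ladZ α β (k + 1) * ladZ α β k) ^ 2 := by
  rw [ladX_odd α β k hk]
  exact lad_z_X_mul_divX_sq _ (lad_num_eval_zero α β k)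

/-- `L_k(0) = (-1)^(k+1) (αβ)^(k²+k)`. -/
theorem lad_L_eval_zero (α β : ℤ) (k : ℕ) :
    (ladL α β k).eval 0 = (-1) ^ (k + 1) * (α * β) ^ (k ^ 2 + k) := by
  unfold ladL
  rcases Nat.even_or_odd' k with ⟨j, rfl | rfl⟩
  · have h1 := (lad_eval_zero α β j).1
    have h2 := (lad_eval_zero α β j).2
    have hs : (-1 : ℤ) ^ (2 * j + 1) = -1 := Odd.neg_one_pow ⟨j, rfl⟩
    simp only [eval_sub, eval_mul, h1.1, h1.2, h2.1, h2.2, hs]
    ring
  · have h1 := (lad_eval_zero α β j).2
    have h2 := (lad_eval_zero α β (j + 1)).1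
    have hs : (-1 : ℤ) ^ (2 * j + 1 + 1) = 1 := Even.neg_one_pow ⟨j + 1, by ring⟩
    have e : 2 * j + 1 + 1 = 2 * (j + 1) := by ring
    rw [hs, e]
    simp only [eval_sub, eval_mul, h1.1, h1.2, h2.1, h2.2]
    ring

end Fermat.Agent.S13L
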