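import Mathlib
import Fermat.Agent.S13L.Defs
import Fermat.Agent.S13L.LadderZero

/-!
# S13 package (M), leaf DEG: degrees and leading coefficients of the ladder polynomials
(plan §M (b))
-/

set_option autoImplicit false

open Polynomial

namespace Fermat.Agent.S13L

/-- monic plus lower degree -/
theorem lad_d_add {P R : ℤ[X]} (hP : P.Monic) (h : R.natDegree < P.natDegree) :
    (P + R).Monic ∧ (P + R).natDegree = P.natDegree :=
  ⟨hP.add_of_left (degree_lt_degree h), natDegree_add_eq_left_of_natDegree_lt h⟩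

/-- monic minus lower degree -/
theorem lad_d_sub {P R : ℤ[X]} (hP : P.Monic) (h : R.natDegree < P.natDegree) :
    (P - R).Monic ∧ (P - R).natDegree = P.natDegree :=
  ⟨hP.sub_of_left (degree_lt_degree h), natDegree_sub_eq_left_of_natDegree_lt h⟩

/-- the even step for `X` -/
theorem lad_d_even_X {P Q : ℤ[X]} (c : ℤ) {d : ℕ} (hP : P.Monic) (hd : P.natDegree = d)
    (hQ : Q.natDegree < d) :
    ((P ^ 2 + C c * Q ^ 2) ^ 2).Monic ∧ ((P ^ 2 + C c * Q ^ 2) ^ 2).natDegree = 4 * d := by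
  have h1 : (C c * Q ^ 2).natDegree < (P ^ 2).natDegree := by
    rw [hP.natDegree_pow, hd]
    calc (C c * Q ^ 2).natDegree ≤ (Q ^ 2).natDegree := natDegree_C_mul_le _ _
      _ ≤ 2 * Q.natDegree := natDegree_pow_le
      _ < 2 * d := by omega
  obtain ⟨hm, hn⟩ := lad_d_add (hP.pow 2) h1
  refine ⟨hm.pow 2, ?_⟩
  rw [hm.natDegree_pow, hn, hP.natDegree_pow, hd]
  ring

/-- the even step for `Z` -/
theorem lad_d_even_Z {P Q : ℤ[X]} (a b : ℤ) {d e : ℕ} (hP : P.Monic) (hd : P.natDegree = d)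
    (he : Q.natDegree = e) (hed : e < d) (hQ : Q ≠ 0) :
    (4 * P * Q * (P - C a * Q) * (P + C b * Q)).natDegree = 3 * d + e ∧
      (4 * P * Q * (P - C a * Q) * (P + C b * Q)).leadingCoeff = 4 * Q.leadingCoeff := by
  have h1 : (C a * Q).natDegree < P.natDegree :=
    lt_of_le_of_lt (natDegree_C_mul_le _ _) (by omega)
  have h2 : (C b * Q).natDegree < P.natDegree :=
    lt_of_le_of_lt (natDegree_C_mul_le _ _) (by omega)
  obtain ⟨hm1, hn1⟩ := lad_d_sub hP h1
  obtain ⟨hm2, hn2⟩ := lad_d_add hP h2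
  have h4 : (4 : ℤ[X]) = C 4 := by simp
  have e1 : 4 * P * Q * (P - C a * Q) * (P + C b * Q) =
      (C 4 * Q) * (P * (P - C a * Q) * (P + C b * Q)) := by
    rw [h4]
    ring
  have hR : (P * (P - C a * Q) * (P + C b * Q)).Monic := (hP.mul hm1).mul hm2
  have hRd : (P * (P - C a * Q) * (P + C b * Q)).natDegree = 3 * d := by
    rw [(hP.mul hm1).natDegree_mul hm2, hP.natDegree_mul hm1, hn1, hn2, hd]
    ring
  have h4Q : C (4 : ℤ) * Q ≠ 0 := mul_ne_zero (C_ne_zero.mpr (by norm_num)) hQ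
  rw [e1]
  constructor
  · rw [natDegree_mul h4Q hR.ne_zero, hRd, natDegree_C_mul (by norm_num), he]
    ring
  · rw [leadingCoeff_mul, hR.leadingCoeff, mul_one, leadingCoeff_mul, leadingCoeff_C]

/-- `divX` of a monic polynomial of positive degree -/
theorem lad_d_divX {q : ℤ[X]} {m : ℕ} (hq : q.Monic) (hm : q.natDegree = m) (h1 : 1 ≤ m) :
    (divX q).Monic ∧ (divX q).natDegree = m - 1 := by
  have hn : (divX q).natDegree = m - 1 := by rw [natDegree_divX_eq_natDegree_tsub_one, hm]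
  refine ⟨?_, hn⟩
  rw [Monic, leadingCoeff, hn, coeff_divX, Nat.sub_add_cancel h1, ← hm]
  exact hq.coeff_natDegree

/-- the odd step for `X` -/
theorem lad_d_odd_X {P' P Q' Q : ℤ[X]} (c : ℤ) {d' d : ℕ} (hP' : P'.Monic) (hP : P.Monic)
    (hd' : P'.natDegree = d') (hd : P.natDegree = d) (hQ' : Q'.natDegree < d')
    (hQ : Q.natDegree ≤ d) (h1 : 1 ≤ d' + d) :
    (divX ((P' * P + C c * Q' * Q) ^ 2)).Monic ∧
      (divX ((P' * P + C c * Q' * Q) ^ 2)).natDegree = 2 * (d' + d) - 1 := by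
  have h0 : (C c * Q' * Q).natDegree < (P' * P).natDegree := by
    rw [hP'.natDegree_mul hP, hd', hd]
    calc (C c * Q' * Q).natDegree ≤ (C c * Q').natDegree + Q.natDegree := natDegree_mul_le
      _ ≤ Q'.natDegree + Q.natDegree := Nat.add_le_add_right (natDegree_C_mul_le _ _) _
      _ < d' + d := by omega
  obtain ⟨hm, hn⟩ := lad_d_add (hP'.mul hP) h0
  have hH : ((P' * P + C c * Q' * Q) ^ 2).natDegree = 2 * (d' + d) := by
    rw [hm.natDegree_pow, hn, hP'.natDegree_mul hP, hd', hd]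
  exact lad_d_divX (hm.pow 2) hH (by omega)

/-- difference of two polynomials of the same degree with different leading coefficients -/
theorem lad_d_sub_lead {A B : ℤ[X]} {N : ℕ} (hA : A.natDegree = N) (hB : B.natDegree = N)
    (hne : A.leadingCoeff ≠ B.leadingCoeff) :
    (A - B).natDegree = N ∧ (A - B).leadingCoeff = A.leadingCoeff - B.leadingCoeff := by
  have hc : (A - B).coeff N = A.leadingCoeff - B.leadingCoeff := by
    rw [coeff_sub, leadingCoeff, leadingCoeff, hA, hB]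
  have hN : (A - B).natDegree = N := by
    apply le_antisymm
    · calc (A - B).natDegree ≤ max A.natDegree B.natDegree := natDegree_sub_le A B
        _ = N := by rw [hA, hB, max_self]
    · exact le_natDegree_of_ne_zero (by rw [hc]; exact sub_ne_zero.mpr hne)
  exact ⟨hN, by rw [leadingCoeff, hN, hc]⟩

/-- the statement proved by simultaneous induction -/
def lad_d_T (α β : ℤ) (n : ℕ) : Prop :=
  (ladX α β n).natDegree = n ^ 2 ∧ (ladX α β n).Monic ∧
    (ladZ α β n).natDegree = n ^ 2 - 1 ∧ (ladZ α β n).leadingCoeff = (n : ℤ) ^ 2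

theorem lad_d_Z_ne_zero {α β : ℤ} {k : ℕ} (hk : 1 ≤ k) (h : lad_d_T α β k) :
    ladZ α β k ≠ 0 := by
  intro h0
  have hl := h.2.2.2
  rw [h0, leadingCoeff_zero] at hl
  have hk' : (1 : ℤ) ≤ (k : ℤ) := by exact_mod_cast hk
  nlinarith

/-- degree and leading coefficient of `L_k` from the data at `k` and `k + 1` -/
theorem lad_d_L (α β : ℤ) (k : ℕ) (hk : 1 ≤ k) (h1 : lad_d_T α β k)
    (h2 : lad_d_T α β (k + 1)) :
    (ladL α β k).natDegree = 2 * k ^ 2 + 2 * k ∧
      (ladL α β k).leadingCoeff = -(2 * (k : ℤ) + 1) := by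
  have hZ0 := lad_d_Z_ne_zero hk h1
  have hZ0' := lad_d_Z_ne_zero (Nat.le_add_left 1 k) h2
  obtain ⟨hXd, hXm, hZd, hZl⟩ := h1
  obtain ⟨hXd', hXm', hZd', hZl'⟩ := h2
  have hk2 : 1 ≤ k ^ 2 := Nat.one_le_pow _ _ hk
  have hsq : (k + 1) ^ 2 = k ^ 2 + 2 * k + 1 := by ring
  have hA : (ladX α β (k + 1) * ladZ α β k).natDegree = 2 * k ^ 2 + 2 * k := by
    rw [hXm'.natDegree_mul' hZ0, hXd', hZd]
    omega
  have hB : (ladX α β k * ladZ α β (k + 1)).natDegree = 2 * k ^ 2 + 2 * k := by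
    rw [hXm.natDegree_mul' hZ0', hXd, hZd']
    omega
  have hAl : (ladX α β (k + 1) * ladZ α β k).leadingCoeff = (k : ℤ) ^ 2 := by
    rw [leadingCoeff_mul, hXm'.leadingCoeff, one_mul, hZl]
  have hBl : (ladX α β k * ladZ α β (k + 1)).leadingCoeff = ((k : ℤ) + 1) ^ 2 := by
    rw [leadingCoeff_mul, hXm.leadingCoeff, one_mul, hZl']
    push_cast
    ring
  have hne : (ladX α β (k + 1) * ladZ α β k).leadingCoeff ≠
      (ladX α β k * ladZ α β (k + 1)).leadingCoeff := by
    rw [hAl, hBl]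
    intro h
    have hk' : (0 : ℤ) ≤ (k : ℤ) := Int.natCast_nonneg k
    nlinarith
  obtain ⟨hn, hl⟩ := lad_d_sub_lead hA hB hne
  unfold ladL
  refine ⟨hn, ?_⟩
  rw [hl, hAl, hBl]
  ring

theorem lad_d_all (α β : ℤ) (n : ℕ) : lad_d_T α β n := by
  induction n using Nat.strong_induction_on with
  | _ n ih =>
    rcases Nat.even_or_odd' n with ⟨k, rfl | rfl⟩
    · rcases Nat.eq_zero_or_pos k with rfl | hk
      · refine ⟨?_, ?_, ?_, ?_⟩ <;> simp [ladX_zero, ladZ_zero]
      · have h1 := ih k (by omega)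
        have hZ0 := lad_d_Z_ne_zero hk h1
        obtain ⟨hXd, hXm, hZd, hZl⟩ := h1
        have hk2 : 1 ≤ k ^ 2 := Nat.one_le_pow _ _ hk
        have hsq : (2 * k) ^ 2 = 4 * k ^ 2 := by ring
        obtain ⟨hm, hn⟩ := lad_d_even_X (α * β) hXm hXd (Q := ladZ α β k) (by rw [hZd]; omega)
        obtain ⟨hzn, hzl⟩ := lad_d_even_Z α β hXm hXd hZd (by omega) hZ0
        refine ⟨?_, ?_, ?_, ?_⟩
        · rw [ladX_even α β k hk, hn, hsq]
        · rw [ladX_even α β k hk]
          exact hm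
        · rw [ladZ_even α β k hk, hzn]
          omega
        · rw [ladZ_even α β k hk, hzl, hZl]
          push_cast
          ring
    · rcases Nat.eq_zero_or_pos k with rfl | hk
      · refine ⟨?_, ?_, ?_, ?_⟩ <;> simp [ladX_one, ladZ_one]
      · have h1 := ih k (by omega)
        have h2 := ih (k + 1) (by omega)
        obtain ⟨hLn, hLl⟩ := lad_d_L α β k hk h1 h2
        obtain ⟨hXd, hXm, hZd, hZl⟩ := h1
        obtain ⟨hXd', hXm', hZd', hZl'⟩ := h2
        have hk2 : 1 ≤ k ^ 2 := Nat.one_le_pow _ _ hk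
        have hsq : (k + 1) ^ 2 = k ^ 2 + 2 * k + 1 := by ring
        have hsq2 : (2 * k + 1) ^ 2 = 4 * k ^ 2 + 4 * k + 1 := by ring
        obtain ⟨hm, hn⟩ := lad_d_odd_X (α * β) hXm' hXm hXd' hXd (Q' := ladZ α β (k + 1))
          (Q := ladZ α β k) (by rw [hZd']; omega) (by rw [hZd]; omega) (by omega)
        refine ⟨?_, ?_, ?_, ?_⟩
        · rw [ladX_odd α β k hk, hn]
          omega
        · rw [ladX_odd α β k hk]
          exact hm
        · rw [ladZ_odd α β k hk, natDegree_pow, hLn]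
          omega
        · rw [ladZ_odd α β k hk, leadingCoeff_pow, hLl]
          push_cast
          ring

theorem lad_natDegree_X (α β : ℤ) (n : ℕ) : (ladX α β n).natDegree = n ^ 2 := by
  exact (lad_d_all α β n).1

theorem lad_monic_X (α β : ℤ) (n : ℕ) : (ladX α β n).Monic := by
  exact (lad_d_all α β n).2.1

theorem lad_natDegree_Z (α β : ℤ) (n : ℕ) : (ladZ α β n).natDegree = n ^ 2 - 1 := by
  exact (lad_d_all α β n).2.2.1

theorem lad_leadingCoeff_Z (α β : ℤ) (n : ℕ) : (ladZ α β n).leadingCoeff = (n : ℤ) ^ 2 := by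
  exact (lad_d_all α β n).2.2.2

theorem lad_natDegree_L (α β : ℤ) (k : ℕ) : (ladL α β k).natDegree = 2 * k ^ 2 + 2 * k := by
  rcases Nat.eq_zero_or_pos k with rfl | hk
  · simp [ladL, ladX_zero, ladZ_zero, ladX_one, ladZ_one]
  · exact (lad_d_L α β k hk (lad_d_all α β k) (lad_d_all α β (k + 1))).1

theorem lad_leadingCoeff_L (α β : ℤ) (k : ℕ) :
    (ladL α β k).leadingCoeff = -(2 * (k : ℤ) + 1) := by
  rcases Nat.eq_zero_or_pos k with rfl | hk
  · simp [ladL, ladX_zero, ladZ_zero, ladX_one, ladZ_one]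
  · exact (lad_d_L α β k hk (lad_d_all α β k) (lad_d_all α β (k + 1))).2

end Fermat.Agent.S13L
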