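import Mathlib
import Fermat.Agent.S05L.Formulas

/-!
# S13 package (M), leaf GROUP: the two `x`-only group law identities of a Legendre model
(plan §M (d): doubling and differential addition)
-/

set_option autoImplicit false

namespace Fermat.Agent.S13L

open Fermat.Agent.S05L

variable {L : Type*} [Field L] {α β : L} {E : Type*} [AddCommGroup E] (M : LegModel L α β E)

/-- `Y = 0` exactly at the three points `X ∈ {0, α, -β}`. -/
theorem lad_Y_eq_zero_iff {Q : E} (hQ : Q ≠ 0) :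
    M.Y Q = 0 ↔ M.X Q = 0 ∨ M.X Q = α ∨ M.X Q = -β := by
  have h := M.eqn Q hQ
  constructor
  · intro hY
    rw [hY] at h
    have h0 : M.X Q * (M.X Q - α) * (M.X Q + β) = 0 := by
      rw [← h]; ring
    rcases mul_eq_zero.mp h0 with h1 | h1
    · rcases mul_eq_zero.mp h1 with h2 | h2
      · exact Or.inl h2
      · exact Or.inr (Or.inl (sub_eq_zero.mp h2))
    · exact Or.inr (Or.inr (eq_neg_of_add_eq_zero_left h1))
  · intro hX
    have h0 : M.X Q * (M.X Q - α) * (M.X Q + β) = 0 := by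
      rcases hX with h1 | h1 | h1
      · rw [h1]; ring
      · rw [h1]; ring
      · rw [h1]; ring
    rw [h0] at h
    exact pow_eq_zero_iff (two_ne_zero) |>.mp h

theorem lad_add_self_eq_zero_iff (h2 : (2 : L) ≠ 0) {Q : E} (hQ : Q ≠ 0) :
    Q + Q = 0 ↔ M.Y Q = 0 := by
  constructor
  · intro h
    by_contra hY
    exact M.add_self_ne_zero_of_Y_ne_zero h2 hQ hY h
  · intro hY
    exact M.add_self_eq_zero_of_Y_eq_zero hQ hY

/-- doubling: `X(2Q) · 4 X (X - α) (X + β) = (X² + αβ)²`. -/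
theorem lad_dbl (h2 : (2 : L) ≠ 0) {Q : E} (hQ : Q ≠ 0) (hY : M.Y Q ≠ 0) :
    M.X (Q + Q) * (4 * M.X Q * (M.X Q - α) * (M.X Q + β)) = (M.X Q ^ 2 + α * β) ^ 2 := by
  have h := M.dbl_X h2 hQ hY
  have he := M.eqn Q hQ
  rw [← h]
  linear_combination (-4 * M.X (Q + Q)) * he

/-- differential addition: `X(R+Q) · X(R-Q) · (X_R - X_Q)² = (X_R X_Q + αβ)²`. -/
theorem lad_diff_add {R Q : E} (hR : R ≠ 0) (hQ : Q ≠ 0) (h : M.X R ≠ M.X Q) :
    M.X (R + Q) * M.X (R - Q) * (M.X R - M.X Q) ^ 2 = (M.X R * M.X Q + α * β) ^ 2 := by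
  have hnQ : -Q ≠ 0 := neg_ne_zero.mpr hQ
  have h' : M.X R ≠ M.X (-Q) := by rw [M.X_neg Q hQ]; exact h
  have h1 := M.Chord_aux_X_add_mul hR hQ h
  have h2 := M.Chord_aux_X_add_mul hR hnQ h'
  rw [M.X_neg Q hQ, M.Y_neg Q hQ, ← sub_eq_add_neg] at h2
  have eR := M.eqn R hR
  have eQ := M.eqn Q hQ
  have hD : (M.X R - M.X Q) ^ 2 ≠ 0 := pow_ne_zero 2 (sub_ne_zero.mpr h)
  apply mul_left_cancel₀ hD
  linear_combination (M.X (R - Q) * (M.X R - M.X Q) ^ 2) * h1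
    + ((M.Y R - M.Y Q) ^ 2 - (β - α + M.X R + M.X Q) * (M.X R - M.X Q) ^ 2) * h2
    + (M.Y R ^ 2 + M.X R * (M.X R - α) * (M.X R + β) - 2 * M.Y Q ^ 2
        - 2 * ((β - α + M.X R + M.X Q) * (M.X R - M.X Q) ^ 2)) * eR
    + (M.Y Q ^ 2 + M.X Q * (M.X Q - α) * (M.X Q + β) - 2 * (M.X R * (M.X R - α) * (M.X R + β))
        - 2 * ((β - α + M.X R + M.X Q) * (M.X R - M.X Q) ^ 2)) * eQ

end Fermat.Agent.S13L
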