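import Mathlib
import Fermat.Agent.S13L.LadderGroup

/-!
# S13 package (M), leaf STEP: the ladder induction `S(k), S(k+1) ⟹ S(2k), S(2k+1)`
(plan §M (d)), for abstract sequences `ξ, ζ : ℕ → L` obeying the ladder recurrences at `x = X(P)`.
-/

set_option autoImplicit false

namespace Fermat.Agent.S13L

open Fermat.Agent.S05L

/-- the ladder recurrences for the values `ξ n = X_n(x)`, `ζ n = Z_n(x)`. -/
structure LadSeq {L : Type*} [Field L] (α β x : L) (ξ ζ : ℕ → L) : Prop where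
  ξ_zero : ξ 0 = 1
  ζ_zero : ζ 0 = 0
  ξ_one : ξ 1 = x
  ζ_one : ζ 1 = 1
  ξ_even : ∀ k, 1 ≤ k → ξ (2 * k) = (ξ k ^ 2 + α * β * ζ k ^ 2) ^ 2
  ζ_even : ∀ k, 1 ≤ k → ζ (2 * k) = 4 * ξ k * ζ k * (ξ k - α * ζ k) * (ξ k + β * ζ k)
  ξ_odd : ∀ k, 1 ≤ k →
    x * ξ (2 * k + 1) = (ξ (k + 1) * ξ k + α * β * ζ (k + 1) * ζ k) ^ 2
  ζ_odd : ∀ k, 1 ≤ k → ζ (2 * k + 1) = (ξ (k + 1) * ζ k - ξ k * ζ (k + 1)) ^ 2

variable {L : Type*} [Field L] {α β : L} {E : Type*} [AddCommGroup E]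

/-- the ladder invariant at `n`. -/
def LadS (M : LegModel L α β E) (P : E) (ξ ζ : ℕ → L) (n : ℕ) : Prop :=
  (n • P = 0 ↔ ζ n = 0) ∧ (n • P ≠ 0 → M.X (n • P) * ζ n = ξ n) ∧ ¬ (ξ n = 0 ∧ ζ n = 0)

variable (M : LegModel L α β E)

theorem lad_s_four_ne_zero (h2 : (2 : L) ≠ 0) : (4 : L) ≠ 0 := by
  have h : (4 : L) = 2 * 2 := by norm_num
  rw [h]
  exact mul_ne_zero h2 h2

/-- at a point with `Y = 0` the quantity `X² + αβ` does not vanish -/
theorem lad_s_sq_add_ne_zero (hαβ : α * β * (α + β) ≠ 0) {Q : E} (hQ : Q ≠ 0)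
    (hY : M.Y Q = 0) : M.X Q ^ 2 + α * β ≠ 0 := by
  have hα : α ≠ 0 := left_ne_zero_of_mul (left_ne_zero_of_mul hαβ)
  have hβ : β ≠ 0 := right_ne_zero_of_mul (left_ne_zero_of_mul hαβ)
  have hαβ' : α + β ≠ 0 := right_ne_zero_of_mul hαβ
  have heqn := M.eqn Q hQ
  have h0 : M.X Q * (M.X Q - α) * (M.X Q + β) = 0 := by
    rw [← heqn, hY]
    ring
  rcases mul_eq_zero.mp h0 with h0 | h0
  · rcases mul_eq_zero.mp h0 with h0 | h0
    · rw [h0]
      intro h
      apply mul_ne_zero hα hβ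
      linear_combination h
    · have hX : M.X Q = α := sub_eq_zero.mp h0
      rw [hX]
      intro h
      apply mul_ne_zero hα hαβ'
      linear_combination h
  · have hX : M.X Q = -β := eq_neg_of_add_eq_zero_left h0
    rw [hX]
    intro h
    apply mul_ne_zero hβ hαβ'
    linear_combination h

/-- the even step, for an abstract point `Q` and abstract values -/
theorem lad_s_even_core (h2 : (2 : L) ≠ 0) (hαβ : α * β * (α + β) ≠ 0) (Q : E)
    {a c a2 c2 : L} (h1 : Q = 0 ↔ c = 0) (hX : Q ≠ 0 → M.X Q * c = a)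
    (h3 : ¬ (a = 0 ∧ c = 0)) (ha2 : a2 = (a ^ 2 + α * β * c ^ 2) ^ 2)
    (hc2 : c2 = 4 * a * c * (a - α * c) * (a + β * c)) :
    (Q + Q = 0 ↔ c2 = 0) ∧ (Q + Q ≠ 0 → M.X (Q + Q) * c2 = a2) ∧ ¬ (a2 = 0 ∧ c2 = 0) := by
  have h4 : (4 : L) ≠ 0 := lad_s_four_ne_zero h2
  by_cases hQ : Q = 0
  · have hc : c = 0 := h1.mp hQ
    have ha : a ≠ 0 := fun h => h3 ⟨h, hc⟩
    have hc2' : c2 = 0 := by
      rw [hc2, hc]
      ring
    have ha2' : a2 ≠ 0 := by
      have h : a2 = a ^ 4 := by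
        rw [ha2, hc]
        ring
      rw [h]
      exact pow_ne_zero 4 ha
    rw [hQ, add_zero]
    exact ⟨⟨fun _ => hc2', fun _ => rfl⟩, fun h => absurd rfl h, fun h => ha2' h.1⟩
  · have hc : c ≠ 0 := fun h => hQ (h1.mpr h)
    have hXc : M.X Q * c = a := hX hQ
    have heqn := M.eqn Q hQ
    have hc2' : c2 = 4 * c ^ 4 * M.Y Q ^ 2 := by
      rw [hc2, ← hXc, heqn]
      ring
    have ha2' : a2 = c ^ 4 * (M.X Q ^ 2 + α * β) ^ 2 := by
      rw [ha2, ← hXc]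
      ring
    by_cases hY : M.Y Q = 0
    · have hQQ : Q + Q = 0 := M.add_self_eq_zero_of_Y_eq_zero hQ hY
      have hc20 : c2 = 0 := by
        rw [hc2', hY]
        ring
      have hne : M.X Q ^ 2 + α * β ≠ 0 := lad_s_sq_add_ne_zero M hαβ hQ hY
      have ha2ne : a2 ≠ 0 := by
        rw [ha2']
        exact mul_ne_zero (pow_ne_zero 4 hc) (pow_ne_zero 2 hne)
      rw [hQQ]
      exact ⟨⟨fun _ => hc20, fun _ => rfl⟩, fun h => absurd rfl h, fun h => ha2ne h.1⟩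
    · have hQQ : Q + Q ≠ 0 := M.add_self_ne_zero_of_Y_ne_zero h2 hQ hY
      have hc2ne : c2 ≠ 0 := by
        rw [hc2']
        exact mul_ne_zero (mul_ne_zero h4 (pow_ne_zero 4 hc)) (pow_ne_zero 2 hY)
      have hdbl := lad_dbl M h2 hQ hY
      refine ⟨⟨fun h => absurd h hQQ, fun h => absurd h hc2ne⟩, fun _ => ?_, fun h => hc2ne h.2⟩
      linear_combination M.X (Q + Q) * hc2' - ha2' + 4 * c ^ 4 * M.X (Q + Q) * heqn
        + c ^ 4 * hdbl

/-- the odd step, for an abstract point `Q` (playing the role of `k • P`) and abstract values -/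
theorem lad_s_odd_core (h2 : (2 : L) ≠ 0) {P : E} (hP : P ≠ 0)
    (hx : M.X P ≠ 0) (Q : E) {a c a' c' a2 c2 : L}
    (h1 : Q = 0 ↔ c = 0) (hX : Q ≠ 0 → M.X Q * c = a) (h3 : ¬ (a = 0 ∧ c = 0))
    (h1' : Q + P = 0 ↔ c' = 0) (hX' : Q + P ≠ 0 → M.X (Q + P) * c' = a')
    (h3' : ¬ (a' = 0 ∧ c' = 0))
    (ha2 : M.X P * a2 = (a' * a + α * β * c' * c) ^ 2)
    (hc2 : c2 = (a' * c - a * c') ^ 2) :
    (Q + (Q + P) = 0 ↔ c2 = 0) ∧ (Q + (Q + P) ≠ 0 → M.X (Q + (Q + P)) * c2 = a2) ∧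
      ¬ (a2 = 0 ∧ c2 = 0) := by
  have h4 : (4 : L) ≠ 0 := lad_s_four_ne_zero h2
  by_cases hQ : Q = 0
  · -- `Q = 0`, `Q + P = P`
    have hc : c = 0 := h1.mp hQ
    have ha : a ≠ 0 := fun h => h3 ⟨h, hc⟩
    have hQ'ne : Q + P ≠ 0 := by
      rw [hQ, zero_add]
      exact hP
    have hc' : c' ≠ 0 := fun h => hQ'ne (h1'.mpr h)
    have hXc' : M.X P * c' = a' := by
      have h := hX' hQ'ne
      rw [hQ, zero_add] at h
      exact h
    have hc2' : c2 = (a * c') ^ 2 := by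
      rw [hc2, hc]
      ring
    have hc2ne : c2 ≠ 0 := by
      rw [hc2']
      exact pow_ne_zero 2 (mul_ne_zero ha hc')
    rw [hQ, zero_add, zero_add]
    refine ⟨⟨fun h => absurd h hP, fun h => absurd h hc2ne⟩, fun _ => ?_, fun h => hc2ne h.2⟩
    apply mul_left_cancel₀ hx
    rw [ha2, hc2', ← hXc', hc]
    ring
  · have hc : c ≠ 0 := fun h => hQ (h1.mpr h)
    have hXc : M.X Q * c = a := hX hQ
    by_cases hQ' : Q + P = 0
    · -- `Q = -P`, `Q + P = 0`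
      have hc' : c' = 0 := h1'.mp hQ'
      have ha' : a' ≠ 0 := fun h => h3' ⟨h, hc'⟩
      have hQP : Q = -P := eq_neg_of_add_eq_zero_left hQ'
      have hXQ : M.X Q = M.X P := by
        rw [hQP, M.X_neg P hP]
      have hc2' : c2 = (a' * c) ^ 2 := by
        rw [hc2, hc']
        ring
      have hc2ne : c2 ≠ 0 := by
        rw [hc2']
        exact pow_ne_zero 2 (mul_ne_zero ha' hc)
      rw [hQ', add_zero]
      refine ⟨⟨fun h => absurd h hQ, fun h => absurd h hc2ne⟩, fun _ => ?_, fun h => hc2ne h.2⟩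
      apply mul_left_cancel₀ hx
      rw [ha2, hc2', ← hXc, hXQ, hc']
      ring
    · have hc' : c' ≠ 0 := fun h => hQ' (h1'.mpr h)
      have hXc' : M.X (Q + P) * c' = a' := hX' hQ'
      have hc2' : c2 = (c * c') ^ 2 * (M.X (Q + P) - M.X Q) ^ 2 := by
        rw [hc2, ← hXc, ← hXc']
        ring
      have ha2' : M.X P * a2 = (c * c') ^ 2 * (M.X (Q + P) * M.X Q + α * β) ^ 2 := by
        rw [ha2, ← hXc, ← hXc']
        ring
      by_cases hXX : M.X (Q + P) = M.X Q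
      · -- `Q + P = -Q`
        have hneg : Q + P = -Q := by
          rcases M.eq_or_eq_neg_of_X_eq hQ' hQ hXX with h | h
          · exact absurd (add_eq_left.mp h) hP
          · exact h
        have hsum : Q + (Q + P) = 0 := by
          rw [hneg, add_neg_cancel]
        have hQQ : Q + Q = -P := by
          have h : Q + Q + P = 0 := by
            rw [add_assoc, hsum]
          exact eq_neg_of_add_eq_zero_left h
        have hQQne : Q + Q ≠ 0 := by
          rw [hQQ]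
          exact neg_ne_zero.mpr hP
        have hY : M.Y Q ≠ 0 := fun h => hQQne (M.add_self_eq_zero_of_Y_eq_zero hQ h)
        have hdbl := lad_dbl M h2 hQ hY
        rw [hQQ, M.X_neg P hP] at hdbl
        have heqn := M.eqn Q hQ
        have hne : (M.X Q ^ 2 + α * β) ^ 2 ≠ 0 := by
          have h : (M.X Q ^ 2 + α * β) ^ 2 = M.X P * (4 * M.Y Q ^ 2) := by
            rw [← hdbl, heqn]
            ring
          rw [h]
          exact mul_ne_zero hx (mul_ne_zero h4 (pow_ne_zero 2 hY))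
        have hc20 : c2 = 0 := by
          rw [hc2', hXX]
          ring
        have ha2ne : a2 ≠ 0 := by
          intro h
          have h' : (c * c') ^ 2 * (M.X Q ^ 2 + α * β) ^ 2 = 0 := by
            rw [h, mul_zero, hXX] at ha2'
            rw [ha2']
            ring
          exact mul_ne_zero (pow_ne_zero 2 (mul_ne_zero hc hc')) hne h'
        rw [hsum]
        exact ⟨⟨fun _ => hc20, fun _ => rfl⟩, fun h => absurd rfl h, fun h => ha2ne h.1⟩
      · -- the generic case: differential addition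
        have hsum : Q + (Q + P) ≠ 0 := M.add_ne_zero_of_X_ne hQ hQ' (Ne.symm hXX)
        have hda := lad_diff_add M hQ' hQ hXX
        have e1 : Q + P + Q = Q + (Q + P) := by abel
        have e2 : Q + P - Q = P := by abel
        rw [e1, e2] at hda
        have hc2ne : c2 ≠ 0 := by
          rw [hc2']
          exact mul_ne_zero (pow_ne_zero 2 (mul_ne_zero hc hc'))
            (pow_ne_zero 2 (sub_ne_zero.mpr hXX))
        refine ⟨⟨fun h => absurd h hsum, fun h => absurd h hc2ne⟩, fun _ => ?_,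
          fun h => hc2ne h.2⟩
        apply mul_left_cancel₀ hx
        rw [ha2', hc2', ← hda]
        ring

theorem lad_S_zero {P : E} {ξ ζ : ℕ → L} (hseq : LadSeq α β (M.X P) ξ ζ) : LadS M P ξ ζ 0 := by
  unfold LadS
  rw [zero_nsmul, hseq.ζ_zero, hseq.ξ_zero]
  exact ⟨⟨fun _ => rfl, fun _ => rfl⟩, fun h => absurd rfl h, fun h => one_ne_zero h.1⟩

theorem lad_S_one {P : E} (hP : P ≠ 0) {ξ ζ : ℕ → L} (hseq : LadSeq α β (M.X P) ξ ζ) :
    LadS M P ξ ζ 1 := by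
  unfold LadS
  rw [one_nsmul, hseq.ζ_one, hseq.ξ_one]
  exact ⟨⟨fun h => absurd h hP, fun h => absurd h one_ne_zero⟩, fun _ => mul_one _,
    fun h => one_ne_zero h.2⟩

theorem lad_S_even (h2 : (2 : L) ≠ 0) (hαβ : α * β * (α + β) ≠ 0) {P : E}
    {ξ ζ : ℕ → L} (hseq : LadSeq α β (M.X P) ξ ζ) (k : ℕ) (hk : 1 ≤ k)
    (hS : LadS M P ξ ζ k) : LadS M P ξ ζ (2 * k) := by
  have hsm : (2 * k) • P = k • P + k • P := by
    rw [two_mul, add_nsmul]
  unfold LadS
  rw [hsm]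
  exact lad_s_even_core M h2 hαβ (k • P) hS.1 hS.2.1 hS.2.2 (hseq.ξ_even k hk)
    (hseq.ζ_even k hk)

theorem lad_S_odd (h2 : (2 : L) ≠ 0) (hαβ : α * β * (α + β) ≠ 0) {P : E} (hP : P ≠ 0)
    (hx : M.X P ≠ 0) {ξ ζ : ℕ → L} (hseq : LadSeq α β (M.X P) ξ ζ) (k : ℕ) (hk : 1 ≤ k)
    (hS : LadS M P ξ ζ k) (hS' : LadS M P ξ ζ (k + 1)) : LadS M P ξ ζ (2 * k + 1) := by
  have _ := hαβ
  have hQ' : (k + 1) • P = k • P + P := by
    rw [add_nsmul, one_nsmul]
  have hsm : (2 * k + 1) • P = k • P + (k • P + P) := by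
    rw [← hQ', ← add_nsmul]
    congr 1
    ring
  unfold LadS at hS'
  rw [hQ'] at hS'
  unfold LadS
  rw [hsm]
  exact lad_s_odd_core M h2 hP hx (k • P) hS.1 hS.2.1 hS.2.2 hS'.1 hS'.2.1 hS'.2.2
    (hseq.ξ_odd k hk) (hseq.ζ_odd k hk)

theorem lad_S_all (h2 : (2 : L) ≠ 0) (hαβ : α * β * (α + β) ≠ 0) {P : E} (hP : P ≠ 0)
    (hx : M.X P ≠ 0) {ξ ζ : ℕ → L} (hseq : LadSeq α β (M.X P) ξ ζ) (n : ℕ) :
    LadS M P ξ ζ n := by
  induction n using Nat.strong_induction_on with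
  | _ n ih =>
    rcases Nat.lt_or_ge n 2 with hn | hn
    · interval_cases n
      · exact lad_S_zero M hseq
      · exact lad_S_one M hP hseq
    · rcases Nat.even_or_odd' n with ⟨k, rfl | rfl⟩
      · exact lad_S_even M h2 hαβ hseq k (by omega) (ih k (by omega))
      · exact lad_S_odd M h2 hαβ hP hx hseq k (by omega) (ih k (by omega))
          (ih (k + 1) (by omega))

end Fermat.Agent.S13L
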