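import Mathlib
import Fermat.Agent.S13L.Defs
import Fermat.Agent.S13L.LadderZero
import Fermat.Agent.S13L.LadderStep

/-!
# S13 package (M), leaf EVAL: the values of the ladder polynomials form a ladder sequence;
the torsion criterion away from `X = 0` and at `X = 0`.
-/

set_option autoImplicit false

open Polynomial

namespace Fermat.Agent.S13L

open Fermat.Agent.S05L

theorem lad_seq_aeval {L : Type*} [Field L] (α β : ℤ) (x : L) :
    LadSeq (α : L) (β : L) x (fun n => Polynomial.aeval x (ladX α β n))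
      (fun n => Polynomial.aeval x (ladZ α β n)) := by
  have hC : ∀ c : ℤ, Polynomial.aeval x (C c : ℤ[X]) = (c : L) := by
    intro c
    rw [Polynomial.aeval_C, eq_intCast]
  have h4 : Polynomial.aeval x (4 : ℤ[X]) = (4 : L) := map_ofNat (Polynomial.aeval x) 4
  refine ⟨?_, ?_, ?_, ?_, ?_, ?_, ?_, ?_⟩
  · rw [ladX_zero, map_one]
  · rw [ladZ_zero, map_zero]
  · rw [ladX_one, Polynomial.aeval_X]
  · rw [ladZ_one, map_one]
  · intro k hk
    rw [ladX_even α β k hk, map_pow, map_add, map_pow, map_mul, map_pow, hC]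
    push_cast
    ring
  · intro k hk
    rw [ladZ_even α β k hk, map_mul, map_mul, map_mul, map_mul, map_sub, map_add, map_mul,
      map_mul, hC, hC, h4]
  · intro k hk
    have h := congrArg (Polynomial.aeval x) (lad_X_mul_ladX_odd α β k hk)
    rw [map_mul, Polynomial.aeval_X, map_pow, map_add, map_mul, map_mul, map_mul, hC] at h
    rw [h]
    push_cast
    ring
  · intro k hk
    rw [ladZ_odd α β k hk, ladL, map_pow, map_sub, map_mul, map_mul]

/-- `(2 k + 1) • T = T` for a point `T` of order two. -/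
theorem lad_e_odd_nsmul {E : Type*} [AddCommGroup E] {T : E} (hT : T + T = 0) (k : ℕ) :
    (2 * k + 1) • T = T := by
  rw [add_smul, mul_comm 2 k, mul_smul, two_smul, hT, smul_zero, zero_add, one_smul]

/-- the torsion criterion at a point with `X ≠ 0`. -/
theorem lad_torsion_iff_of_X_ne {L : Type*} [Field L] {E : Type*} [AddCommGroup E] (α β : ℤ)
    (M : LegModel L (α : L) (β : L) E) (h2 : (2 : L) ≠ 0)
    (hαβ : ((α * β * (α + β) : ℤ) : L) ≠ 0) (k : ℕ) (P : E) (hP : P ≠ 0) (hx : M.X P ≠ 0) :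
    (2 * k + 1) • P = 0 ↔ Polynomial.aeval (M.X P) (ladL α β k) = 0 := by
  have hαβ' : (α : L) * (β : L) * ((α : L) + (β : L)) ≠ 0 := by
    have h := hαβ
    push_cast at h
    exact h
  have hS := lad_S_all M h2 hαβ' hP hx (lad_seq_aeval α β (M.X P)) (2 * k + 1)
  have h1 : (2 * k + 1) • P = 0 ↔ Polynomial.aeval (M.X P) (ladZ α β (2 * k + 1)) = 0 := hS.1
  rcases Nat.eq_zero_or_pos k with rfl | hk
  · have hL : ladL α β 0 = -1 := by
      rw [ladL, ladX_one, ladZ_zero, ladX_zero, ladZ_one]
      ring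
    rw [hL]
    constructor
    · intro h
      rw [mul_zero, zero_add, one_smul] at h
      exact absurd h hP
    · intro h
      rw [map_neg, map_one] at h
      exact absurd h (neg_ne_zero.mpr one_ne_zero)
  · rw [h1, ladZ_odd α β k hk, map_pow]
    exact pow_eq_zero_iff (two_ne_zero)

/-- the torsion criterion at the point `T0` (`X = 0`): both sides are false. -/
theorem lad_torsion_iff_of_X_eq {L : Type*} [Field L] {E : Type*} [AddCommGroup E] (α β : ℤ)
    (M : LegModel L (α : L) (β : L) E)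
    (hαβ : ((α * β * (α + β) : ℤ) : L) ≠ 0) (k : ℕ) (P : E) (hP : P ≠ 0) (hx : M.X P = 0) :
    (2 * k + 1) • P = 0 ↔ Polynomial.aeval (M.X P) (ladL α β k) = 0 := by
  have hab : ((α * β : ℤ) : L) ≠ 0 := by
    intro h
    apply hαβ
    rw [Int.cast_mul, h, zero_mul]
  have hPT : P = M.T0 := M.eq_T0_of_X_eq_zero hP hx
  constructor
  · intro h
    rw [hPT, lad_e_odd_nsmul M.T0_add_T0 k] at h
    exact absurd h M.T0_ne_zero
  · intro h
    exfalso
    rw [hx, ← Polynomial.coeff_zero_eq_aeval_zero', Polynomial.coeff_zero_eq_eval_zero,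
      lad_L_eval_zero, eq_intCast, Int.cast_mul, Int.cast_pow, Int.cast_pow, Int.cast_neg,
      Int.cast_one] at h
    rcases mul_eq_zero.mp h with h' | h'
    · exact absurd (pow_eq_zero_iff (Nat.succ_ne_zero k) |>.mp h')
        (neg_ne_zero.mpr one_ne_zero)
    · have hk : k ^ 2 + k = 0 ∨ k ^ 2 + k ≠ 0 := Nat.eq_zero_or_pos _ |>.imp id Nat.pos_iff_ne_zero.mp
      rcases hk with hk | hk
      · rw [hk, pow_zero] at h'
        exact one_ne_zero h'
      · exact hab (pow_eq_zero_iff hk |>.mp h')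

end Fermat.Agent.S13L
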