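import Mathlib
import Fermat.Agent.S13L.Defs
import Fermat.Agent.S05L.Coords
import Fermat.Agent.S13L.LadderZero
import Fermat.Agent.S13L.LadderDeg
import Fermat.Agent.S13L.LadderEval

/-!
# S13 package (M): the Montgomery ladder polynomials — frozen top-level statements

Plan §M.  `ladL α β k` has degree `2k²+2k`, leading coefficient `-(2k+1)`, constant term
`±(αβ)^(k²+k)`, and its roots are exactly the `X`-coordinates of the nonzero `(2k+1)`-torsion
points of any Legendre model `Y² = X (X - α) (X + β)`.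
-/

set_option autoImplicit false

open Polynomial

namespace Fermat.Agent.S13L

theorem ladL_natDegree (α β : ℤ) (k : ℕ) : (ladL α β k).natDegree = 2 * k ^ 2 + 2 * k :=
  lad_natDegree_L α β k

theorem ladL_leadingCoeff (α β : ℤ) (k : ℕ) : (ladL α β k).leadingCoeff = -(2 * (k : ℤ) + 1) :=
  lad_leadingCoeff_L α β k

theorem ladL_eval_zero (α β : ℤ) (k : ℕ) :
    (ladL α β k).eval 0 = (-1) ^ (k + 1) * (α * β) ^ (k ^ 2 + k) :=
  lad_L_eval_zero α β k

/-- the roots of `ladL α β k` are the `X`-coordinates of the nonzero `(2k+1)`-torsion points. -/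
theorem lad_torsion_iff {L : Type*} [Field L] {E : Type*} [AddCommGroup E] (α β : ℤ)
    (M : S05L.LegModel L (α : L) (β : L) E) (h2 : (2 : L) ≠ 0)
    (hαβ : ((α * β * (α + β) : ℤ) : L) ≠ 0) (k : ℕ) (P : E) (hP : P ≠ 0) :
    (2 * k + 1) • P = 0 ↔ Polynomial.aeval (M.X P) (ladL α β k) = 0 := by
  by_cases hx : M.X P = 0
  · exact lad_torsion_iff_of_X_eq α β M hαβ k P hP hx
  · exact lad_torsion_iff_of_X_ne α β M h2 hαβ k P hP hx

end Fermat.Agent.S13L
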