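import Mathlib
import Fermat.Agent.S13L.Defs
import Fermat.Agent.S13L.Ladder
import Fermat.Agent.S05L.Abstract

/-!
# S13 package (P), leaf: the product of the `X`-coordinates of the nonzero `(2k+1)`-torsion points

If a Legendre model has exactly `(2k+1)² - 1` nonzero `(2k+1)`-torsion points, then their
`X`-coordinates are the `2k²+2k` simple roots of `ladL α β k` (`X` is two-to-one: `X Q = X Q'`
iff `Q' = ± Q`), whence `(2k+1) · ∏ roots = ± (αβ)^(k²+k)` by comparing constant terms.
-/

set_option autoImplicit false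

open Polynomial

namespace Fermat.Agent.S13L

/-- the fibres of `X` on a set of nonzero points have at most two elements -/
theorem atp_h129_card_le {L : Type*} [Field L] [DecidableEq L] {E : Type*} [AddCommGroup E]
    {a b : L} (M : S05L.LegModel L a b E) (F : Finset E) (hF : ∀ Q ∈ F, Q ≠ 0) :
    F.card ≤ 2 * (F.image M.X).card := by
  classical
  apply Finset.card_le_mul_card_image
  intro r hr
  obtain ⟨Q₀, hQ₀, rfl⟩ := Finset.mem_image.mp hr
  have hsub : F.filter (fun x => M.X x = M.X Q₀) ⊆ {Q₀, -Q₀} := by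
    intro Q hQ
    rw [Finset.mem_filter] at hQ
    rw [Finset.mem_insert, Finset.mem_singleton]
    exact M.eq_or_eq_neg_of_X_eq (hF Q hQ.1) (hF Q₀ hQ₀) hQ.2
  exact (Finset.card_le_card hsub).trans Finset.card_le_two

/-- a polynomial with a set `S` of roots of cardinality at least its degree is
`leadingCoeff * ∏ (X - r)`; evaluation at `0` -/
theorem atp_h129_eval_zero {L : Type*} [Field L] [DecidableEq L] (p : L[X]) (hp : p ≠ 0)
    (S : Finset L) (hS : ∀ r ∈ S, p.eval r = 0) (hcard : p.natDegree ≤ S.card) :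
    p.eval 0 = p.leadingCoeff * ∏ r ∈ S, (-r) := by
  have hle : S.val ≤ p.roots := by
    rw [Multiset.le_iff_subset S.nodup]
    intro r hr
    rw [Polynomial.mem_roots hp]
    exact hS r hr
  have hc : Multiset.card p.roots ≤ Multiset.card S.val :=
    (Polynomial.card_roots' p).trans hcard
  have heq : S.val = p.roots := Multiset.eq_of_le_of_card_le hle hc
  have hroots : Multiset.card p.roots = p.natDegree :=
    le_antisymm (Polynomial.card_roots' p) (by rw [← heq]; exact hcard)
  have hprod := Polynomial.C_leadingCoeff_mul_prod_multiset_X_sub_C hroots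
  rw [← heq] at hprod
  have h1 : (S.val.map fun a => (X - C a : L[X])).prod = ∏ r ∈ S, (X - C r : L[X]) := rfl
  rw [h1] at hprod
  conv_lhs => rw [← hprod]
  rw [Polynomial.eval_mul, Polynomial.eval_C, Polynomial.eval_prod]
  congr 1
  apply Finset.prod_congr rfl
  intro r _
  simp

theorem atp_roots_prod {L : Type*} [Field L] [DecidableEq L] {E : Type*} [AddCommGroup E]
    {Γ₀ : Type*} [LinearOrderedCommGroupWithZero Γ₀] (v : Valuation L Γ₀) (α β : ℤ)
    (M : S05L.LegModel L (α : L) (β : L) E) (h2 : (2 : L) ≠ 0)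
    (hαβ : ((α * β * (α + β) : ℤ) : L) ≠ 0) (k : ℕ) (hn0 : ((2 * k + 1 : ℕ) : L) ≠ 0)
    (F : Finset E) (hF : ∀ Q, Q ∈ F ↔ Q ≠ 0 ∧ (2 * k + 1) • Q = 0)
    (hcard : F.card = (2 * k + 1) ^ 2 - 1) :
    v ((2 * k + 1 : ℕ) : L) * ∏ r ∈ F.image M.X, v r = v ((α : L) * (β : L)) ^ (k ^ 2 + k) := by
  classical
  set Lk : L[X] := (ladL α β k).map (Int.castRingHom L) with hLk
  have hlc0 : Int.castRingHom L (ladL α β k).leadingCoeff = -((2 * k + 1 : ℕ) : L) := by
    rw [ladL_leadingCoeff, eq_intCast]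
    push_cast
    ring
  have hlc_ne : Int.castRingHom L (ladL α β k).leadingCoeff ≠ 0 := by
    rw [hlc0]
    exact neg_ne_zero.mpr hn0
  have hdeg : Lk.natDegree = 2 * k ^ 2 + 2 * k := by
    rw [hLk, Polynomial.natDegree_map_of_leadingCoeff_ne_zero _ hlc_ne, ladL_natDegree]
  have hlc : Lk.leadingCoeff = -((2 * k + 1 : ℕ) : L) := by
    rw [hLk, Polynomial.leadingCoeff_map_of_leadingCoeff_ne_zero _ hlc_ne, hlc0]
  have hLk0 : Lk ≠ 0 := by
    intro h
    rw [← Polynomial.leadingCoeff_eq_zero, hlc] at h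
    exact neg_ne_zero.mpr hn0 h
  have hFne : ∀ Q ∈ F, Q ≠ 0 := fun Q hQ => ((hF Q).mp hQ).1
  have hS : ∀ r ∈ F.image M.X, Lk.eval r = 0 := by
    intro r hr
    obtain ⟨Q, hQ, rfl⟩ := Finset.mem_image.mp hr
    have hQ' := (hF Q).mp hQ
    have h := (lad_torsion_iff α β M h2 hαβ k Q hQ'.1).mp hQ'.2
    rw [Polynomial.aeval_def, Polynomial.eval₂_eq_eval_map] at h
    exact h
  have hc1 := atp_h129_card_le M F hFne
  have hcard' : Lk.natDegree ≤ (F.image M.X).card := by
    rw [hdeg]
    rw [hcard] at hc1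
    have h4 : (2 * k + 1) ^ 2 - 1 = 2 * (2 * k ^ 2 + 2 * k) := by
      have : (2 * k + 1) ^ 2 = 2 * (2 * k ^ 2 + 2 * k) + 1 := by ring
      omega
    omega
  have hev := atp_h129_eval_zero Lk hLk0 (F.image M.X) hS hcard'
  have hev0 : Lk.eval 0 = (-1 : L) ^ (k + 1) * ((α : L) * (β : L)) ^ (k ^ 2 + k) := by
    have h0 : Lk.eval 0 = Int.castRingHom L ((ladL α β k).eval 0) := by
      rw [hLk, Polynomial.eval_map, Polynomial.eval₂_at_zero, Polynomial.coeff_zero_eq_eval_zero]
    rw [h0, ladL_eval_zero, eq_intCast]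
    push_cast
    ring
  have hv := congrArg v hev
  rw [hev0, hlc, map_mul, map_mul, Valuation.map_neg, map_prod, map_pow, map_pow,
    Valuation.map_neg, map_one, one_pow, one_mul] at hv
  rw [hv]
  congr 1
  apply Finset.prod_congr rfl
  intro r _
  rw [Valuation.map_neg]

end Fermat.Agent.S13L
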