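import Mathlib
import Fermat.Agent.S13L.AtPRoots

/-!
# S13 package (P), leaf: not all `(2k+1)`-torsion points lie in `E₁`

`F` = the nonzero `(2k+1)`-torsion points (exactly `(2k+1)² - 1` of them), `F0 ⊊ F` a nonempty
subset stable under negation such that the product `T` of the `X`-coordinates of `F0` is
"rational" (`1 < v T → 1 ≤ v (2k+1) · v T`).  If all points of `F` had `1 < v (X Q)` then
`v (2k+1) · ∏_{r ∈ X(F)} v r > v (2k+1) · v T ≥ 1`, contradicting `atp_roots_prod`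
(`v (αβ) ≤ 1`).
-/

set_option autoImplicit false

namespace Fermat.Agent.S13L

/-- a product of elements `> 1` is `≥ 1` -/
theorem atp_h130_one_le_prod {Γ₀ : Type*} [LinearOrderedCommGroupWithZero Γ₀] {ι : Type*}
    [DecidableEq ι] (s : Finset ι) (f : ι → Γ₀) (h : ∀ i ∈ s, 1 < f i) : 1 ≤ ∏ i ∈ s, f i := by
  induction s using Finset.induction_on with
  | empty => simp
  | insert a s ha ih =>
    rw [Finset.prod_insert ha]
    have h1 : 1 ≤ f a := (h a (Finset.mem_insert_self a s)).le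
    have h2 : 1 ≤ ∏ i ∈ s, f i := ih fun i hi => h i (Finset.mem_insert_of_mem hi)
    calc (1 : Γ₀) = 1 * 1 := (one_mul 1).symm
      _ ≤ f a * ∏ i ∈ s, f i := mul_le_mul' h1 h2

/-- a nonempty product of elements `> 1` is `> 1` -/
theorem atp_h130_one_lt_prod {Γ₀ : Type*} [LinearOrderedCommGroupWithZero Γ₀] {ι : Type*}
    [DecidableEq ι] (s : Finset ι) (f : ι → Γ₀) (h : ∀ i ∈ s, 1 < f i) (hs : s.Nonempty) :
    1 < ∏ i ∈ s, f i := by
  obtain ⟨a, ha⟩ := hs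
  rw [← Finset.mul_prod_erase s f ha]
  have h1 : 1 < f a := h a ha
  have h2 : 1 ≤ ∏ i ∈ s.erase a, f i :=
    atp_h130_one_le_prod _ f fun i hi => h i (Finset.mem_of_mem_erase hi)
  calc (1 : Γ₀) < f a := h1
    _ = f a * 1 := (mul_one _).symm
    _ ≤ f a * ∏ i ∈ s.erase a, f i := mul_le_mul' le_rfl h2

theorem atp_not_all_inE1 {L : Type*} [Field L] [DecidableEq L] {E : Type*} [AddCommGroup E]
    {Γ₀ : Type*} [LinearOrderedCommGroupWithZero Γ₀] (v : Valuation L Γ₀) (α β : ℤ)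
    (M : S05L.LegModel L (α : L) (β : L) E) (h2 : (2 : L) ≠ 0)
    (hαβ : ((α * β * (α + β) : ℤ) : L) ≠ 0) (k : ℕ) (hn0 : ((2 * k + 1 : ℕ) : L) ≠ 0)
    (hint : ∀ n : ℤ, v (n : L) ≤ 1)
    (F : Finset E) (hF : ∀ Q, Q ∈ F ↔ Q ≠ 0 ∧ (2 * k + 1) • Q = 0)
    (hcard : F.card = (2 * k + 1) ^ 2 - 1)
    (F0 : Finset E) (hF0 : F0 ⊆ F) (hne : F0.Nonempty) (hneg : ∀ Q ∈ F0, -Q ∈ F0)
    (hR : ∃ R ∈ F, R ∉ F0)
    (hrat : 1 < v (∏ r ∈ F0.image M.X, r) →
      1 ≤ v ((2 * k + 1 : ℕ) : L) * v (∏ r ∈ F0.image M.X, r)) :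
    ∃ Q ∈ F, v (M.X Q) ≤ 1 := by
  by_contra hcon
  have hall : ∀ Q ∈ F, 1 < v (M.X Q) := by
    intro Q hQ
    by_contra hle
    exact hcon ⟨Q, hQ, not_lt.mp hle⟩
  have hS : ∀ r ∈ F.image M.X, 1 < v r := by
    intro r hr
    obtain ⟨Q, hQ, rfl⟩ := Finset.mem_image.mp hr
    exact hall Q hQ
  have hsub : F0.image M.X ⊆ F.image M.X := Finset.image_subset_image hF0
  obtain ⟨R, hRF, hRF0⟩ := hR
  have hXR : M.X R ∉ F0.image M.X := by
    intro hmem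
    obtain ⟨Q, hQ, hXQ⟩ := Finset.mem_image.mp hmem
    have hR0 : R ≠ 0 := ((hF R).1 hRF).1
    have hQ0 : Q ≠ 0 := ((hF Q).1 (hF0 hQ)).1
    rcases M.eq_or_eq_neg_of_X_eq hR0 hQ0 hXQ.symm with h | h
    · exact hRF0 (h ▸ hQ)
    · exact hRF0 (h ▸ hneg Q hQ)
  have hdiff : (F.image M.X \ F0.image M.X).Nonempty :=
    ⟨M.X R, Finset.mem_sdiff.mpr ⟨Finset.mem_image_of_mem _ hRF, hXR⟩⟩
  have h0 : 1 < ∏ r ∈ F0.image M.X, v r :=
    atp_h130_one_lt_prod _ _ (fun r hr => hS r (hsub hr)) (hne.image _)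
  have h1 : 1 < ∏ r ∈ F.image M.X \ F0.image M.X, v r :=
    atp_h130_one_lt_prod _ _ (fun r hr => hS r (Finset.mem_sdiff.mp hr).1) hdiff
  have h3 : 1 ≤ v ((2 * k + 1 : ℕ) : L) * ∏ r ∈ F0.image M.X, v r := by
    have h := hrat (by rw [map_prod]; exact h0)
    rwa [map_prod] at h
  have hsplit : ∏ r ∈ F.image M.X, v r
      = (∏ r ∈ F.image M.X \ F0.image M.X, v r) * ∏ r ∈ F0.image M.X, v r :=
    (Finset.prod_sdiff hsub).symm
  have hgt : 1 < v ((2 * k + 1 : ℕ) : L) * ∏ r ∈ F.image M.X, v r := by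
    rw [hsplit, mul_left_comm]
    calc (1 : Γ₀) < ∏ r ∈ F.image M.X \ F0.image M.X, v r := h1
      _ = (∏ r ∈ F.image M.X \ F0.image M.X, v r) * 1 := (mul_one _).symm
      _ ≤ _ := mul_le_mul' le_rfl h3
  rw [atp_roots_prod v α β M h2 hαβ k hn0 F hF hcard] at hgt
  have hle : v ((α : L) * (β : L)) ≤ 1 := by
    have h := hint (α * β)
    rwa [Int.cast_mul] at h
  exact absurd hgt (not_lt.mpr (pow_le_one' hle _))

end Fermat.Agent.S13L
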