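import Mathlib
import Fermat.Agent.S13L.Defs
import Fermat.Agent.S13L.Ladder

/-!
# S13 package (M), leaf COUNT: the `n`-torsion (`n` odd) of a Legendre model with integer
parameters is finite of order `≤ n²`, and nonzero when every `r` is an `X`-coordinate
(plan §M (e))
-/

set_option autoImplicit false

open Polynomial

namespace Fermat.Agent.S13L

open Fermat.Agent.S05L

variable {L : Type*} [Field L] {E : Type*} [AddCommGroup E]

/-- the image of `ladL α β k` in `L[X]` is nonzero: its constant term is `±(αβ)^(k²+k)`. -/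
theorem tor_c_map_ne_zero (α β : ℤ) (hαβ : ((α * β * (α + β) : ℤ) : L) ≠ 0) (k : ℕ) :
    (ladL α β k).map (Int.castRingHom L) ≠ 0 := by
  intro h
  have h0 := congrArg (Polynomial.eval (0 : L)) h
  rw [eval_map, eval₂_at_zero, coeff_zero_eq_eval_zero, ladL_eval_zero, eval_zero] at h0
  have hab : ((α : L) * (β : L)) ≠ 0 := by
    intro h1
    apply hαβ
    push_cast
    rw [h1, zero_mul]
  apply pow_ne_zero (k ^ 2 + k) hab
  have h1 : ((-1 : L)) ^ (k + 1) * ((α : L) * (β : L)) ^ (k ^ 2 + k) = 0 := by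
    have := h0
    rw [eq_intCast] at this
    push_cast at this
    exact this
  rcases mul_eq_zero.mp h1 with h2 | h2
  · exact absurd h2 (pow_ne_zero _ (neg_ne_zero.mpr one_ne_zero))
  · exact h2

/-- evaluation of the image polynomial is `aeval`. -/
theorem tor_c_eval_map (α β : ℤ) (k : ℕ) (x : L) :
    ((ladL α β k).map (Int.castRingHom L)).eval x = Polynomial.aeval x (ladL α β k) := by
  rw [eval_map, aeval_def, algebraMap_int_eq]

/-- a finite set of size `≤ (2k+1)²` containing all `(2k+1)`-torsion points. -/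
theorem tor_c_bound (α β : ℤ) (M : LegModel L (α : L) (β : L) E) (h2 : (2 : L) ≠ 0)
    (hαβ : ((α * β * (α + β) : ℤ) : L) ≠ 0) (k : ℕ) :
    ∃ U : Finset E, U.card ≤ (2 * k + 1) ^ 2 ∧ ∀ Q : E, (2 * k + 1) • Q = 0 → Q ∈ U := by
  classical
  have hf0 : (ladL α β k).map (Int.castRingHom L) ≠ 0 := tor_c_map_ne_zero α β hαβ k
  have hS : ((ladL α β k).map (Int.castRingHom L)).roots.toFinset.card ≤ 2 * k ^ 2 + 2 * k :=
    (Multiset.toFinset_card_le _).trans
      ((card_roots' _).trans (natDegree_map_le.trans (ladL_natDegree α β k).le))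
  -- for every `r`, a point `Q₀` such that the torsion points over `r` are `± Q₀`
  have hex : ∀ r : L, ∃ Q₀ : E, ∀ Q : E, Q ≠ 0 → (2 * k + 1) • Q = 0 → M.X Q = r →
      Q = Q₀ ∨ Q = -Q₀ := by
    intro r
    by_cases h : ∃ Q : E, Q ≠ 0 ∧ (2 * k + 1) • Q = 0 ∧ M.X Q = r
    · obtain ⟨Q₀, hQ₀, -, hX₀⟩ := h
      exact ⟨Q₀, fun Q hQ _ hX => M.eq_or_eq_neg_of_X_eq hQ hQ₀ (hX.trans hX₀.symm)⟩
    · exact ⟨0, fun Q hQ hQt hX => absurd ⟨Q, hQ, hQt, hX⟩ h⟩
  choose pt hpt using hex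
  refine ⟨insert 0 (((ladL α β k).map (Int.castRingHom L)).roots.toFinset.image pt ∪
    ((ladL α β k).map (Int.castRingHom L)).roots.toFinset.image (fun r => -pt r)), ?_, ?_⟩
  · have h1 := Finset.card_insert_le (0 : E)
      (((ladL α β k).map (Int.castRingHom L)).roots.toFinset.image pt ∪
        ((ladL α β k).map (Int.castRingHom L)).roots.toFinset.image (fun r => -pt r))
    have h2' := Finset.card_union_le
      (((ladL α β k).map (Int.castRingHom L)).roots.toFinset.image pt)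
      (((ladL α β k).map (Int.castRingHom L)).roots.toFinset.image (fun r => -pt r))
    have h3 := Finset.card_image_le
      (s := ((ladL α β k).map (Int.castRingHom L)).roots.toFinset) (f := pt)
    have h4 := Finset.card_image_le
      (s := ((ladL α β k).map (Int.castRingHom L)).roots.toFinset) (f := fun r => -pt r)
    nlinarith [h1, h2', h3, h4, hS]
  · intro Q hQt
    by_cases hQ : Q = 0
    · rw [hQ]
      exact Finset.mem_insert_self _ _
    · have hroot : M.X Q ∈ ((ladL α β k).map (Int.castRingHom L)).roots.toFinset := by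
        rw [Multiset.mem_toFinset, mem_roots hf0, IsRoot.def, tor_c_eval_map]
        exact (lad_torsion_iff α β M h2 hαβ k Q hQ).mp hQt
      refine Finset.mem_insert_of_mem (Finset.mem_union.mpr ?_)
      rcases hpt (M.X Q) Q hQ hQt rfl with h | h
      · exact Or.inl (Finset.mem_image.mpr ⟨M.X Q, hroot, h.symm⟩)
      · exact Or.inr (Finset.mem_image.mpr ⟨M.X Q, hroot, h.symm⟩)

/-- the torsion submodule is contained in the finite set of `tor_c_bound`. -/
theorem tor_c_subset (k : ℕ) (U : Finset E) (hU : ∀ Q : E, (2 * k + 1) • Q = 0 → Q ∈ U) :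
    ((Submodule.torsionBy ℤ E ((2 * k + 1 : ℕ) : ℤ) : Submodule ℤ E) : Set E) ⊆ (U : Set E) := by
  intro Q hQ
  rw [SetLike.mem_coe, Submodule.mem_torsionBy_iff, natCast_zsmul] at hQ
  exact Finset.mem_coe.mpr (hU Q hQ)

theorem tor_finite (α β : ℤ) (M : LegModel L (α : L) (β : L) E) (h2 : (2 : L) ≠ 0)
    (hαβ : ((α * β * (α + β) : ℤ) : L) ≠ 0) (n : ℕ) (hn : Odd n) :
    Finite (Submodule.torsionBy ℤ E (n : ℤ)) := by
  obtain ⟨k, rfl⟩ := hn
  obtain ⟨U, -, hU⟩ := tor_c_bound α β M h2 hαβ k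
  exact (U.finite_toSet.subset (tor_c_subset k U hU)).to_subtype

theorem tor_card_le (α β : ℤ) (M : LegModel L (α : L) (β : L) E) (h2 : (2 : L) ≠ 0)
    (hαβ : ((α * β * (α + β) : ℤ) : L) ≠ 0) (n : ℕ) (hn : Odd n) :
    Nat.card (Submodule.torsionBy ℤ E (n : ℤ)) ≤ n ^ 2 := by
  obtain ⟨k, rfl⟩ := hn
  obtain ⟨U, hUc, hU⟩ := tor_c_bound α β M h2 hαβ k
  have h1 := Set.ncard_le_ncard (tor_c_subset k U hU) U.finite_toSet
  rw [Set.ncard_coe_finset] at h1
  exact le_trans h1 hUc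

theorem tor_exists_ne_zero [IsAlgClosed L] [CharZero L] (α β : ℤ)
    (M : LegModel L (α : L) (β : L) E)
    (hαβ : ((α * β * (α + β) : ℤ) : L) ≠ 0)
    (hsurj : ∀ r : L, ∃ Q : E, Q ≠ 0 ∧ M.X Q = r) (n : ℕ) (hn : Odd n) (hn3 : 3 ≤ n) :
    ∃ Q : E, Q ≠ 0 ∧ n • Q = 0 := by
  obtain ⟨k, rfl⟩ := hn
  have hk : 1 ≤ k := by omega
  have hdeg : ((ladL α β k).map (Int.castRingHom L)).natDegree = 2 * k ^ 2 + 2 * k := by
    rw [natDegree_map_eq_of_injective (RingHom.injective_int (Int.castRingHom L)),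
      ladL_natDegree]
  have hdeg' : ((ladL α β k).map (Int.castRingHom L)).degree ≠ 0 := by
    intro h0
    have h1 : ((ladL α β k).map (Int.castRingHom L)).natDegree = 0 :=
      natDegree_eq_zero_iff_degree_le_zero.mpr h0.le
    rw [hdeg] at h1
    have h3 : 0 < 2 * k ^ 2 + 2 * k := Nat.add_pos_right _ (by omega)
    exact absurd h1 (Nat.ne_of_gt h3)
  obtain ⟨r, hr⟩ := IsAlgClosed.exists_root _ hdeg'
  obtain ⟨Q, hQ, hX⟩ := hsurj r
  refine ⟨Q, hQ, (lad_torsion_iff α β M two_ne_zero hαβ k Q hQ).mpr ?_⟩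
  rw [hX, ← tor_c_eval_map]
  exact hr

end Fermat.Agent.S13L
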