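import Mathlib
import Fermat.Agent.S05L.Frey

/-!
# S13 package (M, concrete part), leaf POINT: the Frey curve as a Legendre model with integer
parameters; every `r` is the `X`-coordinate of a point over an algebraically closed field
(plan §M (e))
-/

set_option autoImplicit false

open WeierstrassCurve WeierstrassCurve.Affine

namespace Fermat.Agent.S13L

open Fermat.Agent.S05L

/-- a Legendre model with `α + β ≠ 0` is smooth: every point of the equation is nonsingular. -/
theorem tor_nonsingular {L : Type*} [Field L] {W : Affine L} {e α β : L} (h : IsLeg W e α β)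
    (hs : α + β ≠ 0) {x y : L} (hxy : W.Equation x y) : W.Nonsingular x y := by
  have hα : α ≠ 0 := left_ne_zero_of_mul h.hαβ
  have hβ : β ≠ 0 := right_ne_zero_of_mul h.hαβ
  have E := h.eqn hxy
  rw [W.nonsingular_iff]
  refine ⟨hxy, ?_⟩
  rw [h.ha₁, h.ha₃]
  by_cases hY : 8 * y + 4 * x = 0
  · left
    intro H
    rw [hY] at E
    have E' : (4 * x - e) * (4 * x - e - α) * (4 * x - e + β) = 0 := by
      rw [← E]
      ring
    have key : 3 * (4 * x - e) ^ 2 + 2 * (β - α) * (4 * x - e) - α * β = 0 := by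
      linear_combination (-16 : L) * H + 2 * hY - 8 * x * h.ha₂ - h.ha₄
    rcases mul_eq_zero.mp E' with h1 | h1
    · rcases mul_eq_zero.mp h1 with h2 | h2
      · apply h.hαβ
        linear_combination (-1 : L) * key + (3 * (4 * x - e) + 2 * (β - α)) * h2
      · have h3 : α * (α + β) = 0 := by
          linear_combination key - (3 * (4 * x - e) + α + 2 * β) * h2
        exact (mul_ne_zero hα hs) h3
    · have h3 : β * (α + β) = 0 := by
        linear_combination key - (3 * (4 * x - e) - 2 * α - β) * h1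
      exact (mul_ne_zero hβ hs) h3
  · right
    intro H
    apply hY
    linear_combination (4 : L) * H

/-- over an algebraically closed field every `r` is the `X`-coordinate of a nonzero point. -/
theorem tor_exists_point {L : Type*} [Field L] [DecidableEq L] [IsAlgClosed L] {W : Affine L}
    {e α β : L} (h : IsLeg W e α β) (hs : α + β ≠ 0) (r : L) :
    ∃ Q : W.Point, Q ≠ 0 ∧ (legModel W h).X Q = r := by
  have h4 := h.four_ne
  have h8 := h.eight_ne
  obtain ⟨Y₀, hY₀⟩ := IsAlgClosed.exists_pow_nat_eq (r * (r - α) * (r + β)) (n := 2) (by norm_num)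
  obtain ⟨x, hx⟩ : ∃ x : L, 4 * x = r + e := ⟨(r + e) / 4, mul_div_cancel₀ _ h4⟩
  obtain ⟨y, hy⟩ : ∃ y : L, 8 * y = Y₀ - 4 * x := ⟨(Y₀ - 4 * x) / 8, mul_div_cancel₀ _ h8⟩
  have hX : 4 * x - e = r := by linear_combination hx
  have hY : 8 * y + 4 * x = Y₀ := by linear_combination hy
  have hE : W.Equation x y := by
    rw [W.equation_iff, h.ha₁, h.ha₃]
    have h64 : (64 : L) ≠ 0 := by
      have : (64 : L) = 8 * 8 := by norm_num
      rw [this]
      exact mul_ne_zero h8 h8
    apply mul_left_cancel₀ h64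
    have hY' : (8 * y + 4 * x) ^ 2 = (4 * x - e) * (4 * x - e - α) * (4 * x - e + β) := by
      rw [hX, hY, hY₀]
    linear_combination hY' - 16 * x ^ 2 * h.ha₂ - 4 * x * h.ha₄ - h.ha₆
  refine ⟨Point.some x y (tor_nonsingular h hs hE), Point.some_ne_zero _, ?_⟩
  rw [legModel_X, ptX_some, hX]

/-- the Frey curve as a Legendre model with integer parameters `(0, a^p, b^p)`. -/
theorem tor_frey_isLeg (P : FreyPackage) (K : Type*) [Field K] [CharZero K] [Algebra ℚ K] :
    IsLeg (P.freyCurve⁄K) 0 (((P.a ^ P.p : ℤ) : ℤ) : K) (((P.b ^ P.p : ℤ) : ℤ) : K) := by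
  have ha0 : (P.a : K) ≠ 0 := by exact_mod_cast P.ha0
  have hb0 : (P.b : K) ≠ 0 := by exact_mod_cast P.hb0
  refine frey_isLeg P ?_ ?_ ?_ ?_
  · push_cast
    ring
  · push_cast
    ring
  · ring
  · push_cast
    exact mul_ne_zero (pow_ne_zero _ ha0) (pow_ne_zero _ hb0)

theorem tor_frey_ne (P : FreyPackage) (K : Type*) [Field K] [CharZero K] :
    ((P.a ^ P.p * P.b ^ P.p * (P.a ^ P.p + P.b ^ P.p) : ℤ) : K) ≠ 0 := by
  rw [Int.cast_ne_zero, P.hFLT]
  exact mul_ne_zero (mul_ne_zero (pow_ne_zero _ P.ha0) (pow_ne_zero _ P.hb0))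
    (pow_ne_zero _ P.hc0)

end Fermat.Agent.S13L
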