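import Mathlib
import Fermat.Agent.S13L.Defs
import Fermat.Agent.S13L.Ladder
import Fermat.Agent.S05L.Frey
import Fermat.Agent.S13L.TorsionPoint
import Fermat.Agent.S13L.TorsionCount

/-!
# S13 package (M, concrete part): `E[p](ℚ̄)` of the Frey curve is nonzero, finite, of order `≤ p²`
-/

set_option autoImplicit false

open WeierstrassCurve WeierstrassCurve.Affine WeierstrassCurve.Affine.Point

namespace Fermat.Agent.S13L

open Fermat.Agent.S05L in
/-- the hypothesis `αβ(α+β) ≠ 0` of the ladder statements, for the Frey parameters. -/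
theorem tor_frey_hαβ (P : FreyPackage) :
    ((P.a ^ P.p * P.b ^ P.p * (P.a ^ P.p + P.b ^ P.p) : ℤ) : AlgebraicClosure ℚ) ≠ 0 :=
  tor_frey_ne P (AlgebraicClosure ℚ)

theorem tor_frey_sum_ne (P : FreyPackage) :
    (((P.a ^ P.p : ℤ) : ℤ) : AlgebraicClosure ℚ) + (((P.b ^ P.p : ℤ) : ℤ) : AlgebraicClosure ℚ)
      ≠ 0 := by
  have h := tor_frey_hαβ P
  intro h0
  apply h
  push_cast at h0 ⊢
  rw [h0, mul_zero]

theorem frey_torsion_nontrivial (P : FreyPackage) :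
    Nontrivial (Submodule.torsionBy ℤ (P.freyCurve⁄(AlgebraicClosure ℚ)).Point P.p) := by
  have hleg := tor_frey_isLeg P (AlgebraicClosure ℚ)
  obtain ⟨Q, hQ0, hQ⟩ := tor_exists_ne_zero (P.a ^ P.p) (P.b ^ P.p)
    (S05L.legModel (P.freyCurve⁄(AlgebraicClosure ℚ)) hleg) (tor_frey_hαβ P)
    (fun r => tor_exists_point hleg (tor_frey_sum_ne P) r) P.p P.hp_odd
    (by have := P.hp5; omega)
  refine ⟨⟨⟨Q, ?_⟩, 0, ?_⟩⟩
  · rw [Submodule.mem_torsionBy_iff, natCast_zsmul]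
    exact hQ
  · intro h
    exact hQ0 (congrArg Subtype.val h)

theorem frey_torsion_finite (P : FreyPackage) :
    Finite (Submodule.torsionBy ℤ (P.freyCurve⁄(AlgebraicClosure ℚ)).Point P.p) :=
  tor_finite (P.a ^ P.p) (P.b ^ P.p)
    (S05L.legModel (P.freyCurve⁄(AlgebraicClosure ℚ)) (tor_frey_isLeg P (AlgebraicClosure ℚ)))
    two_ne_zero (tor_frey_hαβ P) P.p P.hp_odd

theorem frey_torsion_card_le (P : FreyPackage) :
    Nat.card (Submodule.torsionBy ℤ (P.freyCurve⁄(AlgebraicClosure ℚ)).Point P.p) ≤ P.p ^ 2 :=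
  tor_card_le (P.a ^ P.p) (P.b ^ P.p)
    (S05L.legModel (P.freyCurve⁄(AlgebraicClosure ℚ)) (tor_frey_isLeg P (AlgebraicClosure ℚ)))
    two_ne_zero (tor_frey_hαβ P) P.p P.hp_odd

end Fermat.Agent.S13L
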