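import Mathlib
import Fermat.Agent.S13L.Defs
import Fermat.Agent.S13L.Ladder
import Fermat.Agent.S13L.Torsion
import Fermat.Agent.S05L.Frey
import Fermat.Agent.S13L.AtPInert
import Fermat.Agent.S13L.AtPVal
import Fermat.Agent.S13L.AtPRat
import Fermat.Agent.S13L.AtPParam

/-!
# S13 package (P): glue lemmas for the proof of `at_p`

* `atp_fixed_rat`: an element of `ℚ̄` fixed by the whole Galois group is rational;
* `atp_prod_image_fixed`: the product over a finite set of coordinates which is permuted by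
  `σ` is fixed by `σ`;
* `atp_card_eq`: a space of order `≤ p²` with a proper nonzero subspace has order `p²`;
* `atp_step1`: for `σ` in the inertia group of `A ∣ p`, `σ x - x ∈ E₁` for all `x ∈ E[p]`;
* `atp_step2`: if `E[p]` has a Galois-stable proper nonzero subspace then `E[p] ⊄ E₁`.
-/

set_option autoImplicit false

open WeierstrassCurve WeierstrassCurve.Affine WeierstrassCurve.Affine.Point

namespace Fermat.Agent.S13L

/-- `E[p](ℚ̄)` for the Frey curve -/
abbrev atpV (P : FreyPackage) : Type :=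
  Submodule.torsionBy ℤ (P.freyCurve⁄(AlgebraicClosure ℚ)).Point P.p

theorem atp_fixed_rat (x : AlgebraicClosure ℚ)
    (hx : ∀ σ : AlgebraicClosure ℚ ≃ₐ[ℚ] AlgebraicClosure ℚ, σ x = x) :
    ∃ q : ℚ, (q : AlgebraicClosure ℚ) = x := by
  have hgal : ∀ (inst : Algebra ℚ (AlgebraicClosure ℚ)),
      @IsGalois ℚ _ (AlgebraicClosure ℚ) _ inst := by
    intro inst
    have : inst = AlgebraicClosure.instAlgebra ℚ := Subsingleton.elim _ _
    subst this
    infer_instance
  have hgal' : IsGalois ℚ (AlgebraicClosure ℚ) := hgal _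
  obtain ⟨q, hq⟩ := (InfiniteGalois.mem_range_algebraMap_iff_fixed (k := ℚ)
    (K := AlgebraicClosure ℚ) x).mpr hx
  exact ⟨q, by rw [← hq]; exact (eq_ratCast _ q).symm⟩

theorem atp_prod_image_fixed {K : Type*} [Field K] [DecidableEq K] {E : Type*} [DecidableEq E]
    (X : E → K) (σ : K →+* K) (φ : E → E) (hφ : Function.Injective φ) (F0 : Finset E)
    (hmaps : ∀ Q ∈ F0, φ Q ∈ F0) (hX : ∀ Q ∈ F0, X (φ Q) = σ (X Q)) :
    σ (∏ r ∈ F0.image X, r) = ∏ r ∈ F0.image X, r := by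
  have himg : F0.image φ = F0 := by
    refine Finset.eq_of_subset_of_card_le ?_ ?_
    · intro y hy
      obtain ⟨Q, hQ, rfl⟩ := Finset.mem_image.1 hy
      exact hmaps Q hQ
    · rw [Finset.card_image_of_injective _ hφ]
  have h2 : (F0.image X).image σ = F0.image X := by
    rw [Finset.image_image]
    conv_rhs => rw [← himg, Finset.image_image]
    apply Finset.image_congr
    intro Q hQ
    simp only [Function.comp_apply]
    exact (hX Q hQ).symm
  calc σ (∏ r ∈ F0.image X, r) = ∏ r ∈ F0.image X, σ r := map_prod σ _ _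
    _ = ∏ r ∈ (F0.image X).image σ, r :=
        (Finset.prod_image (s := F0.image X) (g := (σ : K → K)) (f := fun r => r)
          (fun a _ b _ hab => σ.injective hab)).symm
    _ = ∏ r ∈ F0.image X, r := by rw [h2]

theorem atp_card_eq {p : ℕ} [Fact p.Prime] {V : Type*} [AddCommGroup V] [Module (ZMod p) V]
    [Finite V] (hcard : Nat.card V ≤ p ^ 2) (N0 : Submodule (ZMod p) V)
    (hbot : N0 ≠ ⊥) (htop : N0 ≠ ⊤) : Nat.card V = p ^ 2 := by
  classical
  have : Fintype V := Fintype.ofFinite V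
  have hp : p.Prime := Fact.out
  have hV : Fintype.card V = p ^ Module.finrank (ZMod p) V := by
    have := Module.card_eq_pow_finrank (K := ZMod p) (V := V)
    rwa [ZMod.card] at this
  have hd : Module.finrank (ZMod p) V ≤ 2 := by
    have h1 : p ^ Module.finrank (ZMod p) V ≤ p ^ 2 := by
      rw [← hV, ← Nat.card_eq_fintype_card]; exact hcard
    exact (Nat.pow_le_pow_iff_right hp.one_lt).1 h1
  have hlt : Module.finrank (ZMod p) N0 < Module.finrank (ZMod p) V := Submodule.finrank_lt htop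
  have hpos : 0 < Module.finrank (ZMod p) N0 := by
    rw [Module.finrank_pos_iff]
    exact (Submodule.nontrivial_iff_ne_bot).2 hbot
  have hVd : Module.finrank (ZMod p) V = 2 := by omega
  rw [Nat.card_eq_fintype_card, hV, hVd]

/-- for `σ` in the inertia group of `A ∣ p` and `x ∈ E[p]`: `σ x - x ∈ E₁`. -/
theorem atp_step1 (P : FreyPackage) (A : ValuationSubring (AlgebraicClosure ℚ))
    (hA : A.LiesOverPrime P.p) {e α β : ℤ}
    (hleg : S05L.IsLeg (P.freyCurve⁄(AlgebraicClosure ℚ)) (e : AlgebraicClosure ℚ)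
      (α : AlgebraicClosure ℚ) (β : AlgebraicClosure ℚ))
    (hα : ¬ (P.p : ℤ) ∣ α) (hαβ : ¬ (P.p : ℤ) ∣ (α + β)) (hβ0 : β ≠ 0)
    (hβ : ¬ (P.p : ℤ) ∣ β ∨ ((P.p : ℤ) ∣ β ∧ ∃ b : ℤ, β = b ^ P.p))
    (σ : AlgebraicClosure ℚ ≃ₐ[ℚ] AlgebraicClosure ℚ) (hσ : σ ∈ A.inertiaSubgroupIn ℚ)
    (x : atpV P) :
    S05L.InE1 (S05L.legModel (P.freyCurve⁄(AlgebraicClosure ℚ)) hleg) A.valuation
      ((σ • x - x : atpV P) : (P.freyCurve⁄(AlgebraicClosure ℚ)).Point) := by
  have hdec := S05L.mem_decomposition_of_mem_inertiaIn A hσ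
  have hp := P.pp
  have hp2 : P.p ≠ 2 := by have := P.hp5; omega
  have h2 : A.valuation (2 : AlgebraicClosure ℚ) = 1 := by
    have := S05L.valuation_intCast_eq_one A hp hA (n := 2) (by
      intro h
      have h' : P.p ∣ 2 := by exact_mod_cast h
      have h5 := P.hp5
      have := Nat.le_of_dvd (by norm_num) h'
      omega)
    simpa using this
  have hαv : A.valuation ((α : ℤ) : AlgebraicClosure ℚ) = 1 :=
    S05L.valuation_intCast_eq_one A hp hA hα
  have hαβv : A.valuation ((α : AlgebraicClosure ℚ) + (β : AlgebraicClosure ℚ)) = 1 := by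
    have := S05L.valuation_intCast_eq_one A hp hA hαβ
    simpa using this
  have hβ0' : (β : AlgebraicClosure ℚ) ≠ 0 := by exact_mod_cast hβ0
  have hβv : A.valuation (β : AlgebraicClosure ℚ) = 1 ∨
      (A.valuation (β : AlgebraicClosure ℚ) < 1 ∧ ∃ b : AlgebraicClosure ℚ,
        (σ : AlgebraicClosure ℚ →+* AlgebraicClosure ℚ) b = b ∧
          (β : AlgebraicClosure ℚ) = b ^ P.p) := by
    rcases hβ with h | ⟨h, b, hb⟩
    · exact Or.inl (S05L.valuation_intCast_eq_one A hp hA h)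
    · refine Or.inr ⟨S05L.valuation_intCast_lt_one A hA h, (b : AlgebraicClosure ℚ), ?_, ?_⟩
      · exact map_intCast σ b
      · rw [hb]; push_cast; rfl
  have hs : ∃ s : AlgebraicClosure ℚ, s ^ 2 = -(α : AlgebraicClosure ℚ) :=
    IsAlgClosed.exists_pow_nat_eq _ (by norm_num)
  have hσv : ∀ z, A.valuation ((σ : AlgebraicClosure ℚ →+* AlgebraicClosure ℚ) z) ≤ 1 ↔
      A.valuation z ≤ 1 := fun z => by
    rw [A.valuation_le_one_iff, A.valuation_le_one_iff]
    exact S05L.mem_iff_of_mem_decomposition A hdec z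
  have hσm : ∀ z, A.valuation z ≤ 1 →
      A.valuation ((σ : AlgebraicClosure ℚ →+* AlgebraicClosure ℚ) z - z) < 1 := fun z hz =>
    S05L.sub_mem_nonunits_of_mem_inertiaIn A hσ ((A.valuation_le_one_iff z).1 hz)
  have hx : P.p • x.1 = 0 := by
    have hx2 := x.2
    rw [Submodule.mem_torsionBy_iff] at hx2
    rw [← natCast_zsmul]
    exact hx2
  exact atp_inert_sub_inE1 A.valuation (S05L.legModel _ hleg)
    (S05L.legAut P.freyCurve hleg σ (map_intCast σ e)) hp hp2 h2 hαv hαβv hβ0' hβv hs hσv hσm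
    x.1 hx

/-- if `E[p]` (of order `p²`) has a Galois-stable proper nonzero subspace, then `E[p] ⊄ E₁`. -/
theorem atp_step2 (P : FreyPackage) (A : ValuationSubring (AlgebraicClosure ℚ))
    (hA : A.LiesOverPrime P.p) {e α β : ℤ}
    (hleg : S05L.IsLeg (P.freyCurve⁄(AlgebraicClosure ℚ)) (e : AlgebraicClosure ℚ)
      (α : AlgebraicClosure ℚ) (β : AlgebraicClosure ℚ))
    (hα0 : α ≠ 0) (hαβ0 : α + β ≠ 0) (hβ0 : β ≠ 0)
    (hcard : Nat.card (atpV P) = P.p ^ 2)
    (N0 : Submodule (ZMod P.p) (atpV P)) (hst : IsGaloisStable ℚ N0) (hbot : N0 ≠ ⊥)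
    (htop : N0 ≠ ⊤) :
    ∃ x : atpV P, ¬ S05L.InE1 (S05L.legModel (P.freyCurve⁄(AlgebraicClosure ℚ)) hleg)
      A.valuation (x : (P.freyCurve⁄(AlgebraicClosure ℚ)).Point) := by
  classical
  have hfin : Finite (atpV P) := frey_torsion_finite P
  have : Fintype (atpV P) := Fintype.ofFinite _
  obtain ⟨k, hk⟩ := P.hp_odd
  set M := S05L.legModel (P.freyCurve⁄(AlgebraicClosure ℚ)) hleg with hM
  let ι : atpV P ↪ (P.freyCurve⁄(AlgebraicClosure ℚ)).Point :=
    ⟨Subtype.val, Subtype.val_injective⟩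
  let F : Finset (P.freyCurve⁄(AlgebraicClosure ℚ)).Point :=
    (Finset.univ.filter (fun x : atpV P => x ≠ 0)).map ι
  let F0 : Finset (P.freyCurve⁄(AlgebraicClosure ℚ)).Point :=
    (Finset.univ.filter (fun x : atpV P => x ∈ N0 ∧ x ≠ 0)).map ι
  have hmemV : ∀ Q : (P.freyCurve⁄(AlgebraicClosure ℚ)).Point,
      Q ∈ Submodule.torsionBy ℤ (P.freyCurve⁄(AlgebraicClosure ℚ)).Point (P.p : ℤ) ↔
        (2 * k + 1) • Q = 0 := by
    intro Q
    rw [Submodule.mem_torsionBy_iff, natCast_zsmul, hk]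
  have hF : ∀ Q, Q ∈ F ↔ Q ≠ 0 ∧ (2 * k + 1) • Q = 0 := by
    intro Q
    simp only [F, Finset.mem_map, Finset.mem_filter, Finset.mem_univ, true_and]
    constructor
    · rintro ⟨x, hx, rfl⟩
      exact ⟨fun h => hx (Subtype.ext h), (hmemV _).1 x.2⟩
    · rintro ⟨h0, hQ⟩
      exact ⟨⟨Q, (hmemV Q).2 hQ⟩, fun h => h0 (congrArg Subtype.val h), rfl⟩
  have hcardF : F.card = (2 * k + 1) ^ 2 - 1 := by
    rw [Finset.card_map, Finset.filter_ne', Finset.card_erase_of_mem (Finset.mem_univ _),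
      Finset.card_univ, ← Nat.card_eq_fintype_card, hcard, hk]
  have hF0 : F0 ⊆ F := by
    intro Q hQ
    simp only [F0, F, Finset.mem_map, Finset.mem_filter, Finset.mem_univ, true_and] at hQ ⊢
    obtain ⟨x, ⟨-, hx0⟩, rfl⟩ := hQ
    exact ⟨x, hx0, rfl⟩
  have hne : F0.Nonempty := by
    obtain ⟨x, hxN, hx0⟩ := Submodule.exists_mem_ne_zero_of_ne_bot hbot
    refine ⟨x.1, ?_⟩
    simp only [F0, Finset.mem_map, Finset.mem_filter, Finset.mem_univ, true_and]
    exact ⟨x, ⟨hxN, hx0⟩, rfl⟩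
  have hneg : ∀ Q ∈ F0, -Q ∈ F0 := by
    intro Q hQ
    simp only [F0, Finset.mem_map, Finset.mem_filter, Finset.mem_univ, true_and] at hQ ⊢
    obtain ⟨x, ⟨hxN, hx0⟩, rfl⟩ := hQ
    exact ⟨-x, ⟨N0.neg_mem hxN, neg_ne_zero.2 hx0⟩, rfl⟩
  have hR : ∃ R ∈ F, R ∉ F0 := by
    obtain ⟨y, hy⟩ : ∃ y : atpV P, y ∉ N0 := by
      by_contra hcon
      push Not at hcon
      exact htop (eq_top_iff.2 fun x _ => hcon x)
    have hy0 : y ≠ 0 := by
      rintro rfl
      exact hy N0.zero_mem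
    refine ⟨y.1, ?_, ?_⟩
    · simp only [F, Finset.mem_map, Finset.mem_filter, Finset.mem_univ, true_and]
      exact ⟨y, hy0, rfl⟩
    · simp only [F0, Finset.mem_map, Finset.mem_filter, Finset.mem_univ, true_and]
      rintro ⟨x, ⟨hxN, -⟩, hxy⟩
      have : x = y := Subtype.ext hxy
      exact hy (this ▸ hxN)
  have hint : ∀ n : ℤ, A.valuation (n : AlgebraicClosure ℚ) ≤ 1 :=
    fun n => S05L.valuation_intCast_le_one A n
  have hαβ' : ((α * β * (α + β) : ℤ) : AlgebraicClosure ℚ) ≠ 0 :=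
    Int.cast_ne_zero.2 (mul_ne_zero (mul_ne_zero hα0 hβ0) hαβ0)
  have hn0 : ((2 * k + 1 : ℕ) : AlgebraicClosure ℚ) ≠ 0 := Nat.cast_ne_zero.2 (by omega)
  have hrat : 1 < A.valuation (∏ r ∈ F0.image M.X, r) →
      1 ≤ A.valuation ((2 * k + 1 : ℕ) : AlgebraicClosure ℚ) *
        A.valuation (∏ r ∈ F0.image M.X, r) := by
    intro hlt
    have hfix : ∀ σ : AlgebraicClosure ℚ ≃ₐ[ℚ] AlgebraicClosure ℚ,
        σ (∏ r ∈ F0.image M.X, r) = ∏ r ∈ F0.image M.X, r := by
      intro σ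
      refine atp_prod_image_fixed M.X (σ : AlgebraicClosure ℚ →+* AlgebraicClosure ℚ)
        (fun Q => σ • Q) (MulAction.injective σ) F0 ?_ ?_
      · intro Q hQ
        simp only [F0, Finset.mem_map, Finset.mem_filter, Finset.mem_univ, true_and] at hQ ⊢
        obtain ⟨x, ⟨hxN, hx0⟩, rfl⟩ := hQ
        exact ⟨σ • x, ⟨hst σ x hxN, fun h => hx0 ((smul_eq_zero_iff_eq σ).1 h)⟩, rfl⟩
      · intro Q hQ
        have hQ0 : Q ≠ 0 := ((hF Q).1 (hF0 hQ)).1
        exact (S05L.legAut P.freyCurve hleg σ (map_intCast σ e)).X_φ Q hQ0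
    obtain ⟨q, hq⟩ := atp_fixed_rat _ hfix
    rw [← hq] at hlt ⊢
    have h := atp_rat_val A P.pp hA q hlt
    rwa [hk] at h
  obtain ⟨Q, hQF, hQv⟩ := atp_not_all_inE1 A.valuation α β M two_ne_zero hαβ' k hn0 hint F hF
    hcardF F0 hF0 hne hneg hR hrat
  obtain ⟨hQ0, hQt⟩ := (hF Q).1 hQF
  refine ⟨⟨Q, (hmemV Q).2 hQt⟩, ?_⟩
  rintro (h | h)
  · exact hQ0 h
  · exact absurd hQv (not_le.2 h)

end Fermat.Agent.S13L
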