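import Mathlib
import Fermat.Agent.S13L.Defs
import Fermat.Agent.S13L.Ladder
import Fermat.Agent.S13L.Torsion
import Fermat.Agent.S05L.Frey
import Fermat.Agent.S13L.AsmLin
import Fermat.Agent.S13L.AtPAux

/-!
# S13 package (P): inertia at `p` — frozen top-level statement

Plan §P.  For one valuation ring `A` of `ℚ̄` above `p` and a Galois-stable line `N0 ⊂ E[p]`:
the inertia group of `A` acts trivially on `N0` or on `E[p]/N0`.

Proof: `V₁ := E[p] ∩ E₁` is a subgroup, `(σ - 1) E[p] ⊂ V₁` for `σ` inertial (`atp_step1`) and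
`V₁ ≠ E[p]` (`atp_step2`).  If `N0 ∩ V₁ = 0` then `σ - 1` kills `N0`; otherwise `N0 ⊂ V₁`, and
`V₁ = N0` since a line and a point outside it span `E[p]`.
-/

set_option autoImplicit false

open WeierstrassCurve WeierstrassCurve.Affine WeierstrassCurve.Affine.Point

namespace Fermat.Agent.S13L

theorem at_p (P : FreyPackage) (A : ValuationSubring (AlgebraicClosure ℚ))
    (hA : A.LiesOverPrime P.p)
    (N0 : Submodule (ZMod P.p)
      (Submodule.torsionBy ℤ (P.freyCurve⁄(AlgebraicClosure ℚ)).Point P.p))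
    (hst : IsGaloisStable ℚ N0) (hbot : N0 ≠ ⊥) (htop : N0 ≠ ⊤) :
    (∀ σ ∈ A.inertiaSubgroupIn ℚ, ∀ x ∈ N0, σ • x = x) ∨
    (∀ σ ∈ A.inertiaSubgroupIn ℚ,
      ∀ x : Submodule.torsionBy ℤ (P.freyCurve⁄(AlgebraicClosure ℚ)).Point P.p,
        σ • x - x ∈ N0) := by
  classical
  have : Fact P.p.Prime := ⟨P.pp⟩
  have : NeZero P.p := ⟨P.hp0⟩
  have hfin : Finite (atpV P) := frey_torsion_finite P
  have hcard_le : Nat.card (atpV P) ≤ P.p ^ 2 := frey_torsion_card_le P
  have hcard : Nat.card (atpV P) = P.p ^ 2 := atp_card_eq hcard_le N0 hbot htop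
  obtain ⟨hline, hquot⟩ := asm_line_props hcard_le N0 hbot htop
  obtain ⟨e, α, β, hleg, hα, hαβ, hβ0, hβ⟩ := atp_exists_param P (AlgebraicClosure ℚ)
  have hα0 : α ≠ 0 := by
    rintro rfl
    exact hα (dvd_zero _)
  have hαβ0 : α + β ≠ 0 := by
    intro h
    rw [h] at hαβ
    exact hαβ (dvd_zero _)
  have s1 : ∀ σ ∈ A.inertiaSubgroupIn ℚ, ∀ x : atpV P,
      S05L.InE1 (S05L.legModel (P.freyCurve⁄(AlgebraicClosure ℚ)) hleg) A.valuation
        ((σ • x - x : atpV P) : (P.freyCurve⁄(AlgebraicClosure ℚ)).Point) :=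
    fun σ hσ x => atp_step1 P A hA hleg hα hαβ hβ0 hβ σ hσ x
  obtain ⟨x1, hx1⟩ := atp_step2 P A hA hleg hα0 hαβ0 hβ0 hcard N0 hst hbot htop
  have hv1 : A.valuation ((α : ℤ) : AlgebraicClosure ℚ) ≤ 1 := S05L.valuation_intCast_le_one A α
  have hv2 : A.valuation ((β : ℤ) : AlgebraicClosure ℚ) ≤ 1 := S05L.valuation_intCast_le_one A β
  have h20 : (2 : AlgebraicClosure ℚ) ≠ 0 := two_ne_zero
  have hadd : ∀ x y : atpV P,
      S05L.InE1 (S05L.legModel (P.freyCurve⁄(AlgebraicClosure ℚ)) hleg) A.valuation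
        (x : (P.freyCurve⁄(AlgebraicClosure ℚ)).Point) →
      S05L.InE1 (S05L.legModel (P.freyCurve⁄(AlgebraicClosure ℚ)) hleg) A.valuation
        (y : (P.freyCurve⁄(AlgebraicClosure ℚ)).Point) →
      S05L.InE1 (S05L.legModel (P.freyCurve⁄(AlgebraicClosure ℚ)) hleg) A.valuation
        ((x + y : atpV P) : (P.freyCurve⁄(AlgebraicClosure ℚ)).Point) :=
    fun x y hx hy => S05L.inE1_add _ A.valuation hv1 hv2 h20 hx hy
  have hsmul : ∀ (c : ZMod P.p) (x : atpV P),
      S05L.InE1 (S05L.legModel (P.freyCurve⁄(AlgebraicClosure ℚ)) hleg) A.valuation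
        (x : (P.freyCurve⁄(AlgebraicClosure ℚ)).Point) →
      S05L.InE1 (S05L.legModel (P.freyCurve⁄(AlgebraicClosure ℚ)) hleg) A.valuation
        ((c • x : atpV P) : (P.freyCurve⁄(AlgebraicClosure ℚ)).Point) := by
    intro c x hx
    have hc : c • x = c.val • x := by
      conv_lhs => rw [← ZMod.natCast_zmod_val c]
      exact Nat.cast_smul_eq_nsmul _ _ _
    rw [hc]
    exact S05L.inE1_nsmul _ A.valuation hv1 hv2 h20 hx c.val
  by_cases hcase : ∃ x0 ∈ N0, x0 ≠ 0 ∧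
      S05L.InE1 (S05L.legModel (P.freyCurve⁄(AlgebraicClosure ℚ)) hleg) A.valuation
        (x0 : (P.freyCurve⁄(AlgebraicClosure ℚ)).Point)
  · right
    obtain ⟨x0, hx0N, hx00, hx0E⟩ := hcase
    have hsub : ∀ y : atpV P,
        S05L.InE1 (S05L.legModel (P.freyCurve⁄(AlgebraicClosure ℚ)) hleg) A.valuation
          (y : (P.freyCurve⁄(AlgebraicClosure ℚ)).Point) → y ∈ N0 := by
      intro y hy
      by_contra hyN
      apply hx1
      obtain ⟨c, hc⟩ := hquot y hyN x1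
      have h3 : S05L.InE1 (S05L.legModel (P.freyCurve⁄(AlgebraicClosure ℚ)) hleg) A.valuation
          ((x1 - c • y : atpV P) : (P.freyCurve⁄(AlgebraicClosure ℚ)).Point) := by
        obtain ⟨c', hc'⟩ := hline x0 hx0N hx00 _ hc
        rw [hc']
        exact hsmul c' x0 hx0E
      have h4 := hadd _ _ h3 (hsmul c y hy)
      rwa [sub_add_cancel] at h4
    intro σ hσ x
    exact hsub _ (s1 σ hσ x)
  · left
    push Not at hcase
    intro σ hσ x hx
    have h1 : σ • x - x ∈ N0 := N0.sub_mem (hst σ x hx) hx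
    have h2 := s1 σ hσ x
    by_contra hne
    exact hcase (σ • x - x) h1 (sub_ne_zero.2 hne) h2

end Fermat.Agent.S13L
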