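import Mathlib

/-!
# S13 package T (2-adic minimal model): abstract models of `y² + xy = x³ + a₂x² + a₄x`

A `TwoModel L a₂ a₄ E` is an abelian group `E` ("the points of `y² + xy = x³ + a₂x² + a₄x` over
`L`") with coordinate functions `X Y : E → L` (junk at `0`) obeying the chord–tangent formulas
(Mathlib's `addX`, `addY`, `negY`, `slope` with `a₁ = 1`, `a₃ = 0`, `a₆ = 0`).
`T0` is the 2-torsion point `(0,0)`.  All later files of the component chain only use this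
interface (never Mathlib's elliptic curves).
-/

set_option autoImplicit false

namespace Fermat.Agent.S13L.At2

/-- An abelian group with coordinates on `y² + xy = x³ + a₂x² + a₄x`; see the module docstring. -/
structure TwoModel (L : Type*) [Field L] (a₂ a₄ : L) (E : Type*) [AddCommGroup E] where
  X : E → L
  Y : E → L
  eqn : ∀ P : E, P ≠ 0 → Y P ^ 2 + X P * Y P = X P ^ 3 + a₂ * X P ^ 2 + a₄ * X P
  ext : ∀ P Q : E, P ≠ 0 → Q ≠ 0 → X P = X Q → Y P = Y Q → P = Q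
  X_neg : ∀ P : E, P ≠ 0 → X (-P) = X P
  Y_neg : ∀ P : E, P ≠ 0 → Y (-P) = -Y P - X P
  X_add : ∀ P Q : E, P ≠ 0 → Q ≠ 0 → X P ≠ X Q →
    X (P + Q) = ((Y P - Y Q) / (X P - X Q)) ^ 2 + (Y P - Y Q) / (X P - X Q) - a₂ - X P - X Q
  Y_add : ∀ P Q : E, P ≠ 0 → Q ≠ 0 → X P ≠ X Q →
    Y (P + Q) = -((Y P - Y Q) / (X P - X Q) * (X (P + Q) - X P) + Y P) - X (P + Q)
  X_dbl : ∀ P : E, P ≠ 0 → 2 * Y P + X P ≠ 0 →
    X (P + P) = ((3 * X P ^ 2 + 2 * a₂ * X P + a₄ - Y P) / (2 * Y P + X P)) ^ 2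
      + (3 * X P ^ 2 + 2 * a₂ * X P + a₄ - Y P) / (2 * Y P + X P) - a₂ - 2 * X P
  Y_dbl : ∀ P : E, P ≠ 0 → 2 * Y P + X P ≠ 0 →
    Y (P + P) = -((3 * X P ^ 2 + 2 * a₂ * X P + a₄ - Y P) / (2 * Y P + X P)
      * (X (P + P) - X P) + Y P) - X (P + P)
  T0 : E
  T0_ne_zero : T0 ≠ 0
  X_T0 : X T0 = 0
  Y_T0 : Y T0 = 0

/-- A group endomorphism of a model acting on coordinates through the ring homomorphism `σ`
(the Galois action). -/
structure TwoAut {L : Type*} [Field L] {a₂ a₄ : L} {E : Type*} [AddCommGroup E]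
    (M : TwoModel L a₂ a₄ E) (σ : L →+* L) where
  φ : E →+ E
  ne_zero : ∀ P : E, P ≠ 0 → φ P ≠ 0
  X_φ : ∀ P : E, P ≠ 0 → M.X (φ P) = σ (M.X P)
  Y_φ : ∀ P : E, P ≠ 0 → M.Y (φ P) = σ (M.Y P)

namespace TwoModel

variable {L : Type*} [Field L] {a₂ a₄ : L} {E : Type*} [AddCommGroup E] (M : TwoModel L a₂ a₄ E)

/-- `τ = Y / X` -/
noncomputable def τ (P : E) : L := M.Y P / M.X P

theorem τ_def (P : E) : M.τ P = M.Y P / M.X P := rfl

end TwoModel

end Fermat.Agent.S13L.At2
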