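import Mathlib
import Fermat.Agent.S13L.AtTwoModel

/-!
# S13 package (T): Mathlib's Weierstrass points as a `At2.TwoModel`

For a Weierstrass curve `W` over a field `L` with `a₁ = 1`, `a₃ = 0`, `a₆ = 0`, `a₄ ≠ 0`, the
affine coordinates turn `W.Point` into a `At2.TwoModel L W.a₂ W.a₄`.
-/

set_option autoImplicit false

namespace Fermat.Agent.S13L

open WeierstrassCurve WeierstrassCurve.Affine

section coords

variable {L : Type*} [Field L]

/-- The hypotheses making `W` a curve `y² + xy = x³ + a₂x² + a₄x` with `a₄ ≠ 0`. -/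
structure At2IsT (W : Affine L) : Prop where
  ha₁ : W.a₁ = 1
  ha₃ : W.a₃ = 0
  ha₆ : W.a₆ = 0
  ha₄ : W.a₄ ≠ 0

/-- The `x`-coordinate (junk value `0` at infinity). -/
def at2_ptX (W : Affine L) : W.Point → L
  | .zero => 0
  | .some x _ _ => x

/-- The `y`-coordinate (junk value `0` at infinity). -/
def at2_ptY (W : Affine L) : W.Point → L
  | .zero => 0
  | .some _ y _ => y

@[simp] lemma at2_ptX_some (W : Affine L) {x y : L} (h : W.Nonsingular x y) :
    at2_ptX W (.some x y h) = x := rfl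

@[simp] lemma at2_ptY_some (W : Affine L) {x y : L} (h : W.Nonsingular x y) :
    at2_ptY W (.some x y h) = y := rfl

variable {W : Affine L}

lemma At2IsT.eqn (h : At2IsT W) {x y : L} (hxy : W.Equation x y) :
    y ^ 2 + x * y = x ^ 3 + W.a₂ * x ^ 2 + W.a₄ * x := by
  have E := (W.equation_iff x y).1 hxy
  rw [h.ha₁, h.ha₃, h.ha₆] at E
  linear_combination E

lemma At2IsT.nonsingular_T0 (h : At2IsT W) : W.Nonsingular 0 0 := by
  rw [W.nonsingular_iff, W.equation_iff, h.ha₁, h.ha₃, h.ha₆]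
  refine ⟨by ring, Or.inl ?_⟩
  intro H
  apply h.ha₄
  linear_combination -H

lemma At2IsT.negY_eq (h : At2IsT W) (x y : L) : W.negY x y = -y - x := by
  simp only [negY, h.ha₁, h.ha₃]; ring

lemma At2IsT.ne_negY (h : At2IsT W) {x y : L} (hY : 2 * y + x ≠ 0) : y ≠ W.negY x y := by
  rw [h.negY_eq]
  intro H
  apply hY
  linear_combination H

lemma At2IsT.addX_eq (h : At2IsT W) (x₁ x₂ ℓ : L) :
    W.addX x₁ x₂ ℓ = ℓ ^ 2 + ℓ - W.a₂ - x₁ - x₂ := by
  simp only [addX, h.ha₁]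
  ring

lemma At2IsT.addY_eq (h : At2IsT W) (x₁ x₂ y₁ ℓ : L) :
    W.addY x₁ x₂ y₁ ℓ = -(ℓ * (W.addX x₁ x₂ ℓ - x₁) + y₁) - W.addX x₁ x₂ ℓ := by
  simp only [addY, negY, negAddY, h.ha₁, h.ha₃]
  ring

end coords

section slope

variable {L : Type*} [Field L] [DecidableEq L] {W : Affine L}

lemma At2IsT.slope_chord (_h : At2IsT W) {x₁ x₂ : L} (y₁ y₂ : L) (hx : x₁ ≠ x₂) :
    W.slope x₁ x₂ y₁ y₂ = (y₁ - y₂) / (x₁ - x₂) :=
  slope_of_X_ne hx

lemma At2IsT.slope_tangent (h : At2IsT W) {x y : L} (hY : 2 * y + x ≠ 0) :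
    W.slope x x y y = (3 * x ^ 2 + 2 * W.a₂ * x + W.a₄ - y) / (2 * y + x) := by
  have hy := h.ne_negY hY
  rw [slope_of_Y_ne rfl hy, h.ha₁, h.negY_eq]
  congr 1 <;> ring

/-- Mathlib's points of `W` form a `At2.TwoModel` in the affine coordinates. -/
noncomputable def at2_twoModel (W : Affine L) (h : At2IsT W) : At2.TwoModel L W.a₂ W.a₄ W.Point where
  X := at2_ptX W
  Y := at2_ptY W
  eqn := by
    rintro (_ | ⟨x, y, hxy⟩) hP
    · exact absurd rfl hP
    · simp only [at2_ptX_some, at2_ptY_some]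
      exact h.eqn hxy.1
  ext := by
    rintro (_ | ⟨x₁, y₁, h₁⟩) (_ | ⟨x₂, y₂, h₂⟩) hP hQ hX hY
    · exact absurd rfl hP
    · exact absurd rfl hP
    · exact absurd rfl hQ
    · simp only [at2_ptX_some, at2_ptY_some] at hX hY
      subst hX
      subst hY
      rfl
  X_neg := by
    rintro (_ | ⟨x, y, hxy⟩) hP
    · exact absurd rfl hP
    · rw [Point.neg_some]; rfl
  Y_neg := by
    rintro (_ | ⟨x, y, hxy⟩) hP
    · exact absurd rfl hP
    · rw [Point.neg_some, at2_ptY_some, at2_ptY_some, at2_ptX_some, h.negY_eq]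
  X_add := by
    rintro (_ | ⟨x₁, y₁, h₁⟩) (_ | ⟨x₂, y₂, h₂⟩) hP hQ hX
    · exact absurd rfl hP
    · exact absurd rfl hP
    · exact absurd rfl hQ
    · simp only [at2_ptX_some, at2_ptY_some] at hX ⊢
      rw [Point.add_of_X_ne hX, at2_ptX_some, h.addX_eq, h.slope_chord y₁ y₂ hX]
  Y_add := by
    rintro (_ | ⟨x₁, y₁, h₁⟩) (_ | ⟨x₂, y₂, h₂⟩) hP hQ hX
    · exact absurd rfl hP
    · exact absurd rfl hP
    · exact absurd rfl hQ
    · simp only [at2_ptX_some, at2_ptY_some] at hX ⊢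
      rw [Point.add_of_X_ne hX, at2_ptX_some, at2_ptY_some, h.addY_eq, h.slope_chord y₁ y₂ hX]
  X_dbl := by
    rintro (_ | ⟨x, y, hxy⟩) hP hY
    · exact absurd rfl hP
    · simp only [at2_ptX_some, at2_ptY_some] at hY ⊢
      rw [Point.add_self_of_Y_ne (h.ne_negY hY), at2_ptX_some, h.addX_eq, h.slope_tangent hY]
      ring
  Y_dbl := by
    rintro (_ | ⟨x, y, hxy⟩) hP hY
    · exact absurd rfl hP
    · simp only [at2_ptX_some, at2_ptY_some] at hY ⊢
      rw [Point.add_self_of_Y_ne (h.ne_negY hY), at2_ptX_some, at2_ptY_some, h.addY_eq,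
        h.slope_tangent hY]
  T0 := .some 0 0 h.nonsingular_T0
  T0_ne_zero := Point.some_ne_zero _
  X_T0 := rfl
  Y_T0 := rfl

@[simp] lemma at2_twoModel_X (W : Affine L) (h : At2IsT W) : (at2_twoModel W h).X = at2_ptX W := rfl

@[simp] lemma at2_twoModel_Y (W : Affine L) (h : At2IsT W) : (at2_twoModel W h).Y = at2_ptY W := rfl

end slope

section aut

variable {R S K : Type*} [CommRing R] [CommRing S] [Field K] [DecidableEq K]
  [Algebra R S] [Algebra R K] [Algebra S K] [IsScalarTower R S K]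

/-- The Galois action `Point.map σ` as an automorphism of the `At2.TwoModel`. -/
noncomputable def at2_twoAut (W' : Affine R) (h : At2IsT (W'⁄K)) (σ : K ≃ₐ[S] K) :
    At2.TwoAut (at2_twoModel (W'⁄K) h) (σ : K →+* K) where
  φ := Point.map (W' := W') σ.toAlgHom
  ne_zero := by
    rintro (_ | ⟨x, y, hxy⟩) hP
    · exact absurd rfl hP
    · rw [Point.map_some]; exact Point.some_ne_zero _
  X_φ := by
    rintro (_ | ⟨x, y, hxy⟩) hP
    · exact absurd rfl hP
    · rw [Point.map_some]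
      rfl
  Y_φ := by
    rintro (_ | ⟨x, y, hxy⟩) hP
    · exact absurd rfl hP
    · rw [Point.map_some]
      rfl

@[simp] lemma at2_twoAut_φ (W' : Affine R) (h : At2IsT (W'⁄K)) (σ : K ≃ₐ[S] K)
    (P : (W'⁄K).Point) :
    (at2_twoAut W' h σ).φ P = Point.map (W' := W') σ.toAlgHom P := rfl

end aut

end Fermat.Agent.S13L
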