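import Mathlib
import Fermat.Prelude.Def_FLTPrelim_Ramification
import Fermat.Agent.S05L.Frey

/-!
# S13 package (T): automorphisms in a decomposition group preserve the valuation

For an algebraic extension `K / F`, a valuation subring `A` of `K` and `σ : K ≃ₐ[F] K` with
`σ • A = A` we have `A.valuation (σ z) = A.valuation z` for every `z` (orbit argument: the orbit
of `z` under `σ` is finite, and `σ` preserves the order of the valuation).
-/

set_option autoImplicit false

open scoped Pointwise

namespace Fermat.Agent.S13L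

section

variable {F K : Type*} [Field F] [Field K] [Algebra F K] (A : ValuationSubring K)

/-- some positive power of `σ` fixes `z`. -/
theorem at2_exists_pow_fix [Algebra.IsAlgebraic F K] (σ : K ≃ₐ[F] K) (z : K) :
    ∃ n : ℕ, 0 < n ∧ (σ ^ n) z = z := by
  have hz : IsIntegral F z := (Algebra.IsAlgebraic.isAlgebraic z).isIntegral
  have hfin : ((minpoly F z).rootSet K).Finite := Polynomial.rootSet_finite _ K
  have hmem : ∀ k : ℕ, (σ ^ k) z ∈ (minpoly F z).rootSet K := by
    intro k
    rw [Polynomial.mem_rootSet]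
    refine ⟨minpoly.ne_zero hz, ?_⟩
    have h := Polynomial.aeval_algHom_apply ((σ ^ k : K ≃ₐ[F] K) : K →ₐ[F] K) z (minpoly F z)
    rw [minpoly.aeval, map_zero] at h
    exact h
  have hninj : ¬ Function.Injective (fun k : ℕ => (σ ^ k) z) := by
    intro hinj
    have h1 : (Set.range fun k : ℕ => (σ ^ k) z).Infinite := Set.infinite_range_of_injective hinj
    exact h1 (hfin.subset (by rintro _ ⟨k, rfl⟩; exact hmem k))
  obtain ⟨i, j, hij, hne⟩ : ∃ i j : ℕ, (σ ^ i) z = (σ ^ j) z ∧ i ≠ j := by
    by_contra hcon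
    apply hninj
    intro i j hij
    by_contra hne
    exact hcon ⟨i, j, hij, hne⟩
  wlog hlt : i < j generalizing i j
  · exact this j i hij.symm (Ne.symm hne) (lt_of_le_of_ne (not_lt.1 hlt) (Ne.symm hne))
  refine ⟨j - i, Nat.sub_pos_of_lt hlt, ?_⟩
  have hj : j = i + (j - i) := by omega
  rw [hj, pow_add] at hij
  exact ((σ ^ i).injective hij).symm

/-- `σ` in the decomposition group preserves the valuation. -/
theorem at2_valuation_apply_of_mem_decomposition [Algebra.IsAlgebraic F K] {σ : K ≃ₐ[F] K}
    (hσ : σ ∈ A.decompositionSubgroup F) (z : K) : A.valuation (σ z) = A.valuation z := by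
  -- `σ` preserves `≤` of valuations
  have hle : ∀ x y : K, A.valuation x ≤ A.valuation y ↔ A.valuation (σ x) ≤ A.valuation (σ y) := by
    intro x y
    by_cases hy : y = 0
    · subst hy
      simp
    · have hy' : σ y ≠ 0 := (EmbeddingLike.map_ne_zero_iff).2 hy
      have h1 : A.valuation x ≤ A.valuation y ↔ A.valuation (x / y) ≤ 1 := by
        rw [map_div₀, div_le_one₀ (zero_lt_iff.2 ((map_ne_zero _).2 hy))]
      have h2 : A.valuation (σ x) ≤ A.valuation (σ y) ↔ A.valuation (σ (x / y)) ≤ 1 := by
        rw [map_div₀ σ, map_div₀, div_le_one₀ (zero_lt_iff.2 ((map_ne_zero _).2 hy'))]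
      rw [h1, h2, A.valuation_le_one_iff, A.valuation_le_one_iff]
      exact (Fermat.Agent.S05L.mem_iff_of_mem_decomposition A hσ (x / y)).symm
  have hlt : ∀ x y : K, A.valuation x < A.valuation y ↔ A.valuation (σ x) < A.valuation (σ y) := by
    intro x y
    rw [lt_iff_not_ge, lt_iff_not_ge, hle y x]
  obtain ⟨n, hn, hfix⟩ := at2_exists_pow_fix σ z
  -- powers of `σ`
  have hpow_lt : A.valuation z < A.valuation (σ z) →
      ∀ k : ℕ, A.valuation z < A.valuation ((σ ^ (k + 1)) z) := by
    intro h k
    induction k with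
    | zero => simpa using h
    | succ k ih =>
      have h1 : A.valuation (σ z) < A.valuation (σ ((σ ^ (k + 1)) z)) := (hlt _ _).1 ih
      have h2 : σ ((σ ^ (k + 1)) z) = (σ ^ (k + 1 + 1)) z := by
        rw [pow_succ' σ (k + 1)]; rfl
      rw [h2] at h1
      exact h.trans h1
  have hpow_gt : A.valuation (σ z) < A.valuation z →
      ∀ k : ℕ, A.valuation ((σ ^ (k + 1)) z) < A.valuation z := by
    intro h k
    induction k with
    | zero => simpa using h
    | succ k ih =>
      have h1 : A.valuation (σ ((σ ^ (k + 1)) z)) < A.valuation (σ z) := (hlt _ _).1 ih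
      have h2 : σ ((σ ^ (k + 1)) z) = (σ ^ (k + 1 + 1)) z := by
        rw [pow_succ' σ (k + 1)]; rfl
      rw [h2] at h1
      exact h1.trans h
  obtain ⟨m, rfl⟩ : ∃ m, n = m + 1 := ⟨n - 1, by omega⟩
  rcases lt_trichotomy (A.valuation z) (A.valuation (σ z)) with h | h | h
  · have := hpow_lt h m
    rw [hfix] at this
    exact absurd this (lt_irrefl _)
  · exact h.symm
  · have := hpow_gt h m
    rw [hfix] at this
    exact absurd this (lt_irrefl _)

/-- `σ` in the inertia group preserves the valuation. -/
theorem at2_valuation_apply_of_mem_inertiaIn [Algebra.IsAlgebraic F K] {σ : K ≃ₐ[F] K}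
    (hσ : σ ∈ A.inertiaSubgroupIn F) (z : K) : A.valuation (σ z) = A.valuation z :=
  at2_valuation_apply_of_mem_decomposition A
    (Fermat.Agent.S05L.mem_decomposition_of_mem_inertiaIn A hσ) z

end

end Fermat.Agent.S13L
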