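import Mathlib
import Fermat.Prelude.Def_FLTPrelim_Ramification
import Fermat.Agent.S05L.Frey
import Fermat.Agent.Lib.FrobeniusExists
import Fermat.Agent.S13L.AtTwoVal
import Fermat.Agent.S13L.AtTwoCoords

/-!
# S13 package (T): the Frey curve at a valuation ring above `2` (Mathlib-facing bridge)

Arithmetic of a Frey package at `2` (`a ≡ 3 mod 4`, `2 ∣ b`, `c` odd, `4 ∣ b^p - 1 - a^p`,
`b^p = 2^(m+4) u` with `u` odd, `m ≥ 1`, `p ∤ 2m`), the resulting valuation facts for a valuation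
ring `A` of a field `K ⊇ ℚ` with `2 ∈ 𝔪_A`, the two model instances (`At2IsT`, `S05L.IsLeg` with
`(e, α, β) = (0, a^p, b^p)`), the inertia facts and the rationality of the coordinates of
Galois-fixed points.
-/

set_option autoImplicit false

open scoped Pointwise
open WeierstrassCurve WeierstrassCurve.Affine

namespace Fermat.Agent.S13L

/-! ### integer arithmetic of a Frey package at `2` -/

section arith

variable (P : FreyPackage)

lemma at2_two_dvd_b : (2 : ℤ) ∣ P.b :=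
  (ZMod.intCast_zmod_eq_zero_iff_dvd P.b 2).1 P.hb2

lemma at2_four_dvd_a_sub : (4 : ℤ) ∣ P.a - 3 := by
  have h : ((P.a - 3 : ℤ) : ZMod 4) = 0 := by
    push_cast; rw [P.ha4]; exact sub_self _
  exact_mod_cast (ZMod.intCast_zmod_eq_zero_iff_dvd (P.a - 3) 4).1 h

lemma at2_not_two_dvd_a : ¬ (2 : ℤ) ∣ P.a := by
  intro h
  obtain ⟨t, ht⟩ := at2_four_dvd_a_sub P
  obtain ⟨s, hs⟩ := h
  omega

lemma at2_not_two_dvd_c : ¬ (2 : ℤ) ∣ P.c := by
  intro h
  have h1 : (2 : ℤ) ∣ P.a ^ P.p := by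
    have e : P.a ^ P.p = P.c ^ P.p - P.b ^ P.p := by linarith [P.hFLT]
    rw [e]
    exact dvd_sub (dvd_pow h P.hp0) (dvd_pow (at2_two_dvd_b P) P.hp0)
  exact at2_not_two_dvd_a P (Int.prime_two.dvd_of_dvd_pow h1)

lemma at2_four_dvd : (4 : ℤ) ∣ P.b ^ P.p - 1 - P.a ^ P.p := by
  have h : ((P.b ^ P.p - 1 - P.a ^ P.p : ℤ) : ZMod 4) = 0 := by
    push_cast
    rw [P.ha4]
    have h3 : (3 : ZMod 4) = -1 := by decide
    obtain ⟨t, ht⟩ := at2_two_dvd_b P
    have hb : (P.b : ZMod 4) ^ P.p = 0 := by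
      rw [ht]; push_cast; rw [mul_pow]
      have h2 : (2 : ZMod 4) ^ P.p = 0 := by
        obtain ⟨j, hj⟩ : ∃ j, P.p = 2 + j := ⟨P.p - 2, by have := P.hp5; omega⟩
        have h22 : (2 : ZMod 4) ^ 2 = 0 := by decide
        rw [hj, pow_add, h22, zero_mul]
      rw [h2, zero_mul]
    rw [hb, h3, Odd.neg_one_pow P.hp_odd]; ring
  exact_mod_cast (ZMod.intCast_zmod_eq_zero_iff_dvd _ 4).1 h

/-- `b = 2^k u` with `k ≥ 1` and `u` odd. -/
lemma at2_exists_b : ∃ (k : ℕ) (u : ℤ), 1 ≤ k ∧ ¬ (2 : ℤ) ∣ u ∧ P.b = 2 ^ k * u := by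
  obtain ⟨k, u, hu, hb⟩ := WfDvdMonoid.max_power_factor P.hb0 Int.prime_two.irreducible
  refine ⟨k, u, ?_, hu, hb⟩
  by_contra hk
  have hk0 : k = 0 := by omega
  subst hk0
  apply hu
  have := at2_two_dvd_b P
  rw [hb, pow_zero, one_mul] at this
  exact this

/-- `b^p = 2^(m+4) u` with `u` odd, `m ≥ 1` and `p ∤ 2m`. -/
lemma at2_exists_m : ∃ (m : ℕ) (u : ℤ), 1 ≤ m ∧ ¬ P.p ∣ 2 * m ∧ ¬ (2 : ℤ) ∣ u ∧
    P.b ^ P.p = 2 ^ (m + 4) * u := by
  obtain ⟨k, u, hk, hu, hb⟩ := at2_exists_b P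
  have hp5 := P.hp5
  have hkp : 5 ≤ P.p * k := by nlinarith
  refine ⟨P.p * k - 4, u ^ P.p, by omega, ?_, ?_, ?_⟩
  · intro hdvd
    have h8 : P.p ∣ 8 := by
      have e : 2 * (P.p * k - 4) + 8 = P.p * (2 * k) := by
        have : 4 ≤ P.p * k := by omega
        zify [this]; ring
      have h1 : P.p ∣ 2 * (P.p * k - 4) + 8 := by rw [e]; exact dvd_mul_right _ _
      exact (Nat.dvd_add_right hdvd).1 h1
    have h2 : P.p ∣ 2 := by
      have : (8 : ℕ) = 2 ^ 3 := by norm_num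
      rw [this] at h8
      exact P.pp.dvd_of_dvd_pow h8
    have := Nat.le_of_dvd (by norm_num) h2
    omega
  · intro h
    exact hu (Int.prime_two.dvd_of_dvd_pow h)
  · have e : P.p * k - 4 + 4 = k * P.p := by
      have : 4 ≤ P.p * k := by omega
      rw [Nat.sub_add_cancel this, mul_comm]
    rw [hb, mul_pow, ← pow_mul, e]

end arith

/-! ### valuation facts at a valuation ring above `2` -/

section val

variable (P : FreyPackage) {K : Type*} [Field K] (A : ValuationSubring K)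

lemma at2_v_two_lt (hA : A.LiesOverPrime 2) : A.valuation (2 : K) < 1 := by
  have h : A.valuation ((2 : ℕ) : K) < 1 := hA
  simpa using h

lemma at2_v_two_ne_zero [CharZero K] : A.valuation (2 : K) ≠ 0 :=
  (Valuation.ne_zero_iff _).2 two_ne_zero

lemma at2_v_odd (hA : A.LiesOverPrime 2) {n : ℤ} (hn : ¬ (2 : ℤ) ∣ n) :
    A.valuation (n : K) = 1 :=
  S05L.valuation_intCast_eq_one A Nat.prime_two hA (by exact_mod_cast hn)

lemma at2_v_natCast_odd (hA : A.LiesOverPrime 2) {n : ℕ} (hn : ¬ 2 ∣ n) :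
    A.valuation (n : K) = 1 := by
  have := at2_v_odd A hA (n := (n : ℤ)) (by exact_mod_cast hn)
  simpa using this

lemma at2_v_p (hA : A.LiesOverPrime 2) : A.valuation ((P.p : ℕ) : K) = 1 :=
  at2_v_natCast_odd A hA (fun h => by
    have h2 := (Nat.prime_dvd_prime_iff_eq Nat.prime_two P.pp).1 h
    have := P.hp5
    omega)

/-- `v(a^p) = 1` -/
lemma at2_v_alpha (hA : A.LiesOverPrime 2) : A.valuation ((P.a : K) ^ P.p) = 1 := by
  rw [map_pow, at2_v_odd A hA (at2_not_two_dvd_a P), one_pow]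

/-- `v(a^p + b^p) = v(c^p) = 1` -/
lemma at2_v_alpha_add_beta (hA : A.LiesOverPrime 2) :
    A.valuation ((P.a : K) ^ P.p + (P.b : K) ^ P.p) = 1 := by
  have hF : (P.a : K) ^ P.p + (P.b : K) ^ P.p = (P.c : K) ^ P.p := by
    exact_mod_cast congrArg (Int.cast : ℤ → K) P.hFLT
  rw [hF, map_pow, at2_v_odd A hA (at2_not_two_dvd_c P), one_pow]

/-- `v(b^p) = v(2)^(m+4)` with `m ≥ 1`, `p ∤ 2m`. -/
lemma at2_v_beta (hA : A.LiesOverPrime 2) : ∃ m : ℕ, 1 ≤ m ∧ ¬ P.p ∣ 2 * m ∧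
    A.valuation ((P.b : K) ^ P.p) = A.valuation (2 : K) ^ (m + 4) := by
  obtain ⟨m, u, hm, hpm, hu, hb⟩ := at2_exists_m P
  refine ⟨m, hm, hpm, ?_⟩
  have hb' : (P.b : K) ^ P.p = (2 : K) ^ (m + 4) * (u : K) := by
    exact_mod_cast congrArg (Int.cast : ℤ → K) hb
  rw [hb', map_mul, map_pow, at2_v_odd A hA hu, mul_one]

end val

/-! ### the coefficients of the Frey curve -/

section coeff

variable (P : FreyPackage) {K : Type*} [Field K] [CharZero K] [Algebra ℚ K]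

lemma at2_frey_a₂ :
    (P.freyCurve⁄K).a₂ = ((P.b : K) ^ P.p - 1 - (P.a : K) ^ P.p) / 4 := by
  simp only [WeierstrassCurve.baseChange, FreyPackage.freyCurve, WeierstrassCurve.map_a₂]
  simp only [map_div₀, map_sub, map_pow, map_intCast, map_one, map_ofNat]

lemma at2_frey_a₄ :
    (P.freyCurve⁄K).a₄ = -((P.a : K) ^ P.p * (P.b : K) ^ P.p) / 16 := by
  simp only [WeierstrassCurve.baseChange, FreyPackage.freyCurve, WeierstrassCurve.map_a₄]
  simp only [map_div₀, map_mul, map_neg, map_pow, map_intCast, map_ofNat]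
  ring

lemma at2_frey_a₄_ne_zero : (P.freyCurve⁄K).a₄ ≠ 0 := by
  rw [at2_frey_a₄]
  have ha0 : (P.a : K) ≠ 0 := by exact_mod_cast P.ha0
  have hb0 : (P.b : K) ≠ 0 := by exact_mod_cast P.hb0
  exact div_ne_zero (neg_ne_zero.2 (mul_ne_zero (pow_ne_zero _ ha0) (pow_ne_zero _ hb0)))
    (by norm_num)

/-- the Frey curve over `K` is of the shape `y² + xy = x³ + a₂x² + a₄x`, `a₄ ≠ 0`. -/
lemma at2_frey_isT : At2IsT (P.freyCurve⁄K) where
  ha₁ := by simp [WeierstrassCurve.baseChange, FreyPackage.freyCurve]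
  ha₃ := by simp [WeierstrassCurve.baseChange, FreyPackage.freyCurve]
  ha₆ := by simp [WeierstrassCurve.baseChange, FreyPackage.freyCurve]
  ha₄ := at2_frey_a₄_ne_zero P

/-- the Frey curve over `K` is the Legendre model with `(e, α, β) = (0, a^p, b^p)`. -/
lemma at2_frey_isLeg :
    S05L.IsLeg (P.freyCurve⁄K) 0 ((P.a : K) ^ P.p) ((P.b : K) ^ P.p) := by
  have ha0 : (P.a : K) ≠ 0 := by exact_mod_cast P.ha0
  have hb0 : (P.b : K) ≠ 0 := by exact_mod_cast P.hb0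
  exact S05L.frey_isLeg P (by ring) (by ring) (by ring)
    (mul_ne_zero (pow_ne_zero _ ha0) (pow_ne_zero _ hb0))

variable (A : ValuationSubring K)

/-- `a₂` is integral. -/
lemma at2_frey_v_a₂ : A.valuation (P.freyCurve⁄K).a₂ ≤ 1 := by
  obtain ⟨n, hn⟩ := at2_four_dvd P
  have h : (P.freyCurve⁄K).a₂ = (n : K) := by
    rw [at2_frey_a₂]
    have hn' : (P.b : K) ^ P.p - 1 - (P.a : K) ^ P.p = 4 * (n : K) := by
      exact_mod_cast congrArg (Int.cast : ℤ → K) hn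
    rw [hn']
    field_simp
  rw [h]
  exact S05L.valuation_intCast_le_one A n

/-- `v(a₄) = v(2)^m` with `m ≥ 1`, `p ∤ 2m`. -/
lemma at2_frey_v_a₄ (hA : A.LiesOverPrime 2) : ∃ m : ℕ, 1 ≤ m ∧ ¬ P.p ∣ 2 * m ∧
    A.valuation (P.freyCurve⁄K).a₄ = A.valuation (2 : K) ^ m := by
  obtain ⟨m, hm, hpm, hb⟩ := at2_v_beta P A hA
  refine ⟨m, hm, hpm, ?_⟩
  have h20 := at2_v_two_ne_zero A
  have h16 : A.valuation (16 : K) = A.valuation (2 : K) ^ 4 := by
    rw [← map_pow]; norm_num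
  rw [at2_frey_a₄, map_div₀, Valuation.map_neg, map_mul, at2_v_alpha P A hA, one_mul, hb, h16,
    pow_add]
  exact mul_div_cancel_right₀ _ (pow_ne_zero 4 h20)

lemma at2_frey_v_a₄_lt (hA : A.LiesOverPrime 2) : A.valuation (P.freyCurve⁄K).a₄ < 1 := by
  obtain ⟨m, hm, -, h⟩ := at2_frey_v_a₄ P A hA
  rw [h]
  exact pow_lt_one₀ zero_le (at2_v_two_lt A hA) (by omega)

end coeff

/-! ### inertia -/

section inertia

variable {F K : Type*} [Field F] [Field K] [Algebra F K] (A : ValuationSubring K)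

/-- an element of the inertia group is congruent to the identity on `A` modulo `𝔪_A`. -/
lemma at2_valuation_sub_lt_of_mem_inertiaIn {σ : K ≃ₐ[F] K} (hσ : σ ∈ A.inertiaSubgroupIn F)
    (z : K) (hz : A.valuation z ≤ 1) : A.valuation (σ z - z) < 1 :=
  S05L.sub_mem_nonunits_of_mem_inertiaIn A hσ ((A.valuation_le_one_iff z).1 hz)

end inertia

/-! ### Galois-fixed points have rational coordinates -/

section rational

variable {k K : Type*} [Field k] [Field K] [Algebra k K] [IsGalois k K]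

lemma at2_exists_of_fixed (z : K) (hz : ∀ σ : K ≃ₐ[k] K, σ z = z) :
    ∃ q : k, z = algebraMap k K q := by
  obtain ⟨q, hq⟩ := (InfiniteGalois.mem_range_algebraMap_iff_fixed (k := k) z).2 hz
  exact ⟨q, hq.symm⟩

variable [DecidableEq K] {R : Type*} [CommRing R] [Algebra R k] [Algebra R K]
  [IsScalarTower R k K]

/-- a point fixed by the Galois group is `0` or has coordinates in the base field. -/
lemma at2_coords_of_fixed (W' : Affine R) (Q : (W'⁄K).Point)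
    (hQ : ∀ σ : K ≃ₐ[k] K, σ • Q = Q) :
    Q = 0 ∨ ∃ (x y : k) (h : (W'⁄K).Nonsingular (algebraMap k K x) (algebraMap k K y)),
      Q = .some _ _ h := by
  rcases Q with _ | ⟨x, y, hxy⟩
  · exact Or.inl rfl
  · right
    have hfix : ∀ σ : K ≃ₐ[k] K, σ x = x ∧ σ y = y := by
      intro σ
      have h := hQ σ
      rw [Point.algEquiv_smul_def, Point.map_some] at h
      have h' := Point.some.inj h
      exact ⟨h'.1, h'.2⟩
    obtain ⟨qx, rfl⟩ := at2_exists_of_fixed (k := k) x (fun σ => (hfix σ).1)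
    obtain ⟨qy, rfl⟩ := at2_exists_of_fixed (k := k) y (fun σ => (hfix σ).2)
    exact ⟨qx, qy, hxy, rfl⟩

end rational

/-! ### the tangent slopes at the node -/

/-- the two roots of `t² + t - a` in an algebraically closed field of characteristic `≠ 2`. -/
lemma at2_exists_roots {K : Type*} [Field K] [IsAlgClosed K] (h2 : (2 : K) ≠ 0) (a : K) :
    ∃ s₁ s₂ : K, s₁ + s₂ = -1 ∧ s₁ * s₂ = -a := by
  obtain ⟨r, hr⟩ := IsAlgClosed.exists_pow_nat_eq (1 + 4 * a) (n := 2) (by norm_num)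
  refine ⟨(r - 1) / 2, (-r - 1) / 2, ?_, ?_⟩
  · field_simp
    ring
  · field_simp
    linear_combination -hr

/-! ### specialisation to `ℚ̄` -/

section qbar

/-- there is a valuation ring of `ℚ̄` above `2`. -/
lemma at2_exists_liesOver_two :
    ∃ A : ValuationSubring (AlgebraicClosure ℚ), A.LiesOverPrime 2 := by
  obtain ⟨Q, hQ, h2⟩ := FermatAgent.Frob.exists_maximal_over 2 Nat.prime_two
  have hQp : Q.IsPrime := hQ.isPrime
  refine ⟨FermatAgent.Frob.valSub Q, ?_⟩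
  exact FermatAgent.Frob.coe_mem_nonunits Q _ h2

/-- an element of `ℚ̄` fixed by the absolute Galois group is rational. -/
lemma at2_exists_rat_of_fixed (z : AlgebraicClosure ℚ)
    (hz : ∀ σ : AlgebraicClosure ℚ ≃ₐ[ℚ] AlgebraicClosure ℚ, σ z = z) :
    ∃ q : ℚ, z = (q : AlgebraicClosure ℚ) := by
  have := FermatAgent.Frob.isGalois_Qb
  obtain ⟨q, hq⟩ := at2_exists_of_fixed (k := ℚ) z hz
  exact ⟨q, by rw [hq, eq_ratCast]⟩

/-- a point of a curve over `ℚ̄` fixed by the absolute Galois group is `0` or has rational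
coordinates. -/
lemma at2_rat_coords_of_fixed (W' : Affine ℚ)
    (Q : (W'⁄(AlgebraicClosure ℚ)).Point)
    (hQ : ∀ σ : AlgebraicClosure ℚ ≃ₐ[ℚ] AlgebraicClosure ℚ, σ • Q = Q) :
    Q = 0 ∨ ∃ (x y : ℚ) (h : (W'⁄(AlgebraicClosure ℚ)).Nonsingular
      (x : AlgebraicClosure ℚ) (y : AlgebraicClosure ℚ)), Q = .some _ _ h := by
  have := FermatAgent.Frob.isGalois_Qb
  rcases at2_coords_of_fixed (k := ℚ) W' Q hQ with h | ⟨x, y, h, hQ'⟩
  · exact Or.inl h
  · right
    have ex : algebraMap ℚ (AlgebraicClosure ℚ) x = (x : AlgebraicClosure ℚ) := eq_ratCast _ _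
    have ey : algebraMap ℚ (AlgebraicClosure ℚ) y = (y : AlgebraicClosure ℚ) := eq_ratCast _ _
    subst hQ'
    refine ⟨x, y, by rw [← ex, ← ey]; exact h, ?_⟩
    congr 1

/-- multiples of a Galois-fixed point are Galois-fixed. -/
lemma at2_nsmul_fixed (W' : Affine ℚ)
    (Q : (W'⁄(AlgebraicClosure ℚ)).Point)
    (hQ : ∀ σ : AlgebraicClosure ℚ ≃ₐ[ℚ] AlgebraicClosure ℚ, σ • Q = Q) (k : ℕ)
    (σ : AlgebraicClosure ℚ ≃ₐ[ℚ] AlgebraicClosure ℚ) : σ • (k • Q) = k • Q := by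
  have h : σ • (k • Q) = k • (σ • Q) := map_nsmul (Point.map (W' := W') σ.toAlgHom) k Q
  rw [h, hQ σ]

end qbar

end Fermat.Agent.S13L
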