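import Fermat.Agent.S13L.AtTwoCompMain

/-!
# S13 package T (component chain): invariance of the component map under an inertial
automorphism

`A : TwoAut M σ` with `v ∘ σ = v` and `σ` trivial on the residue field: `A.φ` preserves the type
of a point and `v X`, hence `comp (A.φ P) = comp P` and `A.φ P - P ∈ E₀`.
-/

set_option autoImplicit false
set_option linter.unusedSectionVars false
set_option linter.unusedVariables false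

namespace Fermat.Agent.S13L.At2

open Fermat.Agent.S05L

variable {L : Type*} [Field L] {a₂ a₄ : L} {E : Type*} [AddCommGroup E] (M : TwoModel L a₂ a₄ E)
  {Γ₀ : Type*} [LinearOrderedCommGroupWithZero Γ₀] (v : Valuation L Γ₀)
  (ha₂ : v a₂ ≤ 1) (ha₄ : v a₄ < 1) (ha₄0 : a₄ ≠ 0) (h2 : v (2 : L) < 1) (s₁ s₂ : L)
  (hs : s₁ + s₂ = -1) (hs' : s₁ * s₂ = -a₂)
  {σ : L →+* L} (A : TwoAut M σ) (hσv : ∀ z : L, v (σ z) = v z)
  (hσm : ∀ z : L, v z ≤ 1 → v (σ z - z) < 1)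
include ha₂ ha₄ ha₄0 h2 hs hs' hσv hσm

theorem φ_eq_zero_iff (P : E) : A.φ P = 0 ↔ P = 0 := by
  constructor
  · intro h
    by_contra hP
    exact A.ne_zero P hP h
  · intro h
    rw [h, map_zero]

theorem τ_φ {P : E} (hP : P ≠ 0) : M.τ (A.φ P) = σ (M.τ P) := by
  rw [TwoModel.τ_def, TwoModel.τ_def, A.X_φ P hP, A.Y_φ P hP, map_div₀]

theorem inE0_φ_iff (P : E) : InE0 M v (A.φ P) ↔ InE0 M v P := by
  unfold InE0
  by_cases hP : P = 0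
  · subst hP
    rw [map_zero]
  · rw [A.X_φ P hP, hσv]
    constructor
    · rintro (h | h)
      · exact absurd h (A.ne_zero P hP)
      · exact Or.inr h
    · rintro (h | h)
      · exact absurd h hP
      · exact Or.inr h

theorem isNear_φ {P : E} (h : IsNear M v P) : IsNear M v (A.φ P) := by
  obtain ⟨hP, h1, h3⟩ := h
  refine ⟨A.ne_zero P hP, ?_, ?_⟩
  · rw [A.X_φ P hP, hσv]
    exact h1
  · rw [A.X_φ P hP, hσv]
    exact h3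

theorem isNearP_φ {P : E} (h : IsNearP M v s₁ P) : IsNearP M v s₁ (A.φ P) := by
  obtain ⟨hN, hτ⟩ := h
  have hP : P ≠ 0 := hN.1
  refine ⟨isNear_φ M v ha₂ ha₄ ha₄0 h2 s₁ s₂ hs hs' A hσv hσm hN, ?_⟩
  have hs1 : v s₁ ≤ 1 := v_s_le_one v ha₂ ha₄ ha₄0 h2 s₁ s₂ hs hs'
  have e : M.τ (A.φ P) - s₁ = σ (M.τ P - s₁) + (σ s₁ - s₁) := by
    rw [τ_φ M v ha₂ ha₄ ha₄0 h2 s₁ s₂ hs hs' A hσv hσm hP, map_sub]
    ring
  rw [e]
  refine Valuation.map_add_lt v ?_ (hσm s₁ hs1)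
  rw [hσv]
  exact hτ

theorem isNearM_φ {P : E} (h : IsNearM M v s₂ P) : IsNearM M v s₂ (A.φ P) := by
  exact isNearP_φ M v ha₂ ha₄ ha₄0 h2 s₂ s₁ (by rw [add_comm]; exact hs)
    (by rw [mul_comm]; exact hs') A hσv hσm h

theorem isFar_φ {P : E} (h : IsFar M v P) : IsFar M v (A.φ P) := by
  obtain ⟨hP, h1⟩ := h
  refine ⟨A.ne_zero P hP, ?_⟩
  rw [A.X_φ P hP, hσv]
  exact h1

/-- the component map is invariant under `A.φ` -/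
theorem comp_φ (P : E) : comp M v s₁ s₂ (A.φ P) = comp M v s₁ s₂ P := by
  rcases type_cases M v P with hE0 | hN | hF
  · rw [comp_of_inE0 M v ha₂ ha₄ ha₄0 h2 s₁ s₂ hs hs' hE0,
      comp_of_inE0 M v ha₂ ha₄ ha₄0 h2 s₁ s₂ hs hs'
        ((inE0_φ_iff M v ha₂ ha₄ ha₄0 h2 s₁ s₂ hs hs' A hσv hσm P).2 hE0)]
  · have hP : P ≠ 0 := hN.1
    have hX : M.X P ≠ 0 := X_ne_zero_of_isNear M v hN
    have hN' : IsNear M v (A.φ P) := isNear_φ M v ha₂ ha₄ ha₄0 h2 s₁ s₂ hs hs' A hσv hσm hN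
    have hX' : M.X (A.φ P) ≠ 0 := X_ne_zero_of_isNear M v hN'
    have hv : v (M.X (A.φ P)) = v (M.X P) := by rw [A.X_φ P hP, hσv]
    have hcls : cls v a₄ (M.X (A.φ P)) = cls v a₄ (M.X P) := cls_eq_of_v_eq v a₄ hX' hX hv
    rcases isNear_sign M v ha₂ ha₄ ha₄0 h2 s₁ s₂ hs hs' hN with hPP | hPM
    · rw [comp_of_isNearP M v ha₂ ha₄ ha₄0 h2 s₁ s₂ hs hs' hPP,
        comp_of_isNearP M v ha₂ ha₄ ha₄0 h2 s₁ s₂ hs hs'
          (isNearP_φ M v ha₂ ha₄ ha₄0 h2 s₁ s₂ hs hs' A hσv hσm hPP), hcls]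
    · rw [comp_of_isNearM M v ha₂ ha₄ ha₄0 h2 s₁ s₂ hs hs' hPM,
        comp_of_isNearM M v ha₂ ha₄ ha₄0 h2 s₁ s₂ hs hs'
          (isNearM_φ M v ha₂ ha₄ ha₄0 h2 s₁ s₂ hs hs' A hσv hσm hPM), hcls]
  · rw [comp_of_isFar M v ha₂ ha₄ ha₄0 h2 s₁ s₂ hs hs' hF,
      comp_of_isFar M v ha₂ ha₄ ha₄0 h2 s₁ s₂ hs hs'
        (isFar_φ M v ha₂ ha₄ ha₄0 h2 s₁ s₂ hs hs' A hσv hσm hF)]

/-- `A.φ P - P` lies in `E₀` -/
theorem inE0_φ_sub (P : E) : InE0 M v (A.φ P - P) := by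
  rw [← comp_eq_one_iff M v ha₂ ha₄ ha₄0 h2 s₁ s₂ hs hs', comp_sub M v ha₂ ha₄ ha₄0 h2 s₁ s₂ hs hs',
    comp_φ M v ha₂ ha₄ ha₄0 h2 s₁ s₂ hs hs' A hσv hσm P, mul_inv_cancel]

end Fermat.Agent.S13L.At2
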