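import Fermat.Agent.S13L.AtTwoMainB
import Fermat.Agent.S13L.AtTwoCompAut

/-!
# S13 package T: the two abstract main theorems for a `TwoModel` (statements FROZEN)

* `two_unipotent`: an automorphism `φ` of the model acting on coordinates through `σ`, with
  `v ∘ σ = v` and `σ ≡ id` on integral elements modulo the maximal ideal ("inertia"), satisfies
  `(φ - 1)² = 0` on the `n`-torsion for every `n` with `v n = 1`.
* `two_no_rational_torsion`: if `v a₄ = v 2 ^ m` with `p ∤ 2m`, `p ≥ 5` prime, a point of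
  order dividing `p` all of whose multiples have rational coordinates is `0`.
-/

set_option autoImplicit false

namespace Fermat.Agent.S13L.At2

open Fermat.Agent.S05L

variable {L : Type*} [Field L] {a₂ a₄ : L} {E : Type*} [AddCommGroup E] (M : TwoModel L a₂ a₄ E)
  {Γ₀ : Type*} [LinearOrderedCommGroupWithZero Γ₀] (v : Valuation L Γ₀)

/-- (a) inertia at `2` acts unipotently on the `n`-torsion (`n` a unit) -/
theorem two_unipotent (ha₂ : v a₂ ≤ 1) (ha₄ : v a₄ < 1) (ha₄0 : a₄ ≠ 0) (h2 : v (2 : L) < 1)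
    (s₁ s₂ : L) (hs : s₁ + s₂ = -1) (hs' : s₁ * s₂ = -a₂)
    (σ : L →+* L) (hσv : ∀ z : L, v (σ z) = v z)
    (hσm : ∀ z : L, v z ≤ 1 → v (σ z - z) < 1) (A : TwoAut M σ)
    (n : ℕ) (hn : v (n : L) = 1) (P : E) (hP : n • P = 0) :
    A.φ (A.φ P - P) = A.φ P - P := by
  have hQ : InE0 M v (A.φ P - P) :=
    inE0_φ_sub M v ha₂ ha₄ ha₄0 h2 s₁ s₂ hs hs' A hσv hσm P
  have h1 : InE1 M v (A.φ (A.φ P - P) - (A.φ P - P)) :=
    mainB_φ_sub_inE1_of_inE0 M v ha₂ ha₄.le h2 hσv hσm A hQ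
  have hQn : n • (A.φ P - P) = 0 := by
    rw [smul_sub, ← map_nsmul, hP, map_zero, sub_zero]
  have hn0 : n • (A.φ (A.φ P - P) - (A.φ P - P)) = 0 := by
    rw [smul_sub, ← map_nsmul, hQn, map_zero, sub_zero]
  exact sub_eq_zero.mp (inE1_eq_zero_of_nsmul_eq_zero M v ha₂ ha₄.le h1 n hn hn0)

/-- a rational point of order `p` has nonsingular reduction -/
theorem main_inE0_of_rational_torsion [CharZero L] (ha₂ : v a₂ ≤ 1) (ha₄ : v a₄ < 1)
    (ha₄0 : a₄ ≠ 0) (h2 : v (2 : L) < 1) (s₁ s₂ : L) (hs : s₁ + s₂ = -1)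
    (hs' : s₁ * s₂ = -a₂) (m : ℕ) (hm : v a₄ = v (2 : L) ^ m) (p : ℕ) (hp : p.Prime)
    (hp2 : p ≠ 2) (hpm : ¬ p ∣ 2 * m) (Q : E) (hQ : p • Q = 0)
    (hrat : ∃ x : ℚ, M.X Q = (x : L)) : InE0 M v Q := by
  have h20 : (2 : L) ≠ 0 := two_ne_zero
  have hcomp : comp M v s₁ s₂ Q ^ p = 1 := by
    rw [← comp_nsmul M v ha₂ ha₄ ha₄0 h2 s₁ s₂ hs hs' p Q, hQ]
    exact comp_zero M v ha₂ ha₄ ha₄0 h2 s₁ s₂ hs hs'
  rcases type_cases M v Q with h | h | h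
  · exact h
  · exfalso
    have hX0 : M.X Q ≠ 0 := X_ne_zero_of_isNear M v h
    have hcls : cls v a₄ (M.X Q) ^ p = 1 := by
      rcases isNear_sign M v ha₂ ha₄ ha₄0 h2 s₁ s₂ hs hs' h with h' | h'
      · rwa [comp_of_isNearP M v ha₂ ha₄ ha₄0 h2 s₁ s₂ hs hs' h'] at hcomp
      · rw [comp_of_isNearM M v ha₂ ha₄ ha₄0 h2 s₁ s₂ hs hs' h', inv_pow, inv_eq_one] at hcomp
        exact hcomp
    obtain ⟨k, hk⟩ := exists_zpow_of_cls_pow_eq_one v a₄ hX0 ha₄0 p hcls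
    obtain ⟨x, hx⟩ := hrat
    have hx0 : x ≠ 0 := by
      rintro rfl
      rw [Rat.cast_zero] at hx
      exact hX0 hx
    obtain ⟨j, hj⟩ := rat_v_eq_zpow v h2 x hx0
    rw [← hx] at hj
    -- `v 2 ^ (j * p) = v 2 ^ (m * (2 * k))`
    have e1 : v (2 : L) ^ (j * (p : ℤ)) = v (2 : L) ^ ((m : ℤ) * (2 * k)) := by
      rw [zpow_mul, zpow_mul, zpow_natCast, zpow_natCast, ← hj, ← hm, hk]
    have e2 : j * (p : ℤ) = (m : ℤ) * (2 * k) := rat_zpow_inj v h2 h20 e1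
    have hpk : (p : ℤ) ∣ k := by
      have hpZ : Prime (p : ℤ) := Nat.prime_iff_prime_int.mp hp
      have h1 : (p : ℤ) ∣ ((2 * m : ℕ) : ℤ) * k := by
        refine ⟨j, ?_⟩
        push_cast
        linear_combination -e2
      rcases hpZ.dvd_or_dvd h1 with h3 | h3
      · exact absurd (Int.natCast_dvd_natCast.mp h3) hpm
      · exact h3
    obtain ⟨k', rfl⟩ := hpk
    have hp0 : (p : ℤ) ≠ 0 := Int.natCast_ne_zero.mpr hp.ne_zero
    have e3 : j = (m : ℤ) * (2 * k') := by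
      apply mul_right_cancel₀ hp0
      rw [e2]
      ring
    -- `v a₄ < v X < 1` in terms of exponents
    have hlt1 : v (2 : L) ^ j < v (2 : L) ^ (0 : ℤ) := by
      rw [zpow_zero, ← hj]
      exact h.2.2
    have hlt2 : v (2 : L) ^ ((m : ℕ) : ℤ) < v (2 : L) ^ j := by
      rw [zpow_natCast, ← hm, ← hj]
      exact h.2.1
    have hj0 : 0 < j := (rat_zpow_lt_iff v h2 h20).mp hlt1
    have hjm : j < (m : ℤ) := (rat_zpow_lt_iff v h2 h20).mp hlt2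
    have hm0 : (0 : ℤ) ≤ (m : ℤ) := Int.natCast_nonneg m
    rcases le_or_gt k' 0 with hk' | hk'
    · have : j ≤ 0 := by
        rw [e3]
        exact mul_nonpos_of_nonneg_of_nonpos hm0 (by linarith)
      linarith
    · have : (m : ℤ) ≤ j := by
        rw [e3]
        have : (1 : ℤ) ≤ 2 * k' := by linarith
        calc (m : ℤ) = (m : ℤ) * 1 := (mul_one _).symm
          _ ≤ (m : ℤ) * (2 * k') := mul_le_mul_of_nonneg_left this hm0
      linarith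
  · exfalso
    rw [comp_of_isFar M v ha₂ ha₄ ha₄0 h2 s₁ s₂ hs hs' h] at hcomp
    obtain ⟨t, ht⟩ := hp.eq_two_or_odd'.resolve_left hp2
    have hsq : cls v a₄ a₄ ^ 2 = 1 := by
      rw [pow_two]
      exact cls_β_mul_self v a₄
    rw [ht, pow_succ, pow_mul, hsq, one_pow, one_mul] at hcomp
    exact cls_a₄_ne_one v ha₂ ha₄ ha₄0 h2 s₁ s₂ hs hs' hcomp

/-- (b) no rational `p`-torsion -/
theorem two_no_rational_torsion [CharZero L] (ha₂ : v a₂ ≤ 1) (ha₄ : v a₄ < 1) (ha₄0 : a₄ ≠ 0)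
    (h2 : v (2 : L) < 1) (s₁ s₂ : L) (hs : s₁ + s₂ = -1) (hs' : s₁ * s₂ = -a₂)
    (m : ℕ) (hm : v a₄ = v (2 : L) ^ m) (p : ℕ) (hp : p.Prime) (hp5 : 5 ≤ p)
    (hpm : ¬ p ∣ 2 * m) (P : E) (hP : p • P = 0)
    (hrat : ∀ k : ℕ, k • P ≠ 0 → ∃ x y : ℚ, M.X (k • P) = (x : L) ∧ M.Y (k • P) = (y : L)) :
    P = 0 := by
  have hp2 : p ≠ 2 := by omega
  refine mainB_rational_E0 M v ha₂ ha₄.le h2 p hp hp5 P hP ?_ hrat
  intro k
  by_cases hk : k • P = 0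
  · exact Or.inl hk
  · obtain ⟨x, y, hx, _⟩ := hrat k hk
    have hpk : p • (k • P) = 0 := by rw [smul_comm, hP, smul_zero]
    exact main_inE0_of_rational_torsion M v ha₂ ha₄ ha₄0 h2 s₁ s₂ hs hs' m hm p hp hp2 hpm
      (k • P) hpk ⟨x, hx⟩

end Fermat.Agent.S13L.At2
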