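import Mathlib
import Fermat.Agent.S13L.Defs
import Fermat.Agent.S13L.AtTwoFrey
import Fermat.Agent.S13L.AtTwoMain

/-!
# S13 package (T): the prime `2` — frozen top-level statements

Plan §T.  The Frey curve `y² + xy = x³ + a₂x² + a₄x` has multiplicative reduction at `2`
(`v₂(a₄) = p·v₂(b) - 4 ≥ 1`, prime to `p`).  Inertia at `2` acts unipotently on `E[p]`, and
`E(ℚ)[p] = 0`.
-/

set_option autoImplicit false

open WeierstrassCurve WeierstrassCurve.Affine WeierstrassCurve.Affine.Point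

namespace Fermat.Agent.S13L

/-- `(σ - 1)² = 0` on `E[p]` for `σ` in an inertia group above `2`. -/
theorem at_two (P : FreyPackage) (A : ValuationSubring (AlgebraicClosure ℚ))
    (hA : A.LiesOverPrime 2) (σ : AlgebraicClosure ℚ ≃ₐ[ℚ] AlgebraicClosure ℚ)
    (hσ : σ ∈ A.inertiaSubgroupIn ℚ)
    (x : Submodule.torsionBy ℤ (P.freyCurve⁄(AlgebraicClosure ℚ)).Point P.p) :
    σ • (σ • x - x) = σ • x - x := by
  have hT : At2IsT (P.freyCurve⁄(AlgebraicClosure ℚ)) := at2_frey_isT P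
  have halg : Algebra.IsAlgebraic ℚ (AlgebraicClosure ℚ) := AlgebraicClosure.isAlgebraic ℚ
  obtain ⟨s₁, s₂, hs, hs'⟩ := at2_exists_roots (K := AlgebraicClosure ℚ) two_ne_zero
    (P.freyCurve⁄(AlgebraicClosure ℚ)).a₂
  have hx : P.p • x.1 = 0 := by
    have hx2 := x.2
    rw [Submodule.mem_torsionBy_iff] at hx2
    rw [← natCast_zsmul]
    exact hx2
  have key := At2.two_unipotent (at2_twoModel _ hT) A.valuation (at2_frey_v_a₂ P A)
    (at2_frey_v_a₄_lt P A hA) hT.ha₄ (at2_v_two_lt A hA) s₁ s₂ hs hs'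
    (σ : AlgebraicClosure ℚ →+* AlgebraicClosure ℚ)
    (fun z => at2_valuation_apply_of_mem_inertiaIn A hσ z)
    (fun z hz => at2_valuation_sub_lt_of_mem_inertiaIn A hσ z hz)
    (at2_twoAut P.freyCurve hT σ) P.p (at2_v_p P A hA) x.1 hx
  exact Subtype.ext key

/-- the Frey curve has no rational point of order `p`. -/
theorem no_rational_torsion (P : FreyPackage)
    (x : Submodule.torsionBy ℤ (P.freyCurve⁄(AlgebraicClosure ℚ)).Point P.p)
    (hx : ∀ σ : AlgebraicClosure ℚ ≃ₐ[ℚ] AlgebraicClosure ℚ, σ • x = x) : x = 0 := by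
  obtain ⟨A, hA⟩ := at2_exists_liesOver_two
  have hT : At2IsT (P.freyCurve⁄(AlgebraicClosure ℚ)) := at2_frey_isT P
  obtain ⟨s₁, s₂, hs, hs'⟩ := at2_exists_roots (K := AlgebraicClosure ℚ) two_ne_zero
    (P.freyCurve⁄(AlgebraicClosure ℚ)).a₂
  obtain ⟨m, -, hpm, hm⟩ := at2_frey_v_a₄ P A hA
  have hxp : P.p • x.1 = 0 := by
    have hx2 := x.2
    rw [Submodule.mem_torsionBy_iff] at hx2
    rw [← natCast_zsmul]
    exact hx2
  have hfix : ∀ σ : AlgebraicClosure ℚ ≃ₐ[ℚ] AlgebraicClosure ℚ, σ • x.1 = x.1 := fun σ =>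
    congrArg Subtype.val (hx σ)
  have hrat : ∀ k : ℕ, k • x.1 ≠ 0 → ∃ u w : ℚ,
      (at2_twoModel _ hT).X (k • x.1) = (u : AlgebraicClosure ℚ) ∧
      (at2_twoModel _ hT).Y (k • x.1) = (w : AlgebraicClosure ℚ) := by
    intro k hk
    rcases at2_rat_coords_of_fixed P.freyCurve (k • x.1)
      (fun σ => at2_nsmul_fixed P.freyCurve x.1 hfix k σ) with h0 | ⟨u, w, h, hQ⟩
    · exact absurd h0 hk
    · exact ⟨u, w, by rw [hQ]; rfl, by rw [hQ]; rfl⟩
  have key := At2.two_no_rational_torsion (at2_twoModel _ hT) A.valuation (at2_frey_v_a₂ P A)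
    (at2_frey_v_a₄_lt P A hA) hT.ha₄ (at2_v_two_lt A hA) s₁ s₂ hs hs' m hm P.p P.pp P.hp5 hpm
    x.1 hxp hrat
  exact Subtype.ext key

end Fermat.Agent.S13L
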