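import Mathlib

/-!
# S13 package (G), leaf RAM: Minkowski + inertia at a ramified prime

A Galois number field `K ≠ ℚ` has a rational prime `ℓ` such that for every prime `P` of `𝓞 K`
above `ℓ` the inertia group of `P` in `Gal(K/ℚ)` is nontrivial.
(Mathlib: `NumberField.exists_not_isUnramifiedAt_int_of_isGalois`,
`Ideal.card_inertia_eq_ramificationIdxIn`, `Ideal.ramificationIdxIn_eq_ramificationIdx`,
`Ideal.ramificationIdx_eq_one_iff`.)
-/

set_option autoImplicit false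

namespace Fermat.Agent.S13L

theorem glb_exists_inertia_ne_one (K : Type*) [Field K] [NumberField K] [IsGalois ℚ K]
    (hK : 1 < Module.finrank ℚ K) :
    ∃ ℓ : ℕ, ℓ.Prime ∧ ∀ P : Ideal (NumberField.RingOfIntegers K), P.IsPrime →
      (ℓ : NumberField.RingOfIntegers K) ∈ P →
      ∃ τ : K ≃ₐ[ℚ] K, τ ≠ 1 ∧ ∀ x : NumberField.RingOfIntegers K,
        galRestrict ℤ ℚ K (NumberField.RingOfIntegers K) τ x - x ∈ P := by
  obtain ⟨p, hp, hram⟩ :=
    NumberField.exists_not_isUnramifiedAt_int_of_isGalois (K := K)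
      (𝒪 := NumberField.RingOfIntegers K) hK
  refine ⟨p, hp, fun P hP hpP => ?_⟩
  have hnot := hram P hP hpP
  let _ : MulSemiringAction (K ≃ₐ[ℚ] K) (NumberField.RingOfIntegers K) :=
    IsIntegralClosure.MulSemiringAction ℤ ℚ K (NumberField.RingOfIntegers K)
  have := IsGaloisGroup.of_isFractionRing (K ≃ₐ[ℚ] K) ℤ (NumberField.RingOfIntegers K) ℚ K
  have hp' : Prime (p : ℤ) := Nat.prime_iff_prime_int.mp hp
  have hspan : Ideal.span {(p : ℤ)} = Ideal.under ℤ P :=
    ((Ideal.liesOver_span_iff Ideal.IsPrime.ne_top' hp').mpr (by simpa using hpP)).1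
  have hpne : (Ideal.span {(p : ℤ)}) ≠ ⊥ := by
    simpa using hp.ne_zero
  have hprime : (P.under ℤ).IsPrime := inferInstance
  have hfin : Finite (ℤ ⧸ P.under ℤ) := Ring.HasFiniteQuotients.finiteQuotient (hspan ▸ hpne)
  have hcard : Nat.card (P.inertia (K ≃ₐ[ℚ] K))
      = (P.under ℤ).ramificationIdxIn (NumberField.RingOfIntegers K) :=
    Ideal.card_inertia_eq_ramificationIdxIn (P.under ℤ) P
  have hne : Nat.card (P.inertia (K ≃ₐ[ℚ] K)) ≠ 1 := by
    rw [hcard, Ideal.ramificationIdxIn_eq_ramificationIdx (P.under ℤ) P (K ≃ₐ[ℚ] K)]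
    intro h1
    exact hnot (Ideal.ramificationIdx_eq_one_iff.mp h1)
  have hbot : P.inertia (K ≃ₐ[ℚ] K) ≠ ⊥ := by
    intro h
    apply hne
    rw [h]
    simp
  obtain ⟨⟨τ, hτ⟩, hτ1⟩ := (Subgroup.ne_bot_iff_exists_ne_one).mp hbot
  refine ⟨τ, fun h => hτ1 (Subtype.ext h), fun x => ?_⟩
  exact hτ x

end Fermat.Agent.S13L
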