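import Mathlib
import Fermat.Agent.Lib.FrobeniusExists
import Fermat.Agent.S13L.GlbRam

/-!
# S13 package (G), leaf FIELD: the fixed field of `H` and its ramified prime

* `glb_isClosed`: a subgroup of `Gal(ℚ̄/ℚ)` containing the fixer of a finite set is closed (open).
* `glb_exists_bad_prime`: if `H` is moreover normal and `H ≠ ⊤`, then there is a prime `ℓ` such that
  for every prime `Q` of `ℤ̄` above `ℓ` some `g ∉ H` acts trivially on `ℤ̄^H / (Q ∩ ℤ̄^H)`.
  (`K` = fixed field of `H`, finite Galois over `ℚ`, `ℤ̄^H = 𝓞 K`; Minkowski via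
  `glb_exists_inertia_ne_one`; `g` = any lift of a nontrivial inertia element.)
-/

set_option autoImplicit false

open scoped Pointwise

namespace Fermat.Agent.S13L

attribute [local instance] FermatAgent.Frob.actB

section

attribute [local instance] FermatAgent.Frob.isAlgebraic_Qb
  FermatAgent.Frob.isAlgClosure_Qb FermatAgent.Frob.isGalois_Qb

local notation "Qb" => AlgebraicClosure ℚ
local notation "Gq" => (AlgebraicClosure ℚ ≃ₐ[ℚ] AlgebraicClosure ℚ)
local notation "Bz" => integralClosure ℤ (AlgebraicClosure ℚ)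

theorem glbf_isOpen (H : Subgroup Gq) (S : Finset Qb)
    (hS : ∀ σ : Gq, (∀ s ∈ S, σ s = s) → σ ∈ H) : IsOpen (H : Set Gq) := by
  let E : IntermediateField ℚ Qb := IntermediateField.adjoin ℚ (S : Set Qb)
  have hfd : FiniteDimensional ℚ E :=
    IntermediateField.finiteDimensional_adjoin (fun x _ => Algebra.IsIntegral.isIntegral x)
  have hopen : IsOpen (E.fixingSubgroup : Set Gq) := IntermediateField.fixingSubgroup_isOpen E
  have hle : E.fixingSubgroup ≤ H := by
    intro σ hσ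
    apply hS
    intro s hs
    rw [IntermediateField.mem_fixingSubgroup_iff] at hσ
    exact hσ s (IntermediateField.subset_adjoin ℚ _ hs)
  exact Subgroup.isOpen_mono hle hopen

theorem glbf_isClosed (H : Subgroup Gq) (S : Finset Qb)
    (hS : ∀ σ : Gq, (∀ s ∈ S, σ s = s) → σ ∈ H) : IsClosed (H : Set Gq) :=
  Subgroup.isClosed_of_isOpen H (glbf_isOpen H S hS)

/-- the inclusion of the integers of an intermediate field into `ℤ̄`. -/
noncomputable def glbf_incl (K : IntermediateField ℚ Qb) :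
    NumberField.RingOfIntegers K →+* Bz where
  toFun x := ⟨((x : K) : Qb), by
    have h : IsIntegral ℤ (x : K) := NumberField.RingOfIntegers.isIntegral_coe x
    exact h.map (IsScalarTower.toAlgHom ℤ K Qb)⟩
  map_one' := by ext; simp
  map_mul' x y := by ext; simp
  map_zero' := by ext; simp
  map_add' x y := by ext; simp

theorem glbf_incl_coe (K : IntermediateField ℚ Qb) (x : NumberField.RingOfIntegers K) :
    ((glbf_incl K x : Bz) : Qb) = ((x : K) : Qb) := rfl

theorem glbf_exists_bad_prime_aux (H : Subgroup Gq) (hn : H.Normal)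
    (hop : IsOpen (H : Set Gq)) (hcl : IsClosed (H : Set Gq))
    (hH : H ≠ ⊤) :
    ∃ ℓ : ℕ, ℓ.Prime ∧ ∀ Q : Ideal Bz, Q.IsPrime → (ℓ : Bz) ∈ Q →
      ∃ g : Gq, g ∉ H ∧ ∀ b : Bz, (∀ h ∈ H, h • b = b) → g • b - b ∈ Q := by
  let K : IntermediateField ℚ Qb := IntermediateField.fixedField H
  have hfix : K.fixingSubgroup = H := InfiniteGalois.fixingSubgroup_fixedField ⟨H, hcl⟩
  have hfd : FiniteDimensional ℚ K := by
    rw [← InfiniteGalois.isOpen_iff_finite]
    rw [hfix]
    exact hop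
  have hgal : IsGalois ℚ K := by
    have h1 := (InfiniteGalois.normal_iff_isGalois K).mp (by rw [hfix]; exact hn)
    convert h1
    exact Subsingleton.elim _ _
  have hnf : NumberField K := { to_charZero := inferInstance, to_finiteDimensional := hfd }
  have hrank : 1 < Module.finrank ℚ K := by
    by_contra hle
    have h1 : Module.finrank ℚ K = 1 := by
      have hpos : 0 < Module.finrank ℚ K := Module.finrank_pos
      omega
    have hbot : K = ⊥ := IntermediateField.finrank_eq_one_iff.mp h1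
    apply hH
    rw [← hfix, hbot, IntermediateField.fixingSubgroup_bot]
  obtain ⟨ℓ, hℓ, hram⟩ := glb_exists_inertia_ne_one K hrank
  refine ⟨ℓ, hℓ, fun Q hQ hℓQ => ?_⟩
  have hP : (Q.comap (glbf_incl K)).IsPrime := Ideal.comap_isPrime _ _
  have hℓP : (ℓ : NumberField.RingOfIntegers K) ∈ Q.comap (glbf_incl K) := by
    rw [Ideal.mem_comap, map_natCast]
    exact hℓQ
  obtain ⟨τ, hτ1, hτ⟩ := hram _ hP hℓP
  obtain ⟨g, hg⟩ := AlgEquiv.restrictNormalHom_surjective (F := ℚ) (K₁ := K) Qb τ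
  refine ⟨g, ?_, ?_⟩
  · intro hgH
    apply hτ1
    rw [← hfix, IntermediateField.mem_fixingSubgroup_iff] at hgH
    rw [← hg]
    ext x
    have h2 := AlgEquiv.restrictNormal_commutes g K x
    have h3 := hgH x x.2
    show ((g.restrictNormal K) x : Qb) = ((1 : K ≃ₐ[ℚ] K) x : Qb)
    rw [AlgEquiv.one_apply]
    exact h2.trans h3
  · intro b hb
    have hbK : (b : Qb) ∈ K := by
      rw [IntermediateField.mem_fixedField_iff]
      intro h hh
      have := hb h hh
      rw [← FermatAgent.Frob.coe_smul, this]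
    have hint : IsIntegral ℤ (⟨(b : Qb), hbK⟩ : K) := by
      have h1 : IsIntegral ℤ (algebraMap K Qb ⟨(b : Qb), hbK⟩) := b.2
      exact (isIntegral_algebraMap_iff (algebraMap K Qb).injective).mp h1
    let x : NumberField.RingOfIntegers K := ⟨⟨(b : Qb), hbK⟩, hint⟩
    have hx : glbf_incl K x = b := Subtype.ext rfl
    have key : g • b - b = glbf_incl K (galRestrict ℤ ℚ K (NumberField.RingOfIntegers K) τ x - x) := by
      apply Subtype.ext
      rw [map_sub, hx]
      push_cast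
      rw [FermatAgent.Frob.coe_smul, glbf_incl_coe]
      congr 1
      have h2 := algebraMap_galRestrict_apply ℤ τ x
      have h3 := AlgEquiv.restrictNormal_commutes g K ⟨(b : Qb), hbK⟩
      rw [← hg] at h2
      have h4 : ((galRestrict ℤ ℚ K (NumberField.RingOfIntegers K) τ x :
          NumberField.RingOfIntegers K) : K) = (g.restrictNormal K) ⟨(b : Qb), hbK⟩ := by
        rw [← hg]
        exact h2
      rw [h4]
      exact h3.symm
    rw [key]
    exact hτ x

end

theorem glb_isOpen (H : Subgroup (AlgebraicClosure ℚ ≃ₐ[ℚ] AlgebraicClosure ℚ))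
    (S : Finset (AlgebraicClosure ℚ))
    (hS : ∀ σ : AlgebraicClosure ℚ ≃ₐ[ℚ] AlgebraicClosure ℚ, (∀ s ∈ S, σ s = s) → σ ∈ H) :
    IsOpen (H : Set (AlgebraicClosure ℚ ≃ₐ[ℚ] AlgebraicClosure ℚ)) := by
  exact glbf_isOpen H S hS

theorem glb_isClosed (H : Subgroup (AlgebraicClosure ℚ ≃ₐ[ℚ] AlgebraicClosure ℚ))
    (S : Finset (AlgebraicClosure ℚ))
    (hS : ∀ σ : AlgebraicClosure ℚ ≃ₐ[ℚ] AlgebraicClosure ℚ, (∀ s ∈ S, σ s = s) → σ ∈ H) :
    IsClosed (H : Set (AlgebraicClosure ℚ ≃ₐ[ℚ] AlgebraicClosure ℚ)) := by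
  exact glbf_isClosed H S hS

theorem glb_exists_bad_prime (H : Subgroup (AlgebraicClosure ℚ ≃ₐ[ℚ] AlgebraicClosure ℚ))
    (hn : H.Normal) (S : Finset (AlgebraicClosure ℚ))
    (hS : ∀ σ : AlgebraicClosure ℚ ≃ₐ[ℚ] AlgebraicClosure ℚ, (∀ s ∈ S, σ s = s) → σ ∈ H)
    (hH : H ≠ ⊤) :
    ∃ ℓ : ℕ, ℓ.Prime ∧ ∀ Q : Ideal (integralClosure ℤ (AlgebraicClosure ℚ)), Q.IsPrime →
      (ℓ : integralClosure ℤ (AlgebraicClosure ℚ)) ∈ Q →
      ∃ g : AlgebraicClosure ℚ ≃ₐ[ℚ] AlgebraicClosure ℚ, g ∉ H ∧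
        ∀ b : integralClosure ℤ (AlgebraicClosure ℚ), (∀ h ∈ H, h • b = b) → g • b - b ∈ Q := by
  exact glbf_exists_bad_prime_aux H hn (glbf_isOpen H S hS) (glbf_isClosed H S hS) hH

end Fermat.Agent.S13L
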