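import Mathlib
import Fermat.Agent.Lib.FrobeniusExists

/-!
# S13 package (G), leaf LIFT: lifting inertia through the closed normal subgroup `H`

If `g ∈ Gal(ℚ̄/ℚ)` acts trivially on `ℤ̄^H / (Q ∩ ℤ̄^H)` (`H` closed and normal, `Q` a prime of `ℤ̄`),
then some `h * g` with `h ∈ H` stabilises `Q` and acts trivially on `ℤ̄ / Q`.
(Profinite invariant theory for the action of `H` on `ℤ̄` over `ℤ̄^H`:
`Algebra.IsInvariant.exists_smul_of_under_eq_of_profinite`,
`Ideal.Quotient.stabilizerHom_surjective_of_profinite`.)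
-/

set_option autoImplicit false

open scoped Pointwise

namespace Fermat.Agent.S13L

attribute [local instance] FermatAgent.Frob.actB

section

attribute [local instance] FermatAgent.Frob.smulComm_Bz
  FermatAgent.Frob.isInvariant FermatAgent.Frob.topB FermatAgent.Frob.discrete_Bz
  FermatAgent.Frob.continuousSMul_Bz FermatAgent.Frob.isAlgebraic_Qb
  FermatAgent.Frob.isAlgClosure_Qb FermatAgent.Frob.isGalois_Qb

local notation "Gq" => (AlgebraicClosure ℚ ≃ₐ[ℚ] AlgebraicClosure ℚ)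
local notation "Bz" => integralClosure ℤ (AlgebraicClosure ℚ)

/-- `ℤ̄^H` is the ring of invariants of `H`. -/
theorem glbl_isInvariant (H : Subgroup Gq) :
    Algebra.IsInvariant (FixedPoints.subalgebra ℤ Bz H) Bz H :=
  ⟨fun b hb => ⟨⟨b, hb⟩, rfl⟩⟩

/-- `ℤ̄^H` is stable under the whole Galois group when `H` is normal. -/
theorem glbl_smul_mem_fixed (H : Subgroup Gq) (hn : H.Normal) (g : Gq) (b : Bz)
    (hb : ∀ h ∈ H, h • b = b) : ∀ h ∈ H, h • (g • b) = g • b := by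
  intro h hh
  have h1 : g⁻¹ * h * g ∈ H := by
    have := hn.conj_mem h hh g⁻¹
    simpa using this
  have h2 := hb _ h1
  calc h • (g • b) = g • ((g⁻¹ * h * g) • b) := by
        simp only [← mul_smul]
        congr 1
        group
    _ = g • b := by rw [h2]

/-- `H` acts transitively on the primes of `ℤ̄` above a given prime of `ℤ̄^H`. -/
theorem glbl_trans (H : Subgroup Gq) (hcl : IsClosed (H : Set Gq)) (P Q : Ideal Bz)
    [P.IsPrime] [Q.IsPrime]
    (hPQ : P.under (FixedPoints.subalgebra ℤ Bz H) = Q.under (FixedPoints.subalgebra ℤ Bz H)) :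
    ∃ h : H, Q = h • P := by
  have : CompactSpace H := isCompact_iff_compactSpace.mp hcl.isCompact
  have := glbl_isInvariant H
  exact Algebra.IsInvariant.exists_smul_of_under_eq_of_profinite
    (A := FixedPoints.subalgebra ℤ Bz H) (G := H) P Q hPQ

/-- the stabiliser of `Q` in `H` surjects onto the automorphisms of `ℤ̄ / Q` over
`ℤ̄^H / (Q ∩ ℤ̄^H)`. -/
theorem glbl_surj (H : Subgroup Gq) (hcl : IsClosed (H : Set Gq)) (Q : Ideal Bz) [Q.IsPrime] :
    haveI : Q.LiesOver (Q.under (FixedPoints.subalgebra ℤ Bz H)) := ⟨rfl⟩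
    Function.Surjective
      (Ideal.Quotient.stabilizerHom Q (Q.under (FixedPoints.subalgebra ℤ Bz H)) H) := by
  have : CompactSpace H := isCompact_iff_compactSpace.mp hcl.isCompact
  have := glbl_isInvariant H
  have : Q.LiesOver (Q.under (FixedPoints.subalgebra ℤ Bz H)) := ⟨rfl⟩
  exact Ideal.Quotient.stabilizerHom_surjective_of_profinite (G := H) _ Q

/-- first correction: move `g • Q` back to `Q` by an element of `H`. -/
theorem glbl_step_stab (H : Subgroup Gq) (hn : H.Normal)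
    (hcl : IsClosed (H : Set Gq)) (Q : Ideal Bz) [Q.IsPrime] (g : Gq)
    (hg : ∀ b : Bz, (∀ h ∈ H, h • b = b) → g • b - b ∈ Q) :
    ∃ h₁ ∈ H, (h₁ * g) • Q = Q ∧
      ∀ b : Bz, (∀ h ∈ H, h • b = b) → (h₁ * g) • b - b ∈ Q := by
  have hprime : (g • Q).IsPrime := inferInstance
  have hunder : Q.under (FixedPoints.subalgebra ℤ Bz H)
      = (g • Q).under (FixedPoints.subalgebra ℤ Bz H) := by
    ext ⟨b, hb⟩
    have hb' : ∀ h ∈ H, h • b = b := fun h hh => hb ⟨h, hh⟩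
    simp only [Ideal.under_def, Ideal.mem_comap]
    show b ∈ Q ↔ b ∈ g • Q
    rw [Ideal.mem_pointwise_smul_iff_inv_smul_mem]
    have h1 := hg (g⁻¹ • b) (glbl_smul_mem_fixed H hn g⁻¹ b hb')
    rw [smul_inv_smul] at h1
    constructor
    · intro hbQ
      have := Q.sub_mem hbQ h1
      simpa using this
    · intro hbQ
      have := Q.add_mem h1 hbQ
      simpa using this
  obtain ⟨h₁, hh₁⟩ := glbl_trans H hcl Q (g • Q) hunder
  refine ⟨(h₁⁻¹ : H), (h₁⁻¹).2, ?_, ?_⟩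
  · have e : (g • Q) = (h₁ : Gq) • Q := hh₁
    rw [mul_smul, e]
    show ((h₁ : Gq)⁻¹) • ((h₁ : Gq) • Q) = Q
    rw [inv_smul_smul]
  · intro b hb
    have h2 := glbl_smul_mem_fixed H hn g b hb (h₁⁻¹ : H) (h₁⁻¹).2
    rw [mul_smul, h2]
    exact hg b hb

/-- second correction: match the action on `ℤ̄ / Q` by an element of the stabiliser in `H`. -/
theorem glbl_step_res (H : Subgroup Gq)
    (hcl : IsClosed (H : Set Gq)) (Q : Ideal Bz) [Q.IsPrime] (s : Gq) (hsQ : s • Q = Q)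
    (hs : ∀ b : Bz, (∀ h ∈ H, h • b = b) → s • b - b ∈ Q) :
    ∃ h₂ ∈ H, h₂ • Q = Q ∧ ∀ b : Bz, s • b - h₂ • b ∈ Q := by
  have : Q.LiesOver (Q.under (FixedPoints.subalgebra ℤ Bz H)) := ⟨rfl⟩
  have : Q.LiesOver (Q.under ℤ) := ⟨rfl⟩
  let φ₁ : (Bz ⧸ Q) ≃ₐ[ℤ ⧸ Q.under ℤ] (Bz ⧸ Q) :=
    Ideal.Quotient.stabilizerHom Q (Q.under ℤ) Gq ⟨s, hsQ⟩
  have hφ₁ : ∀ b : Bz, φ₁ (Ideal.Quotient.mk Q b) = Ideal.Quotient.mk Q (s • b) := fun b => rfl
  let φ : (Bz ⧸ Q) ≃ₐ[(FixedPoints.subalgebra ℤ Bz H) ⧸ Q.under (FixedPoints.subalgebra ℤ Bz H)]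
      (Bz ⧸ Q) :=
    AlgEquiv.ofRingEquiv (f := φ₁.toRingEquiv) (by
      intro c
      obtain ⟨x, rfl⟩ := Ideal.Quotient.mk_surjective c
      have e : algebraMap
          ((FixedPoints.subalgebra ℤ Bz H) ⧸ Q.under (FixedPoints.subalgebra ℤ Bz H))
          (Bz ⧸ Q) (Ideal.Quotient.mk _ x) = Ideal.Quotient.mk Q (x : Bz) :=
        Ideal.Quotient.algebraMap_mk_of_liesOver Q _ x
      rw [e]
      show φ₁ (Ideal.Quotient.mk Q (x : Bz)) = _
      rw [hφ₁, Ideal.Quotient.eq]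
      exact hs x (fun h hh => x.2 ⟨h, hh⟩))
  obtain ⟨τ, hτ⟩ := glbl_surj H hcl Q φ
  refine ⟨(τ.1 : Gq), τ.1.2, ?_, ?_⟩
  · have := τ.2
    rw [MulAction.mem_stabilizer_iff] at this
    exact this
  · intro b
    have h1 := congrArg (fun f => f (Ideal.Quotient.mk Q b)) hτ
    simp only [Ideal.Quotient.stabilizerHom_apply] at h1
    have h2 : φ (Ideal.Quotient.mk Q b) = Ideal.Quotient.mk Q (s • b) := hφ₁ b
    rw [h2] at h1
    rw [← Ideal.Quotient.eq]
    exact h1.symm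

end

theorem glb_lift (H : Subgroup (AlgebraicClosure ℚ ≃ₐ[ℚ] AlgebraicClosure ℚ)) (hn : H.Normal)
    (hcl : IsClosed (H : Set (AlgebraicClosure ℚ ≃ₐ[ℚ] AlgebraicClosure ℚ)))
    (Q : Ideal (integralClosure ℤ (AlgebraicClosure ℚ))) [Q.IsPrime]
    (g : AlgebraicClosure ℚ ≃ₐ[ℚ] AlgebraicClosure ℚ)
    (hg : ∀ b : integralClosure ℤ (AlgebraicClosure ℚ), (∀ h ∈ H, h • b = b) → g • b - b ∈ Q) :
    ∃ h ∈ H, (h * g) • Q = Q ∧
      ∀ b : integralClosure ℤ (AlgebraicClosure ℚ), (h * g) • b - b ∈ Q := by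
  obtain ⟨h₁, hh₁, hstab, hfix⟩ := glbl_step_stab H hn hcl Q g hg
  obtain ⟨h₂, hh₂, hstab₂, hres⟩ := glbl_step_res H hcl Q (h₁ * g) hstab hfix
  have hstab₂' : h₂⁻¹ • Q = Q := by
    conv_lhs => rw [← hstab₂]
    rw [inv_smul_smul]
  refine ⟨h₂⁻¹ * h₁, H.mul_mem (H.inv_mem hh₂) hh₁, ?_, ?_⟩
  · rw [mul_assoc, mul_smul, hstab, hstab₂']
  · intro b
    have h1 := hres b
    have h2 : h₂⁻¹ • ((h₁ * g) • b - h₂ • b) ∈ h₂⁻¹ • Q :=
      Ideal.smul_mem_pointwise_smul _ _ _ h1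
    rw [hstab₂', smul_sub, inv_smul_smul] at h2
    rw [mul_assoc, mul_smul]
    exact h2

end Fermat.Agent.S13L
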