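import Mathlib
import Fermat.Agent.Lib.FrobeniusExists

/-!
# S13 package (G), leaf VAL: valuation subrings of `ℚ̄` versus primes of `ℤ̄`

* `glb_exists_prime`: every valuation subring `A` of `ℚ̄` is `valSub Q` for the prime
  `Q = 𝔪_A ∩ ℤ̄` of the ring `ℤ̄` of algebraic integers.
* `glb_mem_inertia`: an automorphism stabilising `Q` and acting trivially on `ℤ̄ / Q` lies in the
  inertia group of `valSub Q`.
-/

set_option autoImplicit false

open scoped Pointwise

namespace Fermat.Agent.S13L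

attribute [local instance] FermatAgent.Frob.actB

theorem glbv_coe_mem (A : ValuationSubring (AlgebraicClosure ℚ))
    (b : integralClosure ℤ (AlgebraicClosure ℚ)) : (b : AlgebraicClosure ℚ) ∈ A := by
  have hb : IsIntegral ℤ (b : AlgebraicClosure ℚ) := b.2
  have hb' : IsIntegral A (b : AlgebraicClosure ℚ) := hb.tower_top
  obtain ⟨y, hy⟩ := IsIntegrallyClosed.isIntegral_iff.mp hb'
  rw [← hy]
  exact y.2

theorem glbv_val_le_one (A : ValuationSubring (AlgebraicClosure ℚ))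
    (b : integralClosure ℤ (AlgebraicClosure ℚ)) : A.valuation (b : AlgebraicClosure ℚ) ≤ 1 :=
  (A.valuation_le_one_iff _).mpr (glbv_coe_mem A b)

theorem glbv_exists_ideal (A : ValuationSubring (AlgebraicClosure ℚ)) :
    ∃ Q : Ideal (integralClosure ℤ (AlgebraicClosure ℚ)),
      ∀ b : integralClosure ℤ (AlgebraicClosure ℚ),
        b ∈ Q ↔ (b : AlgebraicClosure ℚ) ∈ A.nonunits := by
  refine ⟨{ carrier := {b | (b : AlgebraicClosure ℚ) ∈ A.nonunits}
            add_mem' := ?_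
            zero_mem' := ?_
            smul_mem' := ?_ }, fun _ => Iff.rfl⟩
  · intro a b ha hb
    exact A.nonunits.add_mem ha hb
  · exact A.nonunits.zero_mem
  · intro c x hx
    show ((c * x : integralClosure ℤ (AlgebraicClosure ℚ)) : AlgebraicClosure ℚ) ∈ A.nonunits
    have hx' : A.valuation (x : AlgebraicClosure ℚ) < 1 := A.mem_nonunits_iff.mp hx
    have e : ((c * x : integralClosure ℤ (AlgebraicClosure ℚ)) : AlgebraicClosure ℚ) =
        (c : AlgebraicClosure ℚ) * (x : AlgebraicClosure ℚ) := rfl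
    rw [A.mem_nonunits_iff, e, map_mul]
    exact mul_lt_of_le_one_of_lt (glbv_val_le_one A c) hx'

theorem glbv_mem_iff_lt (A : ValuationSubring (AlgebraicClosure ℚ))
    (Q : Ideal (integralClosure ℤ (AlgebraicClosure ℚ)))
    (hQ : ∀ b : integralClosure ℤ (AlgebraicClosure ℚ),
      b ∈ Q ↔ (b : AlgebraicClosure ℚ) ∈ A.nonunits)
    (b : integralClosure ℤ (AlgebraicClosure ℚ)) :
    b ∈ Q ↔ A.valuation (b : AlgebraicClosure ℚ) < 1 := by
  rw [hQ b]
  exact A.mem_nonunits_iff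

theorem glbv_not_mem_iff (A : ValuationSubring (AlgebraicClosure ℚ))
    (Q : Ideal (integralClosure ℤ (AlgebraicClosure ℚ)))
    (hQ : ∀ b : integralClosure ℤ (AlgebraicClosure ℚ),
      b ∈ Q ↔ (b : AlgebraicClosure ℚ) ∈ A.nonunits)
    (b : integralClosure ℤ (AlgebraicClosure ℚ)) :
    b ∉ Q ↔ A.valuation (b : AlgebraicClosure ℚ) = 1 := by
  rw [glbv_mem_iff_lt A Q hQ, not_lt]
  exact ⟨fun h => le_antisymm (glbv_val_le_one A b) h, fun h => h.ge⟩

theorem glbv_isPrime (A : ValuationSubring (AlgebraicClosure ℚ))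
    (Q : Ideal (integralClosure ℤ (AlgebraicClosure ℚ)))
    (hQ : ∀ b : integralClosure ℤ (AlgebraicClosure ℚ),
      b ∈ Q ↔ (b : AlgebraicClosure ℚ) ∈ A.nonunits) : Q.IsPrime := by
  refine ⟨?_, ?_⟩
  · intro htop
    have h1 : (1 : integralClosure ℤ (AlgebraicClosure ℚ)) ∈ Q := by
      rw [htop]; exact Submodule.mem_top
    rw [glbv_mem_iff_lt A Q hQ, OneMemClass.coe_one, map_one] at h1
    exact lt_irrefl _ h1
  · intro x y hxy
    by_contra hcon
    rw [not_or] at hcon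
    obtain ⟨hx, hy⟩ := hcon
    rw [glbv_not_mem_iff A Q hQ] at hx hy
    rw [glbv_mem_iff_lt A Q hQ] at hxy
    have e : ((x * y : integralClosure ℤ (AlgebraicClosure ℚ)) : AlgebraicClosure ℚ) =
        (x : AlgebraicClosure ℚ) * (y : AlgebraicClosure ℚ) := rfl
    rw [e, map_mul, hx, hy, one_mul] at hxy
    exact lt_irrefl _ hxy

theorem glbv_valSub_eq (A : ValuationSubring (AlgebraicClosure ℚ))
    (Q : Ideal (integralClosure ℤ (AlgebraicClosure ℚ))) [hp : Q.IsPrime]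
    (hQ : ∀ b : integralClosure ℤ (AlgebraicClosure ℚ),
      b ∈ Q ↔ (b : AlgebraicClosure ℚ) ∈ A.nonunits) :
    FermatAgent.Frob.valSub Q = A := by
  apply ValuationSubring.ext
  intro x
  constructor
  · rintro ⟨s, hs, hsx⟩
    rw [glbv_not_mem_iff A Q hQ] at hs
    have h1 : A.valuation ((s : AlgebraicClosure ℚ) * x) ≤ 1 :=
      glbv_val_le_one A ⟨_, hsx⟩
    rw [map_mul, hs, one_mul] at h1
    exact (A.valuation_le_one_iff x).mp h1
  · intro hx
    rcases (FermatAgent.Frob.valSub Q).mem_or_inv_mem x with h | h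
    · exact h
    · by_cases hx0 : x = 0
      · rw [hx0]
        exact (FermatAgent.Frob.valSub Q).zero_mem
      · obtain ⟨s, hs, hsx⟩ := h
        rw [glbv_not_mem_iff A Q hQ] at hs
        refine ⟨⟨(s : AlgebraicClosure ℚ) * x⁻¹, hsx⟩, ?_, ?_⟩
        · rw [glbv_mem_iff_lt A Q hQ]
          intro hlt
          have hxle : A.valuation x ≤ 1 := (A.valuation_le_one_iff x).mpr hx
          have h2 : A.valuation ((s : AlgebraicClosure ℚ) * x⁻¹) * A.valuation x < 1 :=
            mul_lt_of_lt_of_le_one hlt hxle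
          rw [← map_mul, mul_assoc, inv_mul_cancel₀ hx0, mul_one, hs] at h2
          exact lt_irrefl _ h2
        · show IsIntegral ℤ ((s : AlgebraicClosure ℚ) * x⁻¹ * x)
          rw [mul_assoc, inv_mul_cancel₀ hx0, mul_one]
          exact s.2

theorem glbv_residue_coe (Q : Ideal (integralClosure ℤ (AlgebraicClosure ℚ))) [Q.IsPrime]
    (σ : AlgebraicClosure ℚ ≃ₐ[ℚ] AlgebraicClosure ℚ)
    (hσ : σ ∈ (FermatAgent.Frob.valSub Q).decompositionSubgroup ℚ)
    (h : ∀ b : integralClosure ℤ (AlgebraicClosure ℚ), σ • b - b ∈ Q)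
    (c : integralClosure ℤ (AlgebraicClosure ℚ)) :
    (⟨σ, hσ⟩ : (FermatAgent.Frob.valSub Q).decompositionSubgroup ℚ) •
        IsLocalRing.residue (FermatAgent.Frob.valSub Q)
          ⟨(c : AlgebraicClosure ℚ), FermatAgent.Frob.coe_mem_valSub Q c⟩ =
      IsLocalRing.residue (FermatAgent.Frob.valSub Q)
        ⟨(c : AlgebraicClosure ℚ), FermatAgent.Frob.coe_mem_valSub Q c⟩ := by
  rw [← IsLocalRing.ResidueField.residue_smul, ← sub_eq_zero, ← map_sub,
    IsLocalRing.residue_eq_zero_iff, ← ValuationSubring.coe_mem_nonunits_iff]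
  have h' := FermatAgent.Frob.coe_mem_nonunits Q _ (h c)
  have e : ((σ • c - c : integralClosure ℤ (AlgebraicClosure ℚ)) : AlgebraicClosure ℚ) =
      σ (c : AlgebraicClosure ℚ) - (c : AlgebraicClosure ℚ) := by
    push_cast
    rw [FermatAgent.Frob.coe_smul]
  rw [e] at h'
  exact h'

theorem glbv_residue_fixed (Q : Ideal (integralClosure ℤ (AlgebraicClosure ℚ))) [Q.IsPrime]
    (σ : AlgebraicClosure ℚ ≃ₐ[ℚ] AlgebraicClosure ℚ)
    (hσ : σ ∈ (FermatAgent.Frob.valSub Q).decompositionSubgroup ℚ)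
    (h : ∀ b : integralClosure ℤ (AlgebraicClosure ℚ), σ • b - b ∈ Q)
    (x : IsLocalRing.ResidueField (FermatAgent.Frob.valSub Q)) :
    (⟨σ, hσ⟩ : (FermatAgent.Frob.valSub Q).decompositionSubgroup ℚ) • x = x := by
  obtain ⟨a, rfl⟩ := IsLocalRing.residue_surjective x
  obtain ⟨a, s, hs, hsa⟩ := a
  set g : (FermatAgent.Frob.valSub Q).decompositionSubgroup ℚ := ⟨σ, hσ⟩ with hg
  set aA : FermatAgent.Frob.valSub Q := ⟨a, ⟨s, hs, hsa⟩⟩ with haA
  set sA : FermatAgent.Frob.valSub Q :=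
    ⟨(s : AlgebraicClosure ℚ), FermatAgent.Frob.coe_mem_valSub Q s⟩ with hsA
  have hs0 : (s : AlgebraicClosure ℚ) ≠ 0 := by
    intro h0
    apply hs
    have : s = 0 := Subtype.ext h0
    rw [this]
    exact Q.zero_mem
  have hres : IsLocalRing.residue (FermatAgent.Frob.valSub Q) sA ≠ 0 := by
    rw [Ne, IsLocalRing.residue_eq_zero_iff, ← ValuationSubring.coe_mem_nonunits_iff,
      ValuationSubring.mem_nonunits_iff_or]
    push Not
    refine ⟨hs0, s, hs, ?_⟩
    rw [mul_inv_cancel₀ hs0]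
    exact isIntegral_one
  have hprod : sA * aA =
      ⟨((⟨(s : AlgebraicClosure ℚ) * a, hsa⟩ : integralClosure ℤ (AlgebraicClosure ℚ)) :
        AlgebraicClosure ℚ), FermatAgent.Frob.coe_mem_valSub Q _⟩ :=
    Subtype.ext rfl
  have h1 := glbv_residue_coe Q σ hσ h ⟨(s : AlgebraicClosure ℚ) * a, hsa⟩
  have h2 := glbv_residue_coe Q σ hσ h s
  rw [← hprod, map_mul, smul_mul'] at h1
  rw [← hsA] at h2
  rw [h2] at h1
  exact mul_left_cancel₀ hres h1

theorem glb_exists_prime (A : ValuationSubring (AlgebraicClosure ℚ)) :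
    ∃ (Q : Ideal (integralClosure ℤ (AlgebraicClosure ℚ))) (hQ : Q.IsPrime),
      (∀ b : integralClosure ℤ (AlgebraicClosure ℚ),
        b ∈ Q ↔ (b : AlgebraicClosure ℚ) ∈ A.nonunits) ∧
      @FermatAgent.Frob.valSub Q hQ = A := by
  obtain ⟨Q, hQ⟩ := glbv_exists_ideal A
  exact ⟨Q, glbv_isPrime A Q hQ, hQ, @glbv_valSub_eq A Q (glbv_isPrime A Q hQ) hQ⟩

theorem glb_mem_inertia (Q : Ideal (integralClosure ℤ (AlgebraicClosure ℚ))) [Q.IsPrime]
    (σ : AlgebraicClosure ℚ ≃ₐ[ℚ] AlgebraicClosure ℚ) (hσ : σ • Q = Q)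
    (h : ∀ b : integralClosure ℤ (AlgebraicClosure ℚ), σ • b - b ∈ Q) :
    σ ∈ (FermatAgent.Frob.valSub Q).inertiaSubgroupIn ℚ := by
  unfold ValuationSubring.inertiaSubgroupIn
  refine ⟨⟨σ, FermatAgent.Frob.mem_decomp Q σ hσ⟩, ?_, rfl⟩
  show (⟨σ, FermatAgent.Frob.mem_decomp Q σ hσ⟩ :
      (FermatAgent.Frob.valSub Q).decompositionSubgroup ℚ) ∈
    (FermatAgent.Frob.valSub Q).inertiaSubgroup ℚ
  unfold ValuationSubring.inertiaSubgroup
  rw [MonoidHom.mem_ker]
  ext x
  exact glbv_residue_fixed Q σ (FermatAgent.Frob.mem_decomp Q σ hσ) h x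

end Fermat.Agent.S13L
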