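import Mathlib
import Fermat.Agent.S13L.Defs
import Fermat.Agent.Lib.FrobeniusExists
import Fermat.Agent.S13L.GlbVal
import Fermat.Agent.S13L.GlbField
import Fermat.Agent.S13L.GlbLift

/-!
# S13 package (G): the Minkowski bridge — frozen top-level statements

Plan §G.  A normal subgroup of `Gal(ℚ̄/ℚ)` that contains the fixer of a finite set and, for every
prime `ℓ`, the inertia group of some valuation ring above `ℓ`, is the whole group
(`ℚ` has no nontrivial everywhere-unramified extension).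
-/

set_option autoImplicit false

namespace Fermat.Agent.S13L

theorem exists_liesOver (ℓ : ℕ) (hℓ : ℓ.Prime) :
    ∃ A : ValuationSubring (AlgebraicClosure ℚ), A.LiesOverPrime ℓ := by
  obtain ⟨A, _, hA, _⟩ := FermatAgent.Frob.exists_frobenius ℓ hℓ
  exact ⟨A, hA⟩

attribute [local instance] FermatAgent.Frob.actB in
theorem eq_top_of_inertia_le (H : Subgroup (AlgebraicClosure ℚ ≃ₐ[ℚ] AlgebraicClosure ℚ))
    (hn : H.Normal) (S : Finset (AlgebraicClosure ℚ))
    (hS : ∀ σ : AlgebraicClosure ℚ ≃ₐ[ℚ] AlgebraicClosure ℚ, (∀ s ∈ S, σ s = s) → σ ∈ H)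
    (hI : ∀ ℓ : ℕ, ℓ.Prime → ∃ A : ValuationSubring (AlgebraicClosure ℚ),
      A.LiesOverPrime ℓ ∧ A.inertiaSubgroupIn ℚ ≤ H) : H = ⊤ := by
  by_contra hH
  have hcl := glb_isClosed H S hS
  obtain ⟨ℓ, hℓ, hbad⟩ := glb_exists_bad_prime H hn S hS hH
  obtain ⟨A, hA, hIA⟩ := hI ℓ hℓ
  obtain ⟨Q, hQ, hQmem, hQA⟩ := glb_exists_prime A
  have hℓQ : (ℓ : integralClosure ℤ (AlgebraicClosure ℚ)) ∈ Q := by
    rw [hQmem]
    have : (ℓ : AlgebraicClosure ℚ) ∈ A.nonunits := hA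
    simpa using this
  obtain ⟨g, hgH, hg⟩ := hbad Q hQ hℓQ
  obtain ⟨h, hh, hstab, htriv⟩ := glb_lift H hn hcl Q g hg
  have hσ : h * g ∈ (FermatAgent.Frob.valSub Q).inertiaSubgroupIn ℚ :=
    glb_mem_inertia Q (h * g) hstab htriv
  rw [hQA] at hσ
  have hmem : h * g ∈ H := hIA hσ
  exact hgH ((Subgroup.mul_mem_cancel_left H hh).mp hmem)

end Fermat.Agent.S13L
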