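import Mathlib
import Fermat.Prelude.Def_FLTPrelim_FreyPackage
import Fermat.Prelude.Def_FLTPrelim_GaloisRep
import Fermat.Prelude.Def_FLTPrelim_Ramification
import Fermat.Prelude.Def_FLTPrelim_CofixedLine
import Fermat.Agent.S05
import Fermat.Agent.S13L.AsmLin
import Fermat.Agent.S13L.Torsion
import Fermat.Agent.S13L.AtP
import Fermat.Agent.S13L.AtTwo
import Fermat.Agent.S13L.Global

/-!
# S13 package (L): assembly

`asm_main`: if `E[p]` of the Frey curve is reducible then it has a Galois-stable cofixed line.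
-/

set_option autoImplicit false

open WeierstrassCurve WeierstrassCurve.Affine WeierstrassCurve.Affine.Point

namespace Fermat.Agent.S13L

/-- `E[p](ℚ̄)` for the Frey curve -/
abbrev asmV (P : FreyPackage) : Type :=
  Submodule.torsionBy ℤ (P.freyCurve⁄(AlgebraicClosure ℚ)).Point P.p

/-- the `x`-coordinate (junk `0` at infinity) -/
noncomputable def asmPX (P : FreyPackage) : (P.freyCurve⁄(AlgebraicClosure ℚ)).Point → AlgebraicClosure ℚ
  | .zero => 0
  | .some x _ _ => x

/-- the `y`-coordinate (junk `0` at infinity) -/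
noncomputable def asmPY (P : FreyPackage) : (P.freyCurve⁄(AlgebraicClosure ℚ)).Point → AlgebraicClosure ℚ
  | .zero => 0
  | .some _ y _ => y

/-- an automorphism fixing both coordinates of a point fixes the point -/
theorem asm_smul_eq_self (P : FreyPackage) (σ : AlgebraicClosure ℚ ≃ₐ[ℚ] AlgebraicClosure ℚ)
    (Q : (P.freyCurve⁄(AlgebraicClosure ℚ)).Point) (hx : σ (asmPX P Q) = asmPX P Q)
    (hy : σ (asmPY P Q) = asmPY P Q) : σ • Q = Q := by
  rcases Q with _ | ⟨a, b, hab⟩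
  · rfl
  · have key : ∀ (a' b' : AlgebraicClosure ℚ) (h' : (P.freyCurve⁄(AlgebraicClosure ℚ)).Nonsingular a' b'),
        a' = a → b' = b →
        (Point.some a' b' h' : (P.freyCurve⁄(AlgebraicClosure ℚ)).Point) = Point.some a b hab := by
      rintro a' b' h' rfl rfl
      rfl
    exact key _ _ _ hx hy

/-- the Galois action on `E[p]` as a `ZMod p`-linear map -/
noncomputable def asmLin (P : FreyPackage) (σ : AlgebraicClosure ℚ ≃ₐ[ℚ] AlgebraicClosure ℚ) :
    asmV P →ₗ[ZMod P.p] asmV P :=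
  (DistribSMul.toAddMonoidHom (asmV P) σ).toZModLinearMap P.p

theorem asmLin_apply (P : FreyPackage) (σ : AlgebraicClosure ℚ ≃ₐ[ℚ] AlgebraicClosure ℚ)
    (x : asmV P) : asmLin P σ x = σ • x := rfl

/-- the subgroup of automorphisms fixing `N0` pointwise -/
def asmH1 (P : FreyPackage) (N0 : Submodule (ZMod P.p) (asmV P)) :
    Subgroup (AlgebraicClosure ℚ ≃ₐ[ℚ] AlgebraicClosure ℚ) where
  carrier := {σ | ∀ x ∈ N0, σ • x = x}
  mul_mem' := by
    intro σ τ hσ hτ x hx
    rw [mul_smul, hτ x hx, hσ x hx]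
  one_mem' := by
    intro x _
    exact one_smul _ x
  inv_mem' := by
    intro σ hσ x hx
    have h := hσ x hx
    calc σ⁻¹ • x = σ⁻¹ • (σ • x) := by rw [h]
      _ = x := inv_smul_smul σ x

theorem asmH1_normal (P : FreyPackage) (N0 : Submodule (ZMod P.p) (asmV P))
    (hst : IsGaloisStable ℚ N0) : (asmH1 P N0).Normal := by
  constructor
  intro σ hσ g x hx
  have h1 : g⁻¹ • x ∈ N0 := hst g⁻¹ x hx
  rw [mul_smul, mul_smul, hσ _ h1, smul_inv_smul]

/-- the subgroup of automorphisms acting trivially on `V / N0` -/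
def asmH2 (P : FreyPackage) (N0 : Submodule (ZMod P.p) (asmV P)) (hst : IsGaloisStable ℚ N0) :
    Subgroup (AlgebraicClosure ℚ ≃ₐ[ℚ] AlgebraicClosure ℚ) where
  carrier := {σ | ∀ x : asmV P, σ • x - x ∈ N0}
  mul_mem' := by
    intro σ τ hσ hτ x
    have e : (σ * τ) • x - x = σ • (τ • x - x) + (σ • x - x) := by
      rw [mul_smul, smul_sub]; abel
    rw [e]
    exact N0.add_mem (hst σ _ (hτ x)) (hσ x)
  one_mem' := by
    intro x
    rw [one_smul, sub_self]
    exact N0.zero_mem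
  inv_mem' := by
    intro σ hσ x
    have e : σ⁻¹ • x - x = -(σ⁻¹ • (σ • x - x)) := by
      rw [smul_sub, inv_smul_smul]; abel
    rw [e]
    exact N0.neg_mem (hst σ⁻¹ _ (hσ x))

theorem asmH2_normal (P : FreyPackage) (N0 : Submodule (ZMod P.p) (asmV P))
    (hst : IsGaloisStable ℚ N0) : (asmH2 P N0 hst).Normal := by
  constructor
  intro σ hσ g x
  have e : (g * σ * g⁻¹) • x - x = g • (σ • (g⁻¹ • x) - g⁻¹ • x) := by
    rw [mul_smul, mul_smul, smul_sub, smul_inv_smul]
  rw [e]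
  exact hst g _ (hσ _)

theorem asm_main (P : FreyPackage)
    (hred : ¬ GaloisRepIsIrreducible (K := AlgebraicClosure ℚ) ℚ P.freyCurve P.p) :
    HasGaloisStableCofixedLine (K := AlgebraicClosure ℚ) ℚ P.freyCurve P.p := by
  classical
  have : Fact P.p.Prime := ⟨P.pp⟩
  have hnt : Nontrivial (asmV P) := frey_torsion_nontrivial P
  have hfin : Finite (asmV P) := frey_torsion_finite P
  have hcard : Nat.card (asmV P) ≤ P.p ^ 2 := frey_torsion_card_le P
  -- a stable proper nonzero subspace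
  obtain ⟨N0, hst, hbot, htop⟩ : ∃ N0 : Submodule (ZMod P.p) (asmV P),
      IsGaloisStable ℚ N0 ∧ N0 ≠ ⊥ ∧ N0 ≠ ⊤ := by
    by_contra hcon
    apply hred
    refine ⟨hnt, fun N hN => ?_⟩
    by_contra hN'
    rw [not_or] at hN'
    exact hcon ⟨N, hN, hN'.1, hN'.2⟩
  obtain ⟨hline, hquot⟩ := asm_line_props hcard N0 hbot htop
  -- the finite set of all coordinates
  have : Fintype (asmV P) := Fintype.ofFinite _
  let S : Finset (AlgebraicClosure ℚ) :=
    (Finset.univ.image fun x : asmV P => asmPX P x.1) ∪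
      (Finset.univ.image fun x : asmV P => asmPY P x.1)
  have hS : ∀ σ : AlgebraicClosure ℚ ≃ₐ[ℚ] AlgebraicClosure ℚ, (∀ s ∈ S, σ s = s) →
      ∀ x : asmV P, σ • x = x := by
    intro σ hσ x
    apply Subtype.ext
    refine asm_smul_eq_self P σ x.1 (hσ _ ?_) (hσ _ ?_)
    · exact Finset.mem_union_left _ (Finset.mem_image_of_mem _ (Finset.mem_univ x))
    · exact Finset.mem_union_right _ (Finset.mem_image_of_mem _ (Finset.mem_univ x))
  -- inertia at 2 and at the primes `≠ 2, p`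
  have hunip : ∀ (A : ValuationSubring (AlgebraicClosure ℚ)), A.LiesOverPrime 2 →
      ∀ σ ∈ A.inertiaSubgroupIn ℚ, ∀ x : asmV P,
        asmLin P σ (asmLin P σ x - x) = asmLin P σ x - x :=
    fun A hA σ hσ x => at_two P A hA σ hσ x
  have hstL : ∀ σ : AlgebraicClosure ℚ ≃ₐ[ℚ] AlgebraicClosure ℚ, ∀ x ∈ N0, asmLin P σ x ∈ N0 :=
    fun σ x hx => hst σ x hx
  have hother : ∀ ℓ : ℕ, ℓ.Prime → ℓ ≠ 2 → ℓ ≠ P.p →
      ∀ (A : ValuationSubring (AlgebraicClosure ℚ)), A.LiesOverPrime ℓ →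
      ∀ σ ∈ A.inertiaSubgroupIn ℚ, ∀ x : asmV P, σ • x = x :=
    fun ℓ hℓ h2 hp A hA σ hσ x => Fermat.Agent.S05.result P hℓ h2 hp A hA σ hσ x
  obtain ⟨Ap, hAp⟩ := exists_liesOver P.p P.pp
  rcases at_p P Ap hAp N0 hst hbot htop with hcase | hcase
  · -- inertia at `p` fixes `N0` pointwise: then everything does, contradiction
    exfalso
    have hH : asmH1 P N0 = ⊤ := by
      refine eq_top_of_inertia_le (asmH1 P N0) (asmH1_normal P N0 hst) S
        (fun σ hσ x _ => hS σ hσ x) ?_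
      intro ℓ hℓ
      by_cases hℓp : ℓ = P.p
      · subst hℓp
        exact ⟨Ap, hAp, fun σ hσ => hcase σ hσ⟩
      by_cases hℓ2 : ℓ = 2
      · subst hℓ2
        obtain ⟨A, hA⟩ := exists_liesOver 2 Nat.prime_two
        refine ⟨A, hA, fun σ hσ x hx => ?_⟩
        exact asm_unip_fix N0 hline (asmLin P σ) (hstL σ) (hunip A hA σ hσ) x hx
      · obtain ⟨A, hA⟩ := exists_liesOver ℓ hℓ
        exact ⟨A, hA, fun σ hσ x _ => hother ℓ hℓ hℓ2 hℓp A hA σ hσ x⟩
    apply hbot
    rw [eq_bot_iff]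
    intro x hx
    rw [Submodule.mem_bot]
    refine no_rational_torsion P x fun σ => ?_
    have hσ : σ ∈ asmH1 P N0 := by rw [hH]; exact Subgroup.mem_top σ
    exact hσ x hx
  · -- inertia at `p` acts trivially on `V / N0`: then everything does
    have hH : asmH2 P N0 hst = ⊤ := by
      refine eq_top_of_inertia_le (asmH2 P N0 hst) (asmH2_normal P N0 hst) S
        (fun σ hσ x => ?_) ?_
      · rw [hS σ hσ x, sub_self]
        exact N0.zero_mem
      intro ℓ hℓ
      by_cases hℓp : ℓ = P.p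
      · subst hℓp
        exact ⟨Ap, hAp, fun σ hσ => hcase σ hσ⟩
      by_cases hℓ2 : ℓ = 2
      · subst hℓ2
        obtain ⟨A, hA⟩ := exists_liesOver 2 Nat.prime_two
        refine ⟨A, hA, fun σ hσ x => ?_⟩
        exact asm_unip_quot N0 htop hline hquot (asmLin P σ) (hstL σ) (hunip A hA σ hσ) x
      · obtain ⟨A, hA⟩ := exists_liesOver ℓ hℓ
        refine ⟨A, hA, fun σ hσ x => ?_⟩
        rw [hother ℓ hℓ hℓ2 hℓp A hA σ hσ x, sub_self]
        exact N0.zero_mem
    refine ⟨N0, hst, hbot, htop, fun σ x => ?_⟩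
    have hσ : σ ∈ asmH2 P N0 hst := by rw [hH]; exact Subgroup.mem_top σ
    exact hσ x

end Fermat.Agent.S13L
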