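import Fermat.Agent.S13L.AtTwoModel

/-!
# S13 package T: basic consequences of the `TwoModel` fields, translation by `T0`
-/

set_option autoImplicit false

namespace Fermat.Agent.S13L.At2

namespace TwoModel

variable {L : Type*} [Field L] {a₂ a₄ : L} {E : Type*} [AddCommGroup E] (M : TwoModel L a₂ a₄ E)

/-! ### basic consequences of the structure fields -/

/-- points with the same `X` are equal or opposite -/
theorem eq_or_eq_neg_of_X_eq {P Q : E} (hP : P ≠ 0) (hQ : Q ≠ 0) (h : M.X P = M.X Q) :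
    P = Q ∨ P = -Q := by
  have h1 := M.eqn P hP
  have h2 := M.eqn Q hQ
  rw [h] at h1
  have hprod : (M.Y P - M.Y Q) * (M.Y P + M.Y Q + M.X Q) = 0 := by
    linear_combination h1 - h2
  rcases mul_eq_zero.mp hprod with hY | hY
  · exact Or.inl (M.ext P Q hP hQ h (sub_eq_zero.mp hY))
  · refine Or.inr (M.ext P (-Q) hP (neg_ne_zero.mpr hQ) ?_ ?_)
    · rw [M.X_neg Q hQ]
      exact h
    · rw [M.Y_neg Q hQ]
      linear_combination hY

theorem add_ne_zero_of_X_ne {P Q : E} (hP : P ≠ 0) (hQ : Q ≠ 0) (h : M.X P ≠ M.X Q) :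
    P + Q ≠ 0 := by
  have _ := hP
  intro h0
  apply h
  have hPQ : P = -Q := eq_neg_of_add_eq_zero_left h0
  calc M.X P = M.X (-Q) := congrArg M.X hPQ
    _ = M.X Q := M.X_neg Q hQ

theorem X_ne_of_ne_of_ne_neg {P Q : E} (hP : P ≠ 0) (hQ : Q ≠ 0) (h1 : P ≠ Q) (h2 : P ≠ -Q) :
    M.X P ≠ M.X Q := by
  intro h
  rcases M.eq_or_eq_neg_of_X_eq hP hQ h with h' | h'
  · exact h1 h'
  · exact h2 h'

/-- a point with `2 Y + X = 0` is 2-torsion -/
theorem add_self_eq_zero_of_two_Y_add_X_eq_zero {P : E} (hP : P ≠ 0)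
    (hY : 2 * M.Y P + M.X P = 0) : P + P = 0 := by
  have hneg : -P = P := by
    refine M.ext (-P) P (neg_ne_zero.mpr hP) hP (M.X_neg P hP) ?_
    rw [M.Y_neg P hP]
    linear_combination -hY
  have h0 : -P + P = 0 := neg_add_cancel P
  rw [hneg] at h0
  exact h0

theorem add_self_ne_zero_of_two_Y_add_X_ne_zero {P : E} (hP : P ≠ 0)
    (hY : 2 * M.Y P + M.X P ≠ 0) : P + P ≠ 0 := by
  intro h0
  apply hY
  have hPP : P = -P := eq_neg_of_add_eq_zero_left h0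
  have hYY : M.Y P = -M.Y P - M.X P := by
    calc M.Y P = M.Y (-P) := congrArg M.Y hPP
      _ = -M.Y P - M.X P := M.Y_neg P hP
  linear_combination hYY

theorem T0_add_T0 : M.T0 + M.T0 = 0 := by
  refine M.add_self_eq_zero_of_two_Y_add_X_eq_zero M.T0_ne_zero ?_
  rw [M.X_T0, M.Y_T0, mul_zero, add_zero]

/-- a point with `X = 0` has `Y = 0` (auxiliary form) -/
private theorem AtTwoBasic_aux_Y_eq_zero {P : E} (hP : P ≠ 0) (hX : M.X P = 0) : M.Y P = 0 := by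
  have hsq : M.Y P ^ 2 = 0 := by
    have h1 := M.eqn P hP
    rw [hX] at h1
    linear_combination h1
  exact (pow_eq_zero_iff two_ne_zero).mp hsq

/-- the only point with `X = 0` is `T0` -/
theorem eq_T0_of_X_eq_zero {P : E} (hP : P ≠ 0) (hX : M.X P = 0) : P = M.T0 := by
  have hY : M.Y P = 0 := M.AtTwoBasic_aux_Y_eq_zero hP hX
  refine M.ext P M.T0 hP M.T0_ne_zero ?_ ?_
  · rw [hX, M.X_T0]
  · rw [hY, M.Y_T0]

/-- a point with `X = 0` has `Y = 0` -/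
theorem Y_eq_zero_of_X_eq_zero {P : E} (hP : P ≠ 0) (hX : M.X P = 0) : M.Y P = 0 := by
  exact M.AtTwoBasic_aux_Y_eq_zero hP hX

theorem τ_neg {P : E} (hP : P ≠ 0) (hX : M.X P ≠ 0) : M.τ (-P) = -M.τ P - 1 := by
  rw [M.τ_def, M.τ_def, M.X_neg P hP, M.Y_neg P hP]
  field_simp

theorem τ_sq {P : E} (hP : P ≠ 0) (hX : M.X P ≠ 0) :
    M.τ P ^ 2 + M.τ P = M.X P + a₂ + a₄ / M.X P := by
  have h1 := M.eqn P hP
  rw [M.τ_def]
  field_simp
  linear_combination h1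

/-- polynomial form of `τ_sq` -/
theorem τ_sq_mul {P : E} (hP : P ≠ 0) (hX : M.X P ≠ 0) :
    (M.τ P ^ 2 + M.τ P) * M.X P = M.X P ^ 2 + a₂ * M.X P + a₄ := by
  rw [M.τ_sq hP hX]
  field_simp

theorem Y_eq_τ_mul_X {P : E} (hX : M.X P ≠ 0) : M.Y P = M.τ P * M.X P := by
  rw [M.τ_def, div_mul_cancel₀ _ hX]

/-! ### translation by `T0` -/

theorem add_T0_ne_zero {P : E} (hP : P ≠ 0) (hX : M.X P ≠ 0) : P + M.T0 ≠ 0 := by
  refine M.add_ne_zero_of_X_ne hP M.T0_ne_zero ?_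
  rw [M.X_T0]
  exact hX

theorem X_add_T0 {P : E} (hP : P ≠ 0) (hX : M.X P ≠ 0) :
    M.X (P + M.T0) = a₄ / M.X P := by
  have hne : M.X P ≠ M.X M.T0 := by
    rw [M.X_T0]
    exact hX
  have h1 := M.eqn P hP
  rw [M.X_add P M.T0 hP M.T0_ne_zero hne, M.X_T0, M.Y_T0, sub_zero, sub_zero, sub_zero]
  field_simp
  linear_combination h1

theorem Y_add_T0 {P : E} (hP : P ≠ 0) (hX : M.X P ≠ 0) :
    M.Y (P + M.T0) = -(a₄ * (M.Y P + M.X P)) / M.X P ^ 2 := by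
  have hne : M.X P ≠ M.X M.T0 := by
    rw [M.X_T0]
    exact hX
  rw [M.Y_add P M.T0 hP M.T0_ne_zero hne, M.X_add_T0 hP hX, M.X_T0, M.Y_T0, sub_zero, sub_zero]
  field_simp
  ring

theorem τ_add_T0 (ha₄ : a₄ ≠ 0) {P : E} (hP : P ≠ 0) (hX : M.X P ≠ 0) :
    M.τ (P + M.T0) = -M.τ P - 1 := by
  rw [M.τ_def, M.τ_def, M.Y_add_T0 hP hX, M.X_add_T0 hP hX]
  field_simp
  ring

end TwoModel

end Fermat.Agent.S13L.At2
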