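import Fermat.Agent.S13L.AtTwoBasic

/-!
# S13 package T: chord and tangent identities on `y² + xy = x³ + a₂x² + a₄x`

Dictionary with `S05L/Chord.lean`, `S05L/Formulas.lean`:  `αβ ↦ -a₄`, `τ₁ + τ₂ ↦ τ₁ + τ₂ + 1`,
`-τ ↦ -τ - 1`, `2 Y ↦ 2 Y + X`.
-/

set_option autoImplicit false

namespace Fermat.Agent.S13L.At2

namespace TwoModel

variable {L : Type*} [Field L] {a₂ a₄ : L} {E : Type*} [AddCommGroup E] (M : TwoModel L a₂ a₄ E)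

/-- the slope times the difference of the abscissas -/
theorem slope_mul {P Q : E} (h : M.X P ≠ M.X Q) :
    (M.Y P - M.Y Q) / (M.X P - M.X Q) * (M.X P - M.X Q) = M.Y P - M.Y Q := by
  exact div_mul_cancel₀ _ (sub_ne_zero.mpr h)

/-- the chord formula for `X (P + Q)` with the denominator cleared -/
theorem X_add_mul {P Q : E} (hP : P ≠ 0) (hQ : Q ≠ 0) (h : M.X P ≠ M.X Q) :
    M.X (P + Q) * (M.X P - M.X Q) ^ 2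
      = (M.Y P - M.Y Q) ^ 2 + (M.Y P - M.Y Q) * (M.X P - M.X Q)
        - (a₂ + M.X P + M.X Q) * (M.X P - M.X Q) ^ 2 := by
  have key1 : ((M.Y P - M.Y Q) / (M.X P - M.X Q)) ^ 2 * (M.X P - M.X Q) ^ 2
      = (M.Y P - M.Y Q) ^ 2 := by
    rw [← mul_pow, M.slope_mul h]
  have key2 : (M.Y P - M.Y Q) / (M.X P - M.X Q) * (M.X P - M.X Q) ^ 2
      = (M.Y P - M.Y Q) * (M.X P - M.X Q) := by
    rw [pow_two, ← mul_assoc, M.slope_mul h]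
  rw [M.X_add P Q hP hQ h]
  linear_combination key1 + key2

/-- (I2) -/
theorem I2 {P Q : E} (hP : P ≠ 0) (hQ : Q ≠ 0) (h : M.X P ≠ M.X Q) :
    M.X P * M.X Q * M.X (P + Q) * (M.X P - M.X Q) ^ 2
      = (M.Y P * M.X Q - M.Y Q * M.X P) ^ 2 := by
  have h1 := M.eqn P hP
  have h2 := M.eqn Q hQ
  have hΛ := M.X_add_mul hP hQ h
  linear_combination (M.X P * M.X Q) * hΛ + (M.X P - M.X Q) * M.X Q * h1
    - (M.X P - M.X Q) * M.X P * h2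

/-- (I1) -/
theorem I1 {P Q : E} (hP : P ≠ 0) (hQ : Q ≠ 0) (h : M.X P ≠ M.X Q) :
    M.X (P + Q) * (M.Y P * M.X Q + M.Y Q * M.X P + M.X P * M.X Q) ^ 2
      = M.X P * M.X Q * (M.X P * M.X Q - a₄) ^ 2 := by
  by_cases hXP : M.X P = 0
  · rw [M.Y_eq_zero_of_X_eq_zero hP hXP, hXP]
    ring
  by_cases hXQ : M.X Q = 0
  · rw [M.Y_eq_zero_of_X_eq_zero hQ hXQ, hXQ]
    ring
  have h1 := M.eqn P hP
  have h2 := M.eqn Q hQ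
  have hD : M.X P - M.X Q ≠ 0 := sub_ne_zero.mpr h
  have hI2 := M.I2 hP hQ h
  apply mul_left_cancel₀ (mul_ne_zero (mul_ne_zero hXP hXQ) (pow_ne_zero 2 hD))
  linear_combination (M.Y P * M.X Q + M.Y Q * M.X P + M.X P * M.X Q) ^ 2 * hI2
    + ((M.Y P * M.X Q - M.Y Q * M.X P) * (M.Y P * M.X Q + M.Y Q * M.X P + M.X P * M.X Q)
        + M.X P * M.X Q * (M.X P - M.X Q) * (M.X P * M.X Q - a₄)) * M.X Q ^ 2 * h1
    - ((M.Y P * M.X Q - M.Y Q * M.X P) * (M.Y P * M.X Q + M.Y Q * M.X P + M.X P * M.X Q)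
        + M.X P * M.X Q * (M.X P - M.X Q) * (M.X P * M.X Q - a₄)) * M.X P ^ 2 * h2

/-- (I1) in `τ`-form -/
theorem I1τ {P Q : E} (hP : P ≠ 0) (hQ : Q ≠ 0) (h : M.X P ≠ M.X Q)
    (hXP : M.X P ≠ 0) (hXQ : M.X Q ≠ 0) :
    M.X P * M.X Q * M.X (P + Q) * (M.τ P + M.τ Q + 1) ^ 2 = (M.X P * M.X Q - a₄) ^ 2 := by
  have hI1 := M.I1 hP hQ h
  rw [M.Y_eq_τ_mul_X hXP, M.Y_eq_τ_mul_X hXQ] at hI1
  apply mul_left_cancel₀ (mul_ne_zero hXP hXQ)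
  linear_combination hI1

/-- (I2) in `τ`-form -/
theorem I2τ {P Q : E} (hP : P ≠ 0) (hQ : Q ≠ 0) (h : M.X P ≠ M.X Q)
    (hXP : M.X P ≠ 0) (hXQ : M.X Q ≠ 0) :
    M.X (P + Q) * (M.X P - M.X Q) ^ 2 = M.X P * M.X Q * (M.τ P - M.τ Q) ^ 2 := by
  have hI2 := M.I2 hP hQ h
  rw [M.Y_eq_τ_mul_X hXP, M.Y_eq_τ_mul_X hXQ] at hI2
  apply mul_left_cancel₀ (mul_ne_zero hXP hXQ)
  linear_combination hI2

/-- `τ(P+Q) = -Λ - 1 - ν / X(P+Q)` with `Λ` the slope and `ν = Y P - Λ X P`. -/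
theorem τ_add {P Q : E} (hP : P ≠ 0) (hQ : Q ≠ 0) (h : M.X P ≠ M.X Q) (h3 : M.X (P + Q) ≠ 0) :
    M.τ (P + Q) = -((M.Y P - M.Y Q) / (M.X P - M.X Q)) - 1
      - (M.Y P - (M.Y P - M.Y Q) / (M.X P - M.X Q) * M.X P) / M.X (P + Q) := by
  rw [τ_def, M.Y_add P Q hP hQ h]
  generalize (M.Y P - M.Y Q) / (M.X P - M.X Q) = Λ
  rw [div_eq_iff h3, sub_mul, div_mul_cancel₀ _ h3]
  ring

/-- slope in terms of `τ` : `Λ = (τ₁ X₁ - τ₂ X₂)/(X₁ - X₂)` -/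
theorem slope_eq {P Q : E} (hXP : M.X P ≠ 0) (hXQ : M.X Q ≠ 0) :
    (M.Y P - M.Y Q) / (M.X P - M.X Q)
      = (M.τ P * M.X P - M.τ Q * M.X Q) / (M.X P - M.X Q) := by
  rw [← M.Y_eq_τ_mul_X hXP, ← M.Y_eq_τ_mul_X hXQ]

/-- `ν / X₃ = (X₂ - X₁)/(τ₁ - τ₂)` (used in the mixed near case) -/
theorem ν_div_X_add {P Q : E} (hP : P ≠ 0) (hQ : Q ≠ 0) (h : M.X P ≠ M.X Q)
    (hXP : M.X P ≠ 0) (hXQ : M.X Q ≠ 0) (hτ : M.τ P - M.τ Q ≠ 0) :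
    (M.Y P - (M.Y P - M.Y Q) / (M.X P - M.X Q) * M.X P) / M.X (P + Q)
      = (M.X Q - M.X P) / (M.τ P - M.τ Q) := by
  have hD : M.X P - M.X Q ≠ 0 := sub_ne_zero.mpr h
  have hI2 := M.I2τ hP hQ h hXP hXQ
  have hX3 : M.X (P + Q) ≠ 0 := by
    intro h0
    rw [h0, zero_mul] at hI2
    exact mul_ne_zero (mul_ne_zero hXP hXQ) (pow_ne_zero 2 hτ) hI2.symm
  have e1 := M.Y_eq_τ_mul_X hXP
  have e2 := M.Y_eq_τ_mul_X hXQ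
  have eΛ := M.slope_mul (P := P) (Q := Q) h
  have hν : (M.Y P - (M.Y P - M.Y Q) / (M.X P - M.X Q) * M.X P) * (M.X P - M.X Q)
      = -(M.X P * M.X Q * (M.τ P - M.τ Q)) := by
    linear_combination (-(M.X P)) * eΛ - M.X Q * e1 + M.X P * e2
  rw [div_eq_div_iff hX3 hτ]
  apply mul_left_cancel₀ (pow_ne_zero 2 hD)
  linear_combination (M.X P - M.X Q) * (M.τ P - M.τ Q) * hν + (M.X P - M.X Q) * hI2

/-- the mixed form: `τ(P+Q) = -τ₁ - 1 - X₂ (τ₁ - τ₂)/(X₁ - X₂) + (X₁ - X₂)/(τ₁ - τ₂)` -/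
theorem τ_add_mixed {P Q : E} (hP : P ≠ 0) (hQ : Q ≠ 0) (h : M.X P ≠ M.X Q)
    (hXP : M.X P ≠ 0) (hXQ : M.X Q ≠ 0) (hτ : M.τ P - M.τ Q ≠ 0) :
    M.τ (P + Q) = -M.τ P - 1 - M.X Q * (M.τ P - M.τ Q) / (M.X P - M.X Q)
      + (M.X P - M.X Q) / (M.τ P - M.τ Q) := by
  have hD : M.X P - M.X Q ≠ 0 := sub_ne_zero.mpr h
  have hI2 := M.I2τ hP hQ h hXP hXQ
  have hX3 : M.X (P + Q) ≠ 0 := by
    intro h0
    rw [h0, zero_mul] at hI2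
    exact mul_ne_zero (mul_ne_zero hXP hXQ) (pow_ne_zero 2 hτ) hI2.symm
  rw [M.τ_add hP hQ h hX3, M.ν_div_X_add hP hQ h hXP hXQ hτ, M.slope_eq hXP hXQ]
  field_simp
  ring

/-- `(τ₁ - τ₂)(τ₁ + τ₂ + 1) = (X₁ - X₂)(1 - a₄/(X₁X₂))` -/
theorem τ_sub_mul {P Q : E} (hP : P ≠ 0) (hQ : Q ≠ 0) (hXP : M.X P ≠ 0) (hXQ : M.X Q ≠ 0) :
    (M.τ P - M.τ Q) * (M.τ P + M.τ Q + 1) = (M.X P - M.X Q) * (1 - a₄ / (M.X P * M.X Q)) := by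
  have e1 := M.τ_sq hP hXP
  have e2 := M.τ_sq hQ hXQ
  have e3 : (M.τ P - M.τ Q) * (M.τ P + M.τ Q + 1)
      = (M.τ P ^ 2 + M.τ P) - (M.τ Q ^ 2 + M.τ Q) := by ring
  rw [e3, e1, e2]
  field_simp
  ring

end TwoModel

end Fermat.Agent.S13L.At2
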