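import Fermat.Agent.S13L.AtTwoE0

/-!
# S13 package T (component chain): `E₀ + near± ⊆ near±`

Port of `S05L/CompE0.lean`.  From (F3):
`τ₃ - s₁ = (τ₂ - s₁) - (X₁X₂ - a₄)/(X₁ (τ₁+τ₂+1)) + (τ₁+τ₂+1) a₄/(X₁X₂ - a₄)`.
-/

set_option autoImplicit false
set_option linter.unusedSectionVars false
set_option linter.unusedVariables false

namespace Fermat.Agent.S13L.At2

open Fermat.Agent.S05L

/-! ### auxiliary facts in a linearly ordered commutative group with zero -/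

private theorem AtTwoCompE0_aux_g1 {Γ : Type*} [LinearOrderedCommGroupWithZero Γ] {a b c : Γ}
    (ha : a ≠ 0) (hb : b ≠ 0) (h : a * b * c * a = (a * b) ^ 2) : c = b := by
  have h' : a * b * c * a = a * b * b * a := by
    rw [h, pow_two]
    ac_rfl
  exact mul_left_cancel₀ (mul_ne_zero ha hb) (mul_right_cancel₀ ha h')

private theorem AtTwoCompE0_aux_g2 {Γ : Type*} [LinearOrderedCommGroupWithZero Γ] {a b w : Γ}
    (hw : 1 ≤ w) (ha : a ≠ 0) (hb : b < 1) : a * b / (a * w) < 1 := by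
  have hw0 : w ≠ 0 := ne_of_gt (lt_of_lt_of_le zero_lt_one hw)
  rw [div_lt_one₀ (zero_lt_iff.2 (mul_ne_zero ha hw0))]
  exact mul_lt_mul_of_pos_left (lt_of_lt_of_le hb hw) (zero_lt_iff.2 ha)

private theorem AtTwoCompE0_aux_g3 {Γ : Type*} [LinearOrderedCommGroupWithZero Γ] {a b c w : Γ}
    (hw : 1 ≤ w) (hwa : w ^ 2 = a) (hcb : c < b) : w * c / (a * b) < 1 := by
  have hw0 : w ≠ 0 := ne_of_gt (lt_of_lt_of_le zero_lt_one hw)
  have hb0 : b ≠ 0 := ne_of_gt (lt_of_le_of_lt zero_le hcb)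
  subst hwa
  rw [div_lt_one₀ (zero_lt_iff.2 (mul_ne_zero (pow_ne_zero 2 hw0) hb0)), pow_two, mul_assoc]
  refine mul_lt_mul_of_pos_left (lt_of_lt_of_le hcb ?_) (zero_lt_iff.2 hw0)
  calc b = 1 * b := (one_mul b).symm
    _ ≤ w * b := mul_le_mul_left hw b

private theorem AtTwoCompE0_aux_g4 {Γ : Type*} [LinearOrderedCommGroupWithZero Γ] {a b : Γ}
    (ha : a ≤ 1) (hb : b ≤ 1) (h : a * b = 1) : a = 1 := by
  refine le_antisymm ha ?_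
  calc (1 : Γ) = a * b := h.symm
    _ ≤ a * 1 := mul_le_mul_right hb a
    _ = a := mul_one a

private theorem AtTwoCompE0_aux_g6 {Γ : Type*} [LinearOrderedCommGroupWithZero Γ] {a : Γ}
    (h : 1 < a ^ 2) : 1 < a := by
  by_contra h'
  exact absurd h (not_lt.2 (pow_le_one₀ zero_le (not_lt.1 h')))

private theorem AtTwoCompE0_aux_g7 {Γ : Type*} [LinearOrderedCommGroupWithZero Γ] {a w : Γ}
    (hwa : w ^ 2 = a) (ha : 1 ≤ a) : 1 ≤ w := by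
  by_contra h'
  have h'' : w ^ 2 < 1 := pow_lt_one₀ zero_le (not_le.1 h') two_ne_zero
  rw [hwa] at h''
  exact absurd ha (not_le.2 h'')

variable {L : Type*} [Field L] {a₂ a₄ : L} {E : Type*} [AddCommGroup E] (M : TwoModel L a₂ a₄ E)
  {Γ₀ : Type*} [LinearOrderedCommGroupWithZero Γ₀] (v : Valuation L Γ₀)
  (ha₂ : v a₂ ≤ 1) (ha₄ : v a₄ < 1) (ha₄0 : a₄ ≠ 0) (h2 : v (2 : L) < 1) (s₁ s₂ : L)
  (hs : s₁ + s₂ = -1) (hs' : s₁ * s₂ = -a₂)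
include ha₂ ha₄ ha₄0 h2 hs hs'

/-- common core of the two cases: `1 ≤ v X₁` and `v (τ₁ + τ₂ + 1) ^ 2 = v X₁`. -/
theorem isNearP_add_core {P Q : E} (hP : P ≠ 0) (hPv : 1 ≤ v (M.X P))
    (hQ : IsNearP M v s₁ Q) (hτ : v (M.τ P + M.τ Q + 1) ^ 2 = v (M.X P)) :
    IsNearP M v s₁ (P + Q) ∧ v (M.X (P + Q)) = v (M.X Q) := by
  obtain ⟨⟨hQ0, hQ1, hQ2⟩, hQτ⟩ := hQ
  have hX1v : v (M.X P) ≠ 0 := ne_of_gt (lt_of_lt_of_le zero_lt_one hPv)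
  have hX1 : M.X P ≠ 0 := (Valuation.ne_zero_iff v).1 hX1v
  have hX2v : v (M.X Q) ≠ 0 := ne_of_gt (lt_of_le_of_lt zero_le hQ1)
  have hX2 : M.X Q ≠ 0 := (Valuation.ne_zero_iff v).1 hX2v
  have hX : M.X P ≠ M.X Q := by
    intro h
    rw [h] at hPv
    exact absurd hQ2 (not_lt.2 hPv)
  have hw : 1 ≤ v (M.τ P + M.τ Q + 1) := AtTwoCompE0_aux_g7 hτ hPv
  have hτne : M.τ P + M.τ Q + 1 ≠ 0 :=
    (Valuation.ne_zero_iff v).1 (ne_of_gt (lt_of_lt_of_le zero_lt_one hw))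
  have hδv : v (M.X P * M.X Q - a₄) = v (M.X P) * v (M.X Q) := by
    rw [← map_mul]
    apply Valuation.map_sub_eq_of_lt_left
    rw [map_mul]
    calc v a₄ < v (M.X Q) := hQ1
      _ = 1 * v (M.X Q) := (one_mul _).symm
      _ ≤ v (M.X P) * v (M.X Q) := mul_le_mul_left hPv _
  have hδ : M.X P * M.X Q - a₄ ≠ 0 := by
    apply (Valuation.ne_zero_iff v).1
    rw [hδv]
    exact mul_ne_zero hX1v hX2v
  have hI := congrArg v (M.I1τ hP hQ0 hX hX1 hX2)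
  rw [map_mul, map_mul, map_mul, map_pow, map_pow, hτ, hδv] at hI
  have hX3 : v (M.X (P + Q)) = v (M.X Q) := AtTwoCompE0_aux_g1 hX1v hX2v hI
  have hPQ : P + Q ≠ 0 := M.add_ne_zero_of_X_ne hP hQ0 hX
  refine ⟨⟨⟨hPQ, by rw [hX3]; exact hQ1, by rw [hX3]; exact hQ2⟩, ?_⟩, hX3⟩
  have hF := M.F3 hP hQ0 hX hX1 hX2 hτne hδ
  have e : M.τ (P + Q) - s₁ =
      (M.τ Q - s₁) - (M.X P * M.X Q - a₄) / (M.X P * (M.τ P + M.τ Q + 1))
        + (M.τ P + M.τ Q + 1) * a₄ / (M.X P * M.X Q - a₄) := by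
    rw [hF]
    field_simp
    ring
  rw [e]
  refine Valuation.map_add_lt v (Valuation.map_sub_lt v hQτ ?_) ?_
  · rw [map_div₀, map_mul, hδv]
    exact AtTwoCompE0_aux_g2 hw hX1v hQ2
  · rw [map_div₀, map_mul, hδv]
    exact AtTwoCompE0_aux_g3 hw hτ hQ1

/-- unit + near₊ -/
theorem isNearP_add_of_unit {P Q : E} (hP : P ≠ 0) (hPv : v (M.X P) = 1)
    (hQ : IsNearP M v s₁ Q) :
    IsNearP M v s₁ (P + Q) ∧ v (M.X (P + Q)) = v (M.X Q) := by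
  refine isNearP_add_core M v ha₂ ha₄ ha₄0 h2 s₁ s₂ hs hs' hP hPv.ge hQ ?_
  have hτ2 : v (M.τ Q) ≤ 1 := v_τ_le_one_of_isNearP M v ha₂ ha₄ ha₄0 h2 s₁ s₂ hs hs' hQ
  have hτ1 : v (M.τ P) ≤ 1 := v_τ_le_one_of_unit M v ha₂ ha₄ hP hPv
  obtain ⟨⟨hQ0, hQ1, hQ2⟩, hQτ⟩ := hQ
  have hX1 : M.X P ≠ 0 := by
    intro h
    rw [h, map_zero] at hPv
    exact zero_ne_one hPv
  have hX2v : v (M.X Q) ≠ 0 := ne_of_gt (lt_of_le_of_lt zero_le hQ1)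
  have hX2 : M.X Q ≠ 0 := (Valuation.ne_zero_iff v).1 hX2v
  have hunit : v ((M.τ P - M.τ Q) * (M.τ P + M.τ Q + 1)) = 1 := by
    have h1 : v (M.X P - M.X Q) = 1 := by
      rw [Valuation.map_sub_eq_of_lt_left v (by rw [hPv]; exact hQ2), hPv]
    have h3 : v (a₄ / (M.X P * M.X Q)) < 1 := by
      rw [map_div₀, map_mul, hPv, one_mul]
      exact (div_lt_one₀ (zero_lt_iff.2 hX2v)).2 hQ1
    rw [M.τ_sub_mul hP hQ0 hX1 hX2, map_mul, h1, Valuation.map_one_sub_of_lt v h3, one_mul]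
  have hprod : v (M.τ P + M.τ Q + 1) * v (M.τ P - M.τ Q) = 1 := by
    rw [← map_mul, ← hunit]
    congr 1
    ring
  have hsum : v (M.τ P + M.τ Q + 1) = 1 :=
    AtTwoCompE0_aux_g4
      (Valuation.map_add_le v (Valuation.map_add_le v hτ1 hτ2) (le_of_eq (map_one v)))
      (Valuation.map_sub_le v hτ1 hτ2) hprod
  rw [hsum, hPv, one_pow]

/-- `E₁` + near₊ -/
theorem isNearP_add_of_E1 {P Q : E} (hP : P ≠ 0) (hPv : 1 < v (M.X P))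
    (hQ : IsNearP M v s₁ Q) :
    IsNearP M v s₁ (P + Q) ∧ v (M.X (P + Q)) = v (M.X Q) := by
  refine isNearP_add_core M v ha₂ ha₄ ha₄0 h2 s₁ s₂ hs hs' hP hPv.le hQ ?_
  have hτ2 : v (M.τ Q) ≤ 1 := v_τ_le_one_of_isNearP M v ha₂ ha₄ ha₄0 h2 s₁ s₂ hs hs' hQ
  have hτ1sq : v (M.τ P) ^ 2 = v (M.X P) := v_τ_sq_of_one_lt M v ha₂ ha₄ hP hPv
  have hτ1 : 1 < v (M.τ P) := AtTwoCompE0_aux_g6 (by rw [hτ1sq]; exact hPv)
  have h21 : v (M.τ Q + 1) ≤ 1 := Valuation.map_add_le v hτ2 (le_of_eq (map_one v))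
  rw [add_assoc, Valuation.map_add_eq_of_lt_left v (lt_of_le_of_lt h21 hτ1), hτ1sq]

/-- `E₀` + near₊ -/
theorem isNearP_add_of_inE0 {P Q : E} (hP : InE0 M v P) (hQ : IsNearP M v s₁ Q) :
    IsNearP M v s₁ (P + Q) ∧ v (M.X (P + Q)) = v (M.X Q) := by
  by_cases hP0 : P = 0
  · subst hP0
    rw [zero_add]
    exact ⟨hQ, rfl⟩
  · rcases hP with h | h
    · exact absurd h hP0
    · rcases lt_or_eq_of_le h with h' | h'
      · exact isNearP_add_of_E1 M v ha₂ ha₄ ha₄0 h2 s₁ s₂ hs hs' hP0 h' hQ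
      · exact isNearP_add_of_unit M v ha₂ ha₄ ha₄0 h2 s₁ s₂ hs hs' hP0 h'.symm hQ

/-- `E₀` + near₋ -/
theorem isNearM_add_of_inE0 {P Q : E} (hP : InE0 M v P) (hQ : IsNearM M v s₂ Q) :
    IsNearM M v s₂ (P + Q) ∧ v (M.X (P + Q)) = v (M.X Q) := by
  exact isNearP_add_of_inE0 M v ha₂ ha₄ ha₄0 h2 s₂ s₁ (by rw [add_comm]; exact hs)
    (by rw [mul_comm]; exact hs') hP hQ

end Fermat.Agent.S13L.At2
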