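import Fermat.Agent.S13L.AtTwoChord

/-!
# S13 package T: the formula (F3) and the duplication identities on `y² + xy = x³ + a₂x² + a₄x`

Dictionary with `S05L/Formulas.lean`:  `αβ ↦ -a₄`, `τ₁ + τ₂ ↦ τ₁ + τ₂ + 1`, `-τ ↦ -τ - 1`,
`2 Y ↦ 2 Y + X`.
-/

set_option autoImplicit false

namespace Fermat.Agent.S13L.At2

namespace TwoModel

variable {L : Type*} [Field L] {a₂ a₄ : L} {E : Type*} [AddCommGroup E] (M : TwoModel L a₂ a₄ E)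

/-- pure field form of (F3): `x₃` is the abscissa of the sum. -/
private theorem AtTwoFormulas_aux_F3 (x₁ x₂ t₁ t₂ x₃ b₂ b₄ : L) (hx₁ : x₁ ≠ 0) (hx₂ : x₂ ≠ 0)
    (hx : x₁ ≠ x₂) (ht : t₁ + t₂ + 1 ≠ 0) (hδ : x₁ * x₂ - b₄ ≠ 0)
    (h1 : (t₁ ^ 2 + t₁) * x₁ = x₁ ^ 2 + b₂ * x₁ + b₄)
    (h2 : (t₂ ^ 2 + t₂) * x₂ = x₂ ^ 2 + b₂ * x₂ + b₄)
    (h3 : x₁ * x₂ * x₃ * (t₁ + t₂ + 1) ^ 2 = (x₁ * x₂ - b₄) ^ 2) :
    -((t₁ * x₁ - t₂ * x₂) / (x₁ - x₂)) - 1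
        - (t₁ * x₁ - (t₁ * x₁ - t₂ * x₂) / (x₁ - x₂) * x₁) / x₃
      = -t₁ - 1 - (x₁ * x₂ - b₄) / (x₁ * (t₁ + t₂ + 1))
        + (t₁ + t₂ + 1) * (x₁ * x₂) / (x₁ * x₂ - b₄) := by
  have hx' : x₁ - x₂ ≠ 0 := sub_ne_zero.mpr hx
  have hΛ : (t₁ * x₁ - t₂ * x₂) / (x₁ - x₂)
      = t₁ + (x₁ * x₂ - b₄) / (x₁ * (t₁ + t₂ + 1)) := by
    rw [div_eq_iff hx']
    field_simp
    linear_combination x₂ * h1 - x₁ * h2
  have hx₃ : x₃ = (x₁ * x₂ - b₄) ^ 2 / (x₁ * x₂ * (t₁ + t₂ + 1) ^ 2) := by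
    rw [eq_div_iff (mul_ne_zero (mul_ne_zero hx₁ hx₂) (pow_ne_zero 2 ht))]
    linear_combination h3
  rw [hΛ, hx₃]
  field_simp
  ring

/-- pure field form of (F3) for doubling: `x₃` is the abscissa of the double. -/
private theorem AtTwoFormulas_aux_dbl_F3 (x t x₃ b₂ b₄ : L) (hx : x ≠ 0) (ht : t + t + 1 ≠ 0)
    (hδ : x * x - b₄ ≠ 0) (h1 : (t ^ 2 + t) * x = x ^ 2 + b₂ * x + b₄)
    (h3 : x₃ * (2 * (t * x) + x) ^ 2 = (x ^ 2 - b₄) ^ 2) :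
    (-((3 * x ^ 2 + 2 * b₂ * x + b₄ - t * x) / (2 * (t * x) + x) * (x₃ - x) + t * x) - x₃) / x₃
      = -t - 1 - (x * x - b₄) / (x * (t + t + 1)) + (t + t + 1) * (x * x) / (x * x - b₄) := by
  have hwe : 2 * (t * x) + x = x * (t + t + 1) := by ring
  have hw : 2 * (t * x) + x ≠ 0 := by
    rw [hwe]
    exact mul_ne_zero hx ht
  have hδ' : x ^ 2 - b₄ ≠ 0 := by
    rw [pow_two]
    exact hδ
  have hΛ : (3 * x ^ 2 + 2 * b₂ * x + b₄ - t * x) / (2 * (t * x) + x)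
      = t + (x ^ 2 - b₄) / (x * (t + t + 1)) := by
    rw [div_eq_iff hw, hwe, add_mul, div_mul_cancel₀ _ (mul_ne_zero hx ht)]
    linear_combination (-2 : L) * h1
  have hx₃ : x₃ = (x ^ 2 - b₄) ^ 2 / (x * (t + t + 1)) ^ 2 := by
    rw [eq_div_iff (pow_ne_zero 2 (mul_ne_zero hx ht)), ← hwe]
    exact h3
  rw [hΛ, hx₃, ← pow_two x]
  generalize t + t + 1 = s at ht ⊢
  field_simp
  ring

/-- (F3) -/
theorem F3 {P Q : E} (hP : P ≠ 0) (hQ : Q ≠ 0) (h : M.X P ≠ M.X Q)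
    (hXP : M.X P ≠ 0) (hXQ : M.X Q ≠ 0) (hτ : M.τ P + M.τ Q + 1 ≠ 0)
    (hδ : M.X P * M.X Q - a₄ ≠ 0) :
    M.τ (P + Q) = -M.τ P - 1 - (M.X P * M.X Q - a₄) / (M.X P * (M.τ P + M.τ Q + 1))
      + (M.τ P + M.τ Q + 1) * (M.X P * M.X Q) / (M.X P * M.X Q - a₄) := by
  have hI := M.I1τ hP hQ h hXP hXQ
  have h3 : M.X (P + Q) ≠ 0 := by
    intro h0
    rw [h0, mul_zero, zero_mul] at hI
    exact hδ (pow_eq_zero_iff (two_ne_zero) |>.mp hI.symm)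
  rw [M.τ_add hP hQ h h3, M.Y_eq_τ_mul_X hXP, M.Y_eq_τ_mul_X hXQ]
  exact AtTwoFormulas_aux_F3 (M.X P) (M.X Q) (M.τ P) (M.τ Q) (M.X (P + Q)) a₂ a₄
    hXP hXQ h hτ hδ (M.τ_sq_mul hP hXP) (M.τ_sq_mul hQ hXQ) hI

/-- the duplication formula -/
theorem dbl_X {P : E} (hP : P ≠ 0) (hY : 2 * M.Y P + M.X P ≠ 0) :
    M.X (P + P) * (2 * M.Y P + M.X P) ^ 2 = (M.X P ^ 2 - a₄) ^ 2 := by
  have key : M.X (P + P) * (2 * M.Y P + M.X P) ^ 2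
      = (3 * M.X P ^ 2 + 2 * a₂ * M.X P + a₄ - M.Y P) ^ 2
        + (3 * M.X P ^ 2 + 2 * a₂ * M.X P + a₄ - M.Y P) * (2 * M.Y P + M.X P)
        - (a₂ + 2 * M.X P) * (2 * M.Y P + M.X P) ^ 2 := by
    rw [M.X_dbl P hP hY]
    field_simp
    ring
  rw [key]
  linear_combination (-(1 + 4 * (a₂ + 2 * M.X P))) * M.eqn P hP

/-- (I1) in `τ`-form for doubling -/
theorem dbl_I1τ {P : E} (hP : P ≠ 0) (hY : 2 * M.Y P + M.X P ≠ 0) (hX : M.X P ≠ 0) :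
    M.X P * M.X P * M.X (P + P) * (M.τ P + M.τ P + 1) ^ 2 = (M.X P * M.X P - a₄) ^ 2 := by
  have hd := M.dbl_X hP hY
  rw [M.Y_eq_τ_mul_X hX] at hd
  linear_combination hd

/-- (F3) for doubling -/
theorem dbl_F3 {P : E} (hP : P ≠ 0) (hY : 2 * M.Y P + M.X P ≠ 0) (hX : M.X P ≠ 0)
    (hδ : M.X P * M.X P - a₄ ≠ 0) :
    M.τ (P + P) = -M.τ P - 1 - (M.X P * M.X P - a₄) / (M.X P * (M.τ P + M.τ P + 1))
      + (M.τ P + M.τ P + 1) * (M.X P * M.X P) / (M.X P * M.X P - a₄) := by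
  have hd := M.dbl_X hP hY
  have hYd := M.Y_dbl P hP hY
  have hτ : M.τ P + M.τ P + 1 ≠ 0 := by
    intro h0
    apply hY
    rw [M.Y_eq_τ_mul_X hX]
    linear_combination M.X P * h0
  rw [M.Y_eq_τ_mul_X hX] at hd hYd
  rw [M.τ_def (P + P), hYd]
  exact AtTwoFormulas_aux_dbl_F3 (M.X P) (M.τ P) (M.X (P + P)) a₂ a₄ hX hτ hδ
    (M.τ_sq_mul hP hX) hd

end TwoModel

end Fermat.Agent.S13L.At2
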