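import Fermat.Agent.S13L.AtTwoNearCore
import Fermat.Agent.S13L.AtTwoFormulas

/-!
# S13 package T (component chain): near₊ + near₊ (chord and tangent)

Port of `S05L/CompNear.lean`.
-/

set_option autoImplicit false
set_option linter.unusedSectionVars false
set_option linter.unusedVariables false

namespace Fermat.Agent.S13L.At2

open Fermat.Agent.S05L

variable {L : Type*} [Field L] {a₂ a₄ : L} {E : Type*} [AddCommGroup E] (M : TwoModel L a₂ a₄ E)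
  {Γ₀ : Type*} [LinearOrderedCommGroupWithZero Γ₀] (v : Valuation L Γ₀)
  (ha₂ : v a₂ ≤ 1) (ha₄ : v a₄ < 1) (ha₄0 : a₄ ≠ 0) (h2 : v (2 : L) < 1) (s₁ s₂ : L)
  (hs : s₁ + s₂ = -1) (hs' : s₁ * s₂ = -a₂)
include ha₂ ha₄ ha₄0 h2 hs hs'

/-- two near₊ points have the same `X` only if they are equal -/
theorem eq_of_isNearP_of_X_eq {P Q : E} (hP : IsNearP M v s₁ P) (hQ : IsNearP M v s₁ Q)
    (h : M.X P = M.X Q) : P = Q := by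
  have hP0 : P ≠ 0 := hP.1.1
  have hQ0 : Q ≠ 0 := hQ.1.1
  have hXQ : M.X Q ≠ 0 := X_ne_zero_of_isNear M v hQ.1
  rcases M.eq_or_eq_neg_of_X_eq hP0 hQ0 h with h' | h'
  · exact h'
  · exfalso
    refine not_isNearP_and_isNearM M v ha₂ ha₄ ha₄0 h2 s₁ s₂ hs hs' (P := P) ⟨hP, hP.1, ?_⟩
    have e : M.τ P - s₂ = -(M.τ Q - s₁) := by
      rw [h', M.τ_neg hQ0 hXQ]
      linear_combination (-1 : L) * hs
    rw [e, Valuation.map_neg]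
    exact hQ.2

/-- the sum of two near₊ points is nonzero, and the identities (I1τ), (F3) hold for it
(chord or tangent) -/
theorem nearPP_identities {P Q : E} (hP : IsNearP M v s₁ P) (hQ : IsNearP M v s₁ Q) :
    P + Q ≠ 0 ∧
    M.X P * M.X Q * M.X (P + Q) * (M.τ P + M.τ Q + 1) ^ 2 = (M.X P * M.X Q - a₄) ^ 2 ∧
    (M.X P * M.X Q - a₄ ≠ 0 →
      M.τ (P + Q) = -M.τ P - 1 - (M.X P * M.X Q - a₄) / (M.X P * (M.τ P + M.τ Q + 1))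
        + (M.τ P + M.τ Q + 1) * (M.X P * M.X Q) / (M.X P * M.X Q - a₄)) := by
  have hP0 : P ≠ 0 := hP.1.1
  have hQ0 : Q ≠ 0 := hQ.1.1
  have hXP : M.X P ≠ 0 := X_ne_zero_of_isNear M v hP.1
  have hXQ : M.X Q ≠ 0 := X_ne_zero_of_isNear M v hQ.1
  by_cases h : M.X P = M.X Q
  · have hPQ : P = Q := eq_of_isNearP_of_X_eq M v ha₂ ha₄ ha₄0 h2 s₁ s₂ hs hs' hP hQ h
    subst hPQ
    have hY : 2 * M.Y P + M.X P ≠ 0 :=
      two_Y_add_X_ne_zero_of_isNearP M v ha₂ ha₄ ha₄0 h2 s₁ s₂ hs hs' hP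
    exact ⟨M.add_self_ne_zero_of_two_Y_add_X_ne_zero hP0 hY, M.dbl_I1τ hP0 hY hXP,
      fun hδ => M.dbl_F3 hP0 hY hXP hδ⟩
  · have hτ : M.τ P + M.τ Q + 1 ≠ 0 := by
      intro h0
      have h1 := v_τ_add_τ_add_one v ha₂ ha₄ ha₄0 h2 s₁ s₂ hs hs' hP.2 hQ.2
      rw [h0, map_zero] at h1
      exact zero_ne_one h1
    exact ⟨M.add_ne_zero_of_X_ne hP0 hQ0 h, M.I1τ hP0 hQ0 h hXP hXQ,
      fun hδ => M.F3 hP0 hQ0 h hXP hXQ hτ hδ⟩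

theorem nearP_add_nearP_lt {P Q : E} (hP : IsNearP M v s₁ P) (hQ : IsNearP M v s₁ Q)
    (h : v a₄ < v (M.X P) * v (M.X Q)) :
    IsNearP M v s₁ (P + Q) ∧ v (M.X (P + Q)) = v (M.X P) * v (M.X Q) := by
  obtain ⟨h0, hI, hF⟩ := nearPP_identities M v ha₂ ha₄ ha₄0 h2 s₁ s₂ hs hs' hP hQ
  obtain ⟨hX3, hτ3⟩ :=
    nearPP_core_lt v ha₂ ha₄ ha₄0 h2 s₁ s₂ hs hs' hP.1.2 hQ.1.2 hP.2 hQ.2 hI hF h
  refine ⟨⟨⟨h0, ?_, ?_⟩, hτ3⟩, hX3⟩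
  · rw [hX3]
    exact h
  · rw [hX3]
    exact mul_lt_one_of_nonneg_of_lt_one_left zero_le hP.1.2.2 hQ.1.2.2.le

theorem nearP_add_nearP_gt {P Q : E} (hP : IsNearP M v s₁ P) (hQ : IsNearP M v s₁ Q)
    (h : v (M.X P) * v (M.X Q) < v a₄) :
    IsNearM M v s₂ (P + Q) ∧ v (M.X (P + Q)) * (v (M.X P) * v (M.X Q)) = v a₄ ^ 2 := by
  obtain ⟨h0, hI, hF⟩ := nearPP_identities M v ha₂ ha₄ ha₄0 h2 s₁ s₂ hs hs' hP hQ
  obtain ⟨hX3, hτ3⟩ :=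
    nearPP_core_gt v ha₂ ha₄ ha₄0 h2 s₁ s₂ hs hs' hP.1.2 hQ.1.2 hP.2 hQ.2 hI hF h
  refine ⟨⟨⟨h0, ?_, ?_⟩, hτ3⟩, hX3⟩
  · by_contra hcon
    rw [not_lt] at hcon
    have hβpos : 0 < v a₄ := lt_of_le_of_lt zero_le h
    have hlt : v (M.X (P + Q)) * (v (M.X P) * v (M.X Q)) < v a₄ ^ 2 := by
      calc v (M.X (P + Q)) * (v (M.X P) * v (M.X Q))
          ≤ v a₄ * (v (M.X P) * v (M.X Q)) := by gcongr
        _ < v a₄ * v a₄ := mul_lt_mul_of_pos_left h hβpos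
        _ = v a₄ ^ 2 := (sq _).symm
    exact hlt.ne hX3
  · by_contra hcon
    rw [not_lt] at hcon
    have h1 : v a₄ ^ 2 < v (M.X P) * v (M.X Q) := by
      rw [sq]
      exact mul_lt_mul'' hP.1.2.1 hQ.1.2.1 zero_le zero_le
    have h3 : v (M.X P) * v (M.X Q) ≤ v (M.X (P + Q)) * (v (M.X P) * v (M.X Q)) := by
      calc v (M.X P) * v (M.X Q) = 1 * (v (M.X P) * v (M.X Q)) := (one_mul _).symm
        _ ≤ v (M.X (P + Q)) * (v (M.X P) * v (M.X Q)) := by gcongr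
    rw [hX3] at h3
    exact (not_lt.mpr h3) h1

theorem nearP_add_nearP_eq {P Q : E} (hP : IsNearP M v s₁ P) (hQ : IsNearP M v s₁ Q)
    (h : v (M.X P) * v (M.X Q) = v a₄) : IsFar M v (P + Q) := by
  obtain ⟨h0, hI, -⟩ := nearPP_identities M v ha₂ ha₄ ha₄0 h2 s₁ s₂ hs hs' hP hQ
  exact ⟨h0, nearPP_core_eq v ha₂ ha₄ ha₄0 h2 s₁ s₂ hs hs' hP.1.2 hQ.1.2 hP.2 hQ.2 hI h⟩

/-- the homomorphism property for two near₊ points -/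
theorem comp_add_nearP_nearP {P Q : E} (hP : IsNearP M v s₁ P) (hQ : IsNearP M v s₁ Q) :
    comp M v s₁ s₂ (P + Q) = cls v a₄ (M.X P) * cls v a₄ (M.X Q) := by
  have hXP : M.X P ≠ 0 := X_ne_zero_of_isNear M v hP.1
  have hXQ : M.X Q ≠ 0 := X_ne_zero_of_isNear M v hQ.1
  have hXPQ : M.X P * M.X Q ≠ 0 := mul_ne_zero hXP hXQ
  rw [← cls_mul v a₄ hXP hXQ]
  rcases lt_trichotomy (v (M.X P) * v (M.X Q)) (v a₄) with h | h | h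
  · obtain ⟨hN, hX3⟩ := nearP_add_nearP_gt M v ha₂ ha₄ ha₄0 h2 s₁ s₂ hs hs' hP hQ h
    rw [comp_of_isNearM M v ha₂ ha₄ ha₄0 h2 s₁ s₂ hs hs' hN]
    have hX3' : M.X (P + Q) ≠ 0 := X_ne_zero_of_isNear M v hN.1
    exact cls_inv_eq_of_mul_eq v a₄ hX3' hXPQ ha₄0 (by rw [map_mul]; exact hX3)
  · have hF := nearP_add_nearP_eq M v ha₂ ha₄ ha₄0 h2 s₁ s₂ hs hs' hP hQ h
    rw [comp_of_isFar M v ha₂ ha₄ ha₄0 h2 s₁ s₂ hs hs' hF]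
    exact cls_eq_of_v_eq v a₄ ha₄0 hXPQ (by rw [map_mul]; exact h.symm)
  · obtain ⟨hN, hX3⟩ := nearP_add_nearP_lt M v ha₂ ha₄ ha₄0 h2 s₁ s₂ hs hs' hP hQ h
    rw [comp_of_isNearP M v ha₂ ha₄ ha₄0 h2 s₁ s₂ hs hs' hN]
    have hX3' : M.X (P + Q) ≠ 0 := X_ne_zero_of_isNear M v hN.1
    exact cls_eq_of_v_eq v a₄ hX3' hXPQ (by rw [map_mul]; exact hX3)

end Fermat.Agent.S13L.At2
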