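import Fermat.Agent.S13L.AtTwoTypes

/-!
# S13 package T (component chain): the `T0`-translation rule for the component map

Port of `S05L/TypesT0.lean`: `X (P + T0) = a₄ / X P`, `τ (P + T0) = -τ P - 1`.
-/

set_option autoImplicit false
set_option linter.unusedSectionVars false
set_option linter.unusedVariables false

namespace Fermat.Agent.S13L.At2

open Fermat.Agent.S05L

variable {L : Type*} [Field L] {a₂ a₄ : L} {E : Type*} [AddCommGroup E] (M : TwoModel L a₂ a₄ E)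
  {Γ₀ : Type*} [LinearOrderedCommGroupWithZero Γ₀] (v : Valuation L Γ₀)
  (ha₂ : v a₂ ≤ 1) (ha₄ : v a₄ < 1) (ha₄0 : a₄ ≠ 0) (h2 : v (2 : L) < 1) (s₁ s₂ : L)
  (hs : s₁ + s₂ = -1) (hs' : s₁ * s₂ = -a₂)
include ha₂ ha₄ ha₄0 h2 hs hs'

/-- the valuation of `X (P + T0) = a₄ / X P` -/
theorem v_X_add_T0 {P : E} (hP : P ≠ 0) (hX : M.X P ≠ 0) :
    v (M.X (P + M.T0)) = v a₄ / v (M.X P) := by
  rw [M.X_add_T0 hP hX, map_div₀]

theorem isFar_add_T0_of_inE0 {P : E} (h : InE0 M v P) : IsFar M v (P + M.T0) := by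
  by_cases hP : P = 0
  · rw [hP, zero_add]
    exact isFar_T0 M v ha₂ ha₄ ha₄0 h2 s₁ s₂ hs hs'
  · rcases h with h | h
    · exact absurd h hP
    · have hvX : 0 < v (M.X P) := lt_of_lt_of_le zero_lt_one h
      have hX : M.X P ≠ 0 := (Valuation.ne_zero_iff v).1 hvX.ne'
      refine ⟨M.add_T0_ne_zero hP hX, ?_⟩
      rw [v_X_add_T0 M v ha₂ ha₄ ha₄0 h2 s₁ s₂ hs hs' hP hX, div_le_iff₀ hvX]
      exact le_mul_of_one_le_right' h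

theorem inE0_add_T0_of_isFar {P : E} (h : IsFar M v P) : InE0 M v (P + M.T0) := by
  obtain ⟨hP, hle⟩ := h
  by_cases hX : M.X P = 0
  · left
    rw [M.eq_T0_of_X_eq_zero hP hX]
    exact M.T0_add_T0
  · right
    have hvX : 0 < v (M.X P) := zero_lt_iff.2 ((Valuation.ne_zero_iff v).2 hX)
    rw [v_X_add_T0 M v ha₂ ha₄ ha₄0 h2 s₁ s₂ hs hs' hP hX, le_div_iff₀ hvX, one_mul]
    exact hle

theorem isNearM_add_T0 {P : E} (h : IsNearP M v s₁ P) :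
    IsNearM M v s₂ (P + M.T0) ∧ v (M.X (P + M.T0)) * v (M.X P) = v a₄ := by
  obtain ⟨⟨hP, h1, h1'⟩, hτ⟩ := h
  have hva₄ : 0 < v a₄ := zero_lt_iff.2 ((Valuation.ne_zero_iff v).2 ha₄0)
  have hvX : 0 < v (M.X P) := lt_trans hva₄ h1
  have hX : M.X P ≠ 0 := (Valuation.ne_zero_iff v).1 hvX.ne'
  have hvX' := v_X_add_T0 M v ha₂ ha₄ ha₄0 h2 s₁ s₂ hs hs' hP hX
  refine ⟨⟨⟨M.add_T0_ne_zero hP hX, ?_, ?_⟩, ?_⟩, ?_⟩
  · rw [hvX', lt_div_iff₀ hvX]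
    calc v a₄ * v (M.X P) < v a₄ * 1 := mul_lt_mul_of_pos_left h1' hva₄
      _ = v a₄ := mul_one _
  · rw [hvX', div_lt_iff₀ hvX, one_mul]
    exact h1
  · rw [M.τ_add_T0 ha₄0 hP hX,
      show -M.τ P - 1 - s₂ = -(M.τ P - s₁) by linear_combination (-1 : L) * hs,
      Valuation.map_neg]
    exact hτ
  · rw [hvX', div_mul_cancel₀ _ hvX.ne']

theorem isNearP_add_T0 {P : E} (h : IsNearM M v s₂ P) :
    IsNearP M v s₁ (P + M.T0) ∧ v (M.X (P + M.T0)) * v (M.X P) = v a₄ := by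
  obtain ⟨⟨hP, h1, h1'⟩, hτ⟩ := h
  have hva₄ : 0 < v a₄ := zero_lt_iff.2 ((Valuation.ne_zero_iff v).2 ha₄0)
  have hvX : 0 < v (M.X P) := lt_trans hva₄ h1
  have hX : M.X P ≠ 0 := (Valuation.ne_zero_iff v).1 hvX.ne'
  have hvX' := v_X_add_T0 M v ha₂ ha₄ ha₄0 h2 s₁ s₂ hs hs' hP hX
  refine ⟨⟨⟨M.add_T0_ne_zero hP hX, ?_, ?_⟩, ?_⟩, ?_⟩
  · rw [hvX', lt_div_iff₀ hvX]
    calc v a₄ * v (M.X P) < v a₄ * 1 := mul_lt_mul_of_pos_left h1' hva₄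
      _ = v a₄ := mul_one _
  · rw [hvX', div_lt_iff₀ hvX, one_mul]
    exact h1
  · rw [M.τ_add_T0 ha₄0 hP hX,
      show -M.τ P - 1 - s₁ = -(M.τ P - s₂) by linear_combination (-1 : L) * hs,
      Valuation.map_neg]
    exact hτ
  · rw [hvX', div_mul_cancel₀ _ hvX.ne']

/-- the `T0`-translation rule -/
theorem comp_add_T0 (P : E) :
    comp M v s₁ s₂ (P + M.T0) = comp M v s₁ s₂ P * cls v a₄ a₄ := by
  rcases type_cases M v P with h | h | h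
  · rw [comp_of_inE0 M v ha₂ ha₄ ha₄0 h2 s₁ s₂ hs hs' h, one_mul]
    exact comp_of_isFar M v ha₂ ha₄ ha₄0 h2 s₁ s₂ hs hs'
      (isFar_add_T0_of_inE0 M v ha₂ ha₄ ha₄0 h2 s₁ s₂ hs hs' h)
  · have hX : M.X P ≠ 0 := X_ne_zero_of_isNear M v h
    rcases isNear_sign M v ha₂ ha₄ ha₄0 h2 s₁ s₂ hs hs' h with hn | hn
    · obtain ⟨h', hv⟩ := isNearM_add_T0 M v ha₂ ha₄ ha₄0 h2 s₁ s₂ hs hs' hn
      have hX' : M.X (P + M.T0) ≠ 0 := X_ne_zero_of_isNear M v h'.1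
      have key : cls v a₄ (M.X (P + M.T0)) * cls v a₄ (M.X P) = cls v a₄ a₄ := by
        rw [← cls_mul v a₄ hX' hX]
        exact cls_eq_of_v_eq v a₄ (mul_ne_zero hX' hX) ha₄0 (by rw [map_mul, hv])
      rw [comp_of_isNearP M v ha₂ ha₄ ha₄0 h2 s₁ s₂ hs hs' hn,
        comp_of_isNearM M v ha₂ ha₄ ha₄0 h2 s₁ s₂ hs hs' h',
        eq_mul_inv_of_mul_eq key, mul_inv_rev, inv_inv, cls_β_inv]
    · obtain ⟨h', hv⟩ := isNearP_add_T0 M v ha₂ ha₄ ha₄0 h2 s₁ s₂ hs hs' hn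
      have hX' : M.X (P + M.T0) ≠ 0 := X_ne_zero_of_isNear M v h'.1
      have key : cls v a₄ (M.X (P + M.T0)) * cls v a₄ (M.X P) = cls v a₄ a₄ := by
        rw [← cls_mul v a₄ hX' hX]
        exact cls_eq_of_v_eq v a₄ (mul_ne_zero hX' hX) ha₄0 (by rw [map_mul, hv])
      rw [comp_of_isNearM M v ha₂ ha₄ ha₄0 h2 s₁ s₂ hs hs' hn,
        comp_of_isNearP M v ha₂ ha₄ ha₄0 h2 s₁ s₂ hs hs' h',
        eq_mul_inv_of_mul_eq key, mul_comm]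
  · rw [comp_of_isFar M v ha₂ ha₄ ha₄0 h2 s₁ s₂ hs hs' h,
      comp_of_inE0 M v ha₂ ha₄ ha₄0 h2 s₁ s₂ hs hs'
        (inE0_add_T0_of_isFar M v ha₂ ha₄ ha₄0 h2 s₁ s₂ hs hs' h)]
    exact (cls_β_mul_self v a₄).symm

end Fermat.Agent.S13L.At2
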