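import Fermat.Agent.S13L.AtTwoCompE0
import Fermat.Agent.S13L.AtTwoNear
import Fermat.Agent.S13L.AtTwoMixed
import Fermat.Agent.S13L.AtTwoTypesT0

/-!
# S13 package T (component chain): the component map is a homomorphism with kernel `E₀`

Port of `S05L/CompMain.lean`, plus `comp_eq_one_iff`.
-/

set_option autoImplicit false
set_option linter.unusedSectionVars false
set_option linter.unusedVariables false

namespace Fermat.Agent.S13L.At2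

open Fermat.Agent.S05L

/-- in a linearly ordered group with zero: if `0 < a < 1` and `a ≤ x < 1` then `x` is not an
even (integer) power of `a`. -/
private theorem AtTwoCompMain_aux_zpow {Γ₀ : Type*} [LinearOrderedCommGroupWithZero Γ₀]
    {a x : Γ₀} (ha0 : a ≠ 0) (ha1 : a < 1) (hax : a ≤ x) (hx1 : x < 1) (k : ℤ) :
    x ≠ a ^ (2 * k) := by
  intro h
  have hpos : 0 < a := zero_lt_iff.mpr ha0
  rcases le_or_gt k 0 with hk | hk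
  · have h1 : a ^ (0 : ℤ) ≤ a ^ (2 * k) :=
      zpow_le_zpow_right_of_le_one₀ hpos ha1.le (by omega)
    rw [zpow_zero, ← h] at h1
    exact absurd hx1 (not_lt.mpr h1)
  · have h1 : a ^ (2 * k) ≤ a ^ (2 : ℤ) :=
      zpow_le_zpow_right_of_le_one₀ hpos ha1.le (by omega)
    have h2 : a ^ (2 : ℤ) < a ^ (1 : ℤ) :=
      zpow_lt_zpow_right_of_lt_one₀ hpos ha1 (by norm_num)
    rw [zpow_one] at h2
    rw [← h] at h1
    exact absurd (lt_of_le_of_lt h1 h2) (not_lt.mpr hax)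

variable {L : Type*} [Field L] {a₂ a₄ : L} {E : Type*} [AddCommGroup E] (M : TwoModel L a₂ a₄ E)
  {Γ₀ : Type*} [LinearOrderedCommGroupWithZero Γ₀] (v : Valuation L Γ₀)
  (ha₂ : v a₂ ≤ 1) (ha₄ : v a₄ < 1) (ha₄0 : a₄ ≠ 0) (h2 : v (2 : L) < 1) (s₁ s₂ : L)
  (hs : s₁ + s₂ = -1) (hs' : s₁ * s₂ = -a₂)
include ha₂ ha₄ ha₄0 h2 hs hs'

/-- every far point is `R + T0` with `R ∈ E₀` -/
theorem exists_inE0_add_T0_of_isFar {P : E} (hP : IsFar M v P) :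
    ∃ R : E, InE0 M v R ∧ P = R + M.T0 := by
  refine ⟨P + M.T0, inE0_add_T0_of_isFar M v ha₂ ha₄ ha₄0 h2 s₁ s₂ hs hs' hP, ?_⟩
  rw [add_assoc, M.T0_add_T0, add_zero]

/-- adding a point of `E₀` does not change the component -/
theorem comp_add_of_inE0 {P : E} (hP : InE0 M v P) (Q : E) :
    comp M v s₁ s₂ (P + Q) = comp M v s₁ s₂ Q := by
  rcases type_cases M v Q with hQ | hQ | hQ
  · -- `Q ∈ E₀`: both sides are `1`
    rw [comp_of_inE0 M v ha₂ ha₄ ha₄0 h2 s₁ s₂ hs hs' (inE0_add M v ha₂ ha₄ hP hQ),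
      comp_of_inE0 M v ha₂ ha₄ ha₄0 h2 s₁ s₂ hs hs' hQ]
  · -- `Q` near: `P + Q` is near with the same sign and `v X(P + Q) = v X(Q)`
    rcases isNear_sign M v ha₂ ha₄ ha₄0 h2 s₁ s₂ hs hs' hQ with hQ' | hQ'
    · obtain ⟨h1, h3⟩ := isNearP_add_of_inE0 M v ha₂ ha₄ ha₄0 h2 s₁ s₂ hs hs' hP hQ'
      rw [comp_of_isNearP M v ha₂ ha₄ ha₄0 h2 s₁ s₂ hs hs' h1,
        comp_of_isNearP M v ha₂ ha₄ ha₄0 h2 s₁ s₂ hs hs' hQ']
      exact cls_eq_of_v_eq v a₄ (X_ne_zero_of_isNear M v h1.1) (X_ne_zero_of_isNear M v hQ) h3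
    · obtain ⟨h1, h3⟩ := isNearM_add_of_inE0 M v ha₂ ha₄ ha₄0 h2 s₁ s₂ hs hs' hP hQ'
      rw [comp_of_isNearM M v ha₂ ha₄ ha₄0 h2 s₁ s₂ hs hs' h1,
        comp_of_isNearM M v ha₂ ha₄ ha₄0 h2 s₁ s₂ hs hs' hQ',
        cls_eq_of_v_eq v a₄ (X_ne_zero_of_isNear M v h1.1) (X_ne_zero_of_isNear M v hQ) h3]
  · -- `Q` far: `Q = R + T0` with `R ∈ E₀`, and `P + Q = (P + R) + T0` with `P + R ∈ E₀`
    obtain ⟨R, hR, rfl⟩ := exists_inE0_add_T0_of_isFar M v ha₂ ha₄ ha₄0 h2 s₁ s₂ hs hs' hQ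
    rw [← add_assoc, comp_add_T0 M v ha₂ ha₄ ha₄0 h2 s₁ s₂ hs hs',
      comp_add_T0 M v ha₂ ha₄ ha₄0 h2 s₁ s₂ hs hs',
      comp_of_inE0 M v ha₂ ha₄ ha₄0 h2 s₁ s₂ hs hs' (inE0_add M v ha₂ ha₄ hP hR),
      comp_of_inE0 M v ha₂ ha₄ ha₄0 h2 s₁ s₂ hs hs' hR]

/-- the homomorphism property when the first point is far -/
theorem comp_add_of_isFar {P : E} (hP : IsFar M v P) (Q : E) :
    comp M v s₁ s₂ (P + Q) = comp M v s₁ s₂ P * comp M v s₁ s₂ Q := by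
  obtain ⟨R, hR, rfl⟩ := exists_inE0_add_T0_of_isFar M v ha₂ ha₄ ha₄0 h2 s₁ s₂ hs hs' hP
  have h1 : R + M.T0 + Q = (R + Q) + M.T0 := by abel
  rw [h1, comp_add_T0 M v ha₂ ha₄ ha₄0 h2 s₁ s₂ hs hs',
    comp_add_T0 M v ha₂ ha₄ ha₄0 h2 s₁ s₂ hs hs',
    comp_add_of_inE0 M v ha₂ ha₄ ha₄0 h2 s₁ s₂ hs hs' hR Q,
    comp_of_inE0 M v ha₂ ha₄ ha₄0 h2 s₁ s₂ hs hs' hR, one_mul, mul_comm]

/-- the homomorphism property for two near₊ points, in terms of `comp` -/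
private theorem AtTwoCompMain_aux_nearP_nearP {P Q : E} (hP : IsNearP M v s₁ P)
    (hQ : IsNearP M v s₁ Q) :
    comp M v s₁ s₂ (P + Q) = comp M v s₁ s₂ P * comp M v s₁ s₂ Q := by
  rw [comp_add_nearP_nearP M v ha₂ ha₄ ha₄0 h2 s₁ s₂ hs hs' hP hQ,
    comp_of_isNearP M v ha₂ ha₄ ha₄0 h2 s₁ s₂ hs hs' hP,
    comp_of_isNearP M v ha₂ ha₄ ha₄0 h2 s₁ s₂ hs hs' hQ]

/-- the homomorphism property for two near₋ points (apply the near₊ case to `-P`, `-Q`) -/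
private theorem AtTwoCompMain_aux_nearM_nearM {P Q : E} (hP : IsNearM M v s₂ P)
    (hQ : IsNearM M v s₂ Q) :
    comp M v s₁ s₂ (P + Q) = comp M v s₁ s₂ P * comp M v s₁ s₂ Q := by
  have hP' := isNearP_neg M v ha₂ ha₄ ha₄0 h2 s₁ s₂ hs hs' hP
  have hQ' := isNearP_neg M v ha₂ ha₄ ha₄0 h2 s₁ s₂ hs hs' hQ
  have h := AtTwoCompMain_aux_nearP_nearP M v ha₂ ha₄ ha₄0 h2 s₁ s₂ hs hs' hP' hQ'
  have h' : comp M v s₁ s₂ (P + Q) = (comp M v s₁ s₂ (-P + -Q))⁻¹ := by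
    rw [← comp_neg M v ha₂ ha₄ ha₄0 h2 s₁ s₂ hs hs', neg_add, neg_neg, neg_neg]
  rw [h', h, comp_neg M v ha₂ ha₄ ha₄0 h2 s₁ s₂ hs hs', comp_neg M v ha₂ ha₄ ha₄0 h2 s₁ s₂ hs hs',
    mul_inv, inv_inv, inv_inv]

/-- the homomorphism property for two near points -/
theorem comp_add_near_near {P Q : E} (hP : IsNear M v P) (hQ : IsNear M v Q) :
    comp M v s₁ s₂ (P + Q) = comp M v s₁ s₂ P * comp M v s₁ s₂ Q := by
  rcases isNear_sign M v ha₂ ha₄ ha₄0 h2 s₁ s₂ hs hs' hP with hP' | hP' <;>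
    rcases isNear_sign M v ha₂ ha₄ ha₄0 h2 s₁ s₂ hs hs' hQ with hQ' | hQ'
  · -- (near₊, near₊)
    exact AtTwoCompMain_aux_nearP_nearP M v ha₂ ha₄ ha₄0 h2 s₁ s₂ hs hs' hP' hQ'
  · -- (near₊, near₋)
    rw [comp_add_nearP_nearM M v ha₂ ha₄ ha₄0 h2 s₁ s₂ hs hs' hP' hQ',
      comp_of_isNearP M v ha₂ ha₄ ha₄0 h2 s₁ s₂ hs hs' hP',
      comp_of_isNearM M v ha₂ ha₄ ha₄0 h2 s₁ s₂ hs hs' hQ']
  · -- (near₋, near₊)
    rw [add_comm, comp_add_nearP_nearM M v ha₂ ha₄ ha₄0 h2 s₁ s₂ hs hs' hQ' hP',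
      comp_of_isNearM M v ha₂ ha₄ ha₄0 h2 s₁ s₂ hs hs' hP',
      comp_of_isNearP M v ha₂ ha₄ ha₄0 h2 s₁ s₂ hs hs' hQ', mul_comm]
  · -- (near₋, near₋)
    exact AtTwoCompMain_aux_nearM_nearM M v ha₂ ha₄ ha₄0 h2 s₁ s₂ hs hs' hP' hQ'

/-- the component map is a homomorphism -/
theorem comp_add (P Q : E) :
    comp M v s₁ s₂ (P + Q) = comp M v s₁ s₂ P * comp M v s₁ s₂ Q := by
  rcases type_cases M v P with hP | hP | hP
  · -- `P ∈ E₀`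
    rw [comp_add_of_inE0 M v ha₂ ha₄ ha₄0 h2 s₁ s₂ hs hs' hP Q,
      comp_of_inE0 M v ha₂ ha₄ ha₄0 h2 s₁ s₂ hs hs' hP, one_mul]
  · rcases type_cases M v Q with hQ | hQ | hQ
    · -- `Q ∈ E₀`
      rw [add_comm, comp_add_of_inE0 M v ha₂ ha₄ ha₄0 h2 s₁ s₂ hs hs' hQ P,
        comp_of_inE0 M v ha₂ ha₄ ha₄0 h2 s₁ s₂ hs hs' hQ, mul_one]
    · -- both near
      exact comp_add_near_near M v ha₂ ha₄ ha₄0 h2 s₁ s₂ hs hs' hP hQ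
    · -- `Q` far
      rw [add_comm, comp_add_of_isFar M v ha₂ ha₄ ha₄0 h2 s₁ s₂ hs hs' hQ P, mul_comm]
  · -- `P` far
    exact comp_add_of_isFar M v ha₂ ha₄ ha₄0 h2 s₁ s₂ hs hs' hP Q

theorem comp_zero : comp M v s₁ s₂ (0 : E) = 1 := by
  exact comp_of_inE0 M v ha₂ ha₄ ha₄0 h2 s₁ s₂ hs hs' (Or.inl rfl)

theorem comp_sub (P Q : E) :
    comp M v s₁ s₂ (P - Q) = comp M v s₁ s₂ P * (comp M v s₁ s₂ Q)⁻¹ := by
  rw [sub_eq_add_neg, comp_add M v ha₂ ha₄ ha₄0 h2 s₁ s₂ hs hs',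
    comp_neg M v ha₂ ha₄ ha₄0 h2 s₁ s₂ hs hs']

theorem comp_nsmul (n : ℕ) (P : E) : comp M v s₁ s₂ (n • P) = comp M v s₁ s₂ P ^ n := by
  induction n with
  | zero =>
    rw [zero_nsmul, pow_zero]
    exact comp_zero M v ha₂ ha₄ ha₄0 h2 s₁ s₂ hs hs'
  | succ n ih =>
    rw [succ_nsmul, pow_succ, comp_add M v ha₂ ha₄ ha₄0 h2 s₁ s₂ hs hs', ih]

/-- the class of `a₄` is not trivial -/
theorem cls_a₄_ne_one : cls v a₄ a₄ ≠ 1 := by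
  intro h
  have h1 : cls v a₄ a₄ ^ 1 = 1 := by rw [pow_one]; exact h
  obtain ⟨k, hk⟩ := exists_zpow_of_cls_pow_eq_one v a₄ ha₄0 ha₄0 1 h1
  rw [pow_one] at hk
  exact AtTwoCompMain_aux_zpow ((Valuation.ne_zero_iff v).2 ha₄0) ha₄ le_rfl ha₄ k hk

/-- the class of `X` of a near point is not trivial -/
theorem cls_X_ne_one_of_isNear {P : E} (h : IsNear M v P) : cls v a₄ (M.X P) ≠ 1 := by
  intro h'
  have h1 : cls v a₄ (M.X P) ^ 1 = 1 := by rw [pow_one]; exact h'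
  obtain ⟨k, hk⟩ := exists_zpow_of_cls_pow_eq_one v a₄ (X_ne_zero_of_isNear M v h) ha₄0 1 h1
  rw [pow_one] at hk
  exact AtTwoCompMain_aux_zpow ((Valuation.ne_zero_iff v).2 ha₄0) ha₄ h.2.1.le h.2.2 k hk

/-- the kernel of the component map is `E₀` -/
theorem comp_eq_one_iff (P : E) : comp M v s₁ s₂ P = 1 ↔ InE0 M v P := by
  constructor
  · intro h
    rcases type_cases M v P with hP | hP | hP
    · exact hP
    · exfalso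
      rcases isNear_sign M v ha₂ ha₄ ha₄0 h2 s₁ s₂ hs hs' hP with hP' | hP'
      · rw [comp_of_isNearP M v ha₂ ha₄ ha₄0 h2 s₁ s₂ hs hs' hP'] at h
        exact cls_X_ne_one_of_isNear M v ha₂ ha₄ ha₄0 h2 s₁ s₂ hs hs' hP h
      · rw [comp_of_isNearM M v ha₂ ha₄ ha₄0 h2 s₁ s₂ hs hs' hP', inv_eq_one] at h
        exact cls_X_ne_one_of_isNear M v ha₂ ha₄ ha₄0 h2 s₁ s₂ hs hs' hP h
    · exfalso
      rw [comp_of_isFar M v ha₂ ha₄ ha₄0 h2 s₁ s₂ hs hs' hP] at h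
      exact cls_a₄_ne_one v ha₂ ha₄ ha₄0 h2 s₁ s₂ hs hs' h
  · exact comp_of_inE0 M v ha₂ ha₄ ha₄0 h2 s₁ s₂ hs hs'

end Fermat.Agent.S13L.At2
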