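import Fermat.Agent.S13L.AtTwoDefs

/-!
# S13 package T: the congruence lemma for a `TwoModel` in residue characteristic 2
(statements FROZEN)

Two points with the same nonsingular reduction `(x̄, ȳ)`, `x̄ ≠ 0`, differ by a point of `E₁`:
`Q - P = Q + (-P)`, `-P = (X P, -Y P - X P)`; if `X Q ≠ X P` the chord slope is
`(Y Q + Y P + X P)/(X Q - X P)` with unit numerator (`≡ 2 Y P + X P ≡ X P`) and denominator
in the maximal ideal, so `1 < v (X (Q - P))`; if `X Q = X P` then `Q = P` or `Q = -P`, and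
`Q = -P` contradicts `Y Q ≡ Y P` (as `2 Y P + X P` is a unit).
-/

set_option autoImplicit false

namespace Fermat.Agent.S13L.At2

variable {L : Type*} [Field L] {a₂ a₄ : L} {E : Type*} [AddCommGroup E] (M : TwoModel L a₂ a₄ E)
  {Γ₀ : Type*} [LinearOrderedCommGroupWithZero Γ₀] (v : Valuation L Γ₀)

/-! ### small valuation helpers -/

theorem at2c_v_add_le {a b : L} (ha : v a ≤ 1) (hb : v b ≤ 1) : v (a + b) ≤ 1 :=
  (Valuation.map_add _ _ _).trans (max_le ha hb)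

theorem at2c_v_sub_le {a b : L} (ha : v a ≤ 1) (hb : v b ≤ 1) : v (a - b) ≤ 1 :=
  (Valuation.map_sub _ _ _).trans (max_le ha hb)

theorem at2c_v_mul_le {a b : L} (ha : v a ≤ 1) (hb : v b ≤ 1) : v (a * b) ≤ 1 := by
  rw [map_mul]; exact mul_le_one' ha hb

theorem at2c_v_mul_lt {a b : L} (ha : v a < 1) (hb : v b ≤ 1) : v (a * b) < 1 := by
  rw [map_mul]
  calc v a * v b ≤ v a * 1 := by gcongr
    _ < 1 := by rwa [mul_one]

theorem at2c_v_pow_le {a : L} (ha : v a ≤ 1) (n : ℕ) : v (a ^ n) ≤ 1 := by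
  rw [map_pow]; exact pow_le_one' ha n

theorem at2c_v_ofNat_le (n : ℕ) : v (n : L) ≤ 1 := by
  induction n with
  | zero => simp
  | succ k ih => rw [Nat.cast_succ]; exact at2c_v_add_le v ih (by simp)

theorem at2c_v_two_le : v (2 : L) ≤ 1 := by
  simpa using at2c_v_ofNat_le v 2

theorem at2c_v_three_le : v (3 : L) ≤ 1 := by
  simpa using at2c_v_ofNat_le v 3

/-- if `a ≡ b mod 𝔪` and `v b = 1` then `v a = 1` -/
theorem at2c_v_eq_one_of_sub {a b : L} (hb : v b = 1) (hab : v (a - b) < 1) : v a = 1 := by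
  have : a = b + (a - b) := by ring
  rw [this, Valuation.map_add_eq_of_lt_left (v := v) (by rw [hb]; exact hab), hb]

/-- `v (t² + t + c) = v t ²` when `1 < v t` and `v c ≤ 1`. -/
theorem at2c_v_sq_add {t c : L} (ht : 1 < v t) (hc : v c ≤ 1) :
    1 < v (t ^ 2 + t + c) := by
  have h1 : v (t + c) ≤ v t := (Valuation.map_add _ _ _).trans (max_le le_rfl (hc.trans ht.le))
  have h2 : v t < v (t ^ 2) := by
    rw [map_pow, pow_two]
    have h0 : (0 : Γ₀) < v t := lt_trans zero_lt_one ht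
    calc v t = v t * 1 := (mul_one _).symm
      _ < v t * v t := mul_lt_mul_of_pos_left ht h0
  have e : t ^ 2 + t + c = t ^ 2 + (t + c) := by ring
  rw [e, Valuation.map_add_eq_of_lt_left (v := v) (lt_of_le_of_lt h1 h2)]
  exact lt_trans ht h2

/-! ### basic facts on the model -/

theorem at2c_eq_or_eq_neg_of_x_eq {P Q : E} (hP : P ≠ 0) (hQ : Q ≠ 0) (h : M.X P = M.X Q) :
    P = Q ∨ P = -Q := by
  have h1 := M.eqn P hP
  have h2 := M.eqn Q hQ
  have hprod : (M.Y P - M.Y Q) * (M.Y P + M.Y Q + M.X Q) = 0 := by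
    rw [h] at h1
    linear_combination h1 - h2
  rcases mul_eq_zero.1 hprod with hY | hY
  · exact Or.inl (M.ext P Q hP hQ h (sub_eq_zero.1 hY))
  · refine Or.inr (M.ext P (-Q) hP (neg_ne_zero.mpr hQ) ?_ ?_)
    · rw [M.X_neg Q hQ]; exact h
    · rw [M.Y_neg Q hQ]; linear_combination hY

theorem at2c_add_self_eq_zero {P : E} (hP : P ≠ 0) (hY : 2 * M.Y P + M.X P = 0) : P + P = 0 := by
  have hneg : -P = P := by
    refine M.ext (-P) P (neg_ne_zero.mpr hP) hP (M.X_neg P hP) ?_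
    rw [M.Y_neg P hP]; linear_combination -hY
  have h0 : -P + P = 0 := neg_add_cancel P
  rw [hneg] at h0
  exact h0

theorem at2c_add_self_ne_zero {P : E} (hP : P ≠ 0) (hY : 2 * M.Y P + M.X P ≠ 0) : P + P ≠ 0 := by
  intro h0
  apply hY
  have hPP : P = -P := eq_neg_of_add_eq_zero_left h0
  have hYY : M.Y P = -M.Y P - M.X P := by
    calc M.Y P = M.Y (-P) := congrArg M.Y hPP
      _ = -M.Y P - M.X P := M.Y_neg P hP
  linear_combination hYY

/-- integrality of `y` from integrality of `x` -/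
theorem at2c_v_y_le_one (ha₂ : v a₂ ≤ 1) (ha₄ : v a₄ ≤ 1) {P : E} (hP : P ≠ 0)
    (hX : v (M.X P) ≤ 1) : v (M.Y P) ≤ 1 := by
  by_contra hc
  replace hc := not_le.1 hc
  have h := M.eqn P hP
  have hf : v (M.X P ^ 3 + a₂ * M.X P ^ 2 + a₄ * M.X P) ≤ 1 :=
    at2c_v_add_le v (at2c_v_add_le v (at2c_v_pow_le v hX 3)
      (at2c_v_mul_le v ha₂ (at2c_v_pow_le v hX 2))) (at2c_v_mul_le v ha₄ hX)
  have e : M.Y P ^ 2 = (M.X P ^ 3 + a₂ * M.X P ^ 2 + a₄ * M.X P) - M.X P * M.Y P := by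
    linear_combination h
  have h0 : (0 : Γ₀) < v (M.Y P) := lt_trans zero_lt_one hc
  have h1 : v (M.X P * M.Y P) ≤ v (M.Y P) := by
    rw [map_mul]
    calc v (M.X P) * v (M.Y P) ≤ 1 * v (M.Y P) := by gcongr
      _ = v (M.Y P) := one_mul _
  have h2 : v (M.Y P ^ 2) ≤ v (M.Y P) := by
    rw [e]
    exact (Valuation.map_sub _ _ _).trans (max_le (hf.trans hc.le) h1)
  have h3 : v (M.Y P) < v (M.Y P ^ 2) := by
    rw [map_pow, pow_two]
    calc v (M.Y P) = v (M.Y P) * 1 := (mul_one _).symm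
      _ < v (M.Y P) * v (M.Y P) := mul_lt_mul_of_pos_left hc h0
  exact absurd h2 (not_le.2 h3)

/-! ### the congruence lemma -/

/-- chord case: `x Q ≠ x P` -/
theorem at2c_congr_of_x_ne (ha₂ : v a₂ ≤ 1) {P Q : E}
    (hP : P ≠ 0) (hQ : Q ≠ 0) (hPx : v (M.X P) ≤ 1)
    (hx : v (M.X Q - M.X P) < 1) (hy : v (M.Y Q - M.Y P) < 1)
    (hns : v (2 * M.Y P + M.X P) = 1 ∨
      v (M.Y P - 3 * M.X P ^ 2 - 2 * a₂ * M.X P - a₄) = 1)
    (hne : M.X Q ≠ M.X P) : 1 < v (M.X (Q + -P)) := by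
  have hnP : -P ≠ 0 := neg_ne_zero.2 hP
  have hXn : M.X (-P) = M.X P := M.X_neg P hP
  have hYn : M.Y (-P) = -M.Y P - M.X P := M.Y_neg P hP
  have hd : M.X Q - M.X P ≠ 0 := sub_ne_zero.2 hne
  have hdv : v (M.X Q - M.X P) ≠ 0 := (Valuation.ne_zero_iff v).2 hd
  have hQx : v (M.X Q) ≤ 1 := by
    have : M.X Q = (M.X Q - M.X P) + M.X P := by ring
    rw [this]; exact at2c_v_add_le v hx.le hPx
  have hXadd := M.X_add Q (-P) hQ hnP (by rw [hXn]; exact hne)
  rw [hXn, hYn] at hXadd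
  -- the slope is not integral
  have hΛ : 1 < v ((M.Y Q - (-M.Y P - M.X P)) / (M.X Q - M.X P)) := by
    rcases hns with h1 | h1
    · have hnum : v (M.Y Q - (-M.Y P - M.X P)) = 1 := by
        have e : M.Y Q - (-M.Y P - M.X P) = (2 * M.Y P + M.X P) + (M.Y Q - M.Y P) := by ring
        rw [e, Valuation.map_add_eq_of_lt_left (v := v) (by rw [h1]; exact hy), h1]
      rw [map_div₀, hnum]
      exact (one_lt_div₀ (zero_lt_iff.2 hdv)).2 hx
    · -- `g ≡ f'(x P)`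
      have hg : v ((M.X Q ^ 2 + M.X Q * M.X P + M.X P ^ 2 + a₂ * (M.X Q + M.X P) + a₄)
          - M.Y P) = 1 := by
        have e : (M.X Q ^ 2 + M.X Q * M.X P + M.X P ^ 2 + a₂ * (M.X Q + M.X P) + a₄) - M.Y P
            = -(M.Y P - 3 * M.X P ^ 2 - 2 * a₂ * M.X P - a₄)
              + (M.X Q - M.X P) * (M.X Q + 2 * M.X P + a₂) := by ring
        have hsmall : v ((M.X Q - M.X P) * (M.X Q + 2 * M.X P + a₂)) < 1 :=
          at2c_v_mul_lt v hx (at2c_v_add_le v (at2c_v_add_le v hQx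
            (at2c_v_mul_le v (at2c_v_two_le v) hPx)) ha₂)
        rw [e, Valuation.map_add_eq_of_lt_left (v := v)
          (by rw [Valuation.map_neg, h1]; exact hsmall), Valuation.map_neg, h1]
      have hprod : (M.Y Q - M.Y P) * (M.Y Q + M.Y P + M.X Q)
          = (M.X Q - M.X P)
            * ((M.X Q ^ 2 + M.X Q * M.X P + M.X P ^ 2 + a₂ * (M.X Q + M.X P) + a₄) - M.Y P) := by
        have h1' := M.eqn P hP
        have h2' := M.eqn Q hQ
        linear_combination h2' - h1'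
      have hYne : M.Y Q - M.Y P ≠ 0 := by
        intro h0
        rw [h0, zero_mul] at hprod
        rcases mul_eq_zero.1 hprod.symm with h | h
        · exact hd h
        · rw [h, map_zero] at hg
          exact zero_ne_one hg
      have hYv : v (M.Y Q - M.Y P) ≠ 0 := (Valuation.ne_zero_iff v).2 hYne
      have hbig : 1 < v ((M.Y Q + M.Y P + M.X Q) / (M.X Q - M.X P)) := by
        have hΛeq : (M.Y Q + M.Y P + M.X Q) / (M.X Q - M.X P)
            = ((M.X Q ^ 2 + M.X Q * M.X P + M.X P ^ 2 + a₂ * (M.X Q + M.X P) + a₄) - M.Y P)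
              / (M.Y Q - M.Y P) := by
          rw [div_eq_div_iff hd hYne]
          linear_combination hprod
        rw [hΛeq, map_div₀, hg]
        exact (one_lt_div₀ (zero_lt_iff.2 hYv)).2 hy
      have e : (M.Y Q - (-M.Y P - M.X P)) / (M.X Q - M.X P)
          = (M.Y Q + M.Y P + M.X Q) / (M.X Q - M.X P) + (-1) := by
        field_simp
        ring
      rw [e, Valuation.map_add_eq_of_lt_left (v := v)
        (by rw [Valuation.map_neg, map_one]; exact hbig)]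
      exact hbig
  rw [hXadd]
  have hrest : v (-a₂ - M.X Q - M.X P) ≤ 1 := by
    refine at2c_v_sub_le v (at2c_v_sub_le v ?_ hQx) hPx
    rw [Valuation.map_neg]; exact ha₂
  have e : ((M.Y Q - (-M.Y P - M.X P)) / (M.X Q - M.X P)) ^ 2
        + (M.Y Q - (-M.Y P - M.X P)) / (M.X Q - M.X P) - a₂ - M.X Q - M.X P
      = ((M.Y Q - (-M.Y P - M.X P)) / (M.X Q - M.X P)) ^ 2
        + (M.Y Q - (-M.Y P - M.X P)) / (M.X Q - M.X P) + (-a₂ - M.X Q - M.X P) := by ring
  rw [e]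
  exact at2c_v_sq_add v hΛ hrest

/-- tangent case: `2P` for a point whose `y`-derivative is small and `x`-derivative a unit -/
theorem at2c_congr_dbl (ha₂ : v a₂ ≤ 1) {P : E}
    (hP : P ≠ 0) (hPx : v (M.X P) ≤ 1) (hY : v (2 * M.Y P + M.X P) < 1)
    (hY0 : 2 * M.Y P + M.X P ≠ 0)
    (hns : v (M.Y P - 3 * M.X P ^ 2 - 2 * a₂ * M.X P - a₄) = 1) :
    P + P ≠ 0 ∧ 1 < v (M.X (P + P)) := by
  refine ⟨at2c_add_self_ne_zero M hP hY0, ?_⟩
  rw [M.X_dbl P hP hY0]
  have hYv : v (2 * M.Y P + M.X P) ≠ 0 := (Valuation.ne_zero_iff v).2 hY0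
  have ht : 1 < v ((3 * M.X P ^ 2 + 2 * a₂ * M.X P + a₄ - M.Y P) / (2 * M.Y P + M.X P)) := by
    have e : 3 * M.X P ^ 2 + 2 * a₂ * M.X P + a₄ - M.Y P
        = -(M.Y P - 3 * M.X P ^ 2 - 2 * a₂ * M.X P - a₄) := by ring
    rw [map_div₀, e, Valuation.map_neg, hns]
    exact (one_lt_div₀ (zero_lt_iff.2 hYv)).2 hY
  have hrest : v (-a₂ - 2 * M.X P) ≤ 1 := by
    refine at2c_v_sub_le v ?_ (at2c_v_mul_le v (at2c_v_two_le v) hPx)
    rw [Valuation.map_neg]; exact ha₂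
  have e : ((3 * M.X P ^ 2 + 2 * a₂ * M.X P + a₄ - M.Y P) / (2 * M.Y P + M.X P)) ^ 2
        + (3 * M.X P ^ 2 + 2 * a₂ * M.X P + a₄ - M.Y P) / (2 * M.Y P + M.X P) - a₂ - 2 * M.X P
      = ((3 * M.X P ^ 2 + 2 * a₂ * M.X P + a₄ - M.Y P) / (2 * M.Y P + M.X P)) ^ 2
        + (3 * M.X P ^ 2 + 2 * a₂ * M.X P + a₄ - M.Y P) / (2 * M.Y P + M.X P)
        + (-a₂ - 2 * M.X P) := by ring
  rw [e]
  exact at2c_v_sq_add v ht hrest

/-- **Congruence lemma**: integral points `P, Q` congruent modulo `𝔪`, with nonsingular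
reduction, differ by a point of `E₁` (`Q - P = 0` or `x (Q - P)` is not integral). -/
theorem at2c_congr_sub (ha₂ : v a₂ ≤ 1) {P Q : E}
    (hP : P ≠ 0) (hQ : Q ≠ 0) (hPx : v (M.X P) ≤ 1)
    (hx : v (M.X Q - M.X P) < 1) (hy : v (M.Y Q - M.Y P) < 1)
    (hns : v (2 * M.Y P + M.X P) = 1 ∨
      v (M.Y P - 3 * M.X P ^ 2 - 2 * a₂ * M.X P - a₄) = 1) :
    Q - P = 0 ∨ 1 < v (M.X (Q - P)) := by
  by_cases hne : M.X Q = M.X P
  · rcases at2c_eq_or_eq_neg_of_x_eq M hQ hP hne with h | h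
    · left; rw [h, sub_self]
    · -- `Q = -P`
      by_cases hY0 : 2 * M.Y P + M.X P = 0
      · left
        have : P + P = 0 := at2c_add_self_eq_zero M hP hY0
        rw [h]
        have h' : -P - P = -(P + P) := by abel
        rw [h', this, neg_zero]
      · have hYQ : M.Y Q = -M.Y P - M.X P := by rw [h]; exact M.Y_neg P hP
        have hYlt : v (2 * M.Y P + M.X P) < 1 := by
          rw [hYQ] at hy
          have e : -M.Y P - M.X P - M.Y P = -(2 * M.Y P + M.X P) := by ring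
          rw [e, Valuation.map_neg] at hy
          exact hy
        have hf : v (M.Y P - 3 * M.X P ^ 2 - 2 * a₂ * M.X P - a₄) = 1 := by
          rcases hns with h1 | h1
          · exact absurd h1 hYlt.ne
          · exact h1
        obtain ⟨h30, h3⟩ := at2c_congr_dbl M v ha₂ hP hPx hYlt hY0 hf
        have h' : Q - P = -(P + P) := by rw [h]; abel
        right
        rw [h', M.X_neg (P + P) h30]
        exact h3
  · right
    rw [sub_eq_add_neg]
    exact at2c_congr_of_x_ne M v ha₂ hP hQ hPx hx hy hns hne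

/-- in residue characteristic `2` with `a₄ ∈ 𝔪`: an integral point with unit `x` has nonsingular
reduction (its `y`-derivative `2y + x` is a unit). -/
theorem at2c_nonsing_of_unit (h2 : v (2 : L) < 1) (ha₂ : v a₂ ≤ 1) (ha₄ : v a₄ ≤ 1) {P : E}
    (hP : P ≠ 0) (hX : v (M.X P) = 1) : v (2 * M.Y P + M.X P) = 1 := by
  have hY : v (M.Y P) ≤ 1 := at2c_v_y_le_one M v ha₂ ha₄ hP hX.le
  have h2y : v (2 * M.Y P) < 1 := at2c_v_mul_lt v h2 hY
  rw [add_comm, Valuation.map_add_eq_of_lt_left (v := v) (by rw [hX]; exact h2y), hX]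

/-- an integral abscissa has an integral ordinate -/
theorem v_Y_le_one (ha₂ : v a₂ ≤ 1) (ha₄ : v a₄ ≤ 1) {P : E} (hP : P ≠ 0)
    (hX : v (M.X P) ≤ 1) : v (M.Y P) ≤ 1 :=
  at2c_v_y_le_one M v ha₂ ha₄ hP hX

/-- the congruence lemma -/
theorem congr_sub_inE1 (ha₂ : v a₂ ≤ 1) (ha₄ : v a₄ ≤ 1) (h2 : v (2 : L) < 1) {P Q : E}
    (hP : P ≠ 0) (hQ : Q ≠ 0) (hX : v (M.X P) = 1) (hXd : v (M.X Q - M.X P) < 1)
    (hYd : v (M.Y Q - M.Y P) < 1) : InE1 M v (Q - P) :=
  at2c_congr_sub M v ha₂ hP hQ hX.le hXd hYd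
    (Or.inl (at2c_nonsing_of_unit M v h2 ha₂ ha₄ hP hX))

end Fermat.Agent.S13L.At2
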