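import Fermat.Agent.S13L.AtTwoModel
import Fermat.Agent.S05L.Cls

/-!
# S13 package T: types of points of a `TwoModel` and the component map (definitions FROZEN)

`v` a valuation with `v a₄ < 1` (node at `(0,0)`), `s₁, s₂` the roots of `t² + t - a₂`
(the tangent slopes at the node), `τ = Y / X`:
* `InE1`  : `P = 0` or `1 < v X`            (kernel of reduction)
* `InE0`  : `P = 0` or `1 ≤ v X`            (nonsingular reduction)
* `IsNear`: `v a₄ < v X < 1`; `IsNearP` if `τ ≡ s₁`, `IsNearM` if `τ ≡ s₂`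
* `IsFar` : `v X ≤ v a₄` (including `T0`)
The component group is `CQ v a₄ = Γ₀ˣ ⧸ ⟨v(a₄)²⟩` (from `S05L/Cls.lean`).
-/

set_option autoImplicit false

namespace Fermat.Agent.S13L.At2

open Fermat.Agent.S05L

variable {L : Type*} [Field L] {a₂ a₄ : L} {E : Type*} [AddCommGroup E] (M : TwoModel L a₂ a₄ E)
  {Γ₀ : Type*} [LinearOrderedCommGroupWithZero Γ₀] (v : Valuation L Γ₀)

/-- `P = 0` or `X(P)` is not integral (kernel of reduction) -/
def InE1 (P : E) : Prop := P = 0 ∨ 1 < v (M.X P)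

/-- `P = 0` or `X(P)` is not in the maximal ideal (nonsingular reduction) -/
def InE0 (P : E) : Prop := P = 0 ∨ 1 ≤ v (M.X P)

/-- `v a₄ < v X < 1` -/
def IsNear (P : E) : Prop := P ≠ 0 ∧ v a₄ < v (M.X P) ∧ v (M.X P) < 1

/-- near with `τ ≡ s₁` -/
def IsNearP (s₁ : L) (P : E) : Prop := IsNear M v P ∧ v (M.τ P - s₁) < 1

/-- near with `τ ≡ s₂` -/
def IsNearM (s₂ : L) (P : E) : Prop := IsNear M v P ∧ v (M.τ P - s₂) < 1

/-- `v X ≤ v a₄` (including `X = 0`) -/
def IsFar (P : E) : Prop := P ≠ 0 ∧ v (M.X P) ≤ v a₄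

/-- the component map -/
noncomputable def comp (s₁ s₂ : L) (P : E) : CQ v a₄ :=
  open Classical in
  if InE0 M v P then 1
  else if IsNearP M v s₁ P then cls v a₄ (M.X P)
  else if IsNearM M v s₂ P then (cls v a₄ (M.X P))⁻¹
  else cls v a₄ a₄

end Fermat.Agent.S13L.At2
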