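import Fermat.Agent.S13L.AtTwoE1f

/-!
# S13 package T: the kernel of reduction `E₁` of a `TwoModel`, part a (helper5's hedge)

The parameter `z = -X/Y`, and the chord and tangent relations
`z(P+Q) (1 + ρ z(P) z(Q)) = z(P) + z(Q) - z(P) z(Q)` with `ρ` integral.
Statements of this file are the interface used by `AtTwoE1.lean`; it uses `AtTwoE1f.lean`.
-/

set_option autoImplicit false

namespace Fermat.Agent.S13L.At2

variable {L : Type*} [Field L] {a₂ a₄ : L} {E : Type*} [AddCommGroup E] (M : TwoModel L a₂ a₄ E)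
  {Γ₀ : Type*} [LinearOrderedCommGroupWithZero Γ₀] (v : Valuation L Γ₀)

/-- the parameter `z = -X / Y` (and `z(0) = 0`) -/
noncomputable def e1_zc (P : E) : L := open Classical in if P = 0 then 0 else -(M.X P / M.Y P)

theorem e1_zc_zero : e1_zc M (0 : E) = 0 := by
  unfold e1_zc
  rw [if_pos rfl]

theorem e1_zc_of_ne_zero {P : E} (hP : P ≠ 0) : e1_zc M P = -(M.X P / M.Y P) := by
  unfold e1_zc
  rw [if_neg hP]

/-! ### auxiliary facts -/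

theorem e1_a_mul_inv_le {a b : Γ₀} (ha : a ≤ 1) (hb : 1 < b) : a * b⁻¹ ≤ 1 :=
  Left.mul_le_one ha (inv_lt_one_of_one_lt₀ hb).le

theorem e1_a_X_ne_zero {P : E} (h : 1 < v (M.X P)) : M.X P ≠ 0 := by
  intro h0
  rw [h0, map_zero] at h
  exact absurd h (not_lt.mpr zero_le_one)

theorem e1_a_zc_eq_neg_inv_τ {P : E} (hP : P ≠ 0) : e1_zc M P = -(M.τ P)⁻¹ := by
  rw [e1_zc_of_ne_zero M hP, M.τ_def, inv_div]

/-- a field identity: from `τ₃ (τ₁ + τ₂ + 1) = τ₁ τ₂ + ρ` to the parameters `z = -1 / τ` -/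
theorem e1_a_field {t₁ t₂ t₃ ρ : L} (h1 : t₁ ≠ 0) (h2 : t₂ ≠ 0) (h3 : t₃ ≠ 0)
    (hZ : t₃ * (t₁ + t₂ + 1) = t₁ * t₂ + ρ) :
    -t₃⁻¹ * (1 + ρ * -t₁⁻¹ * -t₂⁻¹) = -t₁⁻¹ + -t₂⁻¹ - -t₁⁻¹ * -t₂⁻¹ := by
  field_simp
  linear_combination hZ

/-- on `E₁ ∖ {0}`: `1 < v τ` and `v(τ)² = v(X)` -/
theorem e1_a_v_τ (ha₂ : v a₂ ≤ 1) (ha₄ : v a₄ ≤ 1) {P : E} (hP : P ≠ 0)
    (h : 1 < v (M.X P)) : 1 < v (M.τ P) ∧ v (M.τ P) ^ 2 = v (M.X P) := by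
  have hX0 := e1_a_X_ne_zero M v h
  have h1 := congrArg v (e1_τ_sq M hP hX0)
  have hr : v (a₂ + a₄ / M.X P) ≤ 1 := by
    refine v.map_add_le ha₂ ?_
    rw [map_div₀, div_eq_mul_inv]
    exact e1_a_mul_inv_le ha₄ h
  have hR : v (M.X P + a₂ + a₄ / M.X P) = v (M.X P) := by
    rw [add_assoc]
    exact v.map_add_eq_of_lt_left (lt_of_le_of_lt hr h)
  rw [hR] at h1
  have hτ : 1 < v (M.τ P) := by
    by_contra hc
    have hle : v (M.τ P) ≤ 1 := not_lt.mp hc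
    have h2 : v (M.τ P ^ 2 + M.τ P) ≤ 1 := by
      refine v.map_add_le ?_ hle
      rw [map_pow]
      exact pow_le_one' hle 2
    rw [h1] at h2
    exact absurd h (not_lt.mpr h2)
  refine ⟨hτ, ?_⟩
  have hlt : v (M.τ P) < v (M.τ P ^ 2) := by
    rw [map_pow, pow_two]
    exact lt_mul_of_one_lt_left (zero_lt_one.trans hτ) hτ
  rw [v.map_add_eq_of_lt_left hlt, map_pow] at h1
  exact h1

theorem e1_a_τ_ne_zero (ha₂ : v a₂ ≤ 1) (ha₄ : v a₄ ≤ 1) {P : E} (hP : P ≠ 0)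
    (h : 1 < v (M.X P)) : M.τ P ≠ 0 := by
  intro h0
  have h1 := (e1_a_v_τ M v ha₂ ha₄ hP h).1
  rw [h0, map_zero] at h1
  exact absurd h1 (not_lt.mpr zero_le_one)

theorem e1_a_Y_ne_zero (ha₂ : v a₂ ≤ 1) (ha₄ : v a₄ ≤ 1) {P : E} (hP : P ≠ 0)
    (h : 1 < v (M.X P)) : M.Y P ≠ 0 := by
  intro h0
  apply e1_a_τ_ne_zero M v ha₂ ha₄ hP h
  rw [M.τ_def, h0, zero_div]

/-- pure valuation core of the chord and tangent cases -/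
theorem e1_a_core {X₁ X₂ X₃ τ₁ τ₂ : L} (ha₂ : v a₂ ≤ 1) (ha₄ : v a₄ ≤ 1)
    (hX1 : 1 < v X₁) (hX2 : 1 < v X₂) (hτ1 : 1 < v τ₁) (hτ2 : 1 < v τ₂)
    (ht1 : v τ₁ ^ 2 = v X₁) (ht2 : v τ₂ ^ 2 = v X₂)
    (hI : X₁ * X₂ * X₃ * (τ₁ + τ₂ + 1) ^ 2 = (X₁ * X₂ - a₄) ^ 2) :
    τ₁ + τ₂ + 1 ≠ 0 ∧ X₁ * X₂ - a₄ ≠ 0 ∧ 1 < v X₃ ∧
    v (a₂ + a₄ / X₂ + a₄ / X₁ + (τ₁ + τ₂ + 1) ^ 2 * a₄ / (X₁ * X₂ - a₄)) ≤ 1 := by
  have h12 : 1 < v X₁ * v X₂ := Right.one_lt_mul' hX1 hX2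
  have h10 : v X₁ ≠ 0 := ne_zero_of_lt hX1
  have h20 : v X₂ ≠ 0 := ne_zero_of_lt hX2
  have hsum : v (X₁ * X₂ - a₄) = v X₁ * v X₂ := by
    rw [← map_mul]
    exact v.map_sub_eq_of_lt_left (lt_of_le_of_lt ha₄ (by rw [map_mul]; exact h12))
  have hsum0 : X₁ * X₂ - a₄ ≠ 0 := by
    intro h0
    rw [h0, map_zero] at hsum
    exact (mul_ne_zero h10 h20) hsum.symm
  have hτ : τ₁ + τ₂ + 1 ≠ 0 := by
    intro h0
    rw [h0] at hI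
    simp only [ne_eq, OfNat.ofNat_ne_zero, not_false_eq_true, zero_pow, mul_zero] at hI
    exact hsum0 (pow_eq_zero_iff two_ne_zero |>.mp hI.symm)
  have hT : v (τ₁ + τ₂ + 1) ^ 2 ≤ v X₁ ∨ v (τ₁ + τ₂ + 1) ^ 2 ≤ v X₂ := by
    rcases le_total (v τ₁) (v τ₂) with h | h
    · right
      rw [← ht2]
      refine pow_le_pow_left' ?_ 2
      refine v.map_add_le (v.map_add_le h le_rfl) ?_
      rw [map_one]
      exact hτ2.le
    · left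
      rw [← ht1]
      refine pow_le_pow_left' ?_ 2
      refine v.map_add_le (v.map_add_le le_rfl h) ?_
      rw [map_one]
      exact hτ1.le
  have hIv : v X₃ * v (τ₁ + τ₂ + 1) ^ 2 = v X₁ * v X₂ := by
    have h := congrArg v hI
    rw [map_mul, map_mul, map_mul, map_pow, map_pow, hsum, mul_assoc] at h
    have h' : v X₁ * v X₂ * (v X₃ * v (τ₁ + τ₂ + 1) ^ 2) = v X₁ * v X₂ * (v X₁ * v X₂) := by
      rw [h]; exact pow_two _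
    exact mul_left_cancel₀ (mul_ne_zero h10 h20) h'
  have h3 : 1 < v X₃ := by
    by_contra hc
    have hle : v X₃ ≤ 1 := not_lt.mp hc
    rcases hT with h | h
    · have h4 : v X₁ * v X₂ ≤ v X₁ := by
        rw [← hIv]
        calc v X₃ * v (τ₁ + τ₂ + 1) ^ 2 ≤ 1 * v X₁ := mul_le_mul' hle h
          _ = v X₁ := one_mul _
      exact absurd h4 (not_le.mpr (lt_mul_of_one_lt_right (zero_lt_iff.mpr h10) hX2))
    · have h4 : v X₁ * v X₂ ≤ v X₂ := by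
        rw [← hIv]
        calc v X₃ * v (τ₁ + τ₂ + 1) ^ 2 ≤ 1 * v X₂ := mul_le_mul' hle h
          _ = v X₂ := one_mul _
      exact absurd h4 (not_le.mpr (lt_mul_of_one_lt_left (zero_lt_iff.mpr h20) hX1))
  refine ⟨hτ, hsum0, h3, ?_⟩
  have hr1 : v (a₄ / X₂) ≤ 1 := by
    rw [map_div₀, div_eq_mul_inv]
    exact e1_a_mul_inv_le ha₄ hX2
  have hr2 : v (a₄ / X₁) ≤ 1 := by
    rw [map_div₀, div_eq_mul_inv]
    exact e1_a_mul_inv_le ha₄ hX1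
  have hr3 : v ((τ₁ + τ₂ + 1) ^ 2 * a₄ / (X₁ * X₂ - a₄)) ≤ 1 := by
    rw [map_div₀, hsum, map_mul, map_pow, mul_div_assoc]
    rcases hT with h | h
    · calc v (τ₁ + τ₂ + 1) ^ 2 * (v a₄ / (v X₁ * v X₂))
          ≤ v X₁ * (v a₄ / (v X₁ * v X₂)) := mul_le_mul_left h _
        _ = v a₄ * (v X₂)⁻¹ := by
            rw [← mul_div_assoc, mul_div_mul_left _ _ h10, div_eq_mul_inv]
        _ ≤ 1 := e1_a_mul_inv_le ha₄ hX2
    · calc v (τ₁ + τ₂ + 1) ^ 2 * (v a₄ / (v X₁ * v X₂))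
          ≤ v X₂ * (v a₄ / (v X₁ * v X₂)) := mul_le_mul_left h _
        _ = v a₄ * (v X₁)⁻¹ := by
            rw [← mul_div_assoc, mul_comm (v X₁) (v X₂), mul_div_mul_left _ _ h20,
              div_eq_mul_inv]
        _ ≤ 1 := e1_a_mul_inv_le ha₄ hX1
  exact v.map_add_le (v.map_add_le (v.map_add_le ha₂ hr1) hr2) hr3

section

variable (ha₂ : v a₂ ≤ 1) (ha₄ : v a₄ ≤ 1)
include ha₂ ha₄

/-- `z(P) ∈ 𝔪` for `P ∈ E₁` -/
theorem e1_zc_lt_one {P : E} (h : InE1 M v P) : v (e1_zc M P) < 1 := by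
  by_cases hP : P = 0
  · rw [hP, e1_zc_zero, map_zero]
    exact zero_lt_one
  · rcases h with h | h
    · exact absurd h hP
    · rw [e1_a_zc_eq_neg_inv_τ M hP, Valuation.map_neg, map_inv₀]
      exact inv_lt_one_of_one_lt₀ (e1_a_v_τ M v ha₂ ha₄ hP h).1

theorem e1_zc_ne_zero {P : E} (hP : P ≠ 0) (h : InE1 M v P) : e1_zc M P ≠ 0 := by
  rcases h with h | h
  · exact absurd h hP
  · rw [e1_a_zc_eq_neg_inv_τ M hP]
    exact neg_ne_zero.mpr (inv_ne_zero (e1_a_τ_ne_zero M v ha₂ ha₄ hP h))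

/-- the parameters of `P` and `-P` -/
theorem e1_zc_neg {P : E} (h : InE1 M v P) :
    e1_zc M P + e1_zc M (-P) - e1_zc M P * e1_zc M (-P) = 0 := by
  by_cases hP : P = 0
  · rw [hP, neg_zero, e1_zc_zero]
    ring
  · have hPv : 1 < v (M.X P) := h.resolve_left hP
    have hnP : -P ≠ 0 := neg_ne_zero.mpr hP
    have hnPv : 1 < v (M.X (-P)) := by rw [M.X_neg P hP]; exact hPv
    have hY : M.Y P ≠ 0 := e1_a_Y_ne_zero M v ha₂ ha₄ hP hPv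
    have hY' : -M.Y P - M.X P ≠ 0 := by
      rw [← M.Y_neg P hP]
      exact e1_a_Y_ne_zero M v ha₂ ha₄ hnP hnPv
    rw [e1_zc_of_ne_zero M hnP, e1_zc_of_ne_zero M hP, M.X_neg P hP, M.Y_neg P hP]
    field_simp
    ring

/-- chord case: `P, Q ∈ E₁ ∖ {0}` with `X P ≠ X Q`: the sum is in `E₁ ∖ {0}` and
`z₃ (1 + ρ z₁ z₂) = z₁ + z₂ - z₁ z₂` with `ρ` integral. -/
theorem e1_add_of_X_ne {P Q : E} (hP : P ≠ 0) (hQ : Q ≠ 0) (hPv : 1 < v (M.X P))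
    (hQv : 1 < v (M.X Q)) (hX : M.X P ≠ M.X Q) :
    1 < v (M.X (P + Q)) ∧
      ∃ ρ : L, v ρ ≤ 1 ∧ e1_zc M (P + Q) * (1 + ρ * e1_zc M P * e1_zc M Q)
        = e1_zc M P + e1_zc M Q - e1_zc M P * e1_zc M Q := by
  have hXP := e1_a_X_ne_zero M v hPv
  have hXQ := e1_a_X_ne_zero M v hQv
  have hI := e1_I1τ M hP hQ hX hXP hXQ
  have hvP := e1_a_v_τ M v ha₂ ha₄ hP hPv
  have hvQ := e1_a_v_τ M v ha₂ ha₄ hQ hQv
  obtain ⟨hτ, hδ, h3, hρ⟩ := e1_a_core v ha₂ ha₄ hPv hQv hvP.1 hvQ.1 hvP.2 hvQ.2 hI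
  refine ⟨h3, _, hρ, ?_⟩
  have hZ := e1_Zid M hP hQ hX hXP hXQ hτ hδ
  have hPQ := e1_add_ne_zero_of_X_ne M hP hQ hX
  have hτP : M.τ P ≠ 0 := e1_a_τ_ne_zero M v ha₂ ha₄ hP hPv
  have hτQ : M.τ Q ≠ 0 := e1_a_τ_ne_zero M v ha₂ ha₄ hQ hQv
  have hτ3 : M.τ (P + Q) ≠ 0 := e1_a_τ_ne_zero M v ha₂ ha₄ hPQ h3
  rw [e1_a_zc_eq_neg_inv_τ M hPQ, e1_a_zc_eq_neg_inv_τ M hP, e1_a_zc_eq_neg_inv_τ M hQ]
  exact e1_a_field hτP hτQ hτ3 hZ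

/-- tangent case (if `2Y + X = 0` then `P + P = 0` and `z(P) = 2`) -/
theorem e1_dbl {P : E} (hP : P ≠ 0) (hPv : 1 < v (M.X P)) :
    InE1 M v (P + P) ∧
      ∃ ρ : L, v ρ ≤ 1 ∧ e1_zc M (P + P) * (1 + ρ * e1_zc M P * e1_zc M P)
        = e1_zc M P + e1_zc M P - e1_zc M P * e1_zc M P := by
  have hXP := e1_a_X_ne_zero M v hPv
  have hY := e1_a_Y_ne_zero M v ha₂ ha₄ hP hPv
  by_cases hd : 2 * M.Y P + M.X P = 0
  · have hPP := e1_add_self_eq_zero M hP hd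
    refine ⟨Or.inl hPP, 0, ?_, ?_⟩
    · rw [map_zero]
      exact zero_le_one
    · have hXY : M.X P = -(2 * M.Y P) := by linear_combination hd
      rw [hPP, e1_zc_zero, e1_zc_of_ne_zero M hP, hXY]
      field_simp
      ring
  · have hI := e1_dbl_I1τ M hP hXP hd
    have hvP := e1_a_v_τ M v ha₂ ha₄ hP hPv
    obtain ⟨-, hδ, h3, hρ⟩ := e1_a_core v ha₂ ha₄ hPv hPv hvP.1 hvP.1 hvP.2 hvP.2 hI
    have hPP := e1_add_self_ne_zero M hP hd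
    refine ⟨Or.inr h3, _, hρ, ?_⟩
    have hZ := e1_dbl_Zid M hP hXP hd hδ
    have hτP : M.τ P ≠ 0 := e1_a_τ_ne_zero M v ha₂ ha₄ hP hPv
    have hτ3 : M.τ (P + P) ≠ 0 := e1_a_τ_ne_zero M v ha₂ ha₄ hPP h3
    rw [e1_a_zc_eq_neg_inv_τ M hPP, e1_a_zc_eq_neg_inv_τ M hP]
    exact e1_a_field hτP hτP hτ3 hZ

end

end Fermat.Agent.S13L.At2
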