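import Fermat.Agent.S13L.AtTwoDefs
import Fermat.Agent.S13L.AtTwoE1a

/-!
# S13 package T: the kernel of reduction `E₁` of a `TwoModel` (statements FROZEN)

`z = -X/Y` is a formal parameter: for `P, Q ∈ E₁`,
`z(P+Q) (1 + ρ z(P) z(Q)) = z(P) + z(Q) - z(P) z(Q)` with `ρ` integral
(from `τ₃ (τ₁ + τ₂ + 1) = τ₁ τ₂ + ρ`,
`ρ = a₂ + a₄/X₁ + a₄/X₂ + (τ₁+τ₂+1)² a₄ / (X₁X₂ - a₄)`), hence
`z(nP) = n z(P) + z(P)² w` with `w` integral, and `E₁` has no `n`-torsion when `v n = 1`.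
No hypothesis on `v 2` is needed.
-/

set_option autoImplicit false

namespace Fermat.Agent.S13L.At2

variable {L : Type*} [Field L] {a₂ a₄ : L} {E : Type*} [AddCommGroup E] (M : TwoModel L a₂ a₄ E)
  {Γ₀ : Type*} [LinearOrderedCommGroupWithZero Γ₀] (v : Valuation L Γ₀)

theorem inE1_zero : InE1 M v (0 : E) := Or.inl rfl

theorem inE1_neg {P : E} (h : InE1 M v P) : InE1 M v (-P) := by
  rcases h with h | h
  · left; rw [h, neg_zero]
  · by_cases hP : P = 0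
    · left; rw [hP, neg_zero]
    · right; rw [M.X_neg P hP]; exact h

/-- a product of an integral element and two elements of the maximal ideal lies in the
maximal ideal -/
theorem e1_mul_lt_one {ρ z₁ z₂ : L} (hρ : v ρ ≤ 1) (h1 : v z₁ < 1) (h2 : v z₂ < 1) :
    v (ρ * z₁ * z₂) < 1 := by
  rw [map_mul, map_mul]
  have h3 : v ρ * v z₁ ≤ 1 := mul_le_one' hρ h1.le
  calc v ρ * v z₁ * v z₂ ≤ 1 * v z₂ := mul_le_mul_left h3 (v z₂)
    _ = v z₂ := one_mul _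
    _ < 1 := h2

/-- the formal-group shape: from `z₃ (1 + ρ z₁ z₂) = z₁ + z₂ - z₁ z₂` with `ρ` integral and
`z₁, z₂` in the maximal ideal one gets `z₃ = z₁ + z₂ + z₁ z₂ w` with `w` integral. -/
theorem e1_formal {z₁ z₂ z₃ ρ : L} (hρ : v ρ ≤ 1) (h1 : v z₁ < 1) (h2 : v z₂ < 1)
    (h : z₃ * (1 + ρ * z₁ * z₂) = z₁ + z₂ - z₁ * z₂) :
    ∃ w : L, v w ≤ 1 ∧ z₃ = z₁ + z₂ + z₁ * z₂ * w := by
  have hlt : v (ρ * z₁ * z₂) < 1 := e1_mul_lt_one v hρ h1 h2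
  have hd : v (1 + ρ * z₁ * z₂) = 1 := Valuation.map_one_add_of_lt v hlt
  have hd0 : 1 + ρ * z₁ * z₂ ≠ 0 := by
    intro h0
    rw [h0, map_zero] at hd
    exact zero_ne_one hd
  have hw : (-1 - ρ * (z₁ + z₂)) / (1 + ρ * z₁ * z₂) * (1 + ρ * z₁ * z₂)
      = -1 - ρ * (z₁ + z₂) := div_mul_cancel₀ _ hd0
  have hρi : ρ ∈ v.integer := (Valuation.mem_integer_iff v _).2 hρ
  have hz1 : z₁ ∈ v.integer := (Valuation.mem_integer_iff v _).2 h1.le
  have hz2 : z₂ ∈ v.integer := (Valuation.mem_integer_iff v _).2 h2.le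
  have hnum : -1 - ρ * (z₁ + z₂) ∈ v.integer :=
    sub_mem (neg_mem (one_mem _)) (mul_mem hρi (add_mem hz1 hz2))
  refine ⟨(-1 - ρ * (z₁ + z₂)) / (1 + ρ * z₁ * z₂), ?_, ?_⟩
  · rw [map_div₀, hd, div_one]
    exact (Valuation.mem_integer_iff v _).1 hnum
  · apply mul_right_cancel₀ hd0
    linear_combination h - z₁ * z₂ * hw

/-- zero is integral -/
theorem e1_v_zero_le_one : v (0 : L) ≤ 1 := by
  rw [map_zero]
  exact zero_le_one

theorem inE1_add (ha₂ : v a₂ ≤ 1) (ha₄ : v a₄ ≤ 1) {P Q : E} (hP : InE1 M v P)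
    (hQ : InE1 M v Q) : InE1 M v (P + Q) := by
  by_cases hP0 : P = 0
  · rw [hP0, zero_add]
    exact hQ
  by_cases hQ0 : Q = 0
  · rw [hQ0, add_zero]
    exact hP
  have hPv : 1 < v (M.X P) := hP.resolve_left hP0
  have hQv : 1 < v (M.X Q) := hQ.resolve_left hQ0
  by_cases hX : M.X P = M.X Q
  · rcases e1_eq_or_eq_neg_of_X_eq M hP0 hQ0 hX with h | h
    · rw [← h]
      exact (e1_dbl M v ha₂ ha₄ hP0 hPv).1
    · rw [h, neg_add_cancel]
      exact inE1_zero M v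
  · exact Or.inr (e1_add_of_X_ne M v ha₂ ha₄ hP0 hQ0 hPv hQv hX).1

theorem inE1_sub (ha₂ : v a₂ ≤ 1) (ha₄ : v a₄ ≤ 1) {P Q : E} (hP : InE1 M v P)
    (hQ : InE1 M v Q) : InE1 M v (P - Q) := by
  rw [sub_eq_add_neg]
  exact inE1_add M v ha₂ ha₄ hP (inE1_neg M v hQ)

theorem inE1_nsmul (ha₂ : v a₂ ≤ 1) (ha₄ : v a₄ ≤ 1) {P : E} (hP : InE1 M v P) (n : ℕ) :
    InE1 M v (n • P) := by
  induction n with
  | zero =>
    rw [zero_nsmul]
    exact inE1_zero M v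
  | succ n ih =>
    rw [succ_nsmul]
    exact inE1_add M v ha₂ ha₄ ih hP

/-- the formal-group congruence: `z(P+Q) = z(P) + z(Q) + z(P) z(Q) w`, `w` integral. -/
theorem e1_zc_add (ha₂ : v a₂ ≤ 1) (ha₄ : v a₄ ≤ 1) {P Q : E} (hP : InE1 M v P)
    (hQ : InE1 M v Q) :
    ∃ w : L, v w ≤ 1 ∧
      e1_zc M (P + Q) = e1_zc M P + e1_zc M Q + e1_zc M P * e1_zc M Q * w := by
  by_cases hP0 : P = 0
  · refine ⟨0, e1_v_zero_le_one v, ?_⟩
    rw [hP0, zero_add, e1_zc_zero]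
    ring
  by_cases hQ0 : Q = 0
  · refine ⟨0, e1_v_zero_le_one v, ?_⟩
    rw [hQ0, add_zero, e1_zc_zero]
    ring
  have hPv : 1 < v (M.X P) := hP.resolve_left hP0
  have hQv : 1 < v (M.X Q) := hQ.resolve_left hQ0
  have hz1 : v (e1_zc M P) < 1 := e1_zc_lt_one M v ha₂ ha₄ hP
  have hz2 : v (e1_zc M Q) < 1 := e1_zc_lt_one M v ha₂ ha₄ hQ
  by_cases hX : M.X P = M.X Q
  · rcases e1_eq_or_eq_neg_of_X_eq M hP0 hQ0 hX with h | h
    · rw [← h]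
      obtain ⟨-, ρ, hρ, hρeq⟩ := e1_dbl M v ha₂ ha₄ hP0 hPv
      exact e1_formal v hρ hz1 hz1 hρeq
    · refine ⟨-1, ?_, ?_⟩
      · rw [Valuation.map_neg, map_one]
      · have hneg := e1_zc_neg M v ha₂ ha₄ hQ
        rw [h, neg_add_cancel, e1_zc_zero]
        linear_combination -hneg
  · obtain ⟨-, ρ, hρ, hρeq⟩ := e1_add_of_X_ne M v ha₂ ha₄ hP0 hQ0 hPv hQv hX
    exact e1_formal v hρ hz1 hz2 hρeq

/-- `z(nP) = n z(P) + z(P)² w`, `w` integral. -/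
theorem e1_zc_nsmul (ha₂ : v a₂ ≤ 1) (ha₄ : v a₄ ≤ 1) {P : E} (hP : InE1 M v P) (n : ℕ) :
    ∃ w : L, v w ≤ 1 ∧ e1_zc M (n • P) = (n : L) * e1_zc M P + e1_zc M P ^ 2 * w := by
  induction n with
  | zero =>
    refine ⟨0, e1_v_zero_le_one v, ?_⟩
    rw [zero_nsmul, e1_zc_zero, Nat.cast_zero, zero_mul, mul_zero, add_zero]
  | succ n ih =>
    obtain ⟨w, hw, hweq⟩ := ih
    obtain ⟨w', hw', hw'eq⟩ := e1_zc_add M v ha₂ ha₄ (inE1_nsmul M v ha₂ ha₄ hP n) hP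
    have hz : e1_zc M P ∈ v.integer :=
      (Valuation.mem_integer_iff v _).2 (e1_zc_lt_one M v ha₂ ha₄ hP).le
    have hn : (n : L) ∈ v.integer := natCast_mem _ n
    have hwi : w ∈ v.integer := (Valuation.mem_integer_iff v _).2 hw
    have hwi' : w' ∈ v.integer := (Valuation.mem_integer_iff v _).2 hw'
    have hmem : w + ((n : L) + e1_zc M P * w) * w' ∈ v.integer :=
      add_mem hwi (mul_mem (add_mem hn (mul_mem hz hwi)) hwi')
    refine ⟨w + ((n : L) + e1_zc M P * w) * w', (Valuation.mem_integer_iff v _).1 hmem, ?_⟩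
    rw [succ_nsmul, hw'eq, hweq, Nat.cast_succ]
    ring

/-- `E₁` has no `n`-torsion when `n` is a unit -/
theorem inE1_eq_zero_of_nsmul_eq_zero (ha₂ : v a₂ ≤ 1) (ha₄ : v a₄ ≤ 1) {P : E}
    (hP : InE1 M v P) (n : ℕ) (hn : v (n : L) = 1) (h : n • P = 0) : P = 0 := by
  by_contra hP0
  have hz0 : e1_zc M P ≠ 0 := e1_zc_ne_zero M v ha₂ ha₄ hP0 hP
  have hz1 : v (e1_zc M P) < 1 := e1_zc_lt_one M v ha₂ ha₄ hP
  obtain ⟨w, hw, hweq⟩ := e1_zc_nsmul M v ha₂ ha₄ hP n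
  rw [h, e1_zc_zero] at hweq
  have h3 : e1_zc M P * ((n : L) + e1_zc M P * w) = 0 := by
    linear_combination -hweq
  have h4 : (n : L) + e1_zc M P * w = 0 := (mul_eq_zero.1 h3).resolve_left hz0
  have h5 : v (e1_zc M P * w) < 1 := by
    rw [map_mul]
    calc v (e1_zc M P) * v w ≤ v (e1_zc M P) * 1 := mul_le_mul_right hw _
      _ = v (e1_zc M P) := mul_one _
      _ < 1 := hz1
  have h8 : v ((n : L) + e1_zc M P * w) = 1 := by
    rw [Valuation.map_add_eq_of_lt_left v (by rw [hn]; exact h5), hn]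
  rw [h4, map_zero] at h8
  exact zero_ne_one h8

end Fermat.Agent.S13L.At2
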