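import Fermat.Agent.S13L.AtTwoTypes
import Fermat.Agent.S13L.AtTwoFormulas
import Fermat.Agent.S13L.AtTwoE1
import Fermat.Agent.S13L.AtTwoCongr

/-!
# S13 package T (component chain): `E₀` is a subgroup

Port of `S05L/CompE0a.lean`.  Hypotheses: `(ha₂ : v a₂ ≤ 1) (ha₄ : v a₄ < 1)` only.
Uses `inE1_add` (from `AtTwoE1`) and `v_Y_le_one` (from `AtTwoCongr`).
-/

set_option autoImplicit false
set_option linter.unusedSectionVars false
set_option linter.unusedVariables false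

namespace Fermat.Agent.S13L.At2

variable {L : Type*} [Field L] {a₂ a₄ : L} {E : Type*} [AddCommGroup E] (M : TwoModel L a₂ a₄ E)
  {Γ₀ : Type*} [LinearOrderedCommGroupWithZero Γ₀] (v : Valuation L Γ₀)
  (ha₂ : v a₂ ≤ 1) (ha₄ : v a₄ < 1)
include ha₂ ha₄

omit ha₂ ha₄ in
/-- in the value monoid, `a * b = 1` with `b ≤ 1` forces `1 ≤ a` -/
private theorem AtTwoE0_aux_one_le_of_mul_eq_one {a b : Γ₀} (h : a * b = 1) (hb : b ≤ 1) :
    1 ≤ a :=
  calc (1 : Γ₀) = a * b := h.symm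
    _ ≤ a * 1 := mul_le_mul' le_rfl hb
    _ = a := mul_one a

omit ha₂ ha₄ in
/-- `2` is integral -/
private theorem AtTwoE0_aux_v_two_le_one : v (2 : L) ≤ 1 := by
  have h : (2 : L) = 1 + 1 := by norm_num
  rw [h]
  exact v.map_add_le (le_of_eq v.map_one) (le_of_eq v.map_one)

omit ha₂ ha₄ in
/-- value-group core of `v(Y)² = v(X)³`: if `y · w = x³`, `1 < x` and `w ≤ max y x`,
then `x < y` -/
private theorem AtTwoE0_aux_core {x y w : Γ₀} (hx : 1 < x) (hyw : y * w = x ^ 3)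
    (hw : w ≤ max y x) : x < y := by
  by_contra hc
  have hyx : y ≤ x := not_lt.mp hc
  have hwx : w ≤ x := le_trans hw (max_le hyx le_rfl)
  have h1 : y * w ≤ x * x := mul_le_mul' hyx hwx
  have h2 : x * x < x ^ 3 := by
    rw [← pow_two]
    exact pow_lt_pow_right₀ hx (by norm_num)
  rw [hyw] at h1
  exact absurd h1 (not_le.mpr h2)

/-- on `E₁ ∖ {0}`: `v(Y)² = v(X)³` -/
theorem v_Y_sq_of_one_lt {P : E} (hP : P ≠ 0) (h : 1 < v (M.X P)) :
    v (M.Y P) ^ 2 = v (M.X P) ^ 3 := by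
  have hR : v (M.X P ^ 3 + a₂ * M.X P ^ 2 + a₄ * M.X P) = v (M.X P) ^ 3 := by
    have h23 : v (M.X P) ^ 2 < v (M.X P) ^ 3 := pow_lt_pow_right₀ h (by norm_num)
    have h13 : v (M.X P) < v (M.X P) ^ 3 := by
      calc v (M.X P) = v (M.X P) ^ 1 := (pow_one _).symm
        _ < v (M.X P) ^ 3 := pow_lt_pow_right₀ h (by norm_num)
    have hA : v (a₂ * M.X P ^ 2) < v (M.X P ^ 3) := by
      rw [map_mul, map_pow, map_pow]
      calc v a₂ * v (M.X P) ^ 2 ≤ 1 * v (M.X P) ^ 2 := mul_le_mul' ha₂ le_rfl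
        _ = v (M.X P) ^ 2 := one_mul _
        _ < v (M.X P) ^ 3 := h23
    have hB : v (M.X P ^ 3 + a₂ * M.X P ^ 2) = v (M.X P) ^ 3 := by
      rw [v.map_add_eq_of_lt_left hA, map_pow]
    have hC : v (a₄ * M.X P) < v (M.X P ^ 3 + a₂ * M.X P ^ 2) := by
      rw [hB, map_mul]
      calc v a₄ * v (M.X P) ≤ 1 * v (M.X P) := mul_le_mul' ha₄.le le_rfl
        _ = v (M.X P) := one_mul _
        _ < v (M.X P) ^ 3 := h13
    rw [v.map_add_eq_of_lt_left hC, hB]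
  have hprod : v (M.Y P) * v (M.Y P + M.X P) = v (M.X P) ^ 3 := by
    rw [← map_mul, ← hR, ← M.eqn P hP]
    congr 1
    ring
  have hlt : v (M.X P) < v (M.Y P) :=
    AtTwoE0_aux_core h hprod (v.map_add_le_max' _ _)
  have hsum : v (M.Y P + M.X P) = v (M.Y P) := v.map_add_eq_of_lt_left hlt
  rw [hsum] at hprod
  rw [pow_two]
  exact hprod

/-- on `E₁ ∖ {0}`: `v(τ)² = v(X)` -/
theorem v_τ_sq_of_one_lt {P : E} (hP : P ≠ 0) (h : 1 < v (M.X P)) :
    v (M.τ P) ^ 2 = v (M.X P) := by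
  have h1 := v_Y_sq_of_one_lt M v ha₂ ha₄ hP h
  have hX0 : v (M.X P) ≠ 0 := ne_zero_of_lt h
  rw [M.τ_def, map_div₀, div_pow, div_eq_iff (pow_ne_zero 2 hX0), h1, pow_succ]
  exact mul_comm _ _

/-- `τ` of a unit-type point is integral -/
theorem v_τ_le_one_of_unit {P : E} (hP : P ≠ 0) (hPv : v (M.X P) = 1) : v (M.τ P) ≤ 1 := by
  rw [M.τ_def, map_div₀, hPv, div_one]
  exact v_Y_le_one M v ha₂ ha₄.le hP hPv.le

/-- `2 Y + X` is integral when `X` is -/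
theorem v_two_Y_add_X_le_one {P : E} (hP : P ≠ 0) (hPv : v (M.X P) ≤ 1) :
    v (2 * M.Y P + M.X P) ≤ 1 := by
  have hY := v_Y_le_one M v ha₂ ha₄.le hP hPv
  refine v.map_add_le ?_ hPv
  rw [map_mul]
  exact mul_le_one' (AtTwoE0_aux_v_two_le_one v) hY

/-- unit + unit, chord -/
theorem one_le_v_X_add_of_unit_unit {P Q : E} (hP : P ≠ 0) (hQ : Q ≠ 0) (hPv : v (M.X P) = 1)
    (hQv : v (M.X Q) = 1) (hX : M.X P ≠ M.X Q) : 1 ≤ v (M.X (P + Q)) := by
  have hI := M.I1 hP hQ hX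
  have hYP : v (M.Y P) ≤ 1 := v_Y_le_one M v ha₂ ha₄.le hP hPv.le
  have hYQ : v (M.Y Q) ≤ 1 := v_Y_le_one M v ha₂ ha₄.le hQ hQv.le
  have hXX : v (M.X P * M.X Q) = 1 := by rw [map_mul, hPv, hQv, one_mul]
  have hδ : v (M.X P * M.X Q - a₄) = 1 := by
    rw [v.map_sub_eq_of_lt_left (by rw [hXX]; exact ha₄), hXX]
  have hs : v (M.Y P * M.X Q + M.Y Q * M.X P + M.X P * M.X Q) ≤ 1 := by
    apply v.map_add_le
    · apply v.map_add_le
      · rw [map_mul, hQv, mul_one]; exact hYP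
      · rw [map_mul, hPv, mul_one]; exact hYQ
    · exact hXX.le
  have hv := congrArg v hI
  rw [map_mul, map_pow, map_mul, map_pow, hXX, hδ, one_pow, one_mul] at hv
  exact AtTwoE0_aux_one_le_of_mul_eq_one hv (pow_le_one' hs 2)

/-- unit, tangent -/
theorem inE0_dbl_of_unit {P : E} (hP : P ≠ 0) (hPv : v (M.X P) = 1) : InE0 M v (P + P) := by
  by_cases hY : 2 * M.Y P + M.X P = 0
  · exact Or.inl (M.add_self_eq_zero_of_two_Y_add_X_eq_zero hP hY)
  · right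
    have hD := M.dbl_X hP hY
    have hXX : v (M.X P ^ 2) = 1 := by rw [map_pow, hPv, one_pow]
    have hδ : v (M.X P ^ 2 - a₄) = 1 := by
      rw [v.map_sub_eq_of_lt_left (by rw [hXX]; exact ha₄), hXX]
    have h4 : v (2 * M.Y P + M.X P) ^ 2 ≤ 1 :=
      pow_le_one' (v_two_Y_add_X_le_one M v ha₂ ha₄ hP hPv.le) 2
    have hv := congrArg v hD
    rw [map_mul, map_pow, map_pow, hδ, one_pow] at hv
    exact AtTwoE0_aux_one_le_of_mul_eq_one hv h4

/-- `E₁` + unit is a unit-type point -/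
theorem v_X_add_of_E1_unit {P Q : E} (hP : P ≠ 0) (hQ : Q ≠ 0) (hPv : 1 < v (M.X P))
    (hQv : v (M.X Q) = 1) : v (M.X (P + Q)) = 1 := by
  have hX : M.X P ≠ M.X Q := by
    intro h
    rw [h, hQv] at hPv
    exact lt_irrefl _ hPv
  have hI := M.I1 hP hQ hX
  have hYsq : v (M.Y P) ^ 2 = v (M.X P) ^ 3 := v_Y_sq_of_one_lt M v ha₂ ha₄ hP hPv
  have hYQ : v (M.Y Q) ≤ 1 := v_Y_le_one M v ha₂ ha₄.le hQ hQv.le
  have hXP0 : v (M.X P) ≠ 0 := (zero_lt_one.trans hPv).ne'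
  have hXY : v (M.X P) < v (M.Y P) := by
    apply lt_of_pow_lt_pow_left₀ 2 zero_le
    rw [hYsq]
    exact pow_lt_pow_right₀ hPv (by norm_num)
  have hs : v (M.Y P * M.X Q + M.Y Q * M.X P + M.X P * M.X Q) = v (M.Y P) := by
    have h1 : v (M.Y P * M.X Q) = v (M.Y P) := by rw [map_mul, hQv, mul_one]
    have h3 : v (M.Y Q * M.X P) < v (M.Y P * M.X Q) := by
      rw [h1, map_mul]
      calc v (M.Y Q) * v (M.X P) ≤ 1 * v (M.X P) := mul_le_mul' hYQ le_rfl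
        _ = v (M.X P) := one_mul _
        _ < v (M.Y P) := hXY
    have h4 : v (M.Y P * M.X Q + M.Y Q * M.X P) = v (M.Y P) := by
      rw [v.map_add_eq_of_lt_left h3, h1]
    have h5 : v (M.X P * M.X Q) < v (M.Y P * M.X Q + M.Y Q * M.X P) := by
      rw [h4, map_mul, hQv, mul_one]
      exact hXY
    rw [v.map_add_eq_of_lt_left h5, h4]
  have hXX : v (M.X P * M.X Q) = v (M.X P) := by rw [map_mul, hQv, mul_one]
  have hδ : v (M.X P * M.X Q - a₄) = v (M.X P) := by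
    rw [v.map_sub_eq_of_lt_left (by rw [hXX]; exact ha₄.trans hPv), hXX]
  have hv := congrArg v hI
  rw [map_mul, map_pow, hs, hYsq, map_mul, map_pow, hXX, hδ, ← pow_succ'] at hv
  exact mul_right_cancel₀ (pow_ne_zero 3 hXP0) (by rw [hv, one_mul])

/-- `E₀` is closed under addition -/
theorem inE0_add {P Q : E} (hP : InE0 M v P) (hQ : InE0 M v Q) : InE0 M v (P + Q) := by
  by_cases hP0 : P = 0
  · rw [hP0, zero_add]
    exact hQ
  by_cases hQ0 : Q = 0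
  · rw [hQ0, add_zero]
    exact hP
  have hPv : 1 ≤ v (M.X P) := hP.resolve_left hP0
  have hQv : 1 ≤ v (M.X Q) := hQ.resolve_left hQ0
  rcases hPv.lt_or_eq with hP1 | hP1
  · rcases hQv.lt_or_eq with hQ1 | hQ1
    · exact inE0_of_inE1 M v (inE1_add M v ha₂ ha₄.le (Or.inr hP1) (Or.inr hQ1))
    · exact Or.inr (v_X_add_of_E1_unit M v ha₂ ha₄ hP0 hQ0 hP1 hQ1.symm).ge
  · rcases hQv.lt_or_eq with hQ1 | hQ1
    · rw [add_comm]
      exact Or.inr (v_X_add_of_E1_unit M v ha₂ ha₄ hQ0 hP0 hQ1 hP1.symm).ge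
    · by_cases hX : M.X P = M.X Q
      · rcases M.eq_or_eq_neg_of_X_eq hP0 hQ0 hX with h | h
        · rw [← h]
          exact inE0_dbl_of_unit M v ha₂ ha₄ hP0 hP1.symm
        · rw [h, neg_add_cancel]
          exact Or.inl rfl
      · exact Or.inr
          (one_le_v_X_add_of_unit_unit M v ha₂ ha₄ hP0 hQ0 hP1.symm hQ1.symm hX)

theorem inE0_sub {P Q : E} (hP : InE0 M v P) (hQ : InE0 M v Q) : InE0 M v (P - Q) := by
  rw [sub_eq_add_neg]
  exact inE0_add M v ha₂ ha₄ hP (inE0_neg M v hQ)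

theorem inE0_nsmul {P : E} (hP : InE0 M v P) (n : ℕ) : InE0 M v (n • P) := by
  induction n with
  | zero =>
    rw [zero_smul]
    exact inE0_zero M v
  | succ n ih =>
    rw [succ_nsmul]
    exact inE0_add M v ha₂ ha₄ ih hP

end Fermat.Agent.S13L.At2
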