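import Fermat.Agent.S13L.AtTwoDefs

/-!
# S13 package T: group-law identities of a `TwoModel` in the coordinate `τ = Y / X`
(helper5's hedge for `AtTwoE1`, part f)

`τ² + τ = X + a₂ + a₄/X`;
(I1) `X₁ X₂ X₃ (τ₁ + τ₂ + 1)² = (X₁ X₂ - a₄)²`;
(Z) `τ₃ (τ₁ + τ₂ + 1) = τ₁ τ₂ + ρ`,
`ρ = a₂ + a₄/X₂ + a₄/X₁ + (τ₁ + τ₂ + 1)² a₄ / (X₁ X₂ - a₄)`;
and the same for doubling.  Statements of this file are the interface used by `AtTwoE1a.lean`.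
-/

set_option autoImplicit false

namespace Fermat.Agent.S13L.At2

variable {L : Type*} [Field L] {a₂ a₄ : L} {E : Type*} [AddCommGroup E] (M : TwoModel L a₂ a₄ E)

/-! ### pure field identities -/

/-- chord identity `I1τ` (pure field form) -/
theorem e1_aux_chord_I (x₁ x₂ t₁ t₂ a₂ a₄ lam x₃ : L) (hx : x₁ ≠ x₂)
    (h1 : t₁ ^ 2 * x₁ + t₁ * x₁ = x₁ ^ 2 + a₂ * x₁ + a₄)
    (h2 : t₂ ^ 2 * x₂ + t₂ * x₂ = x₂ ^ 2 + a₂ * x₂ + a₄)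
    (hlam : lam * (x₁ - x₂) = t₁ * x₁ - t₂ * x₂)
    (hx3 : x₃ = lam ^ 2 + lam - a₂ - x₁ - x₂) :
    x₁ * x₂ * x₃ * (t₁ + t₂ + 1) ^ 2 = (x₁ * x₂ - a₄) ^ 2 := by
  have hd : x₁ - x₂ ≠ 0 := sub_ne_zero.mpr hx
  have ha4 : a₄ = t₁ ^ 2 * x₁ + t₁ * x₁ - x₁ ^ 2 - a₂ * x₁ := by linear_combination -h1
  subst ha4
  have ha2 : a₂ = ((t₁ ^ 2 * x₁ + t₁ * x₁ - x₁ ^ 2) - (t₂ ^ 2 * x₂ + t₂ * x₂ - x₂ ^ 2))
      / (x₁ - x₂) := by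
    rw [eq_div_iff hd]; linear_combination h2
  subst ha2
  have hl : lam = (t₁ * x₁ - t₂ * x₂) / (x₁ - x₂) := by rw [eq_div_iff hd]; exact hlam
  subst hl
  subst hx3
  field_simp
  ring

/-- chord identity `Zid` (pure field form, multiplied by `x₃` and by the denominators) -/
theorem e1_aux_chord_Z (x₁ x₂ t₁ t₂ a₂ a₄ lam x₃ t₃ : L) (hx : x₁ ≠ x₂)
    (h1 : t₁ ^ 2 * x₁ + t₁ * x₁ = x₁ ^ 2 + a₂ * x₁ + a₄)
    (h2 : t₂ ^ 2 * x₂ + t₂ * x₂ = x₂ ^ 2 + a₂ * x₂ + a₄)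
    (hlam : lam * (x₁ - x₂) = t₁ * x₁ - t₂ * x₂)
    (hx3 : x₃ = lam ^ 2 + lam - a₂ - x₁ - x₂)
    (ht3 : t₃ * x₃ = -(lam * (x₃ - x₁) + t₁ * x₁) - x₃) :
    x₃ * (t₃ * (t₁ + t₂ + 1) * ((x₁ * x₂ - a₄) * (x₁ * x₂))) =
      x₃ * ((t₁ * t₂ + a₂) * ((x₁ * x₂ - a₄) * (x₁ * x₂)) + a₄ * (x₁ + x₂) * (x₁ * x₂ - a₄)
        + (t₁ + t₂ + 1) ^ 2 * a₄ * (x₁ * x₂)) := by
  have hd : x₁ - x₂ ≠ 0 := sub_ne_zero.mpr hx
  have ha4 : a₄ = t₁ ^ 2 * x₁ + t₁ * x₁ - x₁ ^ 2 - a₂ * x₁ := by linear_combination -h1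
  subst ha4
  have ha2 : a₂ = ((t₁ ^ 2 * x₁ + t₁ * x₁ - x₁ ^ 2) - (t₂ ^ 2 * x₂ + t₂ * x₂ - x₂ ^ 2))
      / (x₁ - x₂) := by
    rw [eq_div_iff hd]; linear_combination h2
  subst ha2
  have hl : lam = (t₁ * x₁ - t₂ * x₂) / (x₁ - x₂) := by rw [eq_div_iff hd]; exact hlam
  subst hl
  subst hx3
  have key : ∀ A B : L, A * (t₃ * (t₁ + t₂ + 1) * B) = (t₃ * A) * ((t₁ + t₂ + 1) * B) := by
    intro A B; ring
  rw [key, ht3]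
  field_simp
  ring

/-- tangent identity `I1τ` (pure field form) -/
theorem e1_aux_tangent_I (x t a₂ a₄ mu x₃ : L) (hx : x ≠ 0) (ht : 2 * t + 1 ≠ 0)
    (h1 : t ^ 2 * x + t * x = x ^ 2 + a₂ * x + a₄)
    (hmu : mu * (x * (2 * t + 1)) = 3 * x ^ 2 + 2 * a₂ * x + a₄ - t * x)
    (hx3 : x₃ = mu ^ 2 + mu - a₂ - 2 * x) :
    x * x * x₃ * (t + t + 1) ^ 2 = (x * x - a₄) ^ 2 := by
  have hd : x * (2 * t + 1) ≠ 0 := mul_ne_zero hx ht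
  have ha4 : a₄ = t ^ 2 * x + t * x - x ^ 2 - a₂ * x := by linear_combination -h1
  subst ha4
  have hl : mu = (3 * x ^ 2 + 2 * a₂ * x + (t ^ 2 * x + t * x - x ^ 2 - a₂ * x) - t * x)
      / (x * (2 * t + 1)) := by rw [eq_div_iff hd]; exact hmu
  subst hl
  subst hx3
  field_simp
  ring

/-- tangent identity `Zid` (pure field form) -/
theorem e1_aux_tangent_Z (x t a₂ a₄ mu x₃ t₃ : L) (hx : x ≠ 0) (ht : 2 * t + 1 ≠ 0)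
    (h1 : t ^ 2 * x + t * x = x ^ 2 + a₂ * x + a₄)
    (hmu : mu * (x * (2 * t + 1)) = 3 * x ^ 2 + 2 * a₂ * x + a₄ - t * x)
    (hx3 : x₃ = mu ^ 2 + mu - a₂ - 2 * x)
    (ht3 : t₃ * x₃ = -(mu * (x₃ - x) + t * x) - x₃) :
    x₃ * (t₃ * (t + t + 1) * ((x * x - a₄) * (x * x))) =
      x₃ * ((t * t + a₂) * ((x * x - a₄) * (x * x)) + a₄ * (x + x) * (x * x - a₄)
        + (t + t + 1) ^ 2 * a₄ * (x * x)) := by
  have hd : x * (2 * t + 1) ≠ 0 := mul_ne_zero hx ht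
  have ha4 : a₄ = t ^ 2 * x + t * x - x ^ 2 - a₂ * x := by linear_combination -h1
  subst ha4
  have hl : mu = (3 * x ^ 2 + 2 * a₂ * x + (t ^ 2 * x + t * x - x ^ 2 - a₂ * x) - t * x)
      / (x * (2 * t + 1)) := by rw [eq_div_iff hd]; exact hmu
  subst hl
  subst hx3
  have key : ∀ A B : L, A * (t₃ * (t + t + 1) * B) = (t₃ * A) * ((t + t + 1) * B) := by
    intro A B; ring
  rw [key, ht3]
  field_simp
  ring

/-! ### the model-level identities -/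

theorem e1_Y_eq_τ_mul_X {P : E} (hX : M.X P ≠ 0) : M.Y P = M.τ P * M.X P := by
  rw [M.τ_def, div_mul_cancel₀ _ hX]

/-- the reduced equation `τ² X + τ X = X² + a₂ X + a₄` -/
theorem e1_f_red {P : E} (hP : P ≠ 0) (hX : M.X P ≠ 0) :
    M.τ P ^ 2 * M.X P + M.τ P * M.X P = M.X P ^ 2 + a₂ * M.X P + a₄ := by
  have h := M.eqn P hP
  rw [e1_Y_eq_τ_mul_X M hX] at h
  apply mul_right_cancel₀ hX
  linear_combination h

theorem e1_τ_sq {P : E} (hP : P ≠ 0) (hX : M.X P ≠ 0) :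
    M.τ P ^ 2 + M.τ P = M.X P + a₂ + a₄ / M.X P := by
  have h := e1_f_red M hP hX
  field_simp
  linear_combination h

/-- points with the same `X` are equal or opposite -/
theorem e1_eq_or_eq_neg_of_X_eq {P Q : E} (hP : P ≠ 0) (hQ : Q ≠ 0) (h : M.X P = M.X Q) :
    P = Q ∨ P = -Q := by
  have h1 := M.eqn P hP
  have h2 := M.eqn Q hQ
  have h3 : (M.Y P - M.Y Q) * (M.Y P + M.Y Q + M.X Q) = 0 := by
    rw [h] at h1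
    linear_combination h1 - h2
  rcases mul_eq_zero.mp h3 with h4 | h4
  · exact Or.inl (M.ext P Q hP hQ h (sub_eq_zero.mp h4))
  · refine Or.inr (M.ext P (-Q) hP (neg_ne_zero.mpr hQ) ?_ ?_)
    · rw [M.X_neg Q hQ]
      exact h
    · rw [M.Y_neg Q hQ]
      linear_combination h4

theorem e1_add_ne_zero_of_X_ne {P Q : E} (hP : P ≠ 0) (hQ : Q ≠ 0) (h : M.X P ≠ M.X Q) :
    P + Q ≠ 0 := by
  have _ := hP
  intro h0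
  apply h
  have hPQ : P = -Q := eq_neg_of_add_eq_zero_left h0
  calc M.X P = M.X (-Q) := congrArg M.X hPQ
    _ = M.X Q := M.X_neg Q hQ

/-- a point with `2Y + X = 0` is 2-torsion -/
theorem e1_add_self_eq_zero {P : E} (hP : P ≠ 0) (hd : 2 * M.Y P + M.X P = 0) : P + P = 0 := by
  have hneg : -P = P := by
    refine M.ext (-P) P (neg_ne_zero.mpr hP) hP (M.X_neg P hP) ?_
    rw [M.Y_neg P hP]
    linear_combination -hd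
  have h0 : -P + P = 0 := neg_add_cancel P
  rw [hneg] at h0
  exact h0

theorem e1_add_self_ne_zero {P : E} (hP : P ≠ 0) (hd : 2 * M.Y P + M.X P ≠ 0) : P + P ≠ 0 := by
  intro h0
  apply hd
  have hPP : P = -P := eq_neg_of_add_eq_zero_left h0
  have hYY : M.Y P = -M.Y P - M.X P := by
    calc M.Y P = M.Y (-P) := congrArg M.Y hPP
      _ = -M.Y P - M.X P := M.Y_neg P hP
  linear_combination hYY

/-- (I1) in `τ`-form -/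
theorem e1_I1τ {P Q : E} (hP : P ≠ 0) (hQ : Q ≠ 0) (h : M.X P ≠ M.X Q)
    (hXP : M.X P ≠ 0) (hXQ : M.X Q ≠ 0) :
    M.X P * M.X Q * M.X (P + Q) * (M.τ P + M.τ Q + 1) ^ 2 = (M.X P * M.X Q - a₄) ^ 2 := by
  have hd : M.X P - M.X Q ≠ 0 := sub_ne_zero.mpr h
  refine e1_aux_chord_I (M.X P) (M.X Q) (M.τ P) (M.τ Q) a₂ a₄
    ((M.Y P - M.Y Q) / (M.X P - M.X Q)) (M.X (P + Q)) h (e1_f_red M hP hXP)
    (e1_f_red M hQ hXQ) ?_ (M.X_add P Q hP hQ h)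
  rw [div_mul_cancel₀ _ hd, e1_Y_eq_τ_mul_X M hXP, e1_Y_eq_τ_mul_X M hXQ]

/-- (Z) -/
theorem e1_Zid {P Q : E} (hP : P ≠ 0) (hQ : Q ≠ 0) (h : M.X P ≠ M.X Q)
    (hXP : M.X P ≠ 0) (hXQ : M.X Q ≠ 0) (hτ : M.τ P + M.τ Q + 1 ≠ 0)
    (hδ : M.X P * M.X Q - a₄ ≠ 0) :
    M.τ (P + Q) * (M.τ P + M.τ Q + 1) = M.τ P * M.τ Q
      + (a₂ + a₄ / M.X Q + a₄ / M.X P
        + (M.τ P + M.τ Q + 1) ^ 2 * a₄ / (M.X P * M.X Q - a₄)) := by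
  have _ := hτ
  have hd : M.X P - M.X Q ≠ 0 := sub_ne_zero.mpr h
  have hI := e1_I1τ M hP hQ h hXP hXQ
  have h3 : M.X (P + Q) ≠ 0 := by
    intro h0
    rw [h0, mul_zero, zero_mul] at hI
    exact hδ (pow_eq_zero_iff two_ne_zero |>.mp hI.symm)
  have hlam : (M.Y P - M.Y Q) / (M.X P - M.X Q) * (M.X P - M.X Q)
      = M.τ P * M.X P - M.τ Q * M.X Q := by
    rw [div_mul_cancel₀ _ hd, e1_Y_eq_τ_mul_X M hXP, e1_Y_eq_τ_mul_X M hXQ]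
  have ht3 : M.τ (P + Q) * M.X (P + Q)
      = -((M.Y P - M.Y Q) / (M.X P - M.X Q) * (M.X (P + Q) - M.X P) + M.τ P * M.X P)
        - M.X (P + Q) := by
    rw [← e1_Y_eq_τ_mul_X M h3, M.Y_add P Q hP hQ h, e1_Y_eq_τ_mul_X M hXP]
  have hZ := e1_aux_chord_Z (M.X P) (M.X Q) (M.τ P) (M.τ Q) a₂ a₄
    ((M.Y P - M.Y Q) / (M.X P - M.X Q)) (M.X (P + Q)) (M.τ (P + Q)) h (e1_f_red M hP hXP)
    (e1_f_red M hQ hXQ) hlam (M.X_add P Q hP hQ h) ht3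
  have hZ' := mul_left_cancel₀ h3 hZ
  obtain ⟨D, hD⟩ : ∃ D : L, D = M.X P * M.X Q - a₄ := ⟨_, rfl⟩
  rw [← hD] at hδ hZ' ⊢
  field_simp
  linear_combination hZ'

/-- (I1) in `τ`-form for doubling -/
theorem e1_dbl_I1τ {P : E} (hP : P ≠ 0) (hXP : M.X P ≠ 0) (hd : 2 * M.Y P + M.X P ≠ 0) :
    M.X P * M.X P * M.X (P + P) * (M.τ P + M.τ P + 1) ^ 2 = (M.X P * M.X P - a₄) ^ 2 := by
  have hd' : 2 * M.Y P + M.X P = M.X P * (2 * M.τ P + 1) := by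
    rw [e1_Y_eq_τ_mul_X M hXP]; ring
  have ht : 2 * M.τ P + 1 ≠ 0 := by
    intro h0
    rw [hd', h0, mul_zero] at hd
    exact hd rfl
  refine e1_aux_tangent_I (M.X P) (M.τ P) a₂ a₄
    ((3 * M.X P ^ 2 + 2 * a₂ * M.X P + a₄ - M.Y P) / (2 * M.Y P + M.X P)) (M.X (P + P))
    hXP ht (e1_f_red M hP hXP) ?_ (M.X_dbl P hP hd)
  rw [← hd', div_mul_cancel₀ _ hd, e1_Y_eq_τ_mul_X M hXP]

/-- (Z) for doubling -/
theorem e1_dbl_Zid {P : E} (hP : P ≠ 0) (hXP : M.X P ≠ 0) (hd : 2 * M.Y P + M.X P ≠ 0)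
    (hδ : M.X P * M.X P - a₄ ≠ 0) :
    M.τ (P + P) * (M.τ P + M.τ P + 1) = M.τ P * M.τ P
      + (a₂ + a₄ / M.X P + a₄ / M.X P
        + (M.τ P + M.τ P + 1) ^ 2 * a₄ / (M.X P * M.X P - a₄)) := by
  have hd' : 2 * M.Y P + M.X P = M.X P * (2 * M.τ P + 1) := by
    rw [e1_Y_eq_τ_mul_X M hXP]; ring
  have ht : 2 * M.τ P + 1 ≠ 0 := by
    intro h0
    rw [hd', h0, mul_zero] at hd
    exact hd rfl
  have ht' : M.τ P + M.τ P + 1 ≠ 0 := by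
    rw [← two_mul]; exact ht
  have hI := e1_dbl_I1τ M hP hXP hd
  have h3 : M.X (P + P) ≠ 0 := by
    intro h0
    rw [h0, mul_zero, zero_mul] at hI
    exact hδ (pow_eq_zero_iff two_ne_zero |>.mp hI.symm)
  have hmu : (3 * M.X P ^ 2 + 2 * a₂ * M.X P + a₄ - M.Y P) / (2 * M.Y P + M.X P)
      * (M.X P * (2 * M.τ P + 1)) = 3 * M.X P ^ 2 + 2 * a₂ * M.X P + a₄ - M.τ P * M.X P := by
    rw [← hd', div_mul_cancel₀ _ hd, e1_Y_eq_τ_mul_X M hXP]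
  have ht3 : M.τ (P + P) * M.X (P + P)
      = -((3 * M.X P ^ 2 + 2 * a₂ * M.X P + a₄ - M.Y P) / (2 * M.Y P + M.X P)
          * (M.X (P + P) - M.X P) + M.τ P * M.X P) - M.X (P + P) := by
    rw [← e1_Y_eq_τ_mul_X M h3, M.Y_dbl P hP hd, e1_Y_eq_τ_mul_X M hXP]
  have hZ := e1_aux_tangent_Z (M.X P) (M.τ P) a₂ a₄
    ((3 * M.X P ^ 2 + 2 * a₂ * M.X P + a₄ - M.Y P) / (2 * M.Y P + M.X P)) (M.X (P + P))
    (M.τ (P + P)) hXP ht (e1_f_red M hP hXP) hmu (M.X_dbl P hP hd) ht3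
  have hZ' := mul_left_cancel₀ h3 hZ
  obtain ⟨D, hD⟩ : ∃ D : L, D = M.X P * M.X P - a₄ := ⟨_, rfl⟩
  rw [← hD] at hδ hZ' ⊢
  have hne : D * (M.X P * M.X P) ≠ 0 := mul_ne_zero hδ (mul_ne_zero hXP hXP)
  apply mul_right_cancel₀ hne
  rw [hZ']
  field_simp
  ring

end Fermat.Agent.S13L.At2
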