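import Mathlib

/-!
# S13 package T: valuations of rational numbers for a valuation with `v 2 < 1`
(statements FROZEN)

`L` a field of characteristic zero, `v` a valuation on `L` with `v 2 < 1`.  Then `v` restricted
to `ℚ` is the 2-adic valuation: `v n ≤ 1` for integers, `v n = 1` for odd integers, every nonzero
rational has `v q = v 2 ^ j`, and an integral rational is `≡ 0` or `≡ 1` modulo the maximal ideal.
-/

set_option autoImplicit false

namespace Fermat.Agent.S13L.At2

variable {L : Type*} [Field L] {Γ₀ : Type*} [LinearOrderedCommGroupWithZero Γ₀]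
  (v : Valuation L Γ₀)

theorem rat_v_natCast_le_one (n : ℕ) : v (n : L) ≤ 1 := by
  induction n with
  | zero => simp
  | succ n ih =>
    rw [Nat.cast_succ]
    exact v.map_add_le ih (le_of_eq v.map_one)

theorem rat_v_intCast_le_one (n : ℤ) : v (n : L) ≤ 1 := by
  rcases Int.natAbs_eq n with h | h
  · rw [h, Int.cast_natCast]
    exact rat_v_natCast_le_one v _
  · rw [h, Int.cast_neg, Int.cast_natCast, v.map_neg]
    exact rat_v_natCast_le_one v _

/-- `v (2 * x) < 1` for `x` with `v x ≤ 1` -/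
theorem rat_aux_two_mul_lt (h2 : v (2 : L) < 1) {x : L} (hx : v x ≤ 1) : v (2 * x) < 1 := by
  rw [v.map_mul]
  exact lt_of_le_of_lt (mul_le_of_le_one_right' hx) h2

theorem rat_v_natCast_odd (h2 : v (2 : L) < 1) (n : ℕ) (hn : Odd n) : v (n : L) = 1 := by
  obtain ⟨k, rfl⟩ := hn
  have h : ((2 * k + 1 : ℕ) : L) = 1 + 2 * (k : L) := by
    push_cast
    ring
  rw [h]
  exact v.map_one_add_of_lt (rat_aux_two_mul_lt v h2 (rat_v_natCast_le_one v k))

theorem rat_v_natCast_even (h2 : v (2 : L) < 1) (n : ℕ) (hn : Even n) : v (n : L) < 1 := by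
  obtain ⟨k, rfl⟩ := hn
  have h : ((k + k : ℕ) : L) = 2 * (k : L) := by
    push_cast
    ring
  rw [h]
  exact rat_aux_two_mul_lt v h2 (rat_v_natCast_le_one v k)

/-- the valuation of an integer is the valuation of its absolute value -/
theorem rat_aux_v_intCast (n : ℤ) : v (n : L) = v ((n.natAbs : ℕ) : L) := by
  rcases Int.natAbs_eq n with h | h
  · conv_lhs => rw [h, Int.cast_natCast]
  · conv_lhs => rw [h, Int.cast_neg, Int.cast_natCast, v.map_neg]

theorem rat_v_intCast_odd (h2 : v (2 : L) < 1) (n : ℤ) (hn : Odd n) : v (n : L) = 1 := by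
  rw [rat_aux_v_intCast]
  exact rat_v_natCast_odd v h2 _ (Int.natAbs_odd.mpr hn)

theorem rat_v_intCast_even (h2 : v (2 : L) < 1) (n : ℤ) (hn : Even n) : v (n : L) < 1 := by
  rw [rat_aux_v_intCast]
  exact rat_v_natCast_even v h2 _ (Int.natAbs_even.mpr hn)

/-- the valuation of a nonzero natural number is a power of `v 2` -/
theorem rat_aux_v_natCast_eq_pow (h2 : v (2 : L) < 1) (n : ℕ) (hn : n ≠ 0) :
    ∃ i : ℕ, v (n : L) = v (2 : L) ^ i := by
  obtain ⟨k, m, hm, rfl⟩ := Nat.exists_eq_two_pow_mul_odd hn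
  refine ⟨k, ?_⟩
  rw [Nat.cast_mul, Nat.cast_pow, Nat.cast_ofNat, v.map_mul, v.map_pow,
    rat_v_natCast_odd v h2 m hm, mul_one]

/-- the valuation of a nonzero rational number is an integral power of `v 2` -/
theorem rat_v_eq_zpow [CharZero L] (h2 : v (2 : L) < 1) (q : ℚ) (hq : q ≠ 0) :
    ∃ j : ℤ, v (q : L) = v (2 : L) ^ j := by
  have h20 : v (2 : L) ≠ 0 := v.ne_zero_iff.mpr two_ne_zero
  have hnum : q.num.natAbs ≠ 0 := Int.natAbs_ne_zero.mpr (Rat.num_ne_zero.mpr hq)
  obtain ⟨i, hi⟩ := rat_aux_v_natCast_eq_pow v h2 q.num.natAbs hnum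
  obtain ⟨k, hk⟩ := rat_aux_v_natCast_eq_pow v h2 q.den q.den_ne_zero
  refine ⟨(i : ℤ) - (k : ℤ), ?_⟩
  rw [Rat.cast_def, map_div₀, rat_aux_v_intCast, hi, hk, zpow_sub₀ h20, zpow_natCast, zpow_natCast]

/-- an integral rational number is congruent to `0` or to `1` -/
theorem rat_v_lt_or_sub_one_lt [CharZero L] (h2 : v (2 : L) < 1) (q : ℚ)
    (hq : v (q : L) ≤ 1) : v (q : L) < 1 ∨ v ((q : L) - 1) < 1 := by
  have hd0 : ((q.den : ℕ) : L) ≠ 0 := Nat.cast_ne_zero.mpr q.den_ne_zero
  have hvd0 : v ((q.den : ℕ) : L) ≠ 0 := v.ne_zero_iff.mpr hd0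
  have hcast : (q : L) = (q.num : L) / ((q.den : ℕ) : L) := Rat.cast_def q
  have hvq : v (q : L) = v (q.num : L) / v ((q.den : ℕ) : L) := by
    rw [hcast, map_div₀]
  rcases Nat.even_or_odd q.den with hden | hden
  · -- even denominator: impossible
    exfalso
    have hnum : Odd q.num := by
      rw [← Int.not_even_iff_odd]
      intro hev
      have h1 : 2 ∣ q.num.natAbs := (Int.natAbs_even.mpr hev).two_dvd
      have h2' : 2 ∣ q.den := hden.two_dvd
      have h3 : 2 ∣ Nat.gcd q.num.natAbs q.den := Nat.dvd_gcd h1 h2'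
      rw [q.reduced] at h3
      omega
    have hvn : v (q.num : L) = 1 := rat_v_intCast_odd v h2 _ hnum
    have hvd : v ((q.den : ℕ) : L) < 1 := rat_v_natCast_even v h2 _ hden
    rw [hvq, hvn, one_div] at hq
    exact absurd hq (not_le.mpr ((one_lt_inv₀ (zero_lt_iff.mpr hvd0)).mpr hvd))
  · -- odd denominator
    have hvd : v ((q.den : ℕ) : L) = 1 := rat_v_natCast_odd v h2 _ hden
    rcases Int.even_or_odd q.num with hnum | hnum
    · left
      rw [hvq, hvd, div_one]
      exact rat_v_intCast_even v h2 _ hnum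
    · right
      have hsub : (q : L) - 1 = ((q.num - (q.den : ℤ) : ℤ) : L) / ((q.den : ℕ) : L) := by
        rw [hcast]
        push_cast
        field_simp
      rw [hsub, map_div₀, hvd, div_one]
      apply rat_v_intCast_even v h2
      exact hnum.sub_odd (by exact_mod_cast hden)

/-- powers of `v 2` with integer exponents: injectivity (`v 2 ≠ 0`, `v 2 < 1`) -/
theorem rat_zpow_inj (h2 : v (2 : L) < 1) (h20 : (2 : L) ≠ 0) {i j : ℤ}
    (h : v (2 : L) ^ i = v (2 : L) ^ j) : i = j := by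
  have hpos : 0 < v (2 : L) := zero_lt_iff.mpr (v.ne_zero_iff.mpr h20)
  exact StrictAnti.injective (zpow_right_strictAnti₀ hpos h2) h

/-- powers of `v 2` with integer exponents: strict antitonicity -/
theorem rat_zpow_lt_iff (h2 : v (2 : L) < 1) (h20 : (2 : L) ≠ 0) {i j : ℤ} :
    v (2 : L) ^ i < v (2 : L) ^ j ↔ j < i := by
  have hpos : 0 < v (2 : L) := zero_lt_iff.mpr (v.ne_zero_iff.mpr h20)
  exact StrictAnti.lt_iff_gt (zpow_right_strictAnti₀ hpos h2)

end Fermat.Agent.S13L.At2
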