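import Fermat.Agent.S13L.AtTwoE1
import Fermat.Agent.S13L.AtTwoCongr
import Fermat.Agent.S13L.AtTwoRat

/-!
# S13 package T: rational torsion points with nonsingular reduction, `(φ - 1) E₀ ⊆ E₁`

* `mainB_φ_sub_inE1_of_inE0`: for an inertial automorphism, `φ P - P ∈ E₁` for `P ∈ E₀`.
* `mainB_rational_E0`: a `p`-torsion point (`p ≥ 5` prime) all of whose multiples have
  nonsingular reduction and rational coordinates is `0`: the points `P, 2P, 3P` reduce to
  the two points `(1, 0)`, `(1, 1)`, so two of them differ by a point of `E₁`.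
-/

set_option autoImplicit false

namespace Fermat.Agent.S13L.At2

variable {L : Type*} [Field L] {a₂ a₄ : L} {E : Type*} [AddCommGroup E] (M : TwoModel L a₂ a₄ E)
  {Γ₀ : Type*} [LinearOrderedCommGroupWithZero Γ₀] (v : Valuation L Γ₀)

/-- a point with `1 < v X` is nonzero or not: helper giving `X ≠ 0` -/
theorem mainB_X_ne_zero {P : E} (h : 1 < v (M.X P)) : M.X P ≠ 0 := by
  intro h0
  rw [h0, map_zero] at h
  exact absurd h (not_lt.mpr zero_le_one)

/-- `φ` preserves `E₁` -/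
theorem mainB_inE1_φ {σ : L →+* L} (hσv : ∀ z : L, v (σ z) = v z) (A : TwoAut M σ) {P : E}
    (h : InE1 M v P) : InE1 M v (A.φ P) := by
  by_cases hP : P = 0
  · left
    rw [hP, map_zero]
  · rcases h with h | h
    · exact absurd h hP
    · right
      rw [A.X_φ P hP, hσv]
      exact h

/-- `(φ - 1) E₀ ⊆ E₁` -/
theorem mainB_φ_sub_inE1_of_inE0 (ha₂ : v a₂ ≤ 1) (ha₄ : v a₄ ≤ 1) (h2 : v (2 : L) < 1)
    {σ : L →+* L} (hσv : ∀ z : L, v (σ z) = v z)
    (hσm : ∀ z : L, v z ≤ 1 → v (σ z - z) < 1) (A : TwoAut M σ) {P : E}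
    (h : InE0 M v P) : InE1 M v (A.φ P - P) := by
  by_cases hP : P = 0
  · left
    rw [hP, map_zero, sub_zero]
  · rcases h with h | h
    · exact absurd h hP
    · rcases lt_or_eq_of_le h with h1 | h1
      · exact inE1_sub M v ha₂ ha₄ (mainB_inE1_φ M v hσv A (Or.inr h1)) (Or.inr h1)
      · have hX : v (M.X P) = 1 := h1.symm
        have hY : v (M.Y P) ≤ 1 := v_Y_le_one M v ha₂ ha₄ hP hX.le
        refine congr_sub_inE1 M v ha₂ ha₄ h2 hP (A.ne_zero P hP) hX ?_ ?_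
        · rw [A.X_φ P hP]
          exact hσm _ hX.le
        · rw [A.Y_φ P hP]
          exact hσm _ hY

/-- multiples of a point of prime order -/
theorem mainB_nsmul_ne_zero {p : ℕ} (hp : p.Prime) {P : E} (hP : p • P = 0) (hP0 : P ≠ 0)
    {k : ℕ} (hk0 : 0 < k) (hkp : k < p) : k • P ≠ 0 := by
  intro h
  have : Fact p.Prime := ⟨hp⟩
  have hord : addOrderOf P = p := addOrderOf_eq_prime hP hP0
  have hdvd : p ∣ k := by
    rw [← hord]
    exact addOrderOf_dvd_of_nsmul_eq_zero h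
  exact absurd (Nat.le_of_dvd hk0 hdvd) (not_le.mpr hkp)

section rational

variable [CharZero L]

/-- a nonzero rational multiple with nonsingular reduction: `X ≡ 1` and `Y ≡ 0` or `1` -/
theorem mainB_reduction (ha₂ : v a₂ ≤ 1) (ha₄ : v a₄ ≤ 1) (h2 : v (2 : L) < 1)
    {p : ℕ} (hp : p.Prime) (hp2 : p ≠ 2) {Q : E} (hQ0 : Q ≠ 0) (hQp : p • Q = 0)
    (hE0 : InE0 M v Q) (hrat : ∃ x y : ℚ, M.X Q = (x : L) ∧ M.Y Q = (y : L)) :
    v (M.X Q) = 1 ∧ v (M.X Q - 1) < 1 ∧ (v (M.Y Q) < 1 ∨ v (M.Y Q - 1) < 1) := by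
  have hpv : v (p : L) = 1 :=
    rat_v_natCast_odd v h2 p (hp.eq_two_or_odd'.resolve_left hp2)
  have hX : v (M.X Q) = 1 := by
    rcases hE0 with h | h
    · exact absurd h hQ0
    · rcases lt_or_eq_of_le h with h1 | h1
      · exact absurd (inE1_eq_zero_of_nsmul_eq_zero M v ha₂ ha₄ (Or.inr h1) p hpv hQp) hQ0
      · exact h1.symm
  have hY : v (M.Y Q) ≤ 1 := v_Y_le_one M v ha₂ ha₄ hQ0 hX.le
  obtain ⟨x, y, hx, hy⟩ := hrat
  refine ⟨hX, ?_, ?_⟩
  · rw [hx] at hX ⊢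
    rcases rat_v_lt_or_sub_one_lt v h2 x hX.le with h | h
    · rw [hX] at h
      exact absurd h (lt_irrefl _)
    · exact h
  · rw [hy] at hY ⊢
    exact rat_v_lt_or_sub_one_lt v h2 y hY

omit [CharZero L] in
/-- two multiples with the same reduction: contradiction -/
theorem mainB_pair (ha₂ : v a₂ ≤ 1) (ha₄ : v a₄ ≤ 1) (h2 : v (2 : L) < 1)
    {p : ℕ} (hp : p.Prime) (hp2 : p ≠ 2) {P : E} (hP : p • P = 0) (hP0 : P ≠ 0)
    {i j : ℕ} (hi0 : 0 < i) (hij : i < j) (hjp : j < p)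
    (hXi : v (M.X (i • P)) = 1) (hXi1 : v (M.X (i • P) - 1) < 1)
    (hXj1 : v (M.X (j • P) - 1) < 1)
    (hY : v (M.Y (j • P) - M.Y (i • P)) < 1) : False := by
  have hpv : v (p : L) = 1 :=
    rat_v_natCast_odd v h2 p (hp.eq_two_or_odd'.resolve_left hp2)
  have hi : i • P ≠ 0 := mainB_nsmul_ne_zero hp hP hP0 hi0 (hij.trans hjp)
  have hj : j • P ≠ 0 := mainB_nsmul_ne_zero hp hP hP0 (hi0.trans hij) hjp
  have hXd : v (M.X (j • P) - M.X (i • P)) < 1 := by
    have e : M.X (j • P) - M.X (i • P) = (M.X (j • P) - 1) - (M.X (i • P) - 1) := by ring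
    rw [e]
    exact Valuation.map_sub_lt v hXj1 hXi1
  have hE1 : InE1 M v (j • P - i • P) := congr_sub_inE1 M v ha₂ ha₄ h2 hi hj hXi hXd hY
  have e : j • P - i • P = (j - i) • P := by
    rw [sub_nsmul P hij.le, sub_eq_add_neg]
  rw [e] at hE1
  have hpk : p • ((j - i) • P) = 0 := by
    rw [smul_comm, hP, smul_zero]
  have h0 := inE1_eq_zero_of_nsmul_eq_zero M v ha₂ ha₄ hE1 p hpv hpk
  exact mainB_nsmul_ne_zero hp hP hP0 (Nat.sub_pos_of_lt hij)
    (lt_of_le_of_lt (Nat.sub_le j i) hjp) h0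

/-- a `p`-torsion point all of whose multiples are rational with nonsingular reduction is `0` -/
theorem mainB_rational_E0 (ha₂ : v a₂ ≤ 1) (ha₄ : v a₄ ≤ 1) (h2 : v (2 : L) < 1)
    (p : ℕ) (hp : p.Prime) (hp5 : 5 ≤ p) (P : E) (hP : p • P = 0)
    (hE0 : ∀ k : ℕ, InE0 M v (k • P))
    (hrat : ∀ k : ℕ, k • P ≠ 0 → ∃ x y : ℚ, M.X (k • P) = (x : L) ∧ M.Y (k • P) = (y : L)) :
    P = 0 := by
  by_contra hP0
  have hp2 : p ≠ 2 := by omega
  have hk : ∀ k : ℕ, 0 < k → k < p →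
      v (M.X (k • P)) = 1 ∧ v (M.X (k • P) - 1) < 1 ∧
        (v (M.Y (k • P)) < 1 ∨ v (M.Y (k • P) - 1) < 1) := by
    intro k hk0 hkp
    have hk' : k • P ≠ 0 := mainB_nsmul_ne_zero hp hP hP0 hk0 hkp
    have hpk : p • (k • P) = 0 := by rw [smul_comm, hP, smul_zero]
    exact mainB_reduction M v ha₂ ha₄ h2 hp hp2 hk' hpk (hE0 k) (hrat k hk')
  obtain ⟨hX1, hX1', hY1⟩ := hk 1 (by norm_num) (by omega)
  obtain ⟨hX2, hX2', hY2⟩ := hk 2 (by norm_num) (by omega)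
  obtain ⟨hX3, hX3', hY3⟩ := hk 3 (by norm_num) (by omega)
  have small : ∀ {a b : L}, v a < 1 → v b < 1 → v (b - a) < 1 :=
    fun ha hb => Valuation.map_sub_lt v hb ha
  have one : ∀ {a b : L}, v (a - 1) < 1 → v (b - 1) < 1 → v (b - a) < 1 := by
    intro a b ha hb
    have e : b - a = (b - 1) - (a - 1) := by ring
    rw [e]
    exact Valuation.map_sub_lt v hb ha
  have c12 : v (M.Y (2 • P) - M.Y (1 • P)) < 1 → False :=
    mainB_pair M v ha₂ ha₄ h2 hp hp2 hP hP0 (by norm_num) (by norm_num) (by omega) hX1 hX1' hX2'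
  have c13 : v (M.Y (3 • P) - M.Y (1 • P)) < 1 → False :=
    mainB_pair M v ha₂ ha₄ h2 hp hp2 hP hP0 (by norm_num) (by norm_num) (by omega) hX1 hX1' hX3'
  have c23 : v (M.Y (3 • P) - M.Y (2 • P)) < 1 → False :=
    mainB_pair M v ha₂ ha₄ h2 hp hp2 hP hP0 (by norm_num) (by norm_num) (by omega) hX2 hX2' hX3'
  rcases hY1 with h1 | h1 <;> rcases hY2 with h2' | h2' <;> rcases hY3 with h3 | h3
  · exact c12 (small h1 h2')
  · exact c12 (small h1 h2')
  · exact c13 (small h1 h3)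
  · exact c23 (one h2' h3)
  · exact c23 (small h2' h3)
  · exact c13 (one h1 h3)
  · exact c12 (one h1 h2')
  · exact c12 (one h1 h2')

end rational

end Fermat.Agent.S13L.At2
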