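import Fermat.Agent.S13L.AtTwoTypes

/-!
# S13 package T (component chain): near₊ + near₊, pure valuation cores

Port of `S05L/CompNearCore.lean`.  Multiplicative valuations: "ord(X₁X₂) < ord a₄" is
`v a₄ < v X₁ * v X₂`.
-/

set_option autoImplicit false
set_option linter.unusedSectionVars false
set_option linter.unusedVariables false

namespace Fermat.Agent.S13L.At2

variable {L : Type*} [Field L] {a₂ a₄ : L}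
  {Γ₀ : Type*} [LinearOrderedCommGroupWithZero Γ₀] (v : Valuation L Γ₀)
  (ha₂ : v a₂ ≤ 1) (ha₄ : v a₄ < 1) (ha₄0 : a₄ ≠ 0) (h2 : v (2 : L) < 1) (s₁ s₂ : L)
  (hs : s₁ + s₂ = -1) (hs' : s₁ * s₂ = -a₂)
include ha₂ ha₄ ha₄0 h2 hs hs'

/-- if `τ₁ ≡ s₁` and `τ₂ ≡ s₁` then `τ₁ + τ₂ + 1 ≡ s₁ - s₂` is a unit -/
theorem v_τ_add_τ_add_one {τ₁ τ₂ : L} (ht1 : v (τ₁ - s₁) < 1) (ht2 : v (τ₂ - s₁) < 1) :
    v (τ₁ + τ₂ + 1) = 1 := by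
  have hu : v (s₁ - s₂) = 1 := v_s_sub_s v ha₂ ha₄ ha₄0 h2 s₁ s₂ hs hs'
  have hsum : v ((τ₁ - s₁) + (τ₂ - s₁)) < 1 := v.map_add_lt ht1 ht2
  have key : v ((s₁ - s₂) + ((τ₁ - s₁) + (τ₂ - s₁))) = v (s₁ - s₂) :=
    v.map_add_eq_of_lt_left (by rw [hu]; exact hsum)
  have e : (s₁ - s₂) + ((τ₁ - s₁) + (τ₂ - s₁)) = τ₁ + τ₂ + 1 := by
    linear_combination (-1 : L) * hs
  rw [e, hu] at key
  exact key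

/-- pure field/valuation core of the case `v a₄ < v X₁ * v X₂`: from (I1τ) and (F3) -/
theorem nearPP_core_lt {X₁ X₂ X₃ τ₁ τ₂ τ₃ : L}
    (h1 : v a₄ < v X₁ ∧ v X₁ < 1) (h2' : v a₄ < v X₂ ∧ v X₂ < 1)
    (ht1 : v (τ₁ - s₁) < 1) (ht2 : v (τ₂ - s₁) < 1)
    (hI : X₁ * X₂ * X₃ * (τ₁ + τ₂ + 1) ^ 2 = (X₁ * X₂ - a₄) ^ 2)
    (hF : X₁ * X₂ - a₄ ≠ 0 → τ₃ = -τ₁ - 1 - (X₁ * X₂ - a₄) / (X₁ * (τ₁ + τ₂ + 1))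
      + (τ₁ + τ₂ + 1) * (X₁ * X₂) / (X₁ * X₂ - a₄))
    (h : v a₄ < v X₁ * v X₂) :
    v X₃ = v X₁ * v X₂ ∧ v (τ₃ - s₁) < 1 := by
  have hsum : v (τ₁ + τ₂ + 1) = 1 :=
    v_τ_add_τ_add_one v ha₂ ha₄ ha₄0 h2 s₁ s₂ hs hs' ht1 ht2
  have hX₁ : 0 < v X₁ := lt_of_le_of_lt zero_le h1.1
  have hX₂ : 0 < v X₂ := lt_of_le_of_lt zero_le h2'.1
  have hX₁0 : X₁ ≠ 0 := v.pos_iff.mp hX₁
  have hsum0 : τ₁ + τ₂ + 1 ≠ 0 := by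
    intro h0
    rw [h0, map_zero] at hsum
    exact zero_ne_one hsum
  have hX₁₂ : v (X₁ * X₂) = v X₁ * v X₂ := map_mul _ _ _
  have hpos : 0 < v X₁ * v X₂ := mul_pos hX₁ hX₂
  have hδ : v (X₁ * X₂ - a₄) = v X₁ * v X₂ := by
    rw [v.map_sub_eq_of_lt_left (by rw [hX₁₂]; exact h), hX₁₂]
  have hδ0 : X₁ * X₂ - a₄ ≠ 0 := by
    rw [← v.pos_iff, hδ]
    exact hpos
  have hvI := congrArg v hI
  simp only [map_mul, map_pow, hsum, one_pow, mul_one] at hvI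
  rw [hδ] at hvI
  have hX₃ : v X₃ = v X₁ * v X₂ := by
    apply mul_left_cancel₀ hpos.ne'
    rw [hvI, sq]
  refine ⟨hX₃, ?_⟩
  have e : τ₃ - s₁ = (τ₂ - s₁) - (X₁ * X₂ - a₄) / (X₁ * (τ₁ + τ₂ + 1))
      + (τ₁ + τ₂ + 1) * a₄ / (X₁ * X₂ - a₄) := by
    rw [hF hδ0]
    field_simp
    ring
  rw [e]
  refine v.map_add_lt (v.map_sub_lt ht2 ?_) ?_
  · rw [map_div₀, hδ, map_mul, hsum, mul_one, mul_comm, mul_div_cancel_right₀ _ hX₁.ne']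
    exact h2'.2
  · rw [map_div₀, map_mul, hsum, one_mul, hδ]
    exact (div_lt_one₀ hpos).mpr h

/-- core of the case `v X₁ * v X₂ < v a₄` -/
theorem nearPP_core_gt {X₁ X₂ X₃ τ₁ τ₂ τ₃ : L}
    (h1 : v a₄ < v X₁ ∧ v X₁ < 1) (h2' : v a₄ < v X₂ ∧ v X₂ < 1)
    (ht1 : v (τ₁ - s₁) < 1) (ht2 : v (τ₂ - s₁) < 1)
    (hI : X₁ * X₂ * X₃ * (τ₁ + τ₂ + 1) ^ 2 = (X₁ * X₂ - a₄) ^ 2)
    (hF : X₁ * X₂ - a₄ ≠ 0 → τ₃ = -τ₁ - 1 - (X₁ * X₂ - a₄) / (X₁ * (τ₁ + τ₂ + 1))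
      + (τ₁ + τ₂ + 1) * (X₁ * X₂) / (X₁ * X₂ - a₄))
    (h : v X₁ * v X₂ < v a₄) :
    v X₃ * (v X₁ * v X₂) = v a₄ ^ 2 ∧ v (τ₃ - s₂) < 1 := by
  have hsum : v (τ₁ + τ₂ + 1) = 1 :=
    v_τ_add_τ_add_one v ha₂ ha₄ ha₄0 h2 s₁ s₂ hs hs' ht1 ht2
  have hX₁ : 0 < v X₁ := lt_of_le_of_lt zero_le h1.1
  have hX₁₂ : v (X₁ * X₂) = v X₁ * v X₂ := map_mul _ _ _
  have ha₄pos : 0 < v a₄ := lt_of_le_of_lt zero_le h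
  have hδ : v (X₁ * X₂ - a₄) = v a₄ := by
    rw [v.map_sub_eq_of_lt_right (by rw [hX₁₂]; exact h)]
  have hδ0 : X₁ * X₂ - a₄ ≠ 0 := by
    rw [← v.pos_iff, hδ]
    exact ha₄pos
  have hvI := congrArg v hI
  simp only [map_mul, map_pow, hsum, one_pow, mul_one] at hvI
  rw [hδ] at hvI
  refine ⟨by rw [mul_comm]; exact hvI, ?_⟩
  have e : τ₃ - s₂ = -(τ₁ - s₁) - (X₁ * X₂ - a₄) / (X₁ * (τ₁ + τ₂ + 1))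
      + (τ₁ + τ₂ + 1) * (X₁ * X₂) / (X₁ * X₂ - a₄) := by
    rw [hF hδ0]
    linear_combination (-1 : L) * hs
  rw [e]
  refine v.map_add_lt (v.map_sub_lt (by rw [v.map_neg]; exact ht1) ?_) ?_
  · rw [map_div₀, hδ, map_mul, hsum, mul_one]
    exact (div_lt_one₀ hX₁).mpr h1.1
  · rw [map_div₀, map_mul, hsum, one_mul, hX₁₂, hδ]
    exact (div_lt_one₀ ha₄pos).mpr h

/-- core of the case `v X₁ * v X₂ = v a₄` -/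
theorem nearPP_core_eq {X₁ X₂ X₃ τ₁ τ₂ : L}
    (h1 : v a₄ < v X₁ ∧ v X₁ < 1) (h2' : v a₄ < v X₂ ∧ v X₂ < 1)
    (ht1 : v (τ₁ - s₁) < 1) (ht2 : v (τ₂ - s₁) < 1)
    (hI : X₁ * X₂ * X₃ * (τ₁ + τ₂ + 1) ^ 2 = (X₁ * X₂ - a₄) ^ 2)
    (h : v X₁ * v X₂ = v a₄) :
    v X₃ ≤ v a₄ := by
  have hsum : v (τ₁ + τ₂ + 1) = 1 :=
    v_τ_add_τ_add_one v ha₂ ha₄ ha₄0 h2 s₁ s₂ hs hs' ht1 ht2
  have hX₁ : 0 < v X₁ := lt_of_le_of_lt zero_le h1.1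
  have hX₂ : 0 < v X₂ := lt_of_le_of_lt zero_le h2'.1
  have hX₁₂ : v (X₁ * X₂) = v X₁ * v X₂ := map_mul _ _ _
  have ha₄pos : 0 < v a₄ := by
    rw [← h]
    exact mul_pos hX₁ hX₂
  have hδ : v (X₁ * X₂ - a₄) ≤ v a₄ :=
    v.map_sub_le (by rw [hX₁₂, h]) le_rfl
  have hvI := congrArg v hI
  simp only [map_mul, map_pow, hsum, one_pow, mul_one] at hvI
  rw [h] at hvI
  have hle : v a₄ * v X₃ ≤ v a₄ * v a₄ := by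
    rw [hvI, ← sq]
    exact pow_le_pow_left₀ zero_le hδ 2
  exact le_of_mul_le_mul_left hle ha₄pos

end Fermat.Agent.S13L.At2
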