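import Fermat.Agent.S13L.AtTwoDefs
import Fermat.Agent.S13L.AtTwoBasic

/-!
# S13 package T (component chain): types of points, sign of a near point, values of `comp`,
negation

Port of `S05L/Types.lean`.  Standing hypotheses of the whole chain (in this order):
`(ha₂ : v a₂ ≤ 1) (ha₄ : v a₄ < 1) (ha₄0 : a₄ ≠ 0) (h2 : v (2 : L) < 1) (s₁ s₂ : L)
(hs : s₁ + s₂ = -1) (hs' : s₁ * s₂ = -a₂)`.
Note `IsNearM M v s P` and `IsNearP M v s P` unfold to the same proposition, so every statement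
on near₋ points follows from the near₊ statement applied to `s₂ s₁` (with `hs`, `hs'` commuted).
-/

set_option autoImplicit false
set_option linter.unusedSectionVars false
set_option linter.unusedVariables false

namespace Fermat.Agent.S13L.At2

open Fermat.Agent.S05L

variable {L : Type*} [Field L] {a₂ a₄ : L} {E : Type*} [AddCommGroup E] (M : TwoModel L a₂ a₄ E)
  {Γ₀ : Type*} [LinearOrderedCommGroupWithZero Γ₀] (v : Valuation L Γ₀)

/-! ### ordered-group steps -/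

private theorem AtTwoTypes_aux_lt_sq {Γ : Type*} [LinearOrderedCommGroupWithZero Γ] {a : Γ}
    (h : 1 < a) : a < a ^ 2 := by
  have h0 : (0 : Γ) < a := lt_trans zero_lt_one h
  calc a = a * 1 := (mul_one a).symm
    _ < a * a := mul_lt_mul_of_pos_left h h0
    _ = a ^ 2 := (pow_two a).symm

private theorem AtTwoTypes_aux_mul_lt_one {Γ : Type*} [LinearOrderedCommGroupWithZero Γ] {a b : Γ}
    (ha : a < 1) (hb : b ≤ 1) : a * b < 1 := by
  calc a * b ≤ a * 1 := mul_le_mul_right hb a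
    _ = a := mul_one a
    _ < 1 := ha

/-! ### hypothesis-free facts -/

theorem inE0_of_inE1 {P : E} (h : InE1 M v P) : InE0 M v P := by
  exact h.imp id le_of_lt

theorem inE0_zero : InE0 M v (0 : E) := Or.inl rfl

theorem type_cases (P : E) : InE0 M v P ∨ IsNear M v P ∨ IsFar M v P := by
  by_cases hP : P = 0
  · exact Or.inl (Or.inl hP)
  · by_cases h1 : 1 ≤ v (M.X P)
    · exact Or.inl (Or.inr h1)
    · by_cases h2 : v a₄ < v (M.X P)
      · exact Or.inr (Or.inl ⟨hP, h2, lt_of_not_ge h1⟩)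
      · exact Or.inr (Or.inr ⟨hP, le_of_not_gt h2⟩)

theorem X_ne_zero_of_isNear {P : E} (h : IsNear M v P) : M.X P ≠ 0 := by
  intro h0
  have h1 := h.2.1
  rw [h0, map_zero] at h1
  exact not_lt_zero h1

theorem inE0_neg {P : E} (h : InE0 M v P) : InE0 M v (-P) := by
  by_cases hP : P = 0
  · exact Or.inl (by rw [hP, neg_zero])
  · rcases h with h0 | h1
    · exact absurd h0 hP
    · exact Or.inr (by rw [M.X_neg P hP]; exact h1)

theorem isNear_neg {P : E} (h : IsNear M v P) : IsNear M v (-P) := by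
  obtain ⟨hP, h1, h2'⟩ := h
  exact ⟨neg_ne_zero.mpr hP, by rw [M.X_neg P hP]; exact h1, by rw [M.X_neg P hP]; exact h2'⟩

theorem isFar_neg {P : E} (h : IsFar M v P) : IsFar M v (-P) := by
  exact ⟨neg_ne_zero.mpr h.1, by rw [M.X_neg P h.1]; exact h.2⟩

/-- `IsNearM` is `IsNearP` for the other root -/
theorem isNearM_iff_isNearP (s : L) (P : E) : IsNearM M v s P ↔ IsNearP M v s P := Iff.rfl

section
variable (ha₂ : v a₂ ≤ 1) (ha₄ : v a₄ < 1) (ha₄0 : a₄ ≠ 0) (h2 : v (2 : L) < 1) (s₁ s₂ : L)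
  (hs : s₁ + s₂ = -1) (hs' : s₁ * s₂ = -a₂)
include ha₂ ha₄ ha₄0 h2 hs hs'

theorem not_inE0_of_isNear {P : E} (h : IsNear M v P) : ¬ InE0 M v P := by
  rintro (h0 | h1)
  · exact h.1 h0
  · exact absurd h.2.2 (not_lt_of_ge h1)

theorem not_inE0_of_isFar {P : E} (h : IsFar M v P) : ¬ InE0 M v P := by
  rintro (h0 | h1)
  · exact h.1 h0
  · exact absurd (lt_of_le_of_lt h.2 ha₄) (not_lt_of_ge h1)

theorem not_isNear_of_isFar {P : E} (h : IsFar M v P) : ¬ IsNear M v P := by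
  intro h'
  exact absurd h'.2.1 (not_lt_of_ge h.2)

theorem isFar_T0 : IsFar M v M.T0 := by
  refine ⟨M.T0_ne_zero, ?_⟩
  rw [M.X_T0, map_zero]
  exact zero_le

/-! ### the slopes `s₁`, `s₂` at the node -/

/-- `s₁` is a root of `t² + t - a₂` -/
theorem s_sq_add : s₁ ^ 2 + s₁ - a₂ = 0 := by
  linear_combination s₁ * hs - hs'

/-- `s₁` is integral -/
theorem v_s_le_one : v s₁ ≤ 1 := by
  by_contra hcon
  have h1 : 1 < v s₁ := not_le.1 hcon
  have h3 : v s₁ < v (s₁ ^ 2) := by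
    rw [map_pow]
    exact AtTwoTypes_aux_lt_sq h1
  have h4 : v (s₁ ^ 2 + s₁) = v (s₁ ^ 2) := Valuation.map_add_eq_of_lt_left v h3
  have h5 : s₁ ^ 2 + s₁ = a₂ := by
    linear_combination s₁ * hs - hs'
  rw [h5] at h4
  have h6 : 1 < v a₂ := by
    rw [h4]
    exact lt_trans h1 h3
  exact absurd ha₂ (not_le.2 h6)

/-- `4` lies in the maximal ideal -/
theorem v_four_lt_one : v (4 : L) < 1 := by
  have h4 : (4 : L) = 2 * 2 := by norm_num
  rw [h4, map_mul]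
  exact AtTwoTypes_aux_mul_lt_one h2 h2.le

/-- `s₁ - s₂` is a unit (`(s₁ - s₂)² = 1 + 4 a₂`) -/
theorem v_s_sub_s : v (s₁ - s₂) = 1 := by
  have h4 : v (4 : L) < 1 := by
    have h4' : (4 : L) = 2 * 2 := by norm_num
    rw [h4', map_mul]
    exact AtTwoTypes_aux_mul_lt_one h2 h2.le
  have h5 : v (4 * a₂) < 1 := by
    rw [map_mul]
    exact AtTwoTypes_aux_mul_lt_one h4 ha₂
  have h6 : (s₁ - s₂) ^ 2 = 1 + 4 * a₂ := by
    linear_combination (s₁ + s₂ - 1) * hs - 4 * hs'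
  have h7 : v (s₁ - s₂) ^ 2 = 1 := by
    rw [← map_pow, h6]
    exact Valuation.map_one_add_of_lt v h5
  exact (pow_eq_one_iff_of_nonneg zero_le two_ne_zero).1 h7

/-- `(τ - s₁)(τ - s₂) = τ² + τ - a₂ = X + a₄ / X` -/
theorem τ_sub_mul_τ_sub {P : E} (hP : P ≠ 0) (hX : M.X P ≠ 0) :
    (M.τ P - s₁) * (M.τ P - s₂) = M.X P + a₄ / M.X P := by
  linear_combination M.τ_sq hP hX - M.τ P * hs + hs'

/-- on a near point `(τ - s₁)(τ - s₂)` lies in the maximal ideal -/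
theorem isNear_τ {P : E} (h : IsNear M v P) : v ((M.τ P - s₁) * (M.τ P - s₂)) < 1 := by
  obtain ⟨hP, h1, h2'⟩ := h
  have hX : M.X P ≠ 0 := X_ne_zero_of_isNear M v ⟨hP, h1, h2'⟩
  have hvX : 0 < v (M.X P) := zero_lt_iff.2 ((Valuation.ne_zero_iff v).2 hX)
  have h3 : v (a₄ / M.X P) < 1 := by
    rw [map_div₀]
    exact (div_lt_one₀ hvX).2 h1
  have h4 : (M.τ P - s₁) * (M.τ P - s₂) = M.X P + a₄ / M.X P := by
    linear_combination M.τ_sq hP hX - M.τ P * hs + hs'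
  rw [h4]
  exact Valuation.map_add_lt v h2' h3

theorem isNear_sign {P : E} (h : IsNear M v P) : IsNearP M v s₁ P ∨ IsNearM M v s₂ P := by
  have h1 := isNear_τ M v ha₂ ha₄ ha₄0 h2 s₁ s₂ hs hs' h
  by_contra hcon
  rw [not_or] at hcon
  have h4 : 1 ≤ v (M.τ P - s₁) := le_of_not_gt fun h' => hcon.1 ⟨h, h'⟩
  have h5 : 1 ≤ v (M.τ P - s₂) := le_of_not_gt fun h' => hcon.2 ⟨h, h'⟩
  have h6 : 1 ≤ v ((M.τ P - s₁) * (M.τ P - s₂)) := by
    rw [map_mul]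
    exact one_le_mul_of_one_le_of_one_le h4 h5
  exact absurd h1 (not_lt_of_ge h6)

theorem not_isNearP_and_isNearM {P : E} : ¬ (IsNearP M v s₁ P ∧ IsNearM M v s₂ P) := by
  rintro ⟨⟨-, h3⟩, ⟨-, h4⟩⟩
  have h5 : v ((M.τ P - s₂) - (M.τ P - s₁)) < 1 := Valuation.map_sub_lt v h4 h3
  have h6 : (M.τ P - s₂) - (M.τ P - s₁) = s₁ - s₂ := by ring
  rw [h6, v_s_sub_s v ha₂ ha₄ ha₄0 h2 s₁ s₂ hs hs'] at h5
  exact lt_irrefl _ h5

/-- `τ` of a near₊ point is integral (it need not be a unit) -/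
theorem v_τ_le_one_of_isNearP {P : E} (h : IsNearP M v s₁ P) : v (M.τ P) ≤ 1 := by
  have h1 : M.τ P = (M.τ P - s₁) + s₁ := by ring
  rw [h1]
  exact Valuation.map_add_le v h.2.le (v_s_le_one v ha₂ ha₄ ha₄0 h2 s₁ s₂ hs hs')

/-- for a near₊ point `τ - s₂` is a unit -/
theorem v_τ_sub_of_isNearP {P : E} (h : IsNearP M v s₁ P) : v (M.τ P - s₂) = 1 := by
  have h1 : M.τ P - s₂ = (M.τ P - s₁) + (s₁ - s₂) := by ring
  have h3 : v (M.τ P - s₁) < v (s₁ - s₂) := by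
    rw [v_s_sub_s v ha₂ ha₄ ha₄0 h2 s₁ s₂ hs hs']
    exact h.2
  rw [h1, Valuation.map_add_eq_of_lt_right v h3, v_s_sub_s v ha₂ ha₄ ha₄0 h2 s₁ s₂ hs hs']

/-- for a near₊ point `2 τ + 1` is a unit -/
theorem v_two_τ_add_one_of_isNearP {P : E} (h : IsNearP M v s₁ P) :
    v (2 * M.τ P + 1) = 1 := by
  have h1 : 2 * M.τ P + 1 = 2 * (M.τ P - s₁) + (s₁ - s₂) := by
    linear_combination hs
  have h3 : v (2 * (M.τ P - s₁)) < v (s₁ - s₂) := by
    rw [v_s_sub_s v ha₂ ha₄ ha₄0 h2 s₁ s₂ hs hs', map_mul]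
    exact AtTwoTypes_aux_mul_lt_one h2 h.2.le
  rw [h1, Valuation.map_add_eq_of_lt_right v h3, v_s_sub_s v ha₂ ha₄ ha₄0 h2 s₁ s₂ hs hs']

/-- for a near₊ point `2 Y + X ≠ 0` -/
theorem two_Y_add_X_ne_zero_of_isNearP {P : E} (h : IsNearP M v s₁ P) :
    2 * M.Y P + M.X P ≠ 0 := by
  have hX : M.X P ≠ 0 := X_ne_zero_of_isNear M v h.1
  have h1 : 2 * M.Y P + M.X P = M.X P * (2 * M.τ P + 1) := by
    rw [M.Y_eq_τ_mul_X hX]; ring
  have h3 : 2 * M.τ P + 1 ≠ 0 := by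
    apply (Valuation.ne_zero_iff v).1
    rw [v_two_τ_add_one_of_isNearP M v ha₂ ha₄ ha₄0 h2 s₁ s₂ hs hs' h]
    exact one_ne_zero
  rw [h1]
  exact mul_ne_zero hX h3

/-! ### values of `comp` -/

theorem comp_of_inE0 {P : E} (h : InE0 M v P) : comp M v s₁ s₂ P = 1 := by
  unfold comp
  rw [if_pos h]

theorem comp_of_isNearP {P : E} (h : IsNearP M v s₁ P) :
    comp M v s₁ s₂ P = cls v a₄ (M.X P) := by
  unfold comp
  rw [if_neg (not_inE0_of_isNear M v ha₂ ha₄ ha₄0 h2 s₁ s₂ hs hs' h.1), if_pos h]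

theorem comp_of_isNearM {P : E} (h : IsNearM M v s₂ P) :
    comp M v s₁ s₂ P = (cls v a₄ (M.X P))⁻¹ := by
  unfold comp
  rw [if_neg (not_inE0_of_isNear M v ha₂ ha₄ ha₄0 h2 s₁ s₂ hs hs' h.1),
    if_neg (fun h' => not_isNearP_and_isNearM M v ha₂ ha₄ ha₄0 h2 s₁ s₂ hs hs' ⟨h', h⟩), if_pos h]

theorem comp_of_isFar {P : E} (h : IsFar M v P) : comp M v s₁ s₂ P = cls v a₄ a₄ := by
  unfold comp
  rw [if_neg (not_inE0_of_isFar M v ha₂ ha₄ ha₄0 h2 s₁ s₂ hs hs' h),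
    if_neg (fun h' => not_isNear_of_isFar M v ha₂ ha₄ ha₄0 h2 s₁ s₂ hs hs' h h'.1),
    if_neg (fun h' => not_isNear_of_isFar M v ha₂ ha₄ ha₄0 h2 s₁ s₂ hs hs' h h'.1)]

/-! ### negation -/

theorem isNearM_neg {P : E} (h : IsNearP M v s₁ P) : IsNearM M v s₂ (-P) := by
  have hX : M.X P ≠ 0 := X_ne_zero_of_isNear M v h.1
  obtain ⟨⟨hP, h1, h2'⟩, h3⟩ := h
  refine ⟨⟨neg_ne_zero.mpr hP, by rw [M.X_neg P hP]; exact h1, by rw [M.X_neg P hP]; exact h2'⟩, ?_⟩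
  have h4 : M.τ (-P) - s₂ = -(M.τ P - s₁) := by
    rw [M.τ_neg hP hX]
    linear_combination -hs
  rw [h4, Valuation.map_neg]
  exact h3

theorem isNearP_neg {P : E} (h : IsNearM M v s₂ P) : IsNearP M v s₁ (-P) := by
  have hX : M.X P ≠ 0 := X_ne_zero_of_isNear M v h.1
  obtain ⟨⟨hP, h1, h2'⟩, h3⟩ := h
  refine ⟨⟨neg_ne_zero.mpr hP, by rw [M.X_neg P hP]; exact h1, by rw [M.X_neg P hP]; exact h2'⟩, ?_⟩
  have h4 : M.τ (-P) - s₁ = -(M.τ P - s₂) := by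
    rw [M.τ_neg hP hX]
    linear_combination -hs
  rw [h4, Valuation.map_neg]
  exact h3

theorem comp_neg (P : E) : comp M v s₁ s₂ (-P) = (comp M v s₁ s₂ P)⁻¹ := by
  rcases type_cases M v P with h | h | h
  · rw [comp_of_inE0 M v ha₂ ha₄ ha₄0 h2 s₁ s₂ hs hs' h,
      comp_of_inE0 M v ha₂ ha₄ ha₄0 h2 s₁ s₂ hs hs' (inE0_neg M v h), inv_one]
  · rcases isNear_sign M v ha₂ ha₄ ha₄0 h2 s₁ s₂ hs hs' h with h' | h'
    · rw [comp_of_isNearP M v ha₂ ha₄ ha₄0 h2 s₁ s₂ hs hs' h',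
        comp_of_isNearM M v ha₂ ha₄ ha₄0 h2 s₁ s₂ hs hs'
          (isNearM_neg M v ha₂ ha₄ ha₄0 h2 s₁ s₂ hs hs' h'), M.X_neg P h.1]
    · rw [comp_of_isNearM M v ha₂ ha₄ ha₄0 h2 s₁ s₂ hs hs' h',
        comp_of_isNearP M v ha₂ ha₄ ha₄0 h2 s₁ s₂ hs hs'
          (isNearP_neg M v ha₂ ha₄ ha₄0 h2 s₁ s₂ hs hs' h'), M.X_neg P h.1, inv_inv]
  · rw [comp_of_isFar M v ha₂ ha₄ ha₄0 h2 s₁ s₂ hs hs' h,
      comp_of_isFar M v ha₂ ha₄ ha₄0 h2 s₁ s₂ hs hs' (isFar_neg M v h), cls_β_inv]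

end

end Fermat.Agent.S13L.At2
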